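import Fermat.Agent.S12.Plan

/-!
# S12 glue, piece STEP-COFIXED (helper60)

`stmtStepCofixed : StmtStepCofixed` — a `G`-stable cyclic subgroup `K'` of order `p^{k+1}` of
`M = E(ℚ̄)` which contains the cofixed line and is toric at every ramified place has `G` trivial on
`M[p^{k+1}] / K'`.  Proof (NOTES/S12-glue.md): the set `H` of all `σ` acting trivially on
`M[p^{k+1}] / K'` is a normal subgroup containing the fixer of a finite set, so by Minkowski it is
enough to see `I_A ≤ H` for one place `A` over each prime `q`.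
* `q ≠ p`: `σ x - x ∈ monod A ∩ M[p^{k+1}]`, and this group is `K'` (or `0`) by counting;
* `q = p`: `σ x - x ∈ Z ∩ M[p^{k+1}]` (`Z` the kernel of reduction, `HLocP`), and this group is
  `K'` by counting, because inertia acts on `K'` through a character which is nontrivial mod `p`.

Pure algebra (names `s12c_*`): `s12c_card_le` (a finite abelian group killed by `p^n` with at most
`p` elements of order dividing `p` has at most `p^n` elements), `s12c_card_le_of_lt`,
`s12c_tors_surj` (a), `s12c_monod_div` (b), `s12c_monod_fix` (c), `s12c_monod_not_le` (d).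
-/

set_option autoImplicit false

namespace Fermat.Agent.S12

/-! ## Counting in finite abelian `p`-groups -/

section Count

/-- A finite abelian group killed by `p ^ n` whose `p`-torsion has at most `p` elements has at
most `p ^ n` elements. -/
theorem s12c_card_le (p : ℕ) (n : ℕ) :
    ∀ (X : Type) [AddCommGroup X] [Finite X], (∀ x : X, p ^ n • x = 0) →
      Nat.card {x : X // p • x = 0} ≤ p → Nat.card X ≤ p ^ n := by
  induction n with
  | zero =>
      intro X _ _ hkill _
      have hsub : Subsingleton X := ⟨fun a b => by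
        have ha := hkill a
        have hb := hkill b
        rw [pow_zero, one_smul] at ha hb
        rw [ha, hb]⟩
      rw [pow_zero]
      exact (Nat.card_eq_one_iff_unique.mpr ⟨hsub, ⟨0⟩⟩).le
  | succ n ih =>
      intro X _ _ hkill htors
      let f : X →+ X := DistribSMul.toAddMonoidHom X p
      have hf : ∀ x, f x = p • x := fun x => rfl
      -- the range is killed by `p ^ n`
      have hrange : ∀ y : f.range, p ^ n • y = 0 := by
        rintro ⟨y, x, rfl⟩
        apply Subtype.ext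
        show p ^ n • f x = 0
        rw [hf, ← mul_smul, ← pow_succ]
        exact hkill x
      have htorsR : Nat.card {y : f.range // p • y = 0} ≤ p := by
        refine le_trans ?_ htors
        refine Nat.card_le_card_of_injective
          (fun y : {y : f.range // p • y = 0} =>
            (⟨(y.1 : X), by
              have := congrArg Subtype.val y.2
              exact this⟩ : {x : X // p • x = 0})) ?_
        intro a b hab
        apply Subtype.ext
        apply Subtype.ext
        exact congrArg (fun t : {x : X // p • x = 0} => (t : X)) hab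
      have h1 := ih f.range hrange htorsR
      -- the kernel
      have hker : Nat.card f.ker ≤ p := by
        refine le_trans ?_ htors
        refine Nat.card_le_card_of_injective
          (fun y : f.ker => (⟨(y : X), y.2⟩ : {x : X // p • x = 0})) ?_
        intro a b hab
        apply Subtype.ext
        exact congrArg (fun t : {x : X // p • x = 0} => (t : X)) hab
      have h2 : Nat.card X = Nat.card f.ker * Nat.card f.range := by
        rw [AddSubgroup.card_eq_card_quotient_mul_card_addSubgroup f.ker, mul_comm]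
        congr 1
        exact Nat.card_congr (QuotientAddGroup.quotientKerEquivRange f).toEquiv
      rw [h2, pow_succ, mul_comm (p ^ n) p]
      exact Nat.mul_le_mul hker h1

end Count

/-! ## Subgroups of `M` -/

section Sub

variable {M : Type} [AddCommGroup M] (p : ℕ)

/-- `M[p^n]` as a subgroup -/
def s12cTors (n : ℕ) : AddSubgroup M where
  carrier := {x | p ^ n • x = 0}
  zero_mem' := smul_zero _
  add_mem' := by
    intro a b ha hb
    show p ^ n • (a + b) = 0
    rw [smul_add, ha, hb, add_zero]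
  neg_mem' := by
    intro a ha
    show p ^ n • (-a) = 0
    rw [smul_neg, ha, neg_zero]

theorem mem_s12cTors {n : ℕ} {x : M} : x ∈ s12cTors (M := M) p n ↔ p ^ n • x = 0 := Iff.rfl

theorem s12cTors_mono {m n : ℕ} (h : m ≤ n) : s12cTors (M := M) p m ≤ s12cTors p n := by
  intro x hx
  rw [mem_s12cTors] at hx ⊢
  obtain ⟨d, rfl⟩ := Nat.exists_eq_add_of_le h
  rw [pow_add, mul_comm, mul_smul, hx, smul_zero]

theorem s12c_card_tors (hcard : ∀ m : ℕ, Nat.card {x : M // p ^ m • x = 0} = p ^ (2 * m))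
    (n : ℕ) : Nat.card (s12cTors (M := M) p n) = p ^ (2 * n) := hcard n

theorem s12c_finite_tors (hp : 0 < p)
    (hcard : ∀ m : ℕ, Nat.card {x : M // p ^ m • x = 0} = p ^ (2 * m)) (n : ℕ) :
    Finite (s12cTors (M := M) p n) := by
  apply Nat.finite_of_card_ne_zero
  rw [s12c_card_tors p hcard]
  exact (pow_pos hp _).ne'

/-- a subgroup killed by `p ^ n` whose `p`-torsion has at most `p` elements has at most `p ^ n`
elements -/
theorem s12c_card_sub_le (n : ℕ) (X : AddSubgroup M) [Finite X]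
    (hkill : ∀ x ∈ X, p ^ n • x = 0) (h1 : Nat.card ↥(X ⊓ s12cTors p 1) ≤ p) :
    Nat.card X ≤ p ^ n := by
  refine s12c_card_le p n X (fun x => Subtype.ext (hkill x.1 x.2)) ?_
  refine le_trans ?_ h1
  have hfin : Finite ↥(X ⊓ s12cTors p 1) :=
    Finite.of_injective (fun y : ↥(X ⊓ s12cTors p 1) => (⟨(y : M), y.2.1⟩ : X))
      (fun a b hab => Subtype.ext (congrArg (fun t : X => (t : M)) hab))
  have hmem : ∀ y : {x : X // p • x = 0}, ((y.1 : X) : M) ∈ X ⊓ s12cTors p 1 := by
    intro y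
    refine AddSubgroup.mem_inf.mpr ⟨y.1.2, ?_⟩
    rw [mem_s12cTors, pow_one]
    exact congrArg Subtype.val y.2
  refine Nat.card_le_card_of_injective
    (fun y : {x : X // p • x = 0} => (⟨(y.1 : M), hmem y⟩ : ↥(X ⊓ s12cTors p 1))) ?_
  intro a b hab
  apply Subtype.ext
  apply Subtype.ext
  exact congrArg (fun t : ↥(X ⊓ s12cTors p 1) => (t : M)) hab

/-- a proper subgroup of a group of order `p²` has at most `p` elements -/
theorem s12c_card_le_of_ne (hp : p.Prime) (T Y : AddSubgroup M) (hT : Nat.card T = p ^ 2)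
    (hY : Y ≤ T) (hne : ∃ x ∈ T, x ∉ Y) : Nat.card Y ≤ p := by
  have : Finite T := Nat.finite_of_card_ne_zero (by rw [hT]; exact (pow_pos hp.pos _).ne')
  have hdvd : Nat.card Y ∣ p ^ 2 := hT ▸ AddSubgroup.card_dvd_of_le hY
  obtain ⟨i, hi, hcard⟩ := (Nat.dvd_prime_pow hp).1 hdvd
  rcases Nat.lt_or_ge i 2 with h | h
  · rw [hcard]
    calc p ^ i ≤ p ^ 1 := Nat.pow_le_pow_right hp.pos (by omega)
      _ = p := pow_one p
  · exfalso
    have hi2 : i = 2 := le_antisymm hi h
    have heq : Y = T := AddSubgroup.eq_of_le_of_card_ge hY (by rw [hT, hcard, hi2])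
    obtain ⟨x, hx, hxY⟩ := hne
    exact hxY (heq ▸ hx)

end Sub

/-! ## The monodromy subgroup -/

section Monod

variable {M : Type} [AddCommGroup M] [DistribMulAction GQ M] (p : ℕ)

omit [DistribMulAction GQ M] in
/-- (a) multiplication by `p` maps `M[p^{m+1}]` onto `M[p^m]` -/
theorem s12c_tors_surj (hp : p.Prime) (hcard : HCard M p) (m : ℕ) (x : M)
    (hx : p ^ m • x = 0) : ∃ y : M, p ^ (m + 1) • y = 0 ∧ p • y = x := by
  let f : ↥(s12cTors (M := M) p (m + 1)) →+ ↥(s12cTors (M := M) p m) :=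
    { toFun := fun y => ⟨p • (y : M), by
        rw [mem_s12cTors, ← mul_smul, ← pow_succ]
        exact y.2⟩
      map_zero' := Subtype.ext (smul_zero p)
      map_add' := fun a b => Subtype.ext (smul_add p (a : M) b) }
  have hf : ∀ y, ((f y : ↥(s12cTors (M := M) p m)) : M) = p • (y : M) := fun y => rfl
  have hfin1 : Finite ↥(s12cTors (M := M) p (m + 1)) := s12c_finite_tors p hp.pos hcard (m + 1)
  have hfin0 : Finite ↥(s12cTors (M := M) p m) := s12c_finite_tors p hp.pos hcard m
  have hfinT : Finite ↥(s12cTors (M := M) p 1) := s12c_finite_tors p hp.pos hcard 1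
  have hker : Nat.card f.ker ≤ p ^ 2 := by
    have h1 := s12c_card_tors p hcard 1
    rw [mul_one] at h1
    rw [← h1]
    have hmem : ∀ y : f.ker, ((y : ↥(s12cTors (M := M) p (m + 1))) : M) ∈
        s12cTors (M := M) p 1 := by
      intro y
      rw [mem_s12cTors, pow_one, ← hf]
      have := y.2
      rw [AddMonoidHom.mem_ker] at this
      rw [this]
      rfl
    refine Nat.card_le_card_of_injective
      (fun y : f.ker => (⟨_, hmem y⟩ : ↥(s12cTors (M := M) p 1))) ?_
    intro a b hab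
    apply Subtype.ext
    apply Subtype.ext
    exact congrArg (fun t : ↥(s12cTors (M := M) p 1) => (t : M)) hab
  have h2 : Nat.card ↥(s12cTors (M := M) p (m + 1)) = Nat.card f.ker * Nat.card f.range := by
    rw [AddSubgroup.card_eq_card_quotient_mul_card_addSubgroup f.ker, mul_comm]
    congr 1
    exact Nat.card_congr (QuotientAddGroup.quotientKerEquivRange f).toEquiv
  rw [s12c_card_tors p hcard] at h2
  have h3 : p ^ (2 * m) ≤ Nat.card f.range := by
    have h4 : p ^ (2 * m) * p ^ 2 ≤ Nat.card f.range * p ^ 2 := by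
      calc p ^ (2 * m) * p ^ 2 = p ^ (2 * (m + 1)) := by rw [← pow_add]; congr 1
        _ = Nat.card f.ker * Nat.card f.range := h2
        _ ≤ p ^ 2 * Nat.card f.range := Nat.mul_le_mul_right _ hker
        _ = Nat.card f.range * p ^ 2 := mul_comm _ _
    exact Nat.le_of_mul_le_mul_right h4 (pow_pos hp.pos 2)
  have hrange : f.range = ⊤ := by
    apply AddSubgroup.eq_top_of_le_card
    rw [s12c_card_tors p hcard]
    exact h3
  obtain ⟨y, hy⟩ := (AddMonoidHom.range_eq_top.mp hrange) ⟨x, hx⟩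
  exact ⟨y, y.2, congrArg Subtype.val hy⟩

/-- (b) the monodromy subgroup is `p`-divisible -/
theorem s12c_monod_div (hp : p.Prime) (hcard : HCard M p) (A : ValuationSubring Qb) :
    ∀ t ∈ monod M p A, ∃ t' ∈ monod M p A, p • t' = t := by
  intro t ht
  unfold monod at ht
  induction ht using AddSubgroup.closure_induction with
  | mem x hx =>
      obtain ⟨σ, hσ, m, R, hR, rfl⟩ := hx
      obtain ⟨R', hR', hpR'⟩ := s12c_tors_surj p hp hcard m R hR
      refine ⟨σ • R' - R', AddSubgroup.subset_closure ⟨σ, hσ, m + 1, R', hR', rfl⟩, ?_⟩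
      rw [smul_sub, smul_comm, hpR']
  | zero => exact ⟨0, zero_mem _, smul_zero p⟩
  | add x y _ _ ihx ihy =>
      obtain ⟨x', hx', rfl⟩ := ihx
      obtain ⟨y', hy', rfl⟩ := ihy
      exact ⟨x' + y', add_mem hx' hy', smul_add p x' y'⟩
  | neg x _ ih =>
      obtain ⟨x', hx', rfl⟩ := ih
      exact ⟨-x', neg_mem hx', smul_neg p x'⟩

/-- (c) inertia fixes the monodromy subgroup pointwise -/
theorem s12c_monod_fix (hunip : HUnip M p) {ℓ : ℕ} (hℓ : ℓ.Prime) (hℓp : ℓ ≠ p)
    {A : ValuationSubring Qb} (hA : A.LiesOverPrime ℓ) :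
    ∀ τ ∈ A.inertiaSubgroupIn ℚ, ∀ t ∈ monod M p A, τ • t = t := by
  intro τ hτ t ht
  unfold monod at ht
  induction ht using AddSubgroup.closure_induction with
  | mem x hx =>
      obtain ⟨σ, hσ, m, R, hR, rfl⟩ := hx
      exact hunip ℓ hℓ hℓp A hA σ hσ τ hτ m R hR
  | zero => exact smul_zero τ
  | add x y _ _ ihx ihy => rw [smul_add, ihx, ihy]
  | neg x _ ih => rw [smul_neg, ih]

/-- (d) a nonzero monodromy subgroup does not contain `M[p]` -/
theorem s12c_monod_not_le (hp : p.Prime) (hcard : HCard M p) (hunip : HUnip M p) {ℓ : ℕ}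
    (hℓ : ℓ.Prime) (hℓp : ℓ ≠ p) {A : ValuationSubring Qb} (hA : A.LiesOverPrime ℓ)
    (hne : monod M p A ≠ ⊥) : ∃ x ∈ s12cTors (M := M) p 1, x ∉ monod M p A := by
  by_contra hcon
  push Not at hcon
  have hall : ∀ m : ℕ, s12cTors (M := M) p m ≤ monod M p A := by
    intro m
    induction m with
    | zero =>
        intro x hx
        rw [mem_s12cTors, pow_zero, one_smul] at hx
        rw [hx]
        exact zero_mem _
    | succ m ih =>
        intro x hx
        have hpx : p • x ∈ s12cTors (M := M) p m := by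
          rw [mem_s12cTors, ← mul_smul, ← pow_succ]
          exact hx
        obtain ⟨t, ht, hpt⟩ := s12c_monod_div p hp hcard A (p • x) (ih hpx)
        have h1 : x - t ∈ s12cTors (M := M) p 1 := by
          rw [mem_s12cTors, pow_one, smul_sub, hpt, sub_self]
        have h2 : x = t + (x - t) := by abel
        rw [h2]
        exact add_mem ht (hcon _ h1)
  apply hne
  rw [eq_bot_iff]
  unfold monod
  rw [AddSubgroup.closure_le]
  rintro x ⟨σ, hσ, m, R, hR, rfl⟩
  have hRm : R ∈ monod M p A := hall m hR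
  have := s12c_monod_fix p hunip hℓ hℓp hA σ hσ R hRm
  show σ • R - R ∈ (⊥ : AddSubgroup M)
  rw [this, sub_self]
  exact zero_mem _

end Monod

/-! ## Counting inside `M` -/

section CountM

variable {M : Type} [AddCommGroup M] (p : ℕ)

/-- a subgroup of order `p ^ n` is killed by `p ^ n` -/
theorem s12c_kill_of_card {n : ℕ} (K' : AddSubgroup M) (hK' : Nat.card K' = p ^ n) :
    ∀ x ∈ K', p ^ n • x = 0 := by
  intro x hx
  have h := card_nsmul_eq_zero' (G := K') (x := ⟨x, hx⟩)
  rw [hK'] at h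
  exact congrArg Subtype.val h

/-- **Counting.** `K'` of order `p ^ n` inside a subgroup `Y` which does not contain `M[p]`
(`#M[p] = p²`): then `Y ∩ M[p^n] = K'`. -/
theorem s12c_mem_of_count (hp : p.Prime)
    (hcard : ∀ m : ℕ, Nat.card {x : M // p ^ m • x = 0} = p ^ (2 * m)) (n : ℕ)
    (K' Y : AddSubgroup M) (hK' : Nat.card K' = p ^ n) (hKY : K' ≤ Y)
    (hY : ∃ x ∈ s12cTors (M := M) p 1, x ∉ Y) :
    ∀ r ∈ Y, p ^ n • r = 0 → r ∈ K' := by
  have hfinT : ∀ m, Finite ↥(s12cTors (M := M) p m) := s12c_finite_tors p hp.pos hcard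
  have hfin_of_le : ∀ (m : ℕ) (X : AddSubgroup M), X ≤ s12cTors (M := M) p m → Finite X := by
    intro m X hX
    have := hfinT m
    exact Finite.of_injective (fun y : X => (⟨(y : M), hX y.2⟩ : ↥(s12cTors (M := M) p m)))
      (fun a b hab => Subtype.ext
        (congrArg (fun t : ↥(s12cTors (M := M) p m) => (t : M)) hab))
  -- `Y₁ = Y ∩ M[p]` has at most `p` elements
  have hT1 : Nat.card (s12cTors (M := M) p 1) = p ^ 2 := by
    have := s12c_card_tors p hcard 1
    rwa [mul_one] at this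
  have hY1 : Nat.card ↥(Y ⊓ s12cTors (M := M) p 1) ≤ p := by
    refine s12c_card_le_of_ne p hp (s12cTors p 1) _ hT1 inf_le_right ?_
    obtain ⟨x, hx, hxY⟩ := hY
    exact ⟨x, hx, fun h => hxY h.1⟩
  -- `X = Y ∩ M[p^n]`
  have hXle : Y ⊓ s12cTors (M := M) p n ≤ s12cTors (M := M) p n := inf_le_right
  have hfinX : Finite ↥(Y ⊓ s12cTors (M := M) p n) := hfin_of_le n _ hXle
  have hfinY1 : Finite ↥(Y ⊓ s12cTors (M := M) p 1) := hfin_of_le 1 _ inf_le_right
  have hX1 : Nat.card ↥((Y ⊓ s12cTors (M := M) p n) ⊓ s12cTors (M := M) p 1) ≤ p := by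
    refine le_trans ?_ hY1
    have hle : (Y ⊓ s12cTors (M := M) p n) ⊓ s12cTors (M := M) p 1 ≤
        Y ⊓ s12cTors (M := M) p 1 := inf_le_inf_right _ inf_le_left
    exact Nat.card_le_card_of_injective
      (fun y : ↥((Y ⊓ s12cTors (M := M) p n) ⊓ s12cTors (M := M) p 1) =>
        (⟨(y : M), hle y.2⟩ : ↥(Y ⊓ s12cTors (M := M) p 1)))
      (fun a b hab => Subtype.ext
        (congrArg (fun t : ↥(Y ⊓ s12cTors (M := M) p 1) => (t : M)) hab))
  have hXcard : Nat.card ↥(Y ⊓ s12cTors (M := M) p n) ≤ p ^ n :=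
    s12c_card_sub_le p n _ (fun x hx => hx.2) hX1
  have hKX : K' ≤ Y ⊓ s12cTors (M := M) p n :=
    le_inf hKY (fun x hx => s12c_kill_of_card p K' hK' x hx)
  have heq : K' = Y ⊓ s12cTors (M := M) p n :=
    AddSubgroup.eq_of_le_of_card_ge hKX (by rw [hK']; exact hXcard)
  intro r hr hpr
  rw [heq]
  exact ⟨hr, hpr⟩

end CountM

/-! ## The character of inertia on `K'` -/

section Char

variable {M : Type} [AddCommGroup M] [DistribMulAction GQ M] (p : ℕ)

/-- If `σ₀` does not fix a point `x₁` of order `p` of the cyclic group `K' = ⟨g⟩` of order `p ^ n`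
and `σ₀ g - g ∈ Z`, then `K' ≤ Z`. -/
theorem s12c_le_of_char (hp : p.Prime) (n : ℕ) (K' Z : AddSubgroup M) (g : M)
    (hg : K' = AddSubgroup.zmultiples g) (hK' : Nat.card K' = p ^ n) (σ₀ : GQ)
    (hσ₀K : σ₀ • g ∈ K') (hσ₀Z : σ₀ • g - g ∈ Z) (x₁ : M) (hx₁ : x₁ ∈ K')
    (hpx₁ : p • x₁ = 0) (hne : σ₀ • x₁ ≠ x₁) : K' ≤ Z := by
  have hgK : g ∈ K' := hg ▸ AddSubgroup.mem_zmultiples g
  rw [hg] at hσ₀K hx₁
  obtain ⟨a, ha⟩ := AddSubgroup.mem_zmultiples_iff.mp hσ₀K
  obtain ⟨j, hj⟩ := AddSubgroup.mem_zmultiples_iff.mp hx₁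
  have hσx : σ₀ • x₁ = a • x₁ := by
    rw [← hj, smul_comm σ₀ j g, ← ha, smul_comm j a g]
  have h1 : (a - 1) • x₁ ≠ 0 := by
    rw [sub_smul, one_smul, ← hσx]
    exact sub_ne_zero.mpr hne
  have hndvd : ¬ (p : ℤ) ∣ (a - 1) := by
    rintro ⟨c, hc⟩
    apply h1
    rw [hc, mul_comm, mul_smul, natCast_zsmul, hpx₁, smul_zero]
  have hprime : Prime (p : ℤ) := Nat.prime_iff_prime_int.mp hp
  have hcop : IsCoprime (a - 1) ((p : ℤ) ^ n) :=
    ((Prime.coprime_iff_not_dvd hprime).mpr hndvd).symm.pow_right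
  obtain ⟨u, v, huv⟩ := hcop
  have hpg : ((p : ℤ) ^ n) • g = 0 := by
    have := s12c_kill_of_card p K' hK' g hgK
    rw [← Nat.cast_pow, natCast_zsmul]
    exact this
  have hag : (a - 1) • g = σ₀ • g - g := by rw [sub_smul, one_smul, ha]
  have hgZ : g ∈ Z := by
    have e : g = u • ((a - 1) • g) + v • (((p : ℤ) ^ n) • g) := by
      rw [← mul_smul, ← mul_smul, ← add_smul, huv, one_smul]
    rw [e, hpg, smul_zero, add_zero, hag]
    exact Z.zsmul_mem hσ₀Z u
  rw [hg]
  exact (AddSubgroup.zmultiples_le_of_mem hgZ)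

end Char

/-! ## The subgroup `H` and Minkowski -/

section Main

variable {M : Type} [AddCommGroup M] [DistribMulAction GQ M] (p : ℕ)

/-- the subgroup of all `σ` acting trivially on `M[p^n] / K'` -/
def s12cH (n : ℕ) (K' : AddSubgroup M) (hst : ∀ σ : GQ, ∀ x ∈ K', σ • x ∈ K') : Subgroup GQ where
  carrier := {σ | ∀ x : M, p ^ n • x = 0 → σ • x - x ∈ K'}
  one_mem' := fun x _ => by
    rw [one_smul, sub_self]
    exact zero_mem _
  mul_mem' := by
    intro σ τ hσ hτ x hx
    have h1 : (σ * τ) • x - x = σ • (τ • x - x) + (σ • x - x) := by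
      rw [mul_smul, smul_sub]
      abel
    rw [h1]
    exact add_mem (hst σ _ (hτ x hx)) (hσ x hx)
  inv_mem' := by
    intro σ hσ x hx
    have h1 : σ⁻¹ • x - x = -(σ⁻¹ • (σ • x - x)) := by
      rw [smul_sub, inv_smul_smul]
      abel
    rw [h1]
    exact neg_mem (hst σ⁻¹ _ (hσ x hx))

theorem mem_s12cH {n : ℕ} {K' : AddSubgroup M} {hst : ∀ σ : GQ, ∀ x ∈ K', σ • x ∈ K'}
    {σ : GQ} : σ ∈ s12cH p n K' hst ↔ ∀ x : M, p ^ n • x = 0 → σ • x - x ∈ K' := Iff.rfl

theorem s12cH_normal (n : ℕ) (K' : AddSubgroup M) (hst : ∀ σ : GQ, ∀ x ∈ K', σ • x ∈ K') :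
    (s12cH p n K' hst).Normal := by
  refine ⟨fun σ hσ τ => ?_⟩
  rw [mem_s12cH] at hσ ⊢
  intro x hx
  have hx' : p ^ n • (τ⁻¹ • x) = 0 := by rw [smul_comm, hx, smul_zero]
  have h1 : (τ * σ * τ⁻¹) • x - x = τ • (σ • (τ⁻¹ • x) - τ⁻¹ • x) := by
    rw [smul_sub, smul_inv_smul, mul_smul, mul_smul]
  rw [h1]
  exact hst τ _ (hσ _ hx')

theorem s12cH_open (hp : p.Prime) (hcard : HCard M p) (hopen : HOpen M p) (n : ℕ)
    (K' : AddSubgroup M) (hst : ∀ σ : GQ, ∀ x ∈ K', σ • x ∈ K') :
    ∃ S : Finset Qb, ∀ σ : GQ, (∀ s ∈ S, σ s = s) → σ ∈ s12cH p n K' hst := by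
  classical
  have hfin : Finite ↥(s12cTors (M := M) p n) := s12c_finite_tors p hp.pos hcard n
  have : Fintype ↥(s12cTors (M := M) p n) := Fintype.ofFinite _
  choose S hS using fun x : ↥(s12cTors (M := M) p n) => hopen (x : M) ⟨n, x.2⟩
  refine ⟨Finset.univ.biUnion S, fun σ hσ => ?_⟩
  rw [mem_s12cH]
  intro x hx
  have h1 : σ • x = x :=
    hS ⟨x, hx⟩ σ (fun s hs => hσ s (Finset.mem_biUnion.mpr ⟨⟨x, hx⟩, Finset.mem_univ _, hs⟩))
  rw [h1, sub_self]
  exact zero_mem _

/-- **STEP-COFIXED.** -/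
theorem stmtStepCofixed : StmtStepCofixed := by
  intro M _ _ p hpF hMink hpl hcard hopen hunip hlocp K₁ hK₁ hramp k K' hK₁K' hcardK' hcyc hst
    htoric
  have hp : p.Prime := hpF.out
  have hkill : ∀ x ∈ K', p ^ (k + 1) • x = 0 := s12c_kill_of_card p K' hcardK'
  have hkill₁ : ∀ x ∈ K₁, p • x = 0 := by
    intro x hx
    have := s12c_kill_of_card p (n := 1) K₁ (by rw [pow_one]; exact hK₁.card) x hx
    rwa [pow_one] at this
  have htop : s12cH p (k + 1) K' hst = ⊤ := by
    refine hMink _ (s12cH_normal p (k + 1) K' hst)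
      (s12cH_open p hp hcard hopen (k + 1) K' hst) ?_
    intro q hq
    obtain ⟨A, hA⟩ := hpl q hq
    refine ⟨A, hA, fun σ hσ => ?_⟩
    rw [mem_s12cH]
    intro x hx
    have hr : p ^ (k + 1) • (σ • x - x) = 0 := by
      rw [smul_sub, smul_comm, hx, smul_zero, sub_self]
    by_cases hqp : q = p
    · -- the place over `p`
      subst hqp
      obtain ⟨Z, -, hZ, x₀, hx₀, hx₀Z⟩ := hlocp A hA
      obtain ⟨σ₀, hσ₀, x₁, hx₁, hne⟩ := hramp A hA
      obtain ⟨g, hg⟩ := hcyc
      have hgK : g ∈ K' := hg ▸ AddSubgroup.mem_zmultiples g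
      have hKZ : K' ≤ Z :=
        s12c_le_of_char q hp (k + 1) K' Z g hg hcardK' σ₀ (hst σ₀ g hgK)
          (hZ σ₀ hσ₀ (k + 1) g (hkill g hgK)) x₁ (hK₁K' hx₁) (hkill₁ x₁ hx₁) hne
      refine s12c_mem_of_count q hp hcard (k + 1) K' Z hcardK' hKZ ?_ _
        (hZ σ hσ (k + 1) x hx) hr
      exact ⟨x₀, by rw [mem_s12cTors, pow_one]; exact hx₀, hx₀Z⟩
    · -- a place over `q ≠ p`
      have hrmon : σ • x - x ∈ monod M p A :=
        AddSubgroup.subset_closure ⟨σ, hσ, k + 1, x, hx, rfl⟩
      by_cases hmon : monod M p A = ⊥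
      · rw [hmon, AddSubgroup.mem_bot] at hrmon
        rw [hrmon]
        exact zero_mem _
      · exact s12c_mem_of_count p hp hcard (k + 1) K' (monod M p A) hcardK'
          (htoric q hq hqp A hA hmon)
          (s12c_monod_not_le p hp hcard hunip hq hqp hA hmon) _ hrmon hr
  intro σ x hx
  have hσ : σ ∈ s12cH p (k + 1) K' hst := by
    rw [htop]
    exact Subgroup.mem_top σ
  exact hσ x hx

end Main

end Fermat.Agent.S12
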