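import Fermat.Agent.S12.StepSplitLoc

/-!
# S12 / STEP-SPLIT: `stmtStepSplit : StmtStepSplit` (helper47)

A level `K` (`k ≥ 1`) has a `G`-stable cyclic overgroup `K'` of order `p^{k+1}`:
`V = [p]⁻¹K / K ⊃ C = (M[p] + K)/K` is an admissible extension, `S14` splits it, `K'` is the
preimage of the complement.
-/

set_option autoImplicit false
set_option linter.style.haveILetI false
set_option linter.unusedSectionVars false
set_option linter.unusedVariables false

noncomputable section

namespace Fermat.Agent.S12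

section Open

variable {M : Type} [AddCommGroup M] [DistribMulAction GQ M] {p : ℕ} [Fact p.Prime]

/-- `open_kernel` -/
theorem s12s_open_kernel {K₁ K : AddSubgroup M} {k : ℕ} (hK : IsLevel M p K₁ k K)
    (hcard : HCard M p) (hopen : HOpen M p) :
    IsOpen {σ : GQ | ∀ v : SV p (lvlStab hK), σ • v = v} := by
  classical
  haveI : Finite (SV p (lvlStab hK)) := s12s_finite_of_card (s12s_card_V hcard (lvlStab hK) hK.card)
  letI : Fintype (SV p (lvlStab hK)) := Fintype.ofFinite _
  choose y hy hv using sv_exists_rep (p := p) (lvlStab hK)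
  choose T hT using fun v => hopen (y v) ⟨k + 1, s12s_Y_tors hK (hy v)⟩
  let Sall : Finset Qb := Finset.univ.biUnion T
  let E : IntermediateField ℚ Qb := IntermediateField.adjoin ℚ (Sall : Set Qb)
  haveI : FiniteDimensional ℚ E :=
    IntermediateField.finiteDimensional_adjoin
      (fun x _ => ((AlgebraicClosure.isAlgebraic ℚ).isAlgebraic x).isIntegral)
  let H : Subgroup GQ :=
    { carrier := {σ : GQ | ∀ v : SV p (lvlStab hK), σ • v = v}
      mul_mem' := fun {a b} ha hb v => by rw [mul_smul, hb v, ha v]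
      one_mem' := fun v => one_smul _ v
      inv_mem' := fun {a} ha v => by
        have := ha v
        rw [inv_smul_eq_iff]
        exact this.symm }
  have hle : E.fixingSubgroup ≤ H := by
    intro σ hσ v
    rw [IntermediateField.mem_fixingSubgroup_iff] at hσ
    have h1 : σ • y v = y v := by
      apply hT v σ
      intro s hs
      apply hσ
      apply IntermediateField.subset_adjoin
      exact Finset.mem_coe.2 (Finset.mem_biUnion.2 ⟨v, Finset.mem_univ _, hs⟩)
    rw [hv v, sv_smul_mk]
    exact (svMk_eq_iff _ _ _).2 (by rw [h1, sub_self]; exact zero_mem _)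
  exact Subgroup.isOpen_mono hle (IntermediateField.fixingSubgroup_isOpen E)

end Open

section Main

variable {M : Type} [AddCommGroup M] [DistribMulAction GQ M] {p : ℕ} [Fact p.Prime]

/-- the admissible extension -/
theorem s12s_admissible (hp3 : 3 ≤ p) {K₁ K : AddSubgroup M} {k : ℕ} (hk : 1 ≤ k)
    (hK : IsLevel M p K₁ k K) (hK₁ : IsCofixedLine M p K₁) (hcard : HCard M p)
    (hopen : HOpen M p) (hunip : HUnip M p) (hlocp : HLocP M p) (hcyc : HCyc M p K₁)
    (hramp : HRamP M p K₁) :
    haveI : NeZero p := ⟨(Fact.out : p.Prime).ne_zero⟩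
    ExtCitation.IsAdmissibleExtensionCts p (SV p (lvlStab hK)) (svC p (lvlStab hK)) := by
  haveI : NeZero p := ⟨(Fact.out : p.Prime).ne_zero⟩
  refine { toIsAdmissibleExtension := ?_, open_kernel := s12s_open_kernel hK hcard hopen }
  exact
    { stable := fun σ x hx => by rw [s12s_fixed_sub hk hK σ x hx]; exact hx
      fixed_sub := fun σ x hx => s12s_fixed_sub hk hK σ x hx
      cyclo_quot := fun σ x => s12s_cyclo_quot hk hK hK₁ hcyc σ x
      card_sub := s12s_card_C hcard (lvlStab hK) hk hK.card hK.cyc hK₁.card hK.line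
      card_total := s12s_card_V hcard (lvlStab hK) hK.card
      unramified_outside := fun ℓ hℓ hℓp A hA σ hσ x =>
        s12s_unram hk hK hK₁ hcard hunip hℓ hℓp A hA hσ x
      locally_split := fun A hA => s12s_locally_split hk hK hK₁ hcard hlocp hramp A hA }

/-- the order of a complement of `C` -/
theorem s12s_card_compl {G : Type*} [AddCommGroup G] (hG : Nat.card G = p ^ 2)
    (C C' : AddSubgroup G) (hC : Nat.card C = p) (hcompl : IsCompl C C') : Nat.card C' = p := by
  have hp : p.Prime := Fact.out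
  haveI : Finite G := s12s_finite_of_card hG
  rcases s12s_card_sq_cases hG C' with h | h | h
  · exfalso
    have h1 : C' = ⊥ := s12s_eq_bot_of_card _ h
    have h2 : C = ⊤ := by
      have := hcompl.sup_eq_top
      rwa [h1, sup_bot_eq] at this
    rw [h2, AddSubgroup.card_top, hG] at hC
    have : p ^ 2 = p ^ 1 := by rw [pow_one]; exact hC
    have := Nat.pow_right_injective hp.two_le this
    omega
  · exact h
  · exfalso
    have h1 : C' = ⊤ := s12s_eq_top_of_card hG _ h
    have h2 : C = ⊥ := by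
      have := hcompl.inf_eq_bot
      rwa [h1, inf_top_eq] at this
    rw [h2, AddSubgroup.card_bot] at hC
    exact hp.one_lt.ne hC

/-- the preimage of a stable complement -/
theorem s12s_of_compl (hcard : HCard M p) (S : StabSub M) {k : ℕ} (hk : 1 ≤ k)
    (hKcard : Nat.card S.K = p ^ k) (hKcyc : ∃ g : M, S.K = AddSubgroup.zmultiples g)
    {K₁ : AddSubgroup M} (hK₁card : Nat.card K₁ = p) (hline : K₁ ≤ S.K)
    (C'' : Submodule (ZMod p) (SV p S)) (hst : ∀ σ : GQ, ∀ x ∈ C'', σ • x ∈ C'')
    (hcompl : IsCompl (svC p S) C'') :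
    ∃ K' : AddSubgroup M, S.K ≤ K' ∧ Nat.card K' = p ^ (k + 1) ∧
      (∃ g : M, K' = AddSubgroup.zmultiples g) ∧ (∀ σ : GQ, ∀ x ∈ K', σ • x ∈ K') := by
  have hp : p.Prime := Fact.out
  haveI : NeZero p := ⟨hp.ne_zero⟩
  have hV := s12s_card_V hcard S hKcard
  have hCcard : Nat.card (svOfTors p S).range = p :=
    s12s_card_C hcard S hk hKcard hKcyc hK₁card hline
  -- complement as additive subgroups
  have hcompl' : IsCompl (svOfTors p S).range C''.toAddSubgroup := by
    have h1 : svC p S = AddSubgroup.toZModSubmodule p (svOfTors p S).range := rfl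
    have h2 : C'' = AddSubgroup.toZModSubmodule p C''.toAddSubgroup := by
      ext x; rfl
    rw [h1, h2] at hcompl
    exact (OrderIso.isCompl_iff (AddSubgroup.toZModSubmodule p)).2 hcompl
  have hC''card : Nat.card C''.toAddSubgroup = p := s12s_card_compl hV _ _ hCcard hcompl'
  have hdisj : ∀ v : SV p S, v ∈ (svOfTors p S).range → v ∈ C'' → v = 0 := by
    intro v hv hv'
    have : v ∈ (svOfTors p S).range ⊓ C''.toAddSubgroup := ⟨hv, hv'⟩
    rw [hcompl'.inf_eq_bot] at this
    exact AddSubgroup.mem_bot.1 this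
  -- the preimage
  set KY : AddSubgroup (svY p S) := C''.toAddSubgroup.comap (svOfY p S) with hKY
  set K' : AddSubgroup M := KY.map (svY p S).subtype with hK'
  have hmemK' : ∀ y : M, y ∈ K' ↔ ∃ hy : p • y ∈ S.K, svMk S y hy ∈ C'' := by
    intro y
    constructor
    · rintro ⟨z, hz, rfl⟩
      exact ⟨z.2, hz⟩
    · rintro ⟨hy, hmem⟩
      exact ⟨⟨y, hy⟩, hmem, rfl⟩
  have hKK' : S.K ≤ K' := by
    intro x hx
    have hx' : p • x ∈ S.K := S.K.nsmul_mem hx p
    refine (hmemK' x).2 ⟨hx', ?_⟩
    rw [(svMk_eq_zero_iff S hx').2 hx]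
    exact zero_mem _
  -- cardinality
  have hcardKY : Nat.card KY = p ^ (k + 1) := by
    have h1 := AddSubgroup.card_mul_index KY
    rw [hKY, AddSubgroup.index_comap_of_surjective _ (svOfY_surjective S), ← hKY,
      s12s_card_Y hcard S hKcard] at h1
    have h2 := AddSubgroup.card_mul_index C''.toAddSubgroup
    rw [hC''card, hV] at h2
    have h3 : C''.toAddSubgroup.index = p := by
      have : p * C''.toAddSubgroup.index = p * p := by rw [h2, sq]
      exact Nat.eq_of_mul_eq_mul_left hp.pos this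
    rw [h3] at h1
    have h4 : Nat.card KY * p = p ^ (k + 1) * p := by rw [h1]; ring
    exact Nat.eq_of_mul_eq_mul_right hp.pos h4
  have hcardK' : Nat.card K' = p ^ (k + 1) := by
    rw [← hcardKY]
    exact (Nat.card_congr
      (AddSubgroup.equivMapOfInjective KY (svY p S).subtype
        (AddSubgroup.subtype_injective _)).toEquiv).symm
  haveI : Finite K' := s12s_finite_of_card hcardK'
  -- stability
  have hstK' : ∀ σ : GQ, ∀ x ∈ K', σ • x ∈ K' := by
    intro σ x hx
    obtain ⟨hy, hmem⟩ := (hmemK' x).1 hx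
    refine (hmemK' _).2 ⟨by rw [← smul_comm σ p x]; exact S.stable σ _ hy, ?_⟩
    have := hst σ _ hmem
    rwa [sv_smul_mk] at this
  refine ⟨K', hKK', hcardK', ?_, hstK'⟩
  -- cyclic
  obtain ⟨g, hg⟩ := hKcyc
  have hgK : g ∈ S.K := by rw [hg]; exact AddSubgroup.mem_zmultiples g
  have hgk := s12s_pow_smul_of_mem hKcard hgK
  -- a point of `K' ∖ K`
  obtain ⟨v, hvC, hv0⟩ : ∃ v : SV p S, v ∈ C'' ∧ v ≠ 0 := by
    by_contra hcon
    push Not at hcon
    have : C''.toAddSubgroup = ⊥ := by
      rw [eq_bot_iff]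
      intro x hx
      exact AddSubgroup.mem_bot.2 (hcon x hx)
    rw [this, AddSubgroup.card_bot] at hC''card
    exact hp.one_lt.ne hC''card
  obtain ⟨y, hy, rfl⟩ := sv_exists_rep S v
  have hyK : p • y ∈ S.K := hy
  have hyK' : y ∈ K' := (hmemK' y).2 ⟨hy, hvC⟩
  have hynK : y ∉ S.K := fun h => hv0 ((svMk_eq_zero_iff S hy).2 h)
  have hpy : p • y ∈ AddSubgroup.zmultiples g := hg ▸ hyK
  obtain ⟨n, hn⟩ := AddSubgroup.mem_zmultiples_iff.1 hpy
  have hnp : ¬ (p : ℤ) ∣ n := by
    rintro ⟨n', rfl⟩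
    set κ : M := n' • g with hκ
    have hκK : κ ∈ S.K := S.K.zsmul_mem hgK n'
    have hpe : p • (y - κ) = 0 := by
      rw [smul_sub, ← hn, hκ, mul_smul, natCast_zsmul, sub_self]
    have heq : svMk S y hy = svMk S (y - κ) (by rw [hpe]; exact zero_mem _) := by
      rw [svMk_eq_iff]
      show y - (y - κ) ∈ S.K
      rw [sub_sub_cancel]; exact hκK
    have h1 : svMk S y hy ∈ (svOfTors p S).range := by
      rw [heq]
      exact ⟨⟨y - κ, s12s_mem_tors_one.2 hpe⟩, rfl⟩
    exact hv0 (hdisj _ h1 hvC)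
  have hgy : g ∈ AddSubgroup.zmultiples y := by
    apply s12s_mem_of_unit_smul hnp hgk
    rw [hn]
    exact (AddSubgroup.zmultiples y).nsmul_mem (AddSubgroup.mem_zmultiples y) p
  have hKy : S.K ≤ AddSubgroup.zmultiples y := by
    rw [hg]
    exact AddSubgroup.zmultiples_le_of_mem hgy
  have hyle : AddSubgroup.zmultiples y ≤ K' := AddSubgroup.zmultiples_le_of_mem hyK'
  haveI : Finite (AddSubgroup.zmultiples y) :=
    Finite.of_injective (AddSubgroup.inclusion hyle) (AddSubgroup.inclusion_injective hyle)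
  refine ⟨y, ?_⟩
  symm
  apply AddSubgroup.eq_of_le_of_card_ge hyle
  -- `#⟨y⟩ = p^{k+1}`
  have h1 : Nat.card (AddSubgroup.zmultiples y) ∣ p ^ (k + 1) := by
    rw [← hcardK']; exact AddSubgroup.card_dvd_of_le hyle
  have h2 : p ^ k ∣ Nat.card (AddSubgroup.zmultiples y) := by
    rw [← hKcard]; exact AddSubgroup.card_dvd_of_le hKy
  obtain ⟨j, hj, hcj⟩ := (Nat.dvd_prime_pow hp).1 h1
  have hkj : k ≤ j := by
    rw [hcj] at h2
    exact (Nat.pow_dvd_pow_iff_le_right hp.one_lt).1 h2
  have hjk : j ≠ k := by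
    rintro rfl
    have : S.K = AddSubgroup.zmultiples y := by
      apply AddSubgroup.eq_of_le_of_card_ge hKy
      rw [hcj, hKcard]
    exact hynK (this ▸ AddSubgroup.mem_zmultiples y)
  have hj' : j = k + 1 := by omega
  rw [hcardK', hcj, hj']

/-- **STEP-SPLIT.** -/
theorem stmtStepSplit : StmtStepSplit := by
  intro M _ _ p _ hp3 hS14 hcard hopen hunip hlocp K₁ hK₁ hcyc hramp k K hk hK
  have hp : p.Prime := Fact.out
  haveI : NeZero p := ⟨hp.ne_zero⟩
  have hadm := s12s_admissible hp3 hk hK hK₁ hcard hopen hunip hlocp hcyc hramp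
  obtain ⟨C'', hst, hcompl⟩ := hS14 (SV p (lvlStab hK)) (svC p (lvlStab hK)) hadm
  exact s12s_of_compl hcard (lvlStab hK) hk hK.card hK.cyc hK₁.card hK.line C'' hst hcompl

end Main

end Fermat.Agent.S12
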