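import Fermat.Agent.S12.Monod

/-!
# S12-GLUE: STEP-TORIC

`stmtStepToric : StmtStepToric`: a `G`-stable cyclic overgroup `K' ⊇ K` of order `p^{k+1}` of a
level `K` is toric at every ramified place `A`.

`g'` a generator of `K'`; `p g'` generates `K ≤ monod A`; `t ∈ monod A` with `p t = p g'`
(`s12m_pdiv`); `e := t - g' ∈ M[p]`.  If `e ∈ K₁ ≤ monod A` then `g' = t - e ∈ monod A`.
Otherwise `e ∉ K'` (as `K' ∩ M[p] = K₁`), `σ e - e ∈ K₁ ≤ K'`, and `e = t + (-g')` contradicts
`HS15`.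
-/

set_option autoImplicit false

namespace Fermat.Agent.S12

/-- **STEP-TORIC.** -/
theorem stmtStepToric : StmtStepToric := by
  intro M _ _ p hp hcard hunip hs15 K₁ hK₁ k K hk hK K' hKK' hcardK' hcycK' hstK' ℓ hℓ hℓp A hA
    hne
  have hpp : p.Prime := hp.out
  obtain ⟨g', rfl⟩ := hcycK'
  have hord : addOrderOf g' = p ^ (k + 1) := by rw [← Nat.card_zmultiples, hcardK']
  have hKeq : K = AddSubgroup.zmultiples (p • g') :=
    s12m_cyc_eq (a := p) (b := p ^ k) (pow_ne_zero _ hpp.ne_zero) (by rw [hord, pow_succ'])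
      K hKK' hK.card
  have hg : p • g' ∈ monod M p A := by
    apply hK.toric ℓ hℓ hℓp A hA hne
    rw [hKeq]
    exact AddSubgroup.mem_zmultiples _
  obtain ⟨t, ht, hpt⟩ := s12m_pdiv hpp hcard A hg
  have hpe : p • (t - g') = 0 := by rw [smul_sub, hpt, sub_self]
  by_cases heK : t - g' ∈ K₁
  · have h1 : t - g' ∈ monod M p A := hK.toric ℓ hℓ hℓp A hA hne (hK.line heK)
    have h2 : g' ∈ monod M p A := by
      have : g' = t - (t - g') := by abel
      rw [this]
      exact AddSubgroup.sub_mem _ ht h1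
    exact AddSubgroup.zmultiples_le_of_mem h2
  · exfalso
    have hK₁eq : K₁ = AddSubgroup.zmultiples (p ^ k • g') :=
      s12m_cyc_eq (a := p ^ k) (b := p) hpp.ne_zero (by rw [hord, pow_succ])
        K₁ (hK.line.trans hKK') hK₁.card
    have heK' : t - g' ∉ AddSubgroup.zmultiples g' := by
      intro h
      apply heK
      rw [hK₁eq]
      exact s12m_cyc_mem (a := p ^ k) (b := p) hpp.ne_zero (by rw [hord, pow_succ]) h hpe
    exact hs15 k (AddSubgroup.zmultiples g') hcardK' ⟨g', rfl⟩ hstK' (t - g') hpe heK'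
      (fun σ => (hK.line.trans hKK') (hK₁.cofixed σ (t - g') hpe)) ℓ hℓ hℓp A hA hne t ht (-g')
      (AddSubgroup.neg_mem _ (AddSubgroup.mem_zmultiples g')) (sub_eq_add_neg t g')

end Fermat.Agent.S12
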