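import Fermat.Agent.S12.CoreBase
import Fermat.Agent.S12.StepToric
import Fermat.Agent.S12.StepCofixed
import Fermat.Agent.S12.StepSplit

/-!
# S12 / CORE: `stmtCore : StmtCore` (assembly; helper47)

`CORE-BASE` (helper24), `STEP-SPLIT` (helper47), `STEP-TORIC` (helper24), `STEP-COFIXED` (helper60).
-/

set_option autoImplicit false

namespace Fermat.Agent.S12

/-- **CORE-STEP.** -/
theorem stmtCoreStep : StmtCoreStep :=
  stmtCoreStep_of stmtStepSplit stmtStepToric stmtStepCofixed

/-- **CORE.** The abstract hypotheses `HCard … HS15` together with a cofixed line are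
contradictory. -/
theorem stmtCore : StmtCore :=
  stmtCore_of stmtCoreBase stmtCoreStep

end Fermat.Agent.S12
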