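import Fermat.Agent.S12.Monod

/-!
# S12-GLUE: CORE-BASE

`stmtCoreBase : StmtCoreBase`: the cofixed line `K₁` has level `1`.

Only the toric property needs an argument: at a ramified place `A`, `monod A` contains an
element `e ≠ 0` of order `p` (`s12m_exists_order_p`).  If `e ∈ K₁` then `K₁ = ℤ e ≤ monod A`.
Otherwise `e ∈ M[p] ∖ K₁`, `σ e - e ∈ K₁`, and `e = e + 0 ∈ monod A + K₁` contradicts `HS15`.
-/

set_option autoImplicit false

namespace Fermat.Agent.S12

/-- a subgroup of prime order has a nonzero element -/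
theorem s12b_exists_ne_zero {M : Type} [AddCommGroup M] {p : ℕ} (hp : p.Prime)
    (K : AddSubgroup M) (hcard : Nat.card K = p) : ∃ g ∈ K, g ≠ 0 := by
  by_contra h
  simp only [not_exists, not_and, not_not] at h
  have hbot : K = ⊥ := (AddSubgroup.eq_bot_iff_forall _).mpr h
  rw [hbot, AddSubgroup.card_bot] at hcard
  exact hp.one_lt.ne hcard

/-- **CORE-BASE.** -/
theorem stmtCoreBase : StmtCoreBase := by
  intro M _ _ p hp hcard hunip hs15 K₁ hK₁
  have hpp : p.Prime := hp.out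
  obtain ⟨g, hg, hg0⟩ := s12b_exists_ne_zero hpp K₁ hK₁.card
  have hcyc : ∃ g : M, K₁ = AddSubgroup.zmultiples g :=
    ⟨g, s12m_prime_gen hpp K₁ hK₁.card hg hg0⟩
  refine ⟨by rw [hK₁.card, pow_one], hcyc, hK₁.stable,
    fun σ x hx => hK₁.cofixed σ x (by rwa [pow_one] at hx), le_refl _, ?_⟩
  intro ℓ hℓ hℓp A hA hne
  obtain ⟨e, he, he0, hpe⟩ := s12m_exists_order_p A hne
  by_cases heK : e ∈ K₁
  · rw [s12m_prime_gen hpp K₁ hK₁.card heK he0]
    exact AddSubgroup.zmultiples_le_of_mem he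
  · exfalso
    exact hs15 0 K₁ (by rw [hK₁.card, zero_add, pow_one]) hcyc hK₁.stable e hpe heK
      (fun σ => hK₁.cofixed σ e hpe) ℓ hℓ hℓp A hA hne e he 0 K₁.zero_mem (add_zero e).symm

end Fermat.Agent.S12
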