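import Fermat.Agent.S12.Plan
import Fermat.Agent.EC.TateDet
import Fermat.Agent.EC.TateRes
import Fermat.Agent.EC.TateLocal
import Fermat.Agent.EC.DetCharLA
import Fermat.Agent.S04.FreyInt

/-!
# S12 glue, piece G-CYC (helper34): `stmtCyc : StmtCyc`

`E` an elliptic curve over `ℚ`, `p` a prime, `K₁ ⊂ E(ℚ̄)` a cofixed line: `#K₁ = p`, `K₁` is
`G_ℚ`-stable and `σ x - x ∈ K₁` for all `x ∈ E[p]`.

* `s12cyc_det` : `det (σ | E[p]) = cycloExp p σ` (no irreducibility: from the determinant of the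
  Tate module, `EC.tateRepInt_detIsCyclotomic`, and the residual dictionary `EC.tateRes_det`);
* `s12cyc_core` : `σ x = cycloExp p σ • x` for `x ∈ K₁`.  (`σ` acts on `K₁` by an integer `k`, and
  `(σ - k)(σ - 1) = 0` on `E[p]`; if `σ` is not a scalar then `det σ = k` by Cayley–Hamilton; if
  `σ` is a scalar then `σ = 1` and `k = 1 = det σ`.)
* `s12cyc_cycloExp_spec`, `s12cyc_cycloExp_of_inv` : `σ μ = μ ^ cycloExp p σ` on `μ_p`;
  `cycloExp p σ = p - 1` if `σ` inverts `μ_p` (for `StmtRamP`, helper1, `S12/RamP.lean`).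
* `s12cyc_model` : the same for an integral model; `stmtCyc : StmtCyc`.
-/

set_option autoImplicit false
set_option linter.unusedSectionVars false

noncomputable section

namespace Fermat.Agent.S12

open WeierstrassCurve WeierstrassCurve.Affine WeierstrassCurve.Affine.Point ExtCitation

/-! ### The cyclotomic exponent -/

/-- `σ μ = μ ^ cycloExp p σ` for every `p`-th root of unity `μ` -/
theorem s12cyc_cycloExp_spec (p : ℕ) [Fact p.Prime] (σ : GQ) {μ : Qb} (hμ : μ ^ p = 1) :
    σ μ = μ ^ cycloExp p σ := by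
  have hp : p.Prime := Fact.out
  have : NeZero p := ⟨hp.ne_zero⟩
  have hμ0 : μ ≠ 0 := by
    rintro rfl
    rw [zero_pow hp.ne_zero] at hμ
    exact zero_ne_one hμ
  have hmem : Units.mk0 μ hμ0 ∈ rootsOfUnity p Qb := by
    rw [mem_rootsOfUnity]
    apply Units.ext
    rw [Units.val_pow_eq_pow_val, Units.val_mk0, hμ, Units.val_one]
  have hspec := modularCyclotomicCharacter.spec Qb (card_rootsOfUnity_eq_self p)
    (σ : Qb ≃+* Qb) (t := Units.mk0 μ hμ0) hmem
  simpa [cycloExp] using hspec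

/-- if `σ` inverts the `p`-th roots of unity, then `cycloExp p σ = p - 1` -/
theorem s12cyc_cycloExp_of_inv (p : ℕ) [Fact p.Prime] (σ : GQ)
    (hinv : ∀ μ : Qb, μ ^ p = 1 → σ μ = μ⁻¹) : cycloExp p σ = p - 1 := by
  have hp : p.Prime := Fact.out
  have : NeZero p := ⟨hp.ne_zero⟩
  have : NeZero ((p : ℕ) : Qb) := ⟨Nat.cast_ne_zero.mpr hp.ne_zero⟩
  obtain ⟨ζ, hζ⟩ := HasEnoughRootsOfUnity.exists_primitiveRoot Qb p
  have hspec := s12cyc_cycloExp_spec p σ hζ.pow_eq_one
  have hinv' : ζ⁻¹ = ζ ^ (p - 1) := by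
    have : ζ * ζ ^ (p - 1) = 1 := by
      rw [← pow_succ', Nat.sub_add_cancel hp.pos, hζ.pow_eq_one]
    exact inv_eq_of_mul_eq_one_right this
  rw [hinv ζ hζ.pow_eq_one, hinv'] at hspec
  have hlt : cycloExp p σ < p := by
    unfold cycloExp
    exact ZMod.val_lt _
  exact (hζ.pow_inj (Nat.sub_lt hp.pos Nat.one_pos) hlt hspec).symm

/-! ### The determinant on `E[p]` -/

section Core

variable (E : WeierstrassCurve ℚ) (hΔ : E.Δ ≠ 0) (p : ℕ) [Fact p.Prime]

/-- **`det (σ | E[p]) = χ_p(σ)`**, from the determinant of the Tate module. -/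
theorem s12cyc_det (hdet : (EC.tateRep E hΔ p).DetIsCyclotomic p) (σ : GQ) :
    LinearMap.det (galoisRepModuleEnd (S := ℚ) (K := Qb) E p σ) =
      ((cycloExp p σ : ℕ) : ZMod p) := by
  rw [EC.tateRes_det E hΔ p σ]
  obtain ⟨-, h⟩ := hdet
  have h1 := h 1 σ (cycloExp p σ) (fun μ hμ => s12cyc_cycloExp_spec p σ (by simpa using hμ))
  have h2 : LinearMap.det (EC.tateRho E hΔ p σ) - ((cycloExp p σ : ℕ) : ℤ_[p]) ∈
      RingHom.ker (PadicInt.toZMod (p := p)) := by
    rw [PadicInt.ker_toZMod, PadicInt.maximalIdeal_eq_span_p]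
    have e : (((p ^ 1 : ℕ)) : ℤ_[p]) = (p : ℤ_[p]) := by
      rw [pow_one]
    rw [e] at h1
    exact h1
  rw [RingHom.mem_ker, map_sub, map_natCast, sub_eq_zero] at h2
  exact h2

variable {E p}

/-- the points of a subgroup of order `p` are killed by `p` -/
theorem s12cyc_smul_eq_zero {K₁ : AddSubgroup (E⁄Qb).Point} (hcard : Nat.card K₁ = p)
    {x : (E⁄Qb).Point} (hx : x ∈ K₁) : p • x = 0 := by
  have h1 : Nat.card K₁ • (⟨x, hx⟩ : K₁) = 0 := card_nsmul_eq_zero'
  rw [hcard] at h1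
  exact congrArg Subtype.val h1

/-- a `p`-torsion point, as an element of `E[p]` -/
def s12cycPt (x : (E⁄Qb).Point) (hx : p • x = 0) : Submodule.torsionBy ℤ (E⁄Qb).Point (p : ℤ) :=
  ⟨x, by
    rw [Submodule.mem_torsionBy_iff, natCast_zsmul]
    exact hx⟩

theorem s12cyc_torsion (v : Submodule.torsionBy ℤ (E⁄Qb).Point (p : ℤ)) :
    p • (v : (E⁄Qb).Point) = 0 := by
  have := v.2
  rw [Submodule.mem_torsionBy_iff, natCast_zsmul] at this
  exact this

/-- integers congruent mod `p` act in the same way on `p`-torsion points -/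
theorem s12cyc_zsmul_congr {x : (E⁄Qb).Point} (hx : p • x = 0) {k l : ℤ}
    (h : (k : ZMod p) = (l : ZMod p)) : k • x = l • x := by
  have h1 : (p : ℤ) ∣ k - l := by
    rw [← ZMod.intCast_zmod_eq_zero_iff_dvd, Int.cast_sub, h, sub_self]
  obtain ⟨c, hc⟩ := h1
  have h2 : (k - l) • x = 0 := by
    rw [hc, mul_comm, mul_smul, natCast_zsmul, hx, zsmul_zero]
  rw [sub_smul, sub_eq_zero] at h2
  exact h2

/-- a subgroup of prime order is generated by each of its nonzero elements -/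
theorem s12cyc_exists_zsmul {K₁ : AddSubgroup (E⁄Qb).Point} (hcard : Nat.card K₁ = p)
    {g : (E⁄Qb).Point} (hg : g ∈ K₁) (hg0 : g ≠ 0) {x : (E⁄Qb).Point} (hx : x ∈ K₁) :
    ∃ m : ℤ, x = m • g := by
  have hp : p.Prime := Fact.out
  have hfin : Finite K₁ := Nat.finite_of_card_ne_zero (by rw [hcard]; exact hp.ne_zero)
  have hg' : (⟨g, hg⟩ : K₁) ≠ 0 := fun h => hg0 (congrArg Subtype.val h)
  have hord : addOrderOf (⟨g, hg⟩ : K₁) = p := by
    have h1 : addOrderOf (⟨g, hg⟩ : K₁) ∣ p := by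
      rw [← hcard]
      exact addOrderOf_dvd_natCard _
    rcases (Nat.dvd_prime hp).mp h1 with h2 | h2
    · exact absurd (AddMonoid.addOrderOf_eq_one_iff.mp h2) hg'
    · exact h2
  have htop : AddSubgroup.zmultiples (⟨g, hg⟩ : K₁) = ⊤ := by
    apply AddSubgroup.eq_top_of_card_eq
    rw [Nat.card_zmultiples, hord, hcard]
  have hmem : (⟨x, hx⟩ : K₁) ∈ AddSubgroup.zmultiples (⟨g, hg⟩ : K₁) := by
    rw [htop]
    exact AddSubgroup.mem_top _
  obtain ⟨m, hm⟩ := AddSubgroup.mem_zmultiples_iff.mp hmem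
  exact ⟨m, (congrArg Subtype.val hm).symm⟩

/-- **G-CYC, core**: `G_ℚ` acts on a cofixed line through the mod `p` cyclotomic character. -/
theorem s12cyc_core (hdet : (EC.tateRep E hΔ p).DetIsCyclotomic p)
    (K₁ : AddSubgroup (E⁄Qb).Point) (hK : IsCofixedLine (E⁄Qb).Point p K₁) :
    HCyc (E⁄Qb).Point p K₁ := by
  have hp : p.Prime := Fact.out
  intro σ x hx
  -- a generator of `K₁`
  obtain ⟨g, hg, hg0⟩ : ∃ g ∈ K₁, g ≠ 0 := by
    have hfin : Finite K₁ := Nat.finite_of_card_ne_zero (by rw [hK.card]; exact hp.ne_zero)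
    have h1 : 1 < Nat.card K₁ := by rw [hK.card]; exact hp.one_lt
    have : Nontrivial K₁ := Finite.one_lt_card_iff_nontrivial.mp h1
    obtain ⟨y, hy⟩ := exists_ne (0 : K₁)
    exact ⟨y, y.2, fun h => hy (Subtype.ext h)⟩
  have hpg : p • g = 0 := s12cyc_smul_eq_zero hK.card hg
  obtain ⟨k, hk⟩ := s12cyc_exists_zsmul hK.card hg hg0 (hK.stable σ g hg)
  -- `σ` acts on `K₁` by `k`
  have hact : ∀ y ∈ K₁, σ • y = k • y := by
    intro y hy
    obtain ⟨m, rfl⟩ := s12cyc_exists_zsmul hK.card hg hg0 hy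
    have e1 : σ • (m • g) = m • (σ • g) :=
      map_zsmul (DistribSMul.toAddMonoidHom (E⁄Qb).Point σ) m g
    rw [e1, hk, smul_comm]
  -- the relation `(σ - k)(σ - 1) = 0` on `E[p]`
  set f : Module.End (ZMod p) (Submodule.torsionBy ℤ (E⁄Qb).Point (p : ℤ)) :=
    galoisRepModuleEnd (S := ℚ) (K := Qb) E p σ with hf
  have hfv : ∀ v : Submodule.torsionBy ℤ (E⁄Qb).Point (p : ℤ),
      ((f v : Submodule.torsionBy ℤ (E⁄Qb).Point (p : ℤ)) : (E⁄Qb).Point) =
        σ • (v : (E⁄Qb).Point) := fun v => rfl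
  have hcoe : ∀ (c : ℤ) (v : Submodule.torsionBy ℤ (E⁄Qb).Point (p : ℤ)),
      (((c : ZMod p) • v : Submodule.torsionBy ℤ (E⁄Qb).Point (p : ℤ)) : (E⁄Qb).Point) =
        c • (v : (E⁄Qb).Point) := by
    intro c v
    rw [Int.cast_smul_eq_zsmul]
    rfl
  have h2 : Module.finrank (ZMod p) (Submodule.torsionBy ℤ (E⁄Qb).Point (p : ℤ)) = 2 :=
    EC.tateRes_finrank E hΔ p
  have hrel : f ^ 2 - ((k : ZMod p) + 1) • f
      + (k : ZMod p) • (1 : Module.End (ZMod p) (Submodule.torsionBy ℤ (E⁄Qb).Point (p : ℤ)))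
      = 0 := by
    apply LinearMap.ext
    intro v
    apply Subtype.ext
    have h3 := hact _ (hK.cofixed σ (v : (E⁄Qb).Point) (s12cyc_torsion v))
    rw [smul_sub, zsmul_sub] at h3
    have e1 : ((k : ZMod p) + 1) = (((k + 1 : ℤ)) : ZMod p) := by push_cast; rfl
    rw [e1]
    simp only [LinearMap.add_apply, LinearMap.sub_apply, LinearMap.smul_apply, pow_two,
      Module.End.mul_apply, Module.End.one_apply, LinearMap.zero_apply]
    rw [Submodule.coe_add, Submodule.coe_sub, hcoe, hcoe, hfv, hfv, Submodule.coe_zero,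
      add_zsmul, one_zsmul]
    have h4 : σ • σ • (v : (E⁄Qb).Point) = k • σ • (v : (E⁄Qb).Point) - k • (v : (E⁄Qb).Point)
        + σ • (v : (E⁄Qb).Point) := by
      rw [← h3]; abel
    rw [h4]
    abel
  -- the determinant
  have hdetk : LinearMap.det f = (k : ZMod p) := by
    by_cases hns : EC.DetChar.IsScalarEnd f
    · -- scalar case: `f = 1`, `k = 1`
      obtain ⟨c, hc⟩ := hns
      have hc1 : c = 1 := by
        by_contra hne
        have hunit : c - 1 ≠ 0 := sub_ne_zero.mpr hne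
        -- every point of `E[p]` is in `K₁`
        have hall : ∀ v : Submodule.torsionBy ℤ (E⁄Qb).Point (p : ℤ),
            (v : (E⁄Qb).Point) ∈ K₁ := by
          intro v
          have h5 : ∀ w : Submodule.torsionBy ℤ (E⁄Qb).Point (p : ℤ),
              (((c - 1) • w : Submodule.torsionBy ℤ (E⁄Qb).Point (p : ℤ)) : (E⁄Qb).Point)
                ∈ K₁ := by
            intro w
            have h6 := hK.cofixed σ (w : (E⁄Qb).Point) (s12cyc_torsion w)
            have h7 : ((c - 1) • w : Submodule.torsionBy ℤ (E⁄Qb).Point (p : ℤ)) = f w - w := by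
              rw [hc, LinearMap.smul_apply, Module.End.one_apply, sub_smul, one_smul]
            rw [h7, Submodule.coe_sub, hfv]
            exact h6
          have h8 := h5 ((c - 1)⁻¹ • v)
          rwa [smul_smul, mul_inv_cancel₀ hunit, one_smul] at h8
        have hinj : Function.Injective
            (fun v : Submodule.torsionBy ℤ (E⁄Qb).Point (p : ℤ) =>
              (⟨(v : (E⁄Qb).Point), hall v⟩ : K₁)) := by
          intro v w hvw
          exact Subtype.ext (congrArg (fun z : K₁ => (z : (E⁄Qb).Point)) hvw)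
        have hfinK : Finite K₁ :=
          Nat.finite_of_card_ne_zero (by rw [hK.card]; exact hp.ne_zero)
        have hle := Nat.card_le_card_of_injective _ hinj
        rw [EC.tateRes_card E hΔ p, hK.card] at hle
        have : p < p ^ 2 := by
          rw [pow_two]
          exact lt_mul_self hp.one_lt
        omega
      have hf1 : f = 1 := by rw [hc, hc1, one_smul]
      have hk1 : (k : ZMod p) = 1 := by
        have h9 : σ • g = g := by
          have := hfv (s12cycPt g hpg)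
          rw [hf1, Module.End.one_apply] at this
          exact this.symm
        rw [hk] at h9
        have h10 : (k - 1) • g = 0 := by rw [sub_smul, one_smul, h9, sub_self]
        have hord : addOrderOf g = p := by
          have h1 : addOrderOf g ∣ p := addOrderOf_dvd_of_nsmul_eq_zero hpg
          rcases (Nat.dvd_prime hp).mp h1 with h2 | h2
          · exact absurd (AddMonoid.addOrderOf_eq_one_iff.mp h2) hg0
          · exact h2
        have h11 : (addOrderOf g : ℤ) ∣ k - 1 := addOrderOf_dvd_iff_zsmul_eq_zero.mpr h10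
        rw [hord] at h11
        have h12 := (ZMod.intCast_zmod_eq_zero_iff_dvd (k - 1) p).mpr h11
        rw [Int.cast_sub, Int.cast_one, sub_eq_zero] at h12
        exact h12
      rw [hf1, hk1]
      exact LinearMap.det_id
    · exact (EC.DetChar.trace_det_of_rel h2 hrel hns).2
  -- conclusion
  have hdet' := s12cyc_det E hΔ p hdet σ
  rw [← hf, hdetk] at hdet'
  rw [hact x hx, ← natCast_zsmul]
  apply s12cyc_zsmul_congr (s12cyc_smul_eq_zero hK.card hx)
  rw [hdet']
  push_cast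
  rfl

end Core

/-! ### The Frey curve -/

/-- the determinant of the Tate module of a curve with an integral model is cyclotomic -/
theorem s12cyc_detIsCyclotomic (W : WeierstrassCurve ℤ) (hΔ : W.Δ ≠ 0) (p : ℕ) [Fact p.Prime]
    (E : WeierstrassCurve ℚ) (h : W.map (Int.castRingHom ℚ) = E) (hΔ' : E.Δ ≠ 0) :
    (EC.tateRep E hΔ' p).DetIsCyclotomic p := by
  subst h
  exact EC.tateRepInt_detIsCyclotomic W hΔ p

theorem s12cyc_freyCurve_Δ_ne_zero (P : FreyPackage) : P.freyCurve.Δ ≠ 0 := by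
  rw [← Fermat.Agent.S04.freyCurveInt_map]
  exact EC.tate_map_Δ_ne_zero _ (Fermat.Agent.S04.freyCurveInt_Δ_ne_zero P)

/-- **G-CYC** for an integral model. -/
theorem s12cyc_model (W : WeierstrassCurve ℤ) (hΔ : W.Δ ≠ 0) (p : ℕ) [Fact p.Prime]
    (K₁ : AddSubgroup (PtZ W)) (hK : IsCofixedLine (PtZ W) p K₁) : HCyc (PtZ W) p K₁ :=
  s12cyc_core (EC.tate_map_Δ_ne_zero W hΔ) (EC.tateRepInt_detIsCyclotomic W hΔ p) K₁ hK

/-- **G-CYC.** -/
theorem stmtCyc : StmtCyc := by
  intro P K₁ hK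
  have : Fact P.p.Prime := ⟨P.pp⟩
  exact s12cyc_core (s12cyc_freyCurve_Δ_ne_zero P)
    (s12cyc_detIsCyclotomic P.freyCurveInt (Fermat.Agent.S04.freyCurveInt_Δ_ne_zero P) P.p
      P.freyCurve (Fermat.Agent.S04.freyCurveInt_map P) (s12cyc_freyCurve_Δ_ne_zero P)) K₁ hK

end Fermat.Agent.S12
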