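import Fermat.Agent.S12.Monod
import Fermat.Agent.RED.LinkAll
import Fermat.Agent.RED.ModelTrace
import Fermat.Agent.Common.FrobExists
import Fermat.Agent.S04.FreyInt

/-!
# S12-GLUE: G-FROB (helper24)

* `stmtGoodTors : StmtGoodTors`, `stmtGoodLine : StmtGoodLine`, `stmtFin : StmtFin`.

Bricks: the Frobenius relation `τ² - a_ℓ τ + ℓ = 0` on torsion of order prime to `ℓ`
(`RED.frobenius_relation_of_torsion_all`), `N := ℓ + 1 - a_ℓ = #Ē(𝔽_ℓ) ∈ [1, 2ℓ + 1]`
(`s12f_card_le`), `#E[n] = n²` (`EC.ec_card_torsion`), existence of Frobenius elements.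
If `G` is trivial on `M[p^k]/K` then `N · M[p^k] ⊆ K`; as `K` is cyclic, `p^k ∣ N` (`s12f_dvd`).
-/

set_option autoImplicit false

namespace Fermat.Agent.S12

open WeierstrassCurve WeierstrassCurve.Affine

section Count

variable {F : Type} [Field F] (W : WeierstrassCurve F)

open Classical in
/-- a chosen point with given abscissa -/
noncomputable def s12fY0 (x : F) : F :=
  if h : ∃ y, W.toAffine.Equation x y then h.choose else 0

theorem s12fY0_spec {x y : F} (h : W.toAffine.Equation x y) :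
    W.toAffine.Equation x (s12fY0 W x) := by
  have hex : ∃ y, W.toAffine.Equation x y := ⟨y, h⟩
  rw [s12fY0, dif_pos hex]
  exact hex.choose_spec

open Classical in
/-- a point is determined by its abscissa and one bit -/
noncomputable def s12fCode : W.toAffine.Point → Option (F × Bool)
  | .zero => none
  | .some x y _ => some (x, decide (y = s12fY0 W x))

theorem s12fCode_injective : Function.Injective (s12fCode W) := by
  classical
  rintro (_ | ⟨x₁, y₁, h₁⟩) (_ | ⟨x₂, y₂, h₂⟩) h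
  · rfl
  · simp [s12fCode] at h
  · simp [s12fCode] at h
  · simp only [s12fCode, Option.some.injEq, Prod.mk.injEq, decide_eq_decide] at h
    obtain ⟨rfl, hy⟩ := h
    have hy₀ := s12fY0_spec W h₁.1
    have key : y₁ = y₂ := by
      by_cases h1 : y₁ = s12fY0 W x₁
      · rw [h1, ← hy.mp h1]
      · have h2 : ¬ y₂ = s12fY0 W x₁ := fun h2 => h1 (hy.mpr h2)
        have e1 := (Y_eq_of_X_eq h₁.1 hy₀ rfl).resolve_left h1
        have e2 := (Y_eq_of_X_eq h₂.1 hy₀ rfl).resolve_left h2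
        rw [e1, e2]
    subst key
    rfl

/-- the trivial bound for the number of points -/
theorem s12f_card_le [Finite F] : Nat.card W.toAffine.Point ≤ 2 * Nat.card F + 1 := by
  classical
  have : Fintype F := Fintype.ofFinite F
  have h1 := Nat.card_le_card_of_injective (s12fCode W) (s12fCode_injective W)
  have h2 : Nat.card (Option (F × Bool)) = 2 * Nat.card F + 1 := by
    rw [Nat.card_eq_fintype_card, Fintype.card_option, Fintype.card_prod, Fintype.card_bool,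
      Nat.card_eq_fintype_card, mul_comm]
  rw [h2] at h1
  exact h1

theorem s12f_card_pos [Finite F] : 0 < Nat.card W.toAffine.Point :=
  Nat.card_pos

end Count

section Group

variable {M : Type} [AddCommGroup M] {p : ℕ}

/-- iterated surjectivity of `[p]` -/
theorem s12f_surj_iter (hp : p.Prime) (hcard : HCard M p) (e : ℕ) (y : M) (hy : p • y = 0) :
    ∃ x : M, p ^ e • x = y ∧ p ^ (e + 1) • x = 0 := by
  induction e with
  | zero => exact ⟨y, by rw [pow_zero, one_smul], by rw [zero_add, pow_one]; exact hy⟩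
  | succ e ih =>
    obtain ⟨x, hx, hx0⟩ := ih
    obtain ⟨R', hR', hR'0⟩ := s12m_surj hp hcard (e + 1) x hx0
    refine ⟨R', ?_, hR'0⟩
    rw [pow_succ, mul_smul, hR', hx]

/-- if `N` maps `M[p^k]` into a cyclic group of order `p^k`, then `p^k ∣ N` -/
theorem s12f_dvd (hp : p.Prime) (hcard : HCard M p) (k : ℕ) (K : AddSubgroup M)
    (hK : Nat.card K = p ^ k) (hcyc : ∃ g : M, K = AddSubgroup.zmultiples g) (N : ℕ) (hN : N ≠ 0)
    (h : ∀ x : M, p ^ k • x = 0 → N • x ∈ K) : p ^ k ∣ N := by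
  obtain ⟨e, n', hn', hNe⟩ := Nat.exists_eq_pow_mul_and_not_dvd hN p hp.ne_one
  by_cases hek : k ≤ e
  · rw [hNe]
    exact Dvd.dvd.mul_right (pow_dvd_pow p hek) n'
  exfalso
  have hek' : e + 1 ≤ k := by omega
  obtain ⟨g, rfl⟩ := hcyc
  have hord : addOrderOf g = p ^ k := by rw [← Nat.card_zmultiples, hK]
  -- `M[p] ⊆ K`
  obtain ⟨c, -, hc⟩ := Nat.exists_mul_mod_eq_one_of_coprime
    ((Nat.Prime.coprime_iff_not_dvd hp).mpr hn').symm hp.one_lt
  have hsub : ∀ y : M, p • y = 0 → y ∈ AddSubgroup.zmultiples g := by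
    intro y hy
    obtain ⟨x, hx, hx0⟩ := s12f_surj_iter hp hcard e y hy
    have hxk : p ^ k • (c • x) = 0 := by
      obtain ⟨d, rfl⟩ := Nat.exists_eq_add_of_le hek'
      rw [smul_comm, pow_add, mul_comm, mul_smul, hx0, smul_zero, smul_zero]
    have h1 := h (c • x) hxk
    have h2 : N • (c • x) = y := by
      have h3 : n' * c = p * (n' * c / p) + 1 := by
        have := Nat.div_add_mod (n' * c) p
        rw [hc] at this
        exact this.symm
      rw [hNe, ← mul_smul, mul_assoc, h3, mul_smul, add_smul, one_smul, smul_add, hx,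
        mul_smul, ← mul_smul (p ^ e) p, ← pow_succ, smul_comm, hx0, smul_zero, zero_add]
    rw [h2] at h1
    exact h1
  -- count
  have hk1 : k = (k - 1) + 1 := by omega
  have hle : s12mT M p 1 ≤ AddSubgroup.zmultiples (p ^ (k - 1) • g) := by
    intro y hy
    have hy' : p • y = 0 := by
      have : p ^ 1 • y = 0 := hy
      rwa [pow_one] at this
    exact s12m_cyc_mem (a := p ^ (k - 1)) (b := p) hp.ne_zero
      (by rw [hord, ← pow_succ, ← hk1]) (hsub y hy') hy'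
  have hpk : p • (p ^ (k - 1) • g) = 0 := by
    rw [← mul_smul, ← pow_succ', ← hk1, ← hord]
    exact addOrderOf_nsmul_eq_zero g
  have hfin : Finite (AddSubgroup.zmultiples (p ^ (k - 1) • g)) := by
    apply Nat.finite_of_card_ne_zero
    rw [Nat.card_zmultiples]
    exact (addOrderOf_pos_iff.mpr
      (isOfFinAddOrder_iff_nsmul_eq_zero.mpr ⟨p, hp.pos, hpk⟩)).ne'
  have h1 := AddSubgroup.card_le_of_le hle
  have h2 : Nat.card (s12mT M p 1) = p ^ 2 := by
    have := hcard 1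
    rw [mul_one] at this
    exact this
  rw [h2, Nat.card_zmultiples] at h1
  have h3 := addOrderOf_le_of_nsmul_eq_zero hp.pos hpk
  have h4 : p < p ^ 2 := by
    rw [pow_two]
    exact lt_mul_of_one_lt_left hp.pos hp.one_lt
  omega

end Group

section Frob

/-- the Frobenius relation with `N = ℓ + 1 - a_ℓ ∈ [1, 2ℓ + 1]` -/
theorem s12f_frob (W : WeierstrassCurve ℤ) (ℓ : ℕ) (hℓ : ℓ.Prime) (hgood : ¬ (ℓ : ℤ) ∣ W.Δ) :
    ∃ (τ : GQ) (N : ℕ) (a : ℤ), 0 < N ∧ N ≤ 2 * ℓ + 1 ∧ (N : ℤ) = 1 - a + ℓ ∧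
      ∀ n : ℕ, ¬ ℓ ∣ n → ∀ Q : PtZ W, n • Q = 0 →
        τ • τ • Q - a • τ • Q + (ℓ : ℤ) • Q = 0 := by
  have : Fact ℓ.Prime := ⟨hℓ⟩
  obtain ⟨A, τ, hA, hτ⟩ := Fermat.Agent.Common.exists_isFrobeniusAt ℓ hℓ
  refine ⟨τ, Nat.card (W.reductionMod ℓ).toAffine.Point, W.apOfModel ℓ,
    s12f_card_pos _, ?_, ?_, ?_⟩
  · have := s12f_card_le (W.reductionMod ℓ)
    rwa [Nat.card_zmod] at this
  · rw [WeierstrassCurve.apOfModel, WeierstrassCurve.traceOfFrobenius, WeierstrassCurve.card,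
      Nat.card_zmod]
    ring
  · intro n hn Q hQ
    exact Fermat.Agent.RED.frobenius_relation_of_torsion_all W hℓ hgood A hA τ hτ hn Q hQ

/-- `#E[p^m] = p^{2m}` for an integral model -/
theorem s12f_hcard (W : WeierstrassCurve ℤ) (hΔ : W.Δ ≠ 0) (p : ℕ) (hp : p ≠ 0) :
    HCard (PtZ W) p := by
  intro m
  have hΔ' : ((W.map (Int.castRingHom ℚ)).toAffine⁄(AlgebraicClosure ℚ)).Δ ≠ 0 := by
    show ((W.map (Int.castRingHom ℚ)).map (algebraMap ℚ (AlgebraicClosure ℚ))).Δ ≠ 0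
    rw [WeierstrassCurve.map_Δ, WeierstrassCurve.map_Δ]
    simpa using hΔ
  have h := Fermat.Agent.EC.ec_card_torsion hΔ' two_ne_zero (n := p ^ m)
    (Nat.cast_ne_zero.mpr (pow_ne_zero m hp))
  rw [← pow_mul, mul_comm] at h
  exact h

/-- **GOODTORS.** -/
theorem stmtGoodTors : StmtGoodTors := by
  intro W _ ℓ hℓ hgood p hp hpℓ Q hQ hord
  obtain ⟨τ, N, a, hN0, hN, hNa, hrel⟩ := s12f_frob W ℓ hℓ hgood
  have hn : ¬ ℓ ∣ p := fun h => hpℓ ((Nat.prime_dvd_prime_iff_eq hℓ hp).1 h).symm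
  have hpQ : p • Q = 0 := by rw [← hord]; exact addOrderOf_nsmul_eq_zero Q
  have h1 := hrel p hn Q hpQ
  rw [hQ τ, hQ τ] at h1
  have h2 : N • Q = 0 := by
    rw [← natCast_zsmul, hNa, add_zsmul, sub_zsmul, one_zsmul]
    exact h1
  have h3 : p ∣ N := by
    rw [← hord]
    exact addOrderOf_dvd_of_nsmul_eq_zero h2
  exact (Nat.le_of_dvd hN0 h3).trans hN

/-- **GOODLINE.** -/
theorem stmtGoodLine : StmtGoodLine := by
  intro W hΔ ℓ hℓ hgood p hp hpℓ k K hK hcyc hcof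
  obtain ⟨τ, N, a, hN0, hN, hNa, hrel⟩ := s12f_frob W ℓ hℓ hgood
  have hn : ¬ ℓ ∣ p ^ k := fun h =>
    hpℓ ((Nat.prime_dvd_prime_iff_eq hℓ hp).1 (hℓ.dvd_of_dvd_pow h)).symm
  have hKtors : ∀ x ∈ K, p ^ k • x = 0 := by
    intro x hx
    have h := card_nsmul_eq_zero' (G := K) (x := ⟨x, hx⟩)
    rw [hK] at h
    exact congrArg Subtype.val h
  have hmain : ∀ x : PtZ W, p ^ k • x = 0 → N • x ∈ K := by
    intro x hx
    have hκ₁ : τ • x - x ∈ K := hcof τ x hx
    have hκ₂ : τ • (τ • x - x) - (τ • x - x) ∈ K := hcof τ _ (hKtors _ hκ₁)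
    have h1 := hrel (p ^ k) hn x hx
    have h2 : N • x = a • (τ • x - x) - (τ • x - x) - (τ • x - x)
        - (τ • (τ • x - x) - (τ • x - x)) := by
      rw [← natCast_zsmul, hNa, smul_sub τ, ← sub_eq_zero, ← h1]
      simp only [add_zsmul, sub_zsmul, one_zsmul, zsmul_sub]
      abel
    rw [h2]
    exact K.sub_mem (K.sub_mem (K.sub_mem (K.zsmul_mem hκ₁ a) hκ₁) hκ₁) hκ₂
  have hdvd := s12f_dvd hp (s12f_hcard W hΔ p hp.ne_zero) k K hK hcyc N hN0.ne' hmain
  exact (Nat.le_of_dvd hN0 hdvd).trans hN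

/-- `HFin` for an integral model -/
theorem s12f_hfin (W : WeierstrassCurve ℤ) (hΔ : W.Δ ≠ 0) (p : ℕ) (hp : p.Prime) :
    HFin (PtZ W) p := by
  obtain ⟨ℓ, hℓ1, hℓ⟩ := Nat.exists_infinite_primes (W.Δ.natAbs + p + 1)
  have hgood : ¬ (ℓ : ℤ) ∣ W.Δ := by
    intro h
    have h1 : ℓ ∣ W.Δ.natAbs := Int.natCast_dvd.mp h
    have h2 := Nat.le_of_dvd (Int.natAbs_pos.mpr hΔ) h1
    omega
  have hpℓ : p ≠ ℓ := by omega
  exact ⟨2 * ℓ + 1, fun k K hK hcyc hcof =>
    stmtGoodLine W hΔ ℓ hℓ hgood p hp hpℓ k K hK hcyc hcof⟩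

/-- **G-FIN.** -/
theorem stmtFin : StmtFin := by
  intro P
  have h := s12f_hfin P.freyCurveInt (Fermat.Agent.S04.freyCurveInt_Δ_ne_zero P) P.p P.pp
  have e : P.freyCurveInt.map (Int.castRingHom ℚ) = P.freyCurve :=
    Fermat.Agent.S04.freyCurveInt_map P
  change HFin ((P.freyCurveInt.map (Int.castRingHom ℚ))⁄Qb).Point P.p at h
  rw [e] at h
  exact h

end Frob

end Fermat.Agent.S12
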