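import Fermat.Agent.S12.GFrob
import Fermat.Agent.RED.UnipTwoTate
import Fermat.Agent.RED.Unram
import Fermat.Agent.S15.ECLoc
import Fermat.Agent.S13.TorsionCount
import Fermat.Agent.Common.FrobProfinite

/-!
# S12-GLUE: G-WRAP (helper24)

The wrappers `hPlaces`, `stmtGoodUnr`, `stmtE0Add`, `stmtCard`, `stmtOpen`, `stmtUnip`,
`stmtLine` of the interface `S12/Plan.lean`.
-/

set_option autoImplicit false

namespace Fermat.Agent.S12

open WeierstrassCurve WeierstrassCurve.Affine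

/-- **HPlaces.** -/
theorem hPlaces : HPlaces := fun q hq => Fermat.Agent.Common.exists_liesOverPrime q hq

/-- **GOOD-UNR.** -/
theorem stmtGoodUnr : StmtGoodUnr := fun W _ hℓ hgood A hA _ hσ _ hn R hR =>
  Fermat.Agent.RED.inertia_smul_eq_of_good W hℓ hgood A hA hσ hn R hR

/-- **E0-ADD.** -/
theorem stmtE0Add : StmtE0Add := by
  intro W A x y hx hy
  let _ : DecidableEq (IsLocalRing.ResidueField A) := Classical.decEq _
  rw [← Fermat.Agent.S15.ecloc_inE0_iff] at hx hy ⊢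
  rw [map_sub]
  exact (Fermat.Agent.S15.ECL.E0 A (Fermat.Agent.RED.modelA W A)).sub_mem hx hy

/-- transport from the integral Frey curve to the Frey curve -/
theorem s12w_transport (P : FreyPackage) (C : ∀ (M : Type) [AddCommGroup M]
    [DistribMulAction GQ M], Prop) (h : C (PtZ P.freyCurveInt)) : C (Pt P) := by
  have e : P.freyCurveInt.map (Int.castRingHom ℚ) = P.freyCurve :=
    Fermat.Agent.S04.freyCurveInt_map P
  change C ((P.freyCurveInt.map (Int.castRingHom ℚ))⁄Qb).Point at h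
  rw [e] at h
  exact h

/-- **G-CARD.** -/
theorem stmtCard : StmtCard := fun P =>
  s12w_transport P (fun M _ _ => HCard M P.p)
    (s12f_hcard P.freyCurveInt (Fermat.Agent.S04.freyCurveInt_Δ_ne_zero P) P.p P.hp0)

/-- `HUnip` for a semistable integral model -/
theorem s12w_hunip (W : WeierstrassCurve ℤ) (hΔ : W.Δ ≠ 0) (hss : W.IsSemistableModel)
    (p : ℕ) (hp : p.Prime) (hp2 : p ≠ 2) : HUnip (PtZ W) p := by
  intro ℓ hℓ hℓp A hA σ hσ τ hτ m R hR
  have hn : ¬ ℓ ∣ p ^ m := fun h =>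
    hℓp ((Nat.prime_dvd_prime_iff_eq hℓ hp).1 (hℓ.dvd_of_dvd_pow h))
  by_cases hbad : (ℓ : ℤ) ∣ W.Δ
  · exact Fermat.Agent.RED.inertia_unipotent_of_mult_all W hℓ hΔ hbad (hss ℓ hℓ hbad) A hA hσ hτ
      hn (hp.odd_of_ne_two hp2).pow R hR
  · have h1 : σ • R = R :=
      Fermat.Agent.RED.inertia_smul_eq_of_good W hℓ hbad A hA hσ hn R hR
    rw [h1, sub_self, smul_zero]

/-- **G-UNIP.** -/
theorem stmtUnip : StmtUnip := fun P =>
  s12w_transport P (fun M _ _ => HUnip M P.p)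
    (s12w_hunip P.freyCurveInt (Fermat.Agent.S04.freyCurveInt_Δ_ne_zero P)
      (Fermat.Agent.S04.freyCurveInt_isSemistableModel P) P.p P.pp
      (by have := P.hp5; omega))

/-- `HOpen` for every curve over `ℚ` (and every point) -/
theorem s12w_hopen (E : WeierstrassCurve ℚ) (p : ℕ) : HOpen (E⁄Qb).Point p := by
  classical
  intro x _
  rcases x with _ | ⟨x₀, y₀, h⟩
  · exact ⟨∅, fun σ _ => rfl⟩
  · refine ⟨{x₀, y₀}, fun σ hσ => ?_⟩
    have hx : σ x₀ = x₀ := hσ x₀ (by simp)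
    have hy : σ y₀ = y₀ := hσ y₀ (by simp)
    rw [Point.algEquiv_smul_def]
    simp only [Point.map_some]
    congr 1

/-- **G-OPEN.** -/
theorem stmtOpen : StmtOpen := fun P => s12w_hopen P.freyCurve P.p

/-- **G-LINE.** -/
theorem stmtLine : StmtLine := by
  intro P ⟨N, hst, hbot, htop, hcof⟩
  have : Fact P.p.Prime := ⟨P.pp⟩
  have hΔ' : (P.freyCurve⁄Qb).Δ ≠ 0 := by
    have e : P.freyCurveInt.map (Int.castRingHom ℚ) = P.freyCurve :=
      Fermat.Agent.S04.freyCurveInt_map P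
    rw [← e]
    show ((P.freyCurveInt.map (Int.castRingHom ℚ)).map (algebraMap ℚ (AlgebraicClosure ℚ))).Δ ≠ 0
    rw [WeierstrassCurve.map_Δ, WeierstrassCurve.map_Δ]
    simpa using Fermat.Agent.S04.freyCurveInt_Δ_ne_zero P
  have hn : ((P.p : ℕ) : Qb) ≠ 0 := Nat.cast_ne_zero.mpr P.hp0
  have hcardT := Fermat.Agent.EC.ec_card_torsionBy hΔ' two_ne_zero hn
  have hfinT := Fermat.Agent.EC.ec_finite_torsionBy hΔ' two_ne_zero hn
  have hcardN : Nat.card N = P.p :=
    (Fermat.Agent.S13.tc_card_of_proper hcardT.le N hbot htop).2.1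
  refine ⟨AddSubgroup.map (Submodule.torsionBy ℤ (Pt P) P.p).subtype.toAddMonoidHom
    N.toAddSubgroup, ⟨?_, ?_, ?_⟩⟩
  · rw [AddSubgroup.card_map_of_injective]
    · exact hcardN
    · exact Subtype.val_injective
  · rintro σ _ ⟨y, hy, rfl⟩
    exact ⟨σ • y, hst σ y hy, rfl⟩
  · intro σ x hx
    have hx' : x ∈ Submodule.torsionBy ℤ (Pt P) P.p := by
      rw [Submodule.mem_torsionBy_iff, natCast_zsmul]
      exact hx
    exact ⟨σ • (⟨x, hx'⟩ : Submodule.torsionBy ℤ (Pt P) P.p) - ⟨x, hx'⟩, hcof σ ⟨x, hx'⟩, rfl⟩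

end Fermat.Agent.S12
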