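import Fermat.Agent.S12.HS15
import Fermat.Agent.S04.FreyInt

/-!
# S12 / G-HS15 for the Frey curve (helper47)

`stmtHS15_of : StmtVelu → StmtU1 → StmtE0Add → StmtL1Two → StmtL1Three → StmtGoodTors →
  StmtGoodLine → StmtGoodUnr → StmtCard → StmtHS15`.
-/

set_option autoImplicit false
set_option linter.style.haveILetI false
set_option linter.unusedSectionVars false
set_option linter.unusedVariables false

noncomputable section

namespace Fermat.Agent.S12

open WeierstrassCurve WeierstrassCurve.Affine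

/-- `2 · c₆ = -(B - A)(2A + B)(A + 2B)` for the integral Frey curve (`A = a^p`, `B = b^p`). -/
theorem s12h_frey_c₆ (P : FreyPackage) :
    2 * P.freyCurveInt.c₆ = -(P.b ^ P.p - P.a ^ P.p) * (2 * P.a ^ P.p + P.b ^ P.p) *
      (P.a ^ P.p + 2 * P.b ^ P.p) := by
  obtain ⟨m, hm⟩ := Fermat.Agent.S04.frey_four_dvd P
  obtain ⟨n, hn⟩ := Fermat.Agent.S04.frey_sixteen_dvd P
  have h2 : (P.b ^ P.p - 1 - P.a ^ P.p) / 4 = m := by
    rw [hm]; exact Int.mul_ediv_cancel_left _ (by norm_num)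
  have h4 : -(P.a ^ P.p) * (P.b ^ P.p) / 16 = n := by
    rw [hn]; exact Int.mul_ediv_cancel_left _ (by norm_num)
  simp only [FreyPackage.freyCurveInt, WeierstrassCurve.c₆, WeierstrassCurve.b₂,
    WeierstrassCurve.b₄, WeierstrassCurve.b₆]
  rw [h2, h4]
  generalize P.a ^ P.p = A at *
  generalize P.b ^ P.p = B at *
  have hB : B = 4 * m + 1 + A := by linarith
  subst hB
  have hn' : 16 * n = -(A * (4 * m + 1 + A)) := by linarith
  linear_combination (9 * (1 + 4 * m) : ℤ) * hn'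

theorem s12h_frey_c₆_ne (P : FreyPackage) : P.freyCurveInt.c₆ ≠ 0 := by
  intro h
  have h1 := s12h_frey_c₆ P
  rw [h, mul_zero] at h1
  have h32 := Fermat.Agent.S04.frey_thirtytwo_dvd_b_pow P
  have hA4 := Fermat.Agent.S04.frey_a_pow_mod_four P
  have hAodd : ¬ (2 : ℤ) ∣ P.a ^ P.p := by
    intro hd
    have h2 : ((P.a ^ P.p : ℤ) : ZMod 2) = 0 := (ZMod.intCast_zmod_eq_zero_iff_dvd _ 2).2 hd
    have h3 : ((P.a ^ P.p : ℤ) : ZMod 4) = 3 := hA4
    obtain ⟨c, hc⟩ := hd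
    rw [hc] at h3
    have : ∀ x : ZMod 4, (2 : ZMod 4) * x ≠ 3 := by decide
    exact this (c : ZMod 4) (by simpa using h3)
  have hB2 : (2 : ℤ) ∣ P.b ^ P.p := Dvd.dvd.trans (by norm_num) h32
  have hgcd : IsCoprime (P.a ^ P.p) (P.b ^ P.p) := by
    apply IsCoprime.pow
    rw [Int.isCoprime_iff_gcd_eq_one]
    have := P.hgcdab
    simpa [Int.gcd, gcd] using this
  rcases mul_eq_zero.1 h1.symm with h | h
  · rcases mul_eq_zero.1 h with h | h
    · -- B = A
      apply hAodd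
      have : P.a ^ P.p = P.b ^ P.p := by linarith
      rw [this]
      exact hB2
    · -- B = -2A
      have hAB : P.a ^ P.p ∣ P.b ^ P.p := ⟨-2, by linarith⟩
      have hu : IsUnit (P.a ^ P.p) := hgcd.isUnit_of_dvd' dvd_rfl hAB
      rcases Int.isUnit_iff.1 hu with h1 | h1
      · rw [h1] at h
        have : P.b ^ P.p = -2 := by linarith
        rw [this] at h32
        omega
      · rw [h1] at h
        have : P.b ^ P.p = 2 := by linarith
        rw [this] at h32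
        omega
  · -- A = -2B
    apply hAodd
    exact ⟨-(P.b ^ P.p), by linarith⟩

theorem s12h_frey_c₄_ne (P : FreyPackage) : P.freyCurveInt.c₄ ≠ 0 := by
  rw [Fermat.Agent.S04.freyCurveInt_c₄]
  have hb : P.b ^ P.p ≠ 0 := pow_ne_zero _ P.hb0
  intro h
  apply hb
  have h4 : (2 * P.a ^ P.p + P.b ^ P.p) ^ 2 + 3 * (P.b ^ P.p) ^ 2 = 0 := by
    linear_combination 4 * h
  have hB : (P.b ^ P.p) ^ 2 = 0 := by
    nlinarith [sq_nonneg (2 * P.a ^ P.p + P.b ^ P.p), sq_nonneg (P.b ^ P.p)]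
  exact pow_eq_zero_iff (two_ne_zero) |>.1 hB

theorem s12h_frey_two_dvd_Δ (P : FreyPackage) : (2 : ℤ) ∣ P.freyCurveInt.Δ := by
  have h1 := Fermat.Agent.S04.freyCurveInt_Δ P
  obtain ⟨t, ht⟩ := Fermat.Agent.S04.frey_thirtytwo_dvd_b_pow P
  rw [ht] at h1
  have h2 : P.freyCurveInt.Δ = 2 * (2 * ((P.a ^ P.p) ^ 2 * t ^ 2 * (P.c ^ P.p) ^ 2)) := by
    have : (2 : ℤ) ^ 8 * P.freyCurveInt.Δ =
        2 ^ 8 * (2 * (2 * ((P.a ^ P.p) ^ 2 * t ^ 2 * (P.c ^ P.p) ^ 2))) := by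
      rw [h1]; ring
    exact mul_left_cancel₀ (by norm_num) this
  rw [h2]
  exact dvd_mul_right _ _

/-- transport along an equality of curves -/
theorem s12h_hs15_congr {E E' : WeierstrassCurve ℚ} (h : E = E') (p : ℕ)
    (H : HS15 ((E⁄Qb).Point) p) : HS15 ((E'⁄Qb).Point) p := by
  subst h; exact H

theorem s12h_hcard_congr {E E' : WeierstrassCurve ℚ} (h : E = E') (p : ℕ)
    (H : HCard ((E⁄Qb).Point) p) : HCard ((E'⁄Qb).Point) p := by
  subst h; exact H

/-- **G-HS15.** -/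
theorem stmtHS15_of (hvelu : StmtVelu) (hU1 : StmtU1) (hE0 : StmtE0Add) (hL2 : StmtL1Two)
    (hL3 : StmtL1Three) (hGT : StmtGoodTors) (hGL : StmtGoodLine) (hGU : StmtGoodUnr)
    (hC : StmtCard) : StmtHS15 := by
  intro h15 P hp17
  haveI : Fact P.p.Prime := ⟨P.pp⟩
  have hmap := Fermat.Agent.S04.freyCurveInt_map P
  have hcard : HCard (PtZ P.freyCurveInt) P.p := s12h_hcard_congr hmap.symm P.p (hC P)
  exact s12h_hs15_congr hmap P.p
    (s12h_hs15 hvelu hU1 hE0 hL2 hL3 hGT hGL hGU h15 P.freyCurveInt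
      (Fermat.Agent.S04.freyCurveInt_Δ_ne_zero P) (s12h_frey_c₄_ne P) (s12h_frey_c₆_ne P)
      (Fermat.Agent.S04.freyCurveInt_isSemistableModel P) (s12h_frey_two_dvd_Δ P) hp17 hcard)

end Fermat.Agent.S12
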