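import Fermat.Agent.S12.Plan
import Fermat.Agent.S15.ECLoc

/-!
# S12 glue, piece G-L1: rational points of prime order miss the identity component at `2`, `3`

* `s12l1_dvd_card` : a rational point `Q` of prime order `p ≠ ℓ` lying in the identity component
  at a place `A ∣ ℓ` gives `p ∣ #W(𝔽_ℓ)` (nonsingular points; no hypothesis on the reduction);
* `stmtL1Three : StmtL1Three` (from `S15.ecloc_not_inZero`);
* `stmtL1Two : StmtL1Two` (`#W(𝔽₂) ≤ 5`).
-/

set_option autoImplicit false
set_option linter.unusedSectionVars false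

namespace Fermat.Agent.S12

open WeierstrassCurve WeierstrassCurve.Affine Fermat.Agent.RED Fermat.Agent.S05
  Fermat.Agent.S15 Fermat.Agent.S15.ECL

/-- a rational point of prime order `p ≠ ℓ` in the identity component at `A ∣ ℓ` reduces to a
point of order `p` of the reduced curve: `p ∣ #W(𝔽_ℓ)` -/
theorem s12l1_dvd_card (W : WeierstrassCurve ℤ) {p ℓ : ℕ} (hp : p.Prime) (hℓ : ℓ.Prime)
    (hℓp : ℓ ≠ p) (Q : PtZ W)
    (hQfix : ∀ σ : GQ, σ • Q = Q) (hQord : addOrderOf Q = p)
    (A : ValuationSubring Qb) (hA : A.LiesOverPrime ℓ) (h0 : W.InZeroComponentAt A Q) :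
    p ∣ Nat.card (W⁄(ZMod ℓ)).Point := by
  have : Fact ℓ.Prime := ⟨hℓ⟩
  let _ : DecidableEq (IsLocalRing.ResidueField A) := Classical.decEq _
  have hchar : CharP (IsLocalRing.ResidueField A) ℓ := charP_residueField A hℓ hA
  let ι : ZMod ℓ →+* IsLocalRing.ResidueField A := ZMod.castHom (dvd_refl ℓ) _
  let f : ZMod ℓ →ₐ[ℤ] IsLocalRing.ResidueField A := ι.toIntAlgHom
  have hfι : ∀ z, f z = ι z := fun z => rfl
  have hE0 : InE0 (pointCongr (baseChange_eq_curveK W A) Q) := (ecloc_inE0_iff Q).2 h0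
  have hord' : addOrderOf (pointCongr (baseChange_eq_curveK W A) Q) = p := by
    rw [AddEquiv.addOrderOf_eq, hQord]
  have hpA : ((p : ℕ) : Qb) ∉ A.nonunits := fun h =>
    hℓp ((Nat.prime_dvd_prime_iff_eq hℓ hp).1 ((natCast_mem_nonunits_iff A hℓ hA p).1 h))
  have hred := addOrderOf_redPt0 hp hpA hE0 hord'
  rcases Q with _ | ⟨x, y, h⟩
  · exfalso
    have h1 : (Point.zero : ((W.map (Int.castRingHom ℚ))⁄Qb).Point) = 0 := rfl
    rw [h1, addOrderOf_zero] at hQord
    exact hp.one_lt.ne hQord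
  obtain ⟨rx, ry, rfl, rfl⟩ := ecloc_rat_of_fixed W h hQfix
  rw [pointCongr_some] at hE0 hred
  rcases hE0 with hx | ⟨hx, hy, hns⟩
  · exfalso
    rw [redPt0_of_not_mem _ hx, addOrderOf_zero] at hred
    exact hp.one_lt.ne hred
  rw [redPt0_coe (a := ⟨_, hx⟩) (b := ⟨_, hy⟩) _ hns] at hred
  have ex := ecloc_residue_rat A ι hA rx hx
  have ey := ecloc_residue_rat A ι hA ry hy
  have hk : (W⁄(IsLocalRing.ResidueField A)).Nonsingular (f (eclocRatRes ℓ rx))
      (f (eclocRatRes ℓ ry)) := by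
    rw [hfι, hfι, ← ex, ← ey]
    exact (ecloc_nsRes_iff hx hy).1 hns
  have h₀ : (W⁄(ZMod ℓ)).Nonsingular (eclocRatRes ℓ rx) (eclocRatRes ℓ ry) :=
    (WeierstrassCurve.Affine.baseChange_nonsingular W (f := f) f.injective _ _).1 hk
  have hmap : Point.map (W' := W) f (Point.some _ _ h₀) =
      pointCongr (ecloc_curveRes_eq W A) (Point.some _ _ hns) := by
    rw [Point.map_some, pointCongr_some]
    exact some_congr _ _ (by rw [hfι, ← ex]) (by rw [hfι, ← ey])
  have hord₀ : addOrderOf (Point.some _ _ h₀ : (W⁄(ZMod ℓ)).Point) = p := by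
    have e1 := addOrderOf_injective (Point.map (W' := W) f) (Point.map_injective f)
      (Point.some _ _ h₀)
    have e2 := AddEquiv.addOrderOf_eq (pointCongr (ecloc_curveRes_eq W A)) (Point.some _ _ hns)
    have e3 := congrArg addOrderOf hmap
    exact e1.symm.trans (e3.trans (e2.trans hred))
  rw [← hord₀]
  exact addOrderOf_dvd_natCard _

/-- the points of a Weierstrass curve over `𝔽₂`, as a subset of `{∞} ∪ 𝔽₂²` -/
def s12l1_code (W : WeierstrassCurve ℤ) :
    (W⁄(ZMod 2)).Point → Option (ZMod 2 × ZMod 2)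
  | .zero => none
  | .some x y _ => some (x, y)

theorem s12l1_code_injective (W : WeierstrassCurve ℤ) : Function.Injective (s12l1_code W) := by
  rintro (_ | ⟨x, y, h⟩) (_ | ⟨x', y', h'⟩) he
  · rfl
  · exact absurd he (by simp [s12l1_code])
  · exact absurd he (by simp [s12l1_code])
  · have h2 : (x, y) = (x', y') := Option.some.inj he
    obtain ⟨rfl, rfl⟩ := Prod.mk.inj h2
    rfl

theorem s12l1_card_two (W : WeierstrassCurve ℤ) :
    0 < Nat.card (W⁄(ZMod 2)).Point ∧ Nat.card (W⁄(ZMod 2)).Point ≤ 5 := by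
  have : Finite (W⁄(ZMod 2)).Point := Finite.of_injective _ (s12l1_code_injective W)
  refine ⟨Nat.card_pos, ?_⟩
  have h := Nat.card_le_card_of_injective _ (s12l1_code_injective W)
  have h5 : Nat.card (Option (ZMod 2 × ZMod 2)) = 5 := by
    rw [Nat.card_eq_fintype_card, Fintype.card_option, Fintype.card_prod, ZMod.card]
  rwa [h5] at h

/-- **L1-TWO.** -/
theorem stmtL1Two : StmtL1Two := by
  intro W _ _ _ p hp hp7 Q hQfix hQord A hA h0
  have hdvd := s12l1_dvd_card W hp Nat.prime_two (by omega) Q hQfix hQord A hA h0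
  obtain ⟨hpos, hle⟩ := s12l1_card_two W
  have := Nat.le_of_dvd hpos hdvd
  omega

/-- **L1-THREE.** -/
theorem stmtL1Three : StmtL1Three := by
  intro W _ h3Δ h3c p hp hp5 Q hQfix hQord A hA
  refine ecloc_not_inZero W hp Nat.prime_three (by norm_num) (by omega) h3Δ h3c Q hQfix hQord
    ?_ ?_ A hA
  · intro hd
    have := Nat.le_of_dvd (by norm_num) hd
    omega
  · intro hd
    have := Nat.le_of_dvd (by norm_num) hd
    omega

end Fermat.Agent.S12
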