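import Fermat.Agent.S12.Plan
import Fermat.Agent.S13.StepP
import Fermat.Agent.S15.N3Sub
import Fermat.Agent.S13.Torsion
import Fermat.Agent.S13.DivPoly.Bridge
import Fermat.Agent.S13.Wiring
import Fermat.Agent.EC.Tors

/-!
# S12 / G-LOCP (helper8): the kernel of reduction of the Frey curve at a place over `p`

`stmtLocP : StmtLocP` : for every place `A ∣ p = P.p` the kernel of reduction
`Z = {O} ∪ {Q : x(Q) ∉ A}` (`s12locpZ`, = `S15.n3subKer`) is a `D_A`-stable subgroup of `E(ℚ̄)` which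
contains `σ R - R` for `σ ∈ I_A` and every `p`-power torsion point `R`, and which does not contain
`E[p]` (if there is a cofixed line).

* `s12locp_inertia_pow` : in residue characteristic `p`, if `v(X) ^ (p ^ j)` is the valuation of a
  nonzero rational number then `v(σ X - X) < v(X)` for `σ ∈ I_A` (`(σX/X)^(p^j) ≡ 1 ⇒ σX/X ≡ 1`).
* `s12locp_local_move` : `S13.stepP_local_move` with the node hypothesis in its final form.
* `s12locp_frey_move` : `S13.stepP_frey_move` for `p ^ m`-torsion at `A ∣ p`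
  (`S05.tropical_torsion` for the odd number `p ^ m`).
* `s12locp_exists` : `S13.stepP_key` (Gauss lemma for the division polynomial) + `#E[p] = p²`.
-/

set_option autoImplicit false
set_option linter.unusedSectionVars false
set_option linter.unusedVariables false
set_option linter.style.haveILetI false

namespace Fermat.Agent.S12

open WeierstrassCurve WeierstrassCurve.Affine WeierstrassCurve.Affine.Point
open Fermat.Agent.S05 Fermat.Agent.S13

section Val

variable {L : Type*} [Field L] [Algebra ℚ L]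

/-- in residue characteristic `p`: a unit `t` of `A` with `t ^ (p ^ j) ≡ 1` is `≡ 1` -/
theorem s12locp_sub_one_mem (A : ValuationSubring L) {p : ℕ} (hp : p.Prime)
    (hpA : (p : L) ∈ A.nonunits) (j : ℕ) {t : L} (ht : t ∈ A)
    (h : t ^ (p ^ j) - 1 ∈ A.nonunits) : t - 1 ∈ A.nonunits := by
  obtain ⟨r, hr⟩ := exists_add_pow_prime_pow_eq hp (⟨t, ht⟩ - 1 : A) (1 : A) j
  have hr' := congrArg (fun a : A => (a : L)) hr
  simp only [sub_add_cancel, one_pow] at hr'
  push_cast at hr'
  have e : (t - 1) ^ (p ^ j) = (t ^ (p ^ j) - 1) - (p : L) * ((t - 1) * (r : L)) := by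
    linear_combination (-1 : L) * hr'
  have h1 : (p : L) * ((t - 1) * (r : L)) ∈ A.nonunits :=
    vs_mul_mem_nonunits' A hpA (mul_mem (sub_mem ht A.one_mem) r.2)
  have h2 : (t - 1) ^ (p ^ j) ∈ A.nonunits := by
    rw [e]
    exact vs_nonunits_sub A h h1
  rw [A.mem_nonunits_iff] at h2 ⊢
  rw [map_pow] at h2
  by_contra hge
  rw [not_lt] at hge
  exact absurd h2 (not_lt.2 (one_le_pow₀ hge))

/-- **inertia at `p` and `p`-power roots.**  If `v(X) ^ (p ^ j)` is the valuation of a nonzero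
rational number and the residue characteristic is `p`, inertia moves `X` by less than `X`. -/
theorem s12locp_inertia_pow (A : ValuationSubring L) {σ : L ≃ₐ[ℚ] L}
    (hσ : σ ∈ A.inertiaSubgroupIn ℚ) {p : ℕ} (hp : p.Prime) (hpA : (p : L) ∈ A.nonunits)
    (j : ℕ) {X : L} {c : ℚ} (hc : c ≠ 0)
    (hX : A.valuation X ^ (p ^ j) = A.valuation (algebraMap ℚ L c)) :
    A.valuation (σ X - X) < A.valuation X := by
  have hcL : algebraMap ℚ L c ≠ 0 := (map_ne_zero (algebraMap ℚ L)).2 hc
  have hvc : A.valuation (algebraMap ℚ L c) ≠ 0 := (Valuation.ne_zero_iff _).2 hcL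
  have hpj : p ^ j ≠ 0 := pow_ne_zero _ hp.ne_zero
  have hX0 : X ≠ 0 := by
    rintro rfl
    rw [_root_.map_zero, zero_pow hpj] at hX
    exact hvc hX.symm
  have hvX0 : A.valuation X ≠ 0 := (Valuation.ne_zero_iff _).2 hX0
  -- the unit `u = X ^ (p ^ j) / c`
  set u : L := X ^ (p ^ j) / algebraMap ℚ L c with hu
  have hvu : A.valuation u = 1 := by
    rw [hu, map_div₀, map_pow, hX, div_self hvc]
  have huA : u ∈ A := (A.valuation_le_one_iff _).1 hvu.le
  have hu0 : u ≠ 0 := by
    rw [← Valuation.ne_zero_iff A.valuation, hvu]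
    exact one_ne_zero
  have h1 := inertia_apply_sub_mem_nonunits hσ huA
  set t : L := σ X / X with ht
  have hσu : σ u = t ^ (p ^ j) * u := by
    rw [hu, ht, map_div₀, map_pow, AlgEquiv.commutes, div_pow]
    field_simp
  have h2 : t ^ (p ^ j) - 1 ∈ A.nonunits := by
    have e : t ^ (p ^ j) - 1 = (σ u - u) * u⁻¹ := by
      rw [hσu]
      field_simp
    rw [e]
    refine vs_mul_mem_nonunits' A h1 ?_
    rw [← A.valuation_le_one_iff, map_inv₀, hvu, inv_one]
  have hvt : A.valuation t = 1 := by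
    have h3 : A.valuation (t ^ (p ^ j)) = 1 := by
      have e : t ^ (p ^ j) = 1 + (t ^ (p ^ j) - 1) := by ring
      rw [e, Valuation.map_add_eq_of_lt_left _
        (by rw [map_one]; exact (A.mem_nonunits_iff).1 h2), map_one]
    rw [map_pow] at h3
    exact (pow_eq_one_iff_of_nonneg zero_le hpj).1 h3
  have htA : t ∈ A := (A.valuation_le_one_iff _).1 hvt.le
  have h4 := s12locp_sub_one_mem A hp hpA j htA h2
  rw [A.mem_nonunits_iff] at h4
  have e : σ X - X = (t - 1) * X := by
    rw [ht]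
    field_simp
  rw [e, map_mul]
  calc A.valuation (t - 1) * A.valuation X < 1 * A.valuation X :=
        mul_lt_mul_of_pos_right h4 (zero_lt_iff.2 hvX0)
    _ = A.valuation X := one_mul _

end Val

section LocalMove

variable {L : Type*} [Field L] [DecidableEq L] [Algebra ℚ L]

/-- `S13.stepP_local_move` with the node hypothesis in its final form (no torsion hypothesis):
an integral point `Q = (x, y)` is moved by inertia inside the kernel of reduction, provided that,
when `Q` reduces to the node, `v e₂ < v (x - r₁)` and `v (σ x - x) < v (x - r₁)`. -/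
theorem s12locp_local_move (A : ValuationSubring L) {σ : L ≃ₐ[ℚ] L}
    (hσ : σ ∈ A.inertiaSubgroupIn ℚ)
    (W₀ : WeierstrassCurve ℚ)
    (h₁ : (W₀.baseChange L).a₁ ∈ A) (h₂ : (W₀.baseChange L).a₂ ∈ A)
    (h₃ : (W₀.baseChange L).a₃ ∈ A) (h₄ : (W₀.baseChange L).a₄ ∈ A)
    (h₆ : (W₀.baseChange L).a₆ ∈ A)
    (h2 : A.valuation (2 : L) = 1)
    (r₁ e₂ e₃ : L) (hσr : σ r₁ = r₁) (hr₁ : r₁ ∈ A)
    (hr : RootData (W₀.baseChange L) r₁ e₂ e₃)
    (he₃ : A.valuation e₃ = 1) (he₂₃ : A.valuation (e₃ - e₂) = 1) (he₂ : A.valuation e₂ ≤ 1)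
    {x y : L} (h : (W₀.baseChange L).toAffine.Nonsingular x y) (hxA : x ∈ A)
    (hnode : A.valuation e₂ < 1 → A.valuation (x - r₁) < 1 →
      A.valuation e₂ < A.valuation (x - r₁) ∧ A.valuation (σ x - x) < A.valuation (x - r₁))
    (h' : (W₀.baseChange L).toAffine.Nonsingular (σ x) (σ y))
    (hne : Point.some (σ x) (σ y) h' ≠ Point.some x y h) :
    ∃ (x'' y'' : L) (h'' : (W₀.baseChange L).toAffine.Nonsingular x'' y''),
      Point.some (σ x) (σ y) h' - Point.some x y h = Point.some x'' y'' h'' ∧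
        1 < A.valuation x'' := by
  classical
  obtain ⟨hb₂, hb₄, hb₆, hb₈⟩ := kernel_b_mem A h₁ h₂ h₃ h₄ h₆
  have hyA : y ∈ A := stepP_y_mem A _ h₁ h₂ h₃ h₄ h₆ h.1 hxA
  have hvb₂ : A.valuation (W₀.baseChange L).b₂ ≤ 1 := (A.valuation_le_one_iff _).2 hb₂
  have hvb₄ : A.valuation (W₀.baseChange L).b₄ ≤ 1 := (A.valuation_le_one_iff _).2 hb₄
  have hvx : A.valuation x ≤ 1 := (A.valuation_le_one_iff _).2 hxA
  have hx'A : σ x ∈ A := (inertia_apply_mem_iff hσ x).2 hxA
  have hvx' : A.valuation (σ x) ≤ 1 := (A.valuation_le_one_iff _).2 hx'A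
  have hηA : eta (W₀.baseChange L) x y ∈ A := by
    simp only [eta]
    exact add_mem (add_mem (mul_mem (ofNat_mem A 2) hyA) (mul_mem h₁ hxA)) h₃
  have hvη : A.valuation (eta (W₀.baseChange L) x y) ≤ 1 := (A.valuation_le_one_iff _).2 hηA
  have hxx : A.valuation (σ x - x) < 1 :=
    (A.mem_nonunits_iff).1 (inertia_apply_sub_mem_nonunits hσ hxA)
  have hηη : A.valuation (eta (W₀.baseChange L) (σ x) (σ y) - eta (W₀.baseChange L) x y) < 1 := by
    rw [eta_galois]
    exact (A.mem_nonunits_iff).1 (inertia_apply_sub_mem_nonunits hσ hηA)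
  have hη_sq : eta (W₀.baseChange L) x y ^ 2 = 4 * (x - r₁) * (x - r₁ - e₂) * (x - r₁ - e₃) := by
    rw [eta_sq _ h.1, hr.cub_eq]
  have hdc := hr.dcub_eq x
  have hs₁ : A.valuation (x - r₁) ≤ 1 := (A.valuation_le_one_iff _).2 (sub_mem hxA hr₁)
  have he₂A : e₂ ∈ A := (A.valuation_le_one_iff _).1 he₂
  have he₃A : e₃ ∈ A := (A.valuation_le_one_iff _).1 he₃.le
  have hs₂ : A.valuation (x - r₁ - e₂) ≤ 1 :=
    (A.valuation_le_one_iff _).2 (sub_mem (sub_mem hxA hr₁) he₂A)
  have hs₃ : A.valuation (x - r₁ - e₃) ≤ 1 :=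
    (A.valuation_le_one_iff _).2 (sub_mem (sub_mem hxA hr₁) he₃A)
  rcases hs₁.lt_or_eq with hlt | heq
  · -- `x ≡ r₁`
    have hs₃' : A.valuation (x - r₁ - e₃) = 1 := by
      rw [Valuation.map_sub_eq_of_lt_right _ (by rw [he₃]; exact hlt), he₃]
    rcases he₂.lt_or_eq with he₂lt | he₂eq
    · -- the node case
      obtain ⟨hlow, hxx'⟩ := hnode he₂lt hlt
      have hX0 : x - r₁ ≠ 0 := by
        intro h0
        rw [h0, _root_.map_zero] at hlow
        exact not_lt_zero hlow
      have hvX0 : A.valuation (x - r₁) ≠ 0 := (Valuation.ne_zero_iff _).2 hX0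
      have hs₂' : A.valuation (x - r₁ - e₂) = A.valuation (x - r₁) :=
        Valuation.map_sub_eq_of_lt_left _ hlow
      have h4 : A.valuation (4 : L) = 1 := key_val_four _ h2
      have hηv : A.valuation (eta (W₀.baseChange L) x y) = A.valuation (x - r₁) := by
        have : A.valuation (eta (W₀.baseChange L) x y) ^ 2 = A.valuation (x - r₁) ^ 2 := by
          rw [← map_pow, hη_sq, map_mul, map_mul, map_mul, h4, hs₂', hs₃', one_mul, mul_one,
            sq]
        exact (pow_left_inj₀ zero_le zero_le two_ne_zero).1 this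
      have ht : A.valuation (eta (W₀.baseChange L) x y / (x - r₁)) = 1 := by
        rw [map_div₀, hηv, div_self hvX0]
      have htA : eta (W₀.baseChange L) x y / (x - r₁) ∈ A :=
        (A.valuation_le_one_iff _).1 ht.le
      have htt : A.valuation (eta (W₀.baseChange L) (σ x) (σ y) / (σ x - r₁) -
          eta (W₀.baseChange L) x y / (x - r₁)) < 1 := by
        have e : eta (W₀.baseChange L) (σ x) (σ y) / (σ x - r₁) =
            σ (eta (W₀.baseChange L) x y / (x - r₁)) := by
          rw [map_div₀, map_sub, hσr, eta_galois]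
        rw [e]
        exact (A.mem_nonunits_iff).1 (inertia_apply_sub_mem_nonunits hσ htA)
      exact key_node _ hvb₂ h2 h h' r₁ hvx hvx' hX0 hxx' ht htt hne
    · -- `e₂` is a unit: no node
      have hs₂' : A.valuation (x - r₁ - e₂) = 1 := by
        rw [Valuation.map_sub_eq_of_lt_right _ (by rw [he₂eq]; exact hlt), he₂eq]
      have hns := hns_of_two_units A.valuation h2 (η := eta (W₀.baseChange L) x y)
        (c := 0) (d := dcub (W₀.baseChange L) x) (u₁ := x - r₁ - e₂) (u₂ := x - r₁ - e₃)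
        (s := x - r₁) (hη_sq.trans (by ring)) (hdc.trans (by ring)) hs₂' hs₃' hs₁
      exact key_nonsing _ hvb₂ hvb₄ h2 h h' hvx hvη hxx hηη hne hns
  · -- `x ≢ r₁`
    rcases hs₂.lt_or_eq with hlt₂ | heq₂
    · have hs₃' : A.valuation (x - r₁ - e₃) = 1 := by
        have e : x - r₁ - e₃ = (x - r₁ - e₂) - (e₃ - e₂) := by ring
        rw [e, Valuation.map_sub_eq_of_lt_right _ (by rw [he₂₃]; exact hlt₂), he₂₃]
      have hns := hns_of_two_units A.valuation h2 (η := eta (W₀.baseChange L) x y)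
        (c := 0) (d := dcub (W₀.baseChange L) x) (u₁ := x - r₁) (u₂ := x - r₁ - e₃)
        (s := x - r₁ - e₂) (hη_sq.trans (by ring)) (hdc.trans (by ring)) heq hs₃' hs₂
      exact key_nonsing _ hvb₂ hvb₄ h2 h h' hvx hvη hxx hηη hne hns
    · have hns := hns_of_two_units A.valuation h2 (η := eta (W₀.baseChange L) x y)
        (c := 0) (d := dcub (W₀.baseChange L) x) (u₁ := x - r₁) (u₂ := x - r₁ - e₂)
        (s := x - r₁ - e₃) (hη_sq.trans (by ring)) (hdc.trans (by ring)) heq heq₂ hs₃
      exact key_nonsing _ hvb₂ hvb₄ h2 h h' hvx hvη hxx hηη hne hns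

end LocalMove


section FreyMove

variable (P : FreyPackage) {L : Type*} [Field L] [DecidableEq L] [Algebra ℚ L]

/-- For the Frey curve at a place over `p = P.p`: inertia moves an integral `p ^ m`-torsion point
inside the kernel of reduction. -/
theorem s12locp_frey_move
    (A : ValuationSubring L) (hA : A.LiesOverPrime P.p) {σ : L ≃ₐ[ℚ] L}
    (hσ : σ ∈ A.inertiaSubgroupIn ℚ) (m : ℕ)
    {x y : L} (h : (P.freyCurve.baseChange L).toAffine.Nonsingular x y)
    (htors : P.p ^ m • Point.some x y h = 0) (hxA : x ∈ A)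
    (h' : (P.freyCurve.baseChange L).toAffine.Nonsingular (σ x) (σ y))
    (hne : Point.some (σ x) (σ y) h' ≠ Point.some x y h) :
    ∃ (x'' y'' : L) (h'' : (P.freyCurve.baseChange L).toAffine.Nonsingular x'' y''),
      Point.some (σ x) (σ y) h' - Point.some x y h = Point.some x'' y'' h'' ∧
        1 < A.valuation x'' := by
  have hq : P.p.Prime := P.pp
  have hq2 : P.p ≠ 2 := stepP_p_ne_two P
  have hchar := charZero_of_algebraRat L
  obtain ⟨h₁, h₂, h₃, h₄, h₆⟩ := frey_coeff_mem P A hq hq2 hA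
  have h2 : A.valuation (2 : L) = 1 := valuation_two_eq_one A hq hA hq2
  have h4 : A.valuation (4 : L) = 1 := valuation_four_eq_one A hq hA hq2
  have hpA : (P.p : L) ∈ A.nonunits := (natCast_mem_nonunits_iff A hq hA P.p).2 dvd_rfl
  have hflt := frey_flt_cast P L
  have hodd : Odd (P.p ^ m) := P.hp_odd.pow
  have hσint : ∀ n : ℤ, σ ((n : L) ^ P.p / 4) = (n : L) ^ P.p / 4 := by
    intro n
    rw [map_div₀, map_pow, galois_fixes_int, map_ofNat]
  have hmem : ∀ n : ℤ, (n : L) ^ P.p / 4 ∈ A := by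
    intro n
    rw [← A.valuation_le_one_iff, valuation_div_of_eq_one A h4, A.valuation_le_one_iff]
    exact pow_mem (intCast_mem A n) _
  -- the node hypothesis in the three multiplicative cases
  have hnodeHyp : ∀ (n : ℤ) (r₁ e₂ e₃ : L), n ≠ 0 → σ r₁ = r₁ →
      A.valuation e₂ = A.valuation (n : L) ^ P.p →
      RootData (P.freyCurve.baseChange L) r₁ e₂ e₃ → r₁ ∈ A → A.valuation e₃ = 1 →
      A.valuation e₂ < 1 → A.valuation (x - r₁) < 1 →
      A.valuation e₂ < A.valuation (x - r₁) ∧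
        A.valuation (σ x - x) < A.valuation (x - r₁) := by
    intro n r₁ e₂ e₃ hn hσr hval hr hr₁ he₃ he₂ hlt
    have hnL : (n : L) ≠ 0 := by exact_mod_cast hn
    have hvn : A.valuation (n : L) ≠ 0 := (Valuation.ne_zero_iff _).2 hnL
    have he₂0 : e₂ ≠ 0 := by
      rw [← Valuation.ne_zero_iff A.valuation, hval]
      exact pow_ne_zero _ hvn
    obtain ⟨hlow, k, hk⟩ := tropical_torsion A.valuation hr.hb₂ hr.hb₄ hr.hb₆ h2 he₃ he₂ he₂0
      hodd h htors hlt
    refine ⟨hlow, ?_⟩
    cases m with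
    | zero =>
      rw [pow_zero, one_nsmul] at htors
      exact absurd htors (Point.some_ne_zero _)
    | succ j =>
      have hcast : algebraMap ℚ L ((n : ℚ) ^ (2 * k)) = (n : L) ^ (2 * k) := by
        rw [map_zpow₀, map_intCast]
      have hvc : A.valuation (algebraMap ℚ L ((n : ℚ) ^ (2 * k))) =
          A.valuation (n : L) ^ (2 * k) := by
        rw [hcast, map_zpow₀]
      have hX : A.valuation (x - r₁) ^ (P.p ^ j) =
          A.valuation (algebraMap ℚ L ((n : ℚ) ^ (2 * k))) := by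
        have e1 : (A.valuation (x - r₁) ^ (P.p ^ j)) ^ P.p =
            (A.valuation (algebraMap ℚ L ((n : ℚ) ^ (2 * k)))) ^ P.p := by
          rw [hvc, ← pow_mul, ← pow_succ, hk, hval,
            ← zpow_natCast (A.valuation (n : L)) P.p, ← zpow_mul,
            ← zpow_natCast (A.valuation (n : L) ^ (2 * k)) P.p, ← zpow_mul, mul_comm]
        exact (pow_left_inj₀ zero_le zero_le P.hp0).1 e1
      have hc : ((n : ℚ) ^ (2 * k)) ≠ 0 := zpow_ne_zero _ (by exact_mod_cast hn)
      have hmove := s12locp_inertia_pow A hσ hq hpA j hc hX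
      have e : σ (x - r₁) - (x - r₁) = σ x - x := by rw [map_sub, hσr]; ring
      rwa [e] at hmove
  have hvpow : ∀ n : ℤ, A.valuation ((n : L) ^ P.p / 4) = A.valuation (n : L) ^ P.p := by
    intro n
    rw [valuation_div_of_eq_one A h4, map_pow]
  have hvnpow : ∀ n : ℤ, A.valuation (-((n : L) ^ P.p) / 4) = A.valuation (n : L) ^ P.p := by
    intro n
    rw [valuation_div_of_eq_one A h4, Valuation.map_neg, map_pow]
  rcases frey_cases P hq with ⟨ha, hb, hc⟩ | ⟨ha, hb, hc⟩ | ⟨ha, hb, hc⟩ | ⟨ha, hb, hc⟩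
  · -- good reduction
    refine s12locp_local_move A hσ P.freyCurve h₁ h₂ h₃ h₄ h₆ h2 0
      ((P.a : L) ^ P.p / 4)
      (-((P.b : L) ^ P.p) / 4) (_root_.map_zero σ) (zero_mem A) (frey_rootData_a P L)
      (valuation_neg_pow_div_four_eq_one A hq hq2 hA hb _) ?_
      (valuation_pow_div_four_eq_one A hq hq2 hA ha _).le h hxA ?_ h' hne
    · have e : -((P.b : L) ^ P.p) / 4 - (P.a : L) ^ P.p / 4 = -((P.c : L) ^ P.p) / 4 := by
        rw [← hflt]; ring
      rw [e]
      exact valuation_neg_pow_div_four_eq_one A hq hq2 hA hc _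
    · intro hlt _
      rw [valuation_pow_div_four_eq_one A hq hq2 hA ha _] at hlt
      exact absurd hlt (lt_irrefl _)
  · -- `q ∣ a`
    refine s12locp_local_move A hσ P.freyCurve h₁ h₂ h₃ h₄ h₆ h2 0
      ((P.a : L) ^ P.p / 4)
      (-((P.b : L) ^ P.p) / 4) (_root_.map_zero σ) (zero_mem A) (frey_rootData_a P L)
      (valuation_neg_pow_div_four_eq_one A hq hq2 hA hb _) ?_
      (valuation_pow_div_four_lt_one A hq hq2 hA P.ha0 ha P.hp0).2.le h hxA ?_ h' hne
    · have e : -((P.b : L) ^ P.p) / 4 - (P.a : L) ^ P.p / 4 = -((P.c : L) ^ P.p) / 4 := by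
        rw [← hflt]; ring
      rw [e]
      exact valuation_neg_pow_div_four_eq_one A hq hq2 hA hc _
    · intro hlt hlt'
      exact hnodeHyp P.a 0 _ _ P.ha0 (_root_.map_zero σ) (hvpow _) (frey_rootData_a P L)
        (zero_mem A) (valuation_neg_pow_div_four_eq_one A hq hq2 hA hb _) hlt hlt'
  · -- `q ∣ b`
    refine s12locp_local_move A hσ P.freyCurve h₁ h₂ h₃ h₄ h₆ h2 0
      (-((P.b : L) ^ P.p) / 4)
      ((P.a : L) ^ P.p / 4) (_root_.map_zero σ) (zero_mem A) (frey_rootData_b P L)
      (valuation_pow_div_four_eq_one A hq hq2 hA ha _) ?_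
      (valuation_neg_pow_div_four_lt_one A hq hq2 hA P.hb0 hb P.hp0).2.le h hxA ?_ h' hne
    · have e : (P.a : L) ^ P.p / 4 - -((P.b : L) ^ P.p) / 4 = (P.c : L) ^ P.p / 4 := by
        rw [← hflt]; ring
      rw [e]
      exact valuation_pow_div_four_eq_one A hq hq2 hA hc _
    · intro hlt hlt'
      exact hnodeHyp P.b 0 _ _ P.hb0 (_root_.map_zero σ) (hvnpow _) (frey_rootData_b P L)
        (zero_mem A) (valuation_pow_div_four_eq_one A hq hq2 hA ha _) hlt hlt'
  · -- `q ∣ c`
    refine s12locp_local_move A hσ P.freyCurve h₁ h₂ h₃ h₄ h₆ h2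
      ((P.a : L) ^ P.p / 4)
      (-((P.c : L) ^ P.p) / 4) (-((P.a : L) ^ P.p) / 4) (hσint _) (hmem _)
      (frey_rootData_c P L)
      (valuation_neg_pow_div_four_eq_one A hq hq2 hA ha _) ?_
      (valuation_neg_pow_div_four_lt_one A hq hq2 hA P.hc0 hc P.hp0).2.le h hxA ?_ h' hne
    · have e : -((P.a : L) ^ P.p) / 4 - -((P.c : L) ^ P.p) / 4 = (P.b : L) ^ P.p / 4 := by
        rw [← hflt]; ring
      rw [e]
      exact valuation_pow_div_four_eq_one A hq hq2 hA hb _
    · intro hlt hlt'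
      exact hnodeHyp P.c _ _ _ P.hc0 (hσint _) (hvnpow _) (frey_rootData_c P L) (hmem _)
        (valuation_neg_pow_div_four_eq_one A hq hq2 hA ha _) hlt hlt'

end FreyMove


section Main

open Fermat.Agent.S15

/-- the Frey curve over `ℚ̄` has coefficients in `A`, for `A` over `p` -/
theorem s12locp_int (P : FreyPackage) (A : ValuationSubring Qb) (hA : A.LiesOverPrime P.p) :
    N3Int A (P.freyCurve.baseChange Qb) := by
  obtain ⟨h₁, h₂, h₃, h₄, h₆⟩ := frey_coeff_mem P A P.pp (stepP_p_ne_two P) hA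
  exact ⟨h₁, h₂, h₃, h₄, h₆⟩

/-- the kernel of reduction of the Frey curve at `A ∣ p` -/
noncomputable def s12locpZ (P : FreyPackage) (A : ValuationSubring Qb)
    (hA : A.LiesOverPrime P.p) : AddSubgroup (Pt P) :=
  n3subKer A (P.freyCurve.baseChange Qb) (s12locp_int P A hA)

theorem s12locp_mem_Z_iff (P : FreyPackage) (A : ValuationSubring Qb)
    (hA : A.LiesOverPrime P.p) (Q : Pt P) :
    Q ∈ s12locpZ P A hA ↔ (Q = 0 ∨ stepP_NonInt A Q) := by
  cases Q with
  | zero => exact ⟨fun _ => Or.inl rfl, fun _ => trivial⟩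
  | some x y h =>
    constructor
    · intro hx
      exact Or.inr hx
    · rintro (h0 | hx)
      · exact absurd h0 (Point.some_ne_zero _)
      · exact hx

/-- the decomposition group preserves the kernel of reduction -/
theorem s12locp_Z_stable (P : FreyPackage) (A : ValuationSubring Qb)
    (hA : A.LiesOverPrime P.p) {σ : GQ} (hσ : σ ∈ A.decompositionSubgroup ℚ) {Q : Pt P}
    (hQ : Q ∈ s12locpZ P A hA) : σ • Q ∈ s12locpZ P A hA := by
  cases Q with
  | zero =>
    have h0 : σ • (Point.zero : Pt P) = 0 := rfl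
    rw [h0]
    exact (s12locpZ P A hA).zero_mem
  | some x y h =>
    have hx : x ∉ A := hQ
    rw [galois_smul_some]
    show σ x ∉ A
    rw [apply_mem_iff_of_mem_decomposition hσ]
    exact hx

/-- inertia at `A ∣ p` moves the `p`-power torsion inside the kernel of reduction -/
theorem s12locp_move (P : FreyPackage) (A : ValuationSubring Qb)
    (hA : A.LiesOverPrime P.p) {σ : GQ} (hσ : σ ∈ A.inertiaSubgroupIn ℚ) (m : ℕ) (R : Pt P)
    (hR : P.p ^ m • R = 0) : σ • R - R ∈ s12locpZ P A hA := by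
  cases R with
  | zero =>
    have h0 : σ • (Point.zero : Pt P) - Point.zero = 0 := by
      have h1 : σ • (Point.zero : Pt P) = Point.zero := rfl
      rw [h1, sub_self]
    rw [h0]
    exact (s12locpZ P A hA).zero_mem
  | some x y h =>
    by_cases hxA : x ∈ A
    · by_cases hfix : σ • (Point.some x y h : Pt P) = Point.some x y h
      · rw [hfix, sub_self]
        exact (s12locpZ P A hA).zero_mem
      · rw [galois_smul_some] at hfix ⊢
        obtain ⟨x'', y'', h'', he, hlt⟩ := s12locp_frey_move P A hA hσ m h hR hxA _ hfix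
        rw [he]
        show x'' ∉ A
        intro hx''
        rw [← A.valuation_le_one_iff] at hx''
        exact absurd hlt (not_lt.2 hx'')
    · have h1 : (Point.some x y h : Pt P) ∈ s12locpZ P A hA := hxA
      exact (s12locpZ P A hA).sub_mem
        (s12locp_Z_stable P A hA (mem_decomposition_of_mem_inertiaIn hσ) h1) h1

end Main


section Exists

open Fermat.Agent.S15

/-- a cofixed line consists of `p`-torsion points -/
theorem s12locp_line_tors (P : FreyPackage) (K₁ : AddSubgroup (Pt P))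
    (hK₁ : IsCofixedLine (Pt P) P.p K₁) {x : Pt P} (hx : x ∈ K₁) : P.p • x = 0 := by
  have h := card_nsmul_eq_zero' (G := K₁) (x := ⟨x, hx⟩)
  rw [hK₁.card] at h
  have h2 := congrArg (fun t : K₁ => (t : Pt P)) h
  simpa using h2

/-- the cofixed line as a submodule of `E[p]` -/
noncomputable def s12locpN (P : FreyPackage) (K₁ : AddSubgroup (Pt P)) :
    Submodule (ZMod P.p) (Tors P) where
  carrier := {t | (t : Pt P) ∈ K₁}
  add_mem' := fun {a b} ha hb => K₁.add_mem ha hb
  zero_mem' := K₁.zero_mem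
  smul_mem' := fun c {x} hx => by
    show ((c • x : Tors P) : Pt P) ∈ K₁
    rw [stepP_zmod_smul_coe]
    exact K₁.nsmul_mem hx _

theorem s12locp_mem_N (P : FreyPackage) (K₁ : AddSubgroup (Pt P)) (t : Tors P) :
    t ∈ s12locpN P K₁ ↔ (t : Pt P) ∈ K₁ := Iff.rfl

/-- `E[p]` is not contained in the kernel of reduction at `A ∣ p`, if there is a cofixed line -/
theorem s12locp_exists (P : FreyPackage) (K₁ : AddSubgroup (Pt P))
    (hK₁ : IsCofixedLine (Pt P) P.p K₁) (A : ValuationSubring Qb) (hA : A.LiesOverPrime P.p) :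
    ∃ x : Pt P, P.p • x = 0 ∧ x ∉ s12locpZ P A hA := by
  have hcardS : Fermat.Agent.S13.StmtCard :=
    stmtCard_of_criterion (wiring_criterion stmtTorsZero stmtZeroTors)
  have hp1 : 1 < P.p := P.pp.one_lt
  have hN : IsGaloisStable ℚ (s12locpN P K₁) := fun σ x hx => hK₁.stable σ _ hx
  -- the line is not zero
  have hbot : s12locpN P K₁ ≠ ⊥ := by
    intro hb
    haveI : Finite K₁ := Nat.finite_of_card_ne_zero (by rw [hK₁.card]; exact P.hp0)
    have hsub : Subsingleton K₁ := by
      refine ⟨fun a b => ?_⟩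
      have ha : (⟨a.1, (Submodule.mem_torsionBy_iff _ _).2 (by
          rw [natCast_zsmul]; exact s12locp_line_tors P K₁ hK₁ a.2)⟩ : Tors P) ∈
          s12locpN P K₁ := a.2
      have hb' : (⟨b.1, (Submodule.mem_torsionBy_iff _ _).2 (by
          rw [natCast_zsmul]; exact s12locp_line_tors P K₁ hK₁ b.2)⟩ : Tors P) ∈
          s12locpN P K₁ := b.2
      rw [hb, Submodule.mem_bot] at ha hb'
      have ha0 : a.1 = 0 := congrArg (fun t : Tors P => (t : Pt P)) ha
      have hb0 : b.1 = 0 := congrArg (fun t : Tors P => (t : Pt P)) hb'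
      exact Subtype.ext (ha0.trans hb0.symm)
    have h1 : Nat.card K₁ ≤ 1 := Finite.card_le_one_iff_subsingleton.2 hsub
    rw [hK₁.card] at h1
    omega
  -- a torsion point outside the line
  have hout : ∃ x : Tors P, x ∉ s12locpN P K₁ := by
    by_contra hall
    push Not at hall
    haveI : Finite K₁ := Nat.finite_of_card_ne_zero (by rw [hK₁.card]; exact P.hp0)
    have hinj : Function.Injective (fun t : Tors P => (⟨(t : Pt P), hall t⟩ : K₁)) := by
      intro a b hab
      have := congrArg (fun t : K₁ => (t : Pt P)) hab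
      exact Subtype.ext this
    have h1 := Nat.card_le_card_of_injective _ hinj
    have hpQ : ((P.p : ℕ) : Qb) ≠ 0 := by exact_mod_cast P.hp0
    have h2 : Nat.card (Tors P) = P.p ^ 2 :=
      Fermat.Agent.EC.ec_card_torsionBy (frey_baseChange_Δ_ne_zero P Qb) two_ne_zero hpQ
    rw [h2, hK₁.card] at h1
    rw [sq] at h1
    have h3 : P.p * 2 ≤ P.p * P.p := Nat.mul_le_mul_left _ hp1
    omega
  by_cases hint : ∃ x : Tors P, x ∈ s12locpN P K₁ ∧ x ≠ 0 ∧
      ¬ stepP_NonInt A (x : (P.freyCurve⁄Qbar).Point)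
  · obtain ⟨x, -, hx0, hxint⟩ := hint
    refine ⟨x, stepP_nsmul_eq_zero P x, ?_⟩
    rw [s12locp_mem_Z_iff]
    rintro (h0 | h1)
    · exact hx0 (Subtype.ext h0)
    · exact hxint h1
  · push Not at hint
    have hkey := stepP_key hcardS stmtTorsZero P (s12locpN P K₁) hN hbot A hA
      (fun x hx hx0 => hint x hx hx0)
    obtain ⟨x, hxN⟩ := hout
    have hx0 : x ≠ 0 := fun h => hxN (h ▸ (s12locpN P K₁).zero_mem)
    refine ⟨x, stepP_nsmul_eq_zero P x, ?_⟩
    rw [s12locp_mem_Z_iff]
    rintro (h0 | h1)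
    · exact hx0 (Subtype.ext h0)
    · exact hkey x hx0 hxN h1

/-- **G-LOCP.** -/
theorem stmtLocP : StmtLocP := by
  intro P K₁ hK₁ A hA
  refine ⟨s12locpZ P A hA, ?_, ?_, s12locp_exists P K₁ hK₁ A hA⟩
  · intro σ hσ x hx
    exact s12locp_Z_stable P A hA hσ hx
  · intro σ hσ m R hR
    exact s12locp_move P A hA hσ m R hR

end Exists

end Fermat.Agent.S12
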