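import Mathlib
import Fermat.Prelude.Def_FLTPrelim_FreyPackage
import Fermat.Prelude.Def_FLTPrelim_GaloisRep
import Fermat.Prelude.Def_FLTPrelim_Modularity
import Fermat.Prelude.Def_FLTPrelim_Ramification
import Fermat.Prelude.Def_FLTPrelim_CofixedLine
import Fermat.Prelude.Def_EllipticCurve_ZeroComponentAt
import Fermat.Prelude.Def_ExtCitation_AdmissibleExtension_v2
import Fermat.Agent.S13.Interface

/-!
# S12 (no cofixed line for `p ≥ 17`) — interface of the glue `S12 ⇐ S15 + S14`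
(sub-captain helper47; design and proofs: `NOTES/S12-glue.md`)

`E` = the Frey curve, `M = E(ℚ̄)`, `G = Gal(ℚ̄/ℚ)`, `p = P.p ≥ 17`.  A cofixed line is a
`G`-stable subgroup `K₁ ⊂ E[p]` of order `p` with `G` trivial on `E[p]/K₁`.

**Chain.**  `IsLevel k K` : `K ⊂ E[p^k]` cyclic of order `p^k`, `G`-stable, `G` trivial on
`E[p^k]/K`, `K₁ ⊂ K`, and `K` toric at every ramified place `A ∣ ℓ ≠ p`: `K ≤ monod A`, where
`monod A` is the subgroup generated by all `σ R - R`, `σ ∈ I_A`, `R ∈ E[p^∞]`.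
* base: `K₁` has level `1` (toric by `HS15`);
* step: `V = [p]⁻¹K / K ⊃ C = (E[p] + K)/K` is an admissible extension (`S14` shape: fixed sub,
  cyclotomic quotient; unramified outside `p` by `HUnip` + toric, locally split at `p` by
  `HLocP`), so it splits: `K⁺` = preimage of the complement; `K⁺` is toric by `HS15` and
  cofixed by Minkowski;
* end: `HFin` bounds `p^k`.

The elliptic curve enters only through the Props `HCard … HS15` about the `G`-module `M`; the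
quotient curves `E/K` exist only inside the proof of `HS15` (`StmtVelu`), where the frozen `S15`
is applied to them.
-/

set_option autoImplicit false

namespace Fermat.Agent.S12

open WeierstrassCurve WeierstrassCurve.Affine WeierstrassCurve.Affine.Point

/-- `ℚ̄` -/
abbrev Qb : Type := AlgebraicClosure ℚ

/-- `Gal(ℚ̄/ℚ)` -/
abbrev GQ : Type := Qb ≃ₐ[ℚ] Qb

/-! ## The abstract core -/

section Abstract

variable (M : Type) [AddCommGroup M] [DistribMulAction GQ M] (p : ℕ)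

/-- The monodromy subgroup at `A`: generated by `σ R - R`, `σ ∈ I_A`, `R` of `p`-power order. -/
def monod (A : ValuationSubring Qb) : AddSubgroup M :=
  AddSubgroup.closure
    {x | ∃ σ ∈ A.inertiaSubgroupIn ℚ, ∃ (m : ℕ) (R : M), p ^ m • R = 0 ∧ x = σ • R - R}

/-- **(CARD)** `#M[p^m] = p^{2m}`. -/
def HCard : Prop :=
  ∀ m : ℕ, Nat.card {x : M // p ^ m • x = 0} = p ^ (2 * m)

/-- **(OPEN)** the stabiliser of a `p`-power torsion point contains the fixer of a finite set of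
algebraic numbers. -/
def HOpen : Prop :=
  ∀ x : M, (∃ m : ℕ, p ^ m • x = 0) →
    ∃ S : Finset Qb, ∀ σ : GQ, (∀ s ∈ S, σ s = s) → σ • x = x

/-- **(UNIP)** at every place `A ∣ ℓ ≠ p`, inertia fixes `σ R - R` (`σ ∈ I_A`, `R ∈ M[p^∞]`). -/
def HUnip : Prop :=
  ∀ ℓ : ℕ, ℓ.Prime → ℓ ≠ p → ∀ A : ValuationSubring Qb, A.LiesOverPrime ℓ →
    ∀ σ ∈ A.inertiaSubgroupIn ℚ, ∀ τ ∈ A.inertiaSubgroupIn ℚ,
      ∀ (m : ℕ) (R : M), p ^ m • R = 0 → τ • (σ • R - R) = σ • R - R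

/-- **(LOCP)** at every place `A ∣ p` there is a `D_A`-stable subgroup `Z` (the kernel of
reduction) which contains `σ R - R` for `σ ∈ I_A`, `R ∈ M[p^∞]`, and does not contain `M[p]`. -/
def HLocP : Prop :=
  ∀ A : ValuationSubring Qb, A.LiesOverPrime p → ∃ Z : AddSubgroup M,
    (∀ σ ∈ A.decompositionSubgroup ℚ, ∀ x ∈ Z, σ • x ∈ Z) ∧
    (∀ σ ∈ A.inertiaSubgroupIn ℚ, ∀ (m : ℕ) (R : M), p ^ m • R = 0 → σ • R - R ∈ Z) ∧
    ∃ x : M, p • x = 0 ∧ x ∉ Z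

/-- A cofixed line, as a subgroup of `M`. -/
structure IsCofixedLine (K₁ : AddSubgroup M) : Prop where
  card : Nat.card K₁ = p
  stable : ∀ σ : GQ, ∀ x ∈ K₁, σ • x ∈ K₁
  cofixed : ∀ σ : GQ, ∀ x : M, p • x = 0 → σ • x - x ∈ K₁

/-- **(CYC)** `G` acts on the cofixed line through the mod-`p` cyclotomic character. -/
def HCyc [Fact p.Prime] (K₁ : AddSubgroup M) : Prop :=
  ∀ σ : GQ, ∀ x ∈ K₁, σ • x = ExtCitation.cycloExp p σ • x

/-- **(RAMP)** at every place over `p`, inertia does not fix the cofixed line pointwise. -/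
def HRamP (K₁ : AddSubgroup M) : Prop :=
  ∀ A : ValuationSubring Qb, A.LiesOverPrime p →
    ∃ σ ∈ A.inertiaSubgroupIn ℚ, ∃ x ∈ K₁, σ • x ≠ x

/-- **(FIN)** a cyclic subgroup `K` of order `p^k` with `G` trivial on `M[p^k]/K` has
`p^k ≤ B` (Frobenius at a good prime `ℓ₀`: `B = 2ℓ₀ + 1`). -/
def HFin : Prop :=
  ∃ B : ℕ, ∀ (k : ℕ) (K : AddSubgroup M), Nat.card K = p ^ k →
    (∃ g : M, K = AddSubgroup.zmultiples g) →
    (∀ σ : GQ, ∀ x : M, p ^ k • x = 0 → σ • x - x ∈ K) → p ^ k ≤ B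

/-- **(HS15)** the consequence of the frozen `S15` (applied to `E/K`): for a `G`-stable cyclic
`K` of order `p^{k+1}` and `P₀ ∈ M[p] ∖ K` with `σ P₀ - P₀ ∈ K` for all `σ`, the point `P₀` is not
in `monod A + K` at any ramified place `A ∣ ℓ ≠ p`. -/
def HS15 : Prop :=
  ∀ (k : ℕ) (K : AddSubgroup M), Nat.card K = p ^ (k + 1) →
    (∃ g : M, K = AddSubgroup.zmultiples g) → (∀ σ : GQ, ∀ x ∈ K, σ • x ∈ K) →
    ∀ P₀ : M, p • P₀ = 0 → P₀ ∉ K → (∀ σ : GQ, σ • P₀ - P₀ ∈ K) →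
      ∀ ℓ : ℕ, ℓ.Prime → ℓ ≠ p → ∀ A : ValuationSubring Qb, A.LiesOverPrime ℓ →
        monod M p A ≠ ⊥ → ∀ t ∈ monod M p A, ∀ κ ∈ K, P₀ ≠ t + κ

/-- The chain property `P(k)`. -/
structure IsLevel (K₁ : AddSubgroup M) (k : ℕ) (K : AddSubgroup M) : Prop where
  card : Nat.card K = p ^ k
  cyc : ∃ g : M, K = AddSubgroup.zmultiples g
  stable : ∀ σ : GQ, ∀ x ∈ K, σ • x ∈ K
  cofixed : ∀ σ : GQ, ∀ x : M, p ^ k • x = 0 → σ • x - x ∈ K
  line : K₁ ≤ K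
  toric : ∀ ℓ : ℕ, ℓ.Prime → ℓ ≠ p → ∀ A : ValuationSubring Qb, A.LiesOverPrime ℓ →
    monod M p A ≠ ⊥ → K ≤ monod M p A

end Abstract

/-- Every prime has a place of `ℚ̄` above it. -/
def HPlaces : Prop :=
  ∀ q : ℕ, q.Prime → ∃ A : ValuationSubring Qb, A.LiesOverPrime q

/-- **CORE-BASE.** The cofixed line has level `1`. -/
def StmtCoreBase : Prop :=
  ∀ (M : Type) [AddCommGroup M] [DistribMulAction GQ M] (p : ℕ) [Fact p.Prime],
    HCard M p → HUnip M p → HS15 M p →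
    ∀ K₁ : AddSubgroup M, IsCofixedLine M p K₁ → IsLevel M p K₁ 1 K₁

/-- **STEP-SPLIT.** (`S14`) A level `K` (`k ≥ 1`) has a `G`-stable cyclic overgroup `K'` of order
`p^{k+1}`.  [`V = [p]⁻¹K / K`, `C = (M[p] + K)/K` is admissible; `K'` = preimage of the
complement.] -/
def StmtStepSplit : Prop :=
  ∀ (M : Type) [AddCommGroup M] [DistribMulAction GQ M] (p : ℕ) [Fact p.Prime], 3 ≤ p →
    ExtCitation.ExtVanishingCts p →
    HCard M p → HOpen M p → HUnip M p → HLocP M p →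
    ∀ K₁ : AddSubgroup M, IsCofixedLine M p K₁ → HCyc M p K₁ → HRamP M p K₁ →
    ∀ (k : ℕ) (K : AddSubgroup M), 1 ≤ k → IsLevel M p K₁ k K →
      ∃ K' : AddSubgroup M, K ≤ K' ∧ Nat.card K' = p ^ (k + 1) ∧
        (∃ g : M, K' = AddSubgroup.zmultiples g) ∧ (∀ σ : GQ, ∀ x ∈ K', σ • x ∈ K')

/-- **STEP-TORIC.** (`HS15`) The overgroup is toric at every ramified place. -/
def StmtStepToric : Prop :=
  ∀ (M : Type) [AddCommGroup M] [DistribMulAction GQ M] (p : ℕ) [Fact p.Prime],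
    HCard M p → HUnip M p → HS15 M p →
    ∀ K₁ : AddSubgroup M, IsCofixedLine M p K₁ →
    ∀ (k : ℕ) (K : AddSubgroup M), 1 ≤ k → IsLevel M p K₁ k K →
    ∀ K' : AddSubgroup M, K ≤ K' → Nat.card K' = p ^ (k + 1) →
      (∃ g : M, K' = AddSubgroup.zmultiples g) → (∀ σ : GQ, ∀ x ∈ K', σ • x ∈ K') →
      ∀ ℓ : ℕ, ℓ.Prime → ℓ ≠ p → ∀ A : ValuationSubring Qb, A.LiesOverPrime ℓ →
        monod M p A ≠ ⊥ → K' ≤ monod M p A

/-- **STEP-COFIXED.** (Minkowski) A `G`-stable cyclic subgroup `K'` of order `p^{k+1}` which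
contains the cofixed line and is toric at every ramified place has `G` trivial on
`M[p^{k+1}]/K'`. -/
def StmtStepCofixed : Prop :=
  ∀ (M : Type) [AddCommGroup M] [DistribMulAction GQ M] (p : ℕ) [Fact p.Prime],
    Fermat.Agent.S13.StmtMinkowski → HPlaces →
    HCard M p → HOpen M p → HUnip M p → HLocP M p →
    ∀ K₁ : AddSubgroup M, IsCofixedLine M p K₁ → HRamP M p K₁ →
    ∀ (k : ℕ) (K' : AddSubgroup M), K₁ ≤ K' → Nat.card K' = p ^ (k + 1) →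
      (∃ g : M, K' = AddSubgroup.zmultiples g) → (∀ σ : GQ, ∀ x ∈ K', σ • x ∈ K') →
      (∀ ℓ : ℕ, ℓ.Prime → ℓ ≠ p → ∀ A : ValuationSubring Qb, A.LiesOverPrime ℓ →
        monod M p A ≠ ⊥ → K' ≤ monod M p A) →
      ∀ σ : GQ, ∀ x : M, p ^ (k + 1) • x = 0 → σ • x - x ∈ K'

/-- **CORE-STEP.** From level `k ≥ 1` to level `k + 1`. -/
def StmtCoreStep : Prop :=
  ∀ (M : Type) [AddCommGroup M] [DistribMulAction GQ M] (p : ℕ) [Fact p.Prime], 3 ≤ p →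
    ExtCitation.ExtVanishingCts p → Fermat.Agent.S13.StmtMinkowski → HPlaces →
    HCard M p → HOpen M p → HUnip M p → HLocP M p → HS15 M p →
    ∀ K₁ : AddSubgroup M, IsCofixedLine M p K₁ → HCyc M p K₁ → HRamP M p K₁ →
    ∀ (k : ℕ) (K : AddSubgroup M), 1 ≤ k → IsLevel M p K₁ k K →
      ∃ K' : AddSubgroup M, IsLevel M p K₁ (k + 1) K'

/-- **CORE.** The hypotheses are contradictory. -/
def StmtCore : Prop :=
  ∀ (M : Type) [AddCommGroup M] [DistribMulAction GQ M] (p : ℕ) [Fact p.Prime], 3 ≤ p →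
    ExtCitation.ExtVanishingCts p → Fermat.Agent.S13.StmtMinkowski → HPlaces →
    HCard M p → HOpen M p → HUnip M p → HLocP M p → HFin M p → HS15 M p →
    ∀ K₁ : AddSubgroup M, IsCofixedLine M p K₁ → HCyc M p K₁ → HRamP M p K₁ → False

/-- `CORE-STEP` from its three parts. -/
theorem stmtCoreStep_of (hsplit : StmtStepSplit) (htoric : StmtStepToric)
    (hcof : StmtStepCofixed) : StmtCoreStep := by
  intro M _ _ p _ hp3 hS14 hMink hpl hcard hopen hunip hlocp hs15 K₁ hK₁ hcyc hramp k K hk hK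
  obtain ⟨K', hKK', hcardK', hcycK', hstK'⟩ :=
    hsplit M p hp3 hS14 hcard hopen hunip hlocp K₁ hK₁ hcyc hramp k K hk hK
  have htor := htoric M p hcard hunip hs15 K₁ hK₁ k K hk hK K' hKK' hcardK' hcycK' hstK'
  exact ⟨K', ⟨hcardK', hcycK', hstK',
    hcof M p hMink hpl hcard hopen hunip hlocp K₁ hK₁ hramp k K' (hK.line.trans hKK') hcardK'
      hcycK' hstK' htor,
    hK.line.trans hKK', htor⟩⟩

/-- `CORE` from `CORE-BASE` and `CORE-STEP`. -/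
theorem stmtCore_of (hbase : StmtCoreBase) (hstep : StmtCoreStep) : StmtCore := by
  intro M _ _ p _ hp3 hS14 hMink hpl hcard hopen hunip hlocp hfin hs15 K₁ hK₁ hcyc hramp
  obtain ⟨B, hB⟩ := hfin
  have hp : p.Prime := Fact.out
  have hall : ∀ n : ℕ, ∃ K : AddSubgroup M, IsLevel M p K₁ (n + 1) K := by
    intro n
    induction n with
    | zero => exact ⟨K₁, hbase M p hcard hunip hs15 K₁ hK₁⟩
    | succ n ih =>
      obtain ⟨K, hK⟩ := ih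
      exact hstep M p hp3 hS14 hMink hpl hcard hopen hunip hlocp hs15 K₁ hK₁ hcyc hramp
        (n + 1) K (Nat.le_add_left 1 n) hK
  obtain ⟨K, hK⟩ := hall B
  have h1 := hB (B + 1) K hK.card hK.cyc hK.cofixed
  have h2 : B + 1 < p ^ (B + 1) := Nat.lt_pow_self hp.one_lt
  omega

/-! ## The geometric pieces (Frey curve) -/

/-- `E(ℚ̄)` for the Frey curve. -/
abbrev Pt (P : FreyPackage) : Type := (P.freyCurve⁄Qb).Point

/-- `W(ℚ̄)` for an integral model. -/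
abbrev PtZ (W : WeierstrassCurve ℤ) : Type := ((W.map (Int.castRingHom ℚ))⁄Qb).Point

/-- **G-LINE.** A cofixed line in the sense of the prelude gives one in the sense of the core. -/
def StmtLine : Prop :=
  ∀ P : FreyPackage,
    HasGaloisStableCofixedLine (K := AlgebraicClosure ℚ) ℚ P.freyCurve P.p →
      ∃ K₁ : AddSubgroup (Pt P), IsCofixedLine (Pt P) P.p K₁

/-- **G-CARD.** -/
def StmtCard : Prop := ∀ P : FreyPackage, HCard (Pt P) P.p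

/-- **G-OPEN.** -/
def StmtOpen : Prop := ∀ P : FreyPackage, HOpen (Pt P) P.p

/-- **G-UNIP.** -/
def StmtUnip : Prop := ∀ P : FreyPackage, HUnip (Pt P) P.p

/-- **G-LOCP.** -/
def StmtLocP : Prop :=
  ∀ (P : FreyPackage) (K₁ : AddSubgroup (Pt P)), IsCofixedLine (Pt P) P.p K₁ →
    HLocP (Pt P) P.p

/-- **G-CYC.** -/
def StmtCyc : Prop :=
  ∀ (P : FreyPackage) (K₁ : AddSubgroup (Pt P)), IsCofixedLine (Pt P) P.p K₁ →
    haveI : Fact P.p.Prime := ⟨P.pp⟩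
    HCyc (Pt P) P.p K₁

/-- **G-RAMP.** -/
def StmtRamP : Prop :=
  ∀ (P : FreyPackage) (K₁ : AddSubgroup (Pt P)), IsCofixedLine (Pt P) P.p K₁ →
    HRamP (Pt P) P.p K₁

/-- **G-FIN.** -/
def StmtFin : Prop := ∀ P : FreyPackage, HFin (Pt P) P.p

/-- The frozen statement `S15`, as a Prop. -/
def StmtS15 : Prop :=
  ∀ {p : ℕ} (_ : p.Prime) (_ : p ∉ ({2, 3, 5, 7, 13} : Finset ℕ))
    (W : WeierstrassCurve ℤ) (_ : W.Δ ≠ 0)
    (Q : ((W.map (Int.castRingHom ℚ))⁄(AlgebraicClosure ℚ)).Point)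
    (_ : ∀ σ : AlgebraicClosure ℚ ≃ₐ[ℚ] AlgebraicClosure ℚ, σ • Q = Q)
    (_ : addOrderOf Q = p)
    (_ : (2 : ℤ) ∣ W.Δ) (_ : ¬ (2 : ℤ) ∣ W.c₄)
    (_ : ∀ A : ValuationSubring (AlgebraicClosure ℚ), A.LiesOverPrime 2 →
      ¬ W.InZeroComponentAt A Q)
    (_ : (3 : ℤ) ∣ W.Δ) (_ : ¬ (3 : ℤ) ∣ W.c₄)
    (_ : ∀ A : ValuationSubring (AlgebraicClosure ℚ), A.LiesOverPrime 3 →
      ¬ W.InZeroComponentAt A Q)
    {ℓ : ℕ} (_ : ℓ.Prime) (_ : ℓ ≠ p) (_ : (ℓ : ℤ) ∣ W.Δ) (_ : ¬ (ℓ : ℤ) ∣ W.c₄)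
    (A : ValuationSubring (AlgebraicClosure ℚ)) (_ : A.LiesOverPrime ℓ),
    ¬ W.InZeroComponentAt A Q

/-- **G-HS15.** -/
def StmtHS15 : Prop :=
  StmtS15 → ∀ P : FreyPackage, 17 ≤ P.p → HS15 (Pt P) P.p

/-! ### Inputs of `G-HS15` -/

/-- **VELU.** The quotient of an integral model by a finite `G`-stable subgroup `K` of odd prime
power order: an integral model `W'` and a `G`-equivariant homomorphism `φ` with kernel `K`; a
prime `ℓ ≠ p` of multiplicative reduction of `W` does not divide `c₄(W')`. -/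
def StmtVelu : Prop :=
  ∀ (W : WeierstrassCurve ℤ), W.Δ ≠ 0 → W.c₄ ≠ 0 → W.c₆ ≠ 0 →
    ∀ (p : ℕ), p.Prime → p ≠ 2 → ∀ (k : ℕ) (K : AddSubgroup (PtZ W)), Nat.card K = p ^ k →
      (∀ σ : GQ, ∀ x ∈ K, σ • x ∈ K) →
      ∃ (W' : WeierstrassCurve ℤ) (φ : PtZ W →+ PtZ W'),
        W'.Δ ≠ 0 ∧ (∀ (σ : GQ) (x : PtZ W), φ (σ • x) = σ • φ x) ∧ (∀ x, φ x = 0 ↔ x ∈ K) ∧
        ∀ ℓ : ℕ, ℓ.Prime → ℓ ≠ p → (ℓ : ℤ) ∣ W.Δ → ¬ (ℓ : ℤ) ∣ W.c₄ → ¬ (ℓ : ℤ) ∣ W'.c₄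

/-- **U1.** At a prime of multiplicative reduction (any `ℓ`, also `2`), inertia moves a torsion
point of odd order prime to `ℓ` inside the identity component. -/
def StmtU1 : Prop :=
  ∀ (W : WeierstrassCurve ℤ), W.Δ ≠ 0 → ∀ ℓ : ℕ, ℓ.Prime → (ℓ : ℤ) ∣ W.Δ → ¬ (ℓ : ℤ) ∣ W.c₄ →
    ∀ A : ValuationSubring Qb, A.LiesOverPrime ℓ → ∀ σ ∈ A.inertiaSubgroupIn ℚ,
      ∀ n : ℕ, Odd n → ¬ ℓ ∣ n → ∀ R : PtZ W, n • R = 0 → W.InZeroComponentAt A (σ • R - R)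

/-- **E0-ADD.** The identity component at `A` is a subgroup. -/
def StmtE0Add : Prop :=
  ∀ (W : WeierstrassCurve ℤ) (A : ValuationSubring Qb) (x y : PtZ W),
    W.InZeroComponentAt A x → W.InZeroComponentAt A y → W.InZeroComponentAt A (x - y)

/-- **L1-TWO.** A rational point of prime order `p ≥ 7` is not in the identity component at a
place over `2` of multiplicative reduction. -/
def StmtL1Two : Prop :=
  ∀ (W : WeierstrassCurve ℤ), W.Δ ≠ 0 → (2 : ℤ) ∣ W.Δ → ¬ (2 : ℤ) ∣ W.c₄ →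
    ∀ (p : ℕ), p.Prime → 7 ≤ p → ∀ Q : PtZ W, (∀ σ : GQ, σ • Q = Q) → addOrderOf Q = p →
      ∀ A : ValuationSubring Qb, A.LiesOverPrime 2 → ¬ W.InZeroComponentAt A Q

/-- **L1-THREE.** The same at `3` (`p ≥ 5`; from `ecloc_not_inZero`). -/
def StmtL1Three : Prop :=
  ∀ (W : WeierstrassCurve ℤ), W.Δ ≠ 0 → (3 : ℤ) ∣ W.Δ → ¬ (3 : ℤ) ∣ W.c₄ →
    ∀ (p : ℕ), p.Prime → 5 ≤ p → ∀ Q : PtZ W, (∀ σ : GQ, σ • Q = Q) → addOrderOf Q = p →
      ∀ A : ValuationSubring Qb, A.LiesOverPrime 3 → ¬ W.InZeroComponentAt A Q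

/-- **GOODTORS.** A rational point of prime order `p ≠ ℓ` on a model with good reduction at `ℓ`:
`p ≤ 2ℓ + 1`. -/
def StmtGoodTors : Prop :=
  ∀ (W : WeierstrassCurve ℤ), W.Δ ≠ 0 → ∀ ℓ : ℕ, ℓ.Prime → ¬ (ℓ : ℤ) ∣ W.Δ →
    ∀ (p : ℕ), p.Prime → p ≠ ℓ → ∀ Q : PtZ W, (∀ σ : GQ, σ • Q = Q) → addOrderOf Q = p →
      p ≤ 2 * ℓ + 1

/-- **GOODLINE.** A model with good reduction at `ℓ ≠ p` and a cyclic subgroup `K` of order `p^k`
with `G` trivial on `E[p^k]/K`: `p^k ≤ 2ℓ + 1`. -/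
def StmtGoodLine : Prop :=
  ∀ (W : WeierstrassCurve ℤ), W.Δ ≠ 0 → ∀ ℓ : ℕ, ℓ.Prime → ¬ (ℓ : ℤ) ∣ W.Δ →
    ∀ (p : ℕ), p.Prime → p ≠ ℓ → ∀ (k : ℕ) (K : AddSubgroup (PtZ W)), Nat.card K = p ^ k →
      (∃ g : PtZ W, K = AddSubgroup.zmultiples g) →
      (∀ σ : GQ, ∀ x : PtZ W, p ^ k • x = 0 → σ • x - x ∈ K) → p ^ k ≤ 2 * ℓ + 1

/-- **GOOD-UNR.** Good reduction at `ℓ`: inertia fixes the torsion of order prime to `ℓ`
(`RED.inertia_smul_eq_of_good`). -/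
def StmtGoodUnr : Prop :=
  ∀ (W : WeierstrassCurve ℤ), ∀ ℓ : ℕ, ℓ.Prime → ¬ (ℓ : ℤ) ∣ W.Δ →
    ∀ A : ValuationSubring Qb, A.LiesOverPrime ℓ → ∀ σ ∈ A.inertiaSubgroupIn ℚ,
      ∀ n : ℕ, ¬ ℓ ∣ n → ∀ R : PtZ W, n • R = 0 → σ • R = R

/-! ## Assembly -/

/-- The statement of S12. -/
def StmtS12 : Prop :=
  ∀ P : FreyPackage, 17 ≤ P.p →
    ¬ HasGaloisStableCofixedLine (K := AlgebraicClosure ℚ) ℚ P.freyCurve P.p

/-- **S12 from the pieces.** -/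
theorem s12_of (hcore : StmtCore) (hS14 : ∀ (p : ℕ) [Fact p.Prime], 3 ≤ p →
      ExtCitation.ExtVanishingCts p)
    (hMink : Fermat.Agent.S13.StmtMinkowski) (hpl : HPlaces)
    (hline : StmtLine) (hcard : StmtCard) (hopen : StmtOpen) (hunip : StmtUnip)
    (hlocp : StmtLocP) (hcyc : StmtCyc) (hramp : StmtRamP) (hfin : StmtFin)
    (hs15 : StmtS15 → ∀ P : FreyPackage, 17 ≤ P.p → HS15 (Pt P) P.p) (h15 : StmtS15) :
    StmtS12 := by
  intro P hp hcof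
  have : Fact P.p.Prime := ⟨P.pp⟩
  obtain ⟨K₁, hK₁⟩ := hline P hcof
  exact hcore (Pt P) P.p (by omega) (hS14 P.p (by omega)) hMink hpl (hcard P) (hopen P)
    (hunip P) (hlocp P K₁ hK₁) (hfin P) (hs15 h15 P hp) K₁ hK₁ (hcyc P K₁ hK₁) (hramp P K₁ hK₁)

end Fermat.Agent.S12
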