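/-
S12 glue, piece G-RAMP (helper1): `stmtRamP_of : StmtCyc → StmtRamP`.

At every place `A ∣ p` some `σ ∈ I_A` inverts the `p`-th roots of unity
(`S33.exists_inertia_inv_root`: `ℚ(ζ_p)` is totally ramified at `p`), so `cycloExp p σ = p - 1`
and `σ` acts on the cofixed line as `-1` (`HCyc`); `-x ≠ x` for `x ≠ 0` of odd order `p`.
-/
import Fermat.Agent.S12.Plan
import Fermat.Agent.S33.DetCyclo

set_option autoImplicit false

namespace Fermat.Agent.S12

open ExtCitation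

/-- `ζ⁻¹ = ζ^(p-1)` for a `p`-th root of unity -/
theorem s12ramp_inv_eq_pow {p : ℕ} (hp : 0 < p) {ζ : Qb} (hζ : ζ ^ p = 1) :
    ζ⁻¹ = ζ ^ (p - 1) := by
  have : ζ * ζ ^ (p - 1) = 1 := by
    rw [← pow_succ', Nat.sub_add_cancel hp, hζ]
  exact inv_eq_of_mul_eq_one_right this

/-- if `σ` inverts the `p`-th roots of unity, then `cycloExp p σ = p - 1` -/
theorem s12ramp_cycloExp (p : ℕ) [Fact p.Prime] (σ : GQ)
    (hinv : ∀ μ : Qb, μ ^ p = 1 → σ μ = μ⁻¹) : cycloExp p σ = p - 1 := by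
  have hp : p.Prime := Fact.out
  have : NeZero p := ⟨hp.ne_zero⟩
  have : NeZero ((p : ℕ) : Qb) := ⟨Nat.cast_ne_zero.mpr hp.ne_zero⟩
  obtain ⟨ζ, hζ⟩ := HasEnoughRootsOfUnity.exists_primitiveRoot Qb p
  have hspec := modularCyclotomicCharacter.spec Qb (card_rootsOfUnity_eq_self p)
    (σ : Qb ≃+* Qb) (t := hζ.toRootsOfUnity) (SetLike.coe_mem hζ.toRootsOfUnity)
  have hspec' : σ ζ = ζ ^ cycloExp p σ := by
    simpa [cycloExp] using hspec
  rw [hinv ζ hζ.pow_eq_one, s12ramp_inv_eq_pow hp.pos hζ.pow_eq_one] at hspec'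
  have hlt : cycloExp p σ < p := by
    unfold cycloExp
    exact ZMod.val_lt _
  exact (hζ.pow_inj (Nat.sub_lt hp.pos Nat.one_pos) hlt hspec').symm

/-- the abstract form: `HCyc → HRamP` for an odd prime `p`. -/
theorem s12ramp_of_hcyc (M : Type) [AddCommGroup M] [DistribMulAction GQ M] (p : ℕ)
    [Fact p.Prime] (hp2 : p ≠ 2) (K₁ : AddSubgroup M) (hK : IsCofixedLine M p K₁)
    (hcyc : HCyc M p K₁) : HRamP M p K₁ := by
  have hp : p.Prime := Fact.out
  intro A hA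
  obtain ⟨σ, hσ, hinv⟩ := Fermat.Agent.S33.exists_inertia_inv_root hp A hA
  have hexp : cycloExp p σ = p - 1 := s12ramp_cycloExp p σ hinv
  -- a nonzero element of the line
  have hfin : Finite K₁ := Nat.finite_of_card_ne_zero (by rw [hK.card]; exact hp.ne_zero)
  have hnt : Nontrivial K₁ := by
    rw [← Finite.one_lt_card_iff_nontrivial, hK.card]
    exact hp.one_lt
  obtain ⟨x, hx⟩ := exists_ne (0 : K₁)
  have hx0 : (x : M) ≠ 0 := fun h => hx (Subtype.ext h)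
  have hpx : p • (x : M) = 0 := by
    have h1 : Nat.card K₁ • x = 0 := card_nsmul_eq_zero'
    rw [hK.card] at h1
    have h2 := congrArg (fun y : K₁ => (y : M)) h1
    simpa using h2
  refine ⟨σ, hσ, x, x.2, fun hfix => hx0 ?_⟩
  have h1 : σ • (x : M) = (p - 1) • (x : M) := by
    rw [hcyc σ x x.2, hexp]
  rw [hfix] at h1
  -- `x = (p - 1) • x`, `p • x = 0` ⇒ `2 • x = 0`
  have h2 : (2 : ℕ) • (x : M) = 0 := by
    have h3 : (x : M) + (p - 1) • (x : M) = 0 := by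
      rw [← succ_nsmul', Nat.sub_add_cancel hp.one_le, hpx]
    rw [← h1] at h3
    rw [two_nsmul]
    exact h3
  -- `gcd(2, p) = 1`
  have hodd : Odd p := hp.odd_of_ne_two hp2
  obtain ⟨k, hk⟩ := hodd
  have h4 : (2 * k + 1) • (x : M) = k • ((2 : ℕ) • (x : M)) + (x : M) := by
    rw [add_nsmul, one_nsmul, mul_nsmul]
  rw [← hk, hpx, h2, nsmul_zero, zero_add] at h4
  exact h4.symm

/-- **G-RAMP** from **G-CYC**. -/
theorem stmtRamP_of (hcyc : StmtCyc) : StmtRamP := by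
  intro P K₁ hK
  have : Fact P.p.Prime := ⟨P.pp⟩
  have hp2 : P.p ≠ 2 := by
    have := P.hp5
    omega
  exact s12ramp_of_hcyc (Pt P) P.p hp2 K₁ hK (hcyc P K₁ hK)

end Fermat.Agent.S12
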