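import Fermat.Agent.S12.Plan
import Fermat.Agent.RED.Unip
import Fermat.Agent.RED.UnipTwoTate
import Fermat.Agent.S15.ECLoc

/-!
# S12 glue, piece G-U1: inertia moves odd torsion inside the identity component

`W : WeierstrassCurve ℤ`, `ℓ` a prime of multiplicative reduction (`ℓ ∣ Δ`, `ℓ ∤ c₄`; also
`ℓ = 2`), `A` a valuation subring of `ℚ̄` over `ℓ`, `σ` in the inertia group of `A`, `R` a torsion
point of odd order prime to `ℓ`:  `σ • R - R` lies in the identity component at `A`
(`stmtU1 : StmtU1`).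

The bricks `RED/UnipFix.lean` (`sub_of_node`, `fix_of_nonsing`) and `RED/UnipTwo.lean`
(`two_sub_of_node`, `two_fix_of_nonsing`) show that `σ • R - R` is `0` or an integral point whose
`x`-coordinate is not congruent to the node; such a point has nonsingular reduction
(`s12u1_nsRes`).
-/

set_option autoImplicit false
set_option linter.unusedSectionVars false
set_option linter.unusedVariables false

namespace Fermat.Agent.S12

open WeierstrassCurve WeierstrassCurve.Affine Fermat.Agent.RED Fermat.Agent.S05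
  Fermat.Agent.S13 Fermat.Agent.EC Fermat.Agent.S15 Fermat.Agent.S15.ECL

/-- the residue of an element of valuation `1` is nonzero -/
theorem s12u1_residue_ne_zero (A : ValuationSubring Qb) (z : A)
    (hz : A.valuation (z : Qb) = 1) : IsLocalRing.residue A z ≠ 0 := by
  intro h0
  rw [IsLocalRing.residue_eq_zero_iff] at h0
  have := (A.valuation_lt_one_iff z).1 h0
  rw [hz] at this
  exact lt_irrefl _ this

/-- an integral point at which one of the two partial derivatives is a unit has nonsingular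
reduction -/
theorem s12u1_nsRes (W : WeierstrassCurve ℤ) (A : ValuationSubring Qb) {x y : Qb}
    (h : ((W.map (Int.castRingHom ℚ)).baseChange Qb).toAffine.Equation x y)
    (hx : x ∈ A) (hy : y ∈ A)
    (hns : A.valuation (polyY ((W.map (Int.castRingHom ℚ)).baseChange Qb) x y) = 1 ∨
      A.valuation (polyX ((W.map (Int.castRingHom ℚ)).baseChange Qb) x y) = 1) :
    (W.map (Int.castRingHom (IsLocalRing.ResidueField A))).toAffine.Nonsingular
      (IsLocalRing.residue A ⟨x, hx⟩) (IsLocalRing.residue A ⟨y, hy⟩) := by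
  have hK : (curveK A (modelA W A)).toAffine.Equation ((⟨x, hx⟩ : A) : Qb)
      ((⟨y, hy⟩ : A) : Qb) := by
    have e := baseChange_eq_curveK W A
    exact e ▸ h
  have hA := equation_of_coe A (modelA W A) hK
  have hk := hA.map (IsLocalRing.residue A)
  have hcurve := ecloc_curveRes_eq W A
  rw [Affine.nonsingular_iff']
  refine ⟨?_, ?_⟩
  · rw [← hcurve]; exact hk
  · simp only [WeierstrassCurve.map_a₁, WeierstrassCurve.map_a₂, WeierstrassCurve.map_a₃,
      WeierstrassCurve.map_a₄]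
    rcases hns with h1 | h1
    · right
      have e : IsLocalRing.residue A
          (2 * ⟨y, hy⟩ + ((W.a₁ : ℤ) : A) * ⟨x, hx⟩ + ((W.a₃ : ℤ) : A)) ≠ 0 := by
        apply s12u1_residue_ne_zero
        rw [← h1]
        congr 1
      intro h0
      apply e
      simp only [map_add, map_mul, map_ofNat, map_intCast]
      simp only [eq_intCast] at h0
      exact h0
    · left
      have e : IsLocalRing.residue A
          (3 * ⟨x, hx⟩ ^ 2 + 2 * ((W.a₂ : ℤ) : A) * ⟨x, hx⟩ + ((W.a₄ : ℤ) : A)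
            - ((W.a₁ : ℤ) : A) * ⟨y, hy⟩) ≠ 0 := by
        apply s12u1_residue_ne_zero
        rw [← h1]
        congr 1
      intro h0
      apply e
      simp only [map_sub, map_add, map_mul, map_pow, map_ofNat, map_intCast]
      simp only [eq_intCast] at h0
      linear_combination -h0

/-- **U1** at an odd prime of multiplicative reduction -/
theorem s12u1_odd (W : WeierstrassCurve ℤ) (hΔ0 : W.Δ ≠ 0) {ℓ : ℕ} (hℓ : ℓ.Prime)
    (hℓ2 : ℓ ≠ 2) (hbad : (ℓ : ℤ) ∣ W.Δ) (hc₄ : ¬ (ℓ : ℤ) ∣ W.c₄) (A : ValuationSubring Qb)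
    (hA : A.LiesOverPrime ℓ) {σ : GQ} (hσ : σ ∈ A.inertiaSubgroupIn ℚ) {n : ℕ} (hodd : Odd n)
    (hn : ¬ ℓ ∣ n) (R : PtZ W) (hR : n • R = 0) : W.InZeroComponentAt A (σ • R - R) := by
  have : Algebra.IsAlgebraic ℚ Qb := isAlgebraic_rat_qbar
  have h2 : A.valuation (2 : Qb) = 1 := valuation_two_eq_one A hℓ hA hℓ2
  have h₁ : ((W.map (Int.castRingHom ℚ)).baseChange Qb).a₁ ∈ A := by
    rw [unip_a₁]; exact intCast_mem A _
  have h₂ : ((W.map (Int.castRingHom ℚ)).baseChange Qb).a₂ ∈ A := by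
    rw [unip_a₂]; exact intCast_mem A _
  have h₃ : ((W.map (Int.castRingHom ℚ)).baseChange Qb).a₃ ∈ A := by
    rw [unip_a₃]; exact intCast_mem A _
  have h₄ : ((W.map (Int.castRingHom ℚ)).baseChange Qb).a₄ ∈ A := by
    rw [unip_a₄]; exact intCast_mem A _
  have h₆ : ((W.map (Int.castRingHom ℚ)).baseChange Qb).a₆ ∈ A := by
    rw [unip_a₆]; exact intCast_mem A _
  obtain ⟨hb₂, hb₄, hb₆, -⟩ := kernel_b_mem A h₁ h₂ h₃ h₄ h₆
  have hΔ0' : ((W.map (Int.castRingHom ℚ)).baseChange Qb).Δ ≠ 0 := by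
    rw [unip_Δ]; exact_mod_cast hΔ0
  have hΔv : A.valuation ((W.map (Int.castRingHom ℚ)).baseChange Qb).Δ < 1 := by
    rw [unip_Δ]; exact (valuation_intCast_lt_one_iff A hℓ hA _).2 hbad
  have hc₄v : A.valuation ((W.map (Int.castRingHom ℚ)).baseChange Qb).c₄ = 1 := by
    rw [unip_c₄]; exact (valuation_intCast_eq_one_iff A hℓ hA _).2 hc₄
  obtain ⟨r₁, e₂, e₃, hr, hr₁v, he₂, he₂0, he₃, he₂₃⟩ :=
    exists_rootData A.valuation ((W.map (Int.castRingHom ℚ)).baseChange Qb) h2
      ((A.valuation_le_one_iff _).2 hb₂) ((A.valuation_le_one_iff _).2 hb₄)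
      ((A.valuation_le_one_iff _).2 hb₆) hΔ0' hΔv hc₄v
  have hr₁ : r₁ ∈ A := (A.valuation_le_one_iff _).1 hr₁v
  have hn' : (n : Qb) ∉ A.nonunits := fun h => hn ((natCast_mem_nonunits_iff A hℓ hA n).1 h)
  rcases R with _ | ⟨x, y, h⟩
  · left
    show σ • (0 : PtZ W) - 0 = 0
    rw [galois_smul_zero, sub_zero]
  · have hxA : x ∈ A := no_torsion_of_not_mem A _ h₁ h₂ h₃ h₄ h₆ n hn' h hR
    have hs₁ : A.valuation (x - r₁) ≤ 1 := (A.valuation_le_one_iff _).2 (sub_mem hxA hr₁)
    have hσn : n • (σ • (Point.some x y h : PtZ W)) = 0 := by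
      have := Point.algEquiv_smul_zsmul σ (n : ℤ) (Point.some x y h : PtZ W)
      rw [natCast_zsmul, natCast_zsmul, hR] at this
      rw [← this]
      exact galois_smul_zero σ
    rcases hs₁.lt_or_eq with hlt | heq
    · rcases sub_of_node A hσ (W.map (Int.castRingHom ℚ)) h₁ h₂ h₃ h₄ h₆ h2 n hn' hodd hr hr₁
        he₂ he₂0 he₃ he₂₃ h hR hlt with hfix | ⟨x'', y'', h'', hQ, hu⟩
      · left
        exact sub_eq_zero_of_eq hfix
      · right
        have htorsQ : n • (Point.some x'' y'' h'' : PtZ W) = 0 := by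
          rw [← hQ, nsmul_sub, hσn, hR, sub_zero]
        have hxQ : x'' ∈ A := no_torsion_of_not_mem A _ h₁ h₂ h₃ h₄ h₆ n hn' h'' htorsQ
        have hyQ : y'' ∈ A := no_torsion_of_not_mem_y A _ h₁ h₂ h₃ h₄ h₆ n hn' h'' htorsQ
        refine ⟨x'', y'', h'', hQ, Or.inr ⟨hxQ, hyQ, ?_⟩⟩
        apply s12u1_nsRes W A h''.1 hxQ hyQ
        have hη_sq : eta ((W.map (Int.castRingHom ℚ)).baseChange Qb) x'' y'' ^ 2 =
            4 * (x'' - r₁) * (x'' - r₁ - e₂) * (x'' - r₁ - e₃) := by
          rw [eta_sq _ h''.1, hr.cub_eq]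
        have hdc := hr.dcub_eq x''
        have he₃A : e₃ ∈ A := (A.valuation_le_one_iff _).1 he₃.le
        have hs₃ : A.valuation (x'' - r₁ - e₃) ≤ 1 :=
          (A.valuation_le_one_iff _).2 (sub_mem (sub_mem hxQ hr₁) he₃A)
        have hs₂ : A.valuation (x'' - r₁ - e₂) = 1 := by
          rw [Valuation.map_sub_eq_of_lt_left _ (by rw [hu]; exact he₂), hu]
        have hns := hns_of_two_units A.valuation h2
          (η := eta ((W.map (Int.castRingHom ℚ)).baseChange Qb) x'' y'')
          (c := 0) (d := dcub ((W.map (Int.castRingHom ℚ)).baseChange Qb) x'')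
          (u₁ := x'' - r₁) (u₂ := x'' - r₁ - e₂)
          (s := x'' - r₁ - e₃) (hη_sq.trans (by ring)) (hdc.trans (by ring)) hu hs₂ hs₃
        have hηA : eta ((W.map (Int.castRingHom ℚ)).baseChange Qb) x'' y'' ∈ A := by
          simp only [eta]
          exact add_mem (add_mem (mul_mem (ofNat_mem A 2) hyQ) (mul_mem h₁ hxQ)) h₃
        have hvη : A.valuation (eta ((W.map (Int.castRingHom ℚ)).baseChange Qb) x'' y'') ≤ 1 :=
          (A.valuation_le_one_iff _).2 hηA
        rcases hvη.lt_or_eq with hηlt | hηeq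
        · right
          have hd1 : A.valuation (dcub ((W.map (Int.castRingHom ℚ)).baseChange Qb) x'') = 1 := by
            rcases hns with h1 | h1
            · exact absurd h1 hηlt.ne
            · exact h1
          have e : 2 * polyX ((W.map (Int.castRingHom ℚ)).baseChange Qb) x'' y'' =
              dcub ((W.map (Int.castRingHom ℚ)).baseChange Qb) x'' -
                ((W.map (Int.castRingHom ℚ)).baseChange Qb).a₁ *
                  eta ((W.map (Int.castRingHom ℚ)).baseChange Qb) x'' y'' := by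
            simp only [polyX, dcub, eta, WeierstrassCurve.b₂, WeierstrassCurve.b₄]
            ring
          have hlt' : A.valuation (((W.map (Int.castRingHom ℚ)).baseChange Qb).a₁ *
              eta ((W.map (Int.castRingHom ℚ)).baseChange Qb) x'' y'') < 1 := by
            rw [map_mul]
            calc A.valuation ((W.map (Int.castRingHom ℚ)).baseChange Qb).a₁ *
                  A.valuation (eta ((W.map (Int.castRingHom ℚ)).baseChange Qb) x'' y'')
                ≤ 1 * A.valuation (eta ((W.map (Int.castRingHom ℚ)).baseChange Qb) x'' y'') :=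
                  mul_le_mul' ((A.valuation_le_one_iff _).2 h₁) le_rfl
              _ = _ := one_mul _
              _ < 1 := hηlt
          have e2 := congrArg A.valuation e
          rw [map_mul, h2, one_mul,
            Valuation.map_sub_eq_of_lt_left _ (by rw [hd1]; exact hlt'), hd1] at e2
          exact e2
        · left
          exact hηeq
    · left
      have hfix := fix_of_nonsing A hσ (W.map (Int.castRingHom ℚ)) h₁ h₂ h₃ h₄ h₆ h2 n hn' hr
        hr₁ he₂ he₃ h hR heq
      exact sub_eq_zero_of_eq hfix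

/-- **U1** at `2` (multiplicative reduction) -/
theorem s12u1_two (W : WeierstrassCurve ℤ) (hΔ0 : W.Δ ≠ 0)
    (hbad : ((2 : ℕ) : ℤ) ∣ W.Δ) (hc₄ : ¬ ((2 : ℕ) : ℤ) ∣ W.c₄) (A : ValuationSubring Qb)
    (hA : A.LiesOverPrime 2) {σ : GQ} (hσ : σ ∈ A.inertiaSubgroupIn ℚ) {n : ℕ} (hodd : Odd n)
    (R : PtZ W) (hR : n • R = 0) : W.InZeroComponentAt A (σ • R - R) := by
  have : Algebra.IsAlgebraic ℚ Qb := isAlgebraic_rat_qbar
  have hq : (2 : ℕ).Prime := Nat.prime_two
  have h2 : A.valuation (2 : Qb) < 1 := by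
    have := (valuation_intCast_lt_one_iff A hq hA (2 : ℤ)).2 (by norm_num)
    simpa using this
  have h40 : (4 : Qb) ≠ 0 := by norm_num
  have h₁ : ((W.map (Int.castRingHom ℚ)).baseChange Qb).a₁ ∈ A := by
    rw [unip_a₁]; exact intCast_mem A _
  have h₂ : ((W.map (Int.castRingHom ℚ)).baseChange Qb).a₂ ∈ A := by
    rw [unip_a₂]; exact intCast_mem A _
  have h₃ : ((W.map (Int.castRingHom ℚ)).baseChange Qb).a₃ ∈ A := by
    rw [unip_a₃]; exact intCast_mem A _
  have h₄ : ((W.map (Int.castRingHom ℚ)).baseChange Qb).a₄ ∈ A := by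
    rw [unip_a₄]; exact intCast_mem A _
  have h₆ : ((W.map (Int.castRingHom ℚ)).baseChange Qb).a₆ ∈ A := by
    rw [unip_a₆]; exact intCast_mem A _
  have hΔ0' : ((W.map (Int.castRingHom ℚ)).baseChange Qb).Δ ≠ 0 := by
    rw [unip_Δ]; exact_mod_cast hΔ0
  have hΔv : A.valuation ((W.map (Int.castRingHom ℚ)).baseChange Qb).Δ < 1 := by
    rw [unip_Δ]; exact (valuation_intCast_lt_one_iff A hq hA _).2 hbad
  have hb₂ : A.valuation ((W.map (Int.castRingHom ℚ)).baseChange Qb).b₂ = 1 := by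
    rw [unip_b₂]
    refine (valuation_intCast_eq_one_iff A hq hA _).2 ?_
    intro hdvd
    apply hc₄
    have hc : W.c₄ = W.b₂ ^ 2 - 24 * W.b₄ := by rw [WeierstrassCurve.c₄]
    rw [hc]
    exact dvd_sub (dvd_pow hdvd two_ne_zero) (Dvd.dvd.mul_right (by norm_num) _)
  have hn' : (n : Qb) ∉ A.nonunits := fun h =>
    (Nat.not_even_iff_odd.2 hodd) (even_iff_two_dvd.2 ((natCast_mem_nonunits_iff A hq hA n).1 h))
  obtain ⟨hb₂A, hb₄A, hb₆A, -⟩ := kernel_b_mem A h₁ h₂ h₃ h₄ h₆
  -- the point of order 2 at the node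
  obtain ⟨xT, hvxT, hcub⟩ := two_exists_integral_root A.valuation h40 h2 hb₂
    ((A.valuation_le_one_iff _).2 hb₄A) ((A.valuation_le_one_iff _).2 hb₆A)
  have hxT : xT ∈ A := (A.valuation_le_one_iff _).1 hvxT
  have hT : TwoData ((W.map (Int.castRingHom ℚ)).baseChange Qb) xT
      (-(((W.map (Int.castRingHom ℚ)).baseChange Qb).a₁ * xT +
        ((W.map (Int.castRingHom ℚ)).baseChange Qb).a₃) / 2) :=
    ⟨by field_simp; ring, hcub⟩
  rcases R with _ | ⟨x, y, h⟩
  · left
    show σ • (0 : PtZ W) - 0 = 0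
    rw [galois_smul_zero, sub_zero]
  · have hxA : x ∈ A := no_torsion_of_not_mem A _ h₁ h₂ h₃ h₄ h₆ n hn' h hR
    have hs₁ : A.valuation (x - xT) ≤ 1 := (A.valuation_le_one_iff _).2 (sub_mem hxA hxT)
    have hσn : n • (σ • (Point.some x y h : PtZ W)) = 0 := by
      have := Point.algEquiv_smul_zsmul σ (n : ℤ) (Point.some x y h : PtZ W)
      rw [natCast_zsmul, natCast_zsmul, hR] at this
      rw [← this]
      exact galois_smul_zero σ
    rcases hs₁.lt_or_eq with hlt | heq
    · rcases two_sub_of_node A hσ (W.map (Int.castRingHom ℚ)) h₁ h₂ h₃ h₄ h₆ h40 h2 hb₂ hΔ0'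
        hΔv n hn' hodd hT hxT h hR hlt with hfix | ⟨x'', y'', h'', hQ, hu⟩
      · left
        exact sub_eq_zero_of_eq hfix
      · right
        have htorsQ : n • (Point.some x'' y'' h'' : PtZ W) = 0 := by
          rw [← hQ, nsmul_sub, hσn, hR, sub_zero]
        have hxQ : x'' ∈ A := no_torsion_of_not_mem A _ h₁ h₂ h₃ h₄ h₆ n hn' h'' htorsQ
        have hyQ : y'' ∈ A := no_torsion_of_not_mem_y A _ h₁ h₂ h₃ h₄ h₆ n hn' h'' htorsQ
        refine ⟨x'', y'', h'', hQ, Or.inr ⟨hxQ, hyQ, ?_⟩⟩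
        apply s12u1_nsRes W A h''.1 hxQ hyQ
        have hv₁ : A.valuation ((W.map (Int.castRingHom ℚ)).baseChange Qb).a₁ ≤ 1 :=
          (A.valuation_le_one_iff _).2 h₁
        have hv₂ : A.valuation ((W.map (Int.castRingHom ℚ)).baseChange Qb).a₂ ≤ 1 :=
          (A.valuation_le_one_iff _).2 h₂
        have hv₃ : A.valuation ((W.map (Int.castRingHom ℚ)).baseChange Qb).a₃ ≤ 1 :=
          (A.valuation_le_one_iff _).2 h₃
        have hv₄ : A.valuation ((W.map (Int.castRingHom ℚ)).baseChange Qb).a₄ ≤ 1 :=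
          (A.valuation_le_one_iff _).2 h₄
        have hv₆ : A.valuation ((W.map (Int.castRingHom ℚ)).baseChange Qb).a₆ ≤ 1 :=
          (A.valuation_le_one_iff _).2 h₆
        have hvyT := hT.val_y_le A.valuation h40 hv₁ hv₂ hv₃ hv₄ hv₆ hvxT
        obtain ⟨ha₂'', hb₂'', ha₄'', ha₄0''⟩ :=
          two_data A.valuation hT h40 h2 hv₁ hv₂ hv₃ hv₄ hv₆ hb₂ hΔ0' hΔv hvxT
        have hvy : A.valuation y'' ≤ 1 := (A.valuation_le_one_iff _).2 hyQ
        obtain ⟨h''', -⟩ := two_vcEquiv_sub ((W.map (Int.castRingHom ℚ)).baseChange Qb) xT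
          (-(((W.map (Int.castRingHom ℚ)).baseChange Qb).a₁ * xT +
            ((W.map (Int.castRingHom ℚ)).baseChange Qb).a₃) / 2) h''
        have ha₁'' : A.valuation (twoVC xT
            (-(((W.map (Int.castRingHom ℚ)).baseChange Qb).a₁ * xT +
              ((W.map (Int.castRingHom ℚ)).baseChange Qb).a₃) / 2) •
                ((W.map (Int.castRingHom ℚ)).baseChange Qb)).a₁ ≤ 1 := by
          rw [twoVC_a₁]; exact hv₁
        have hns'' := nonsing_of_unit_x A.valuation hT.a₃_eq (hT.a₆_eq h40) ha₁'' ha₂'' hb₂''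
          ha₄'' h'''.1 hu (A.valuation.map_sub_le hvy hvyT)
        rw [twoVC_polyY, twoVC_polyX] at hns''
        exact hns''
    · left
      have hfix := two_fix_of_nonsing A hσ (W.map (Int.castRingHom ℚ)) h₁ h₂ h₃ h₄ h₆ h40 h2
        hb₂ hΔ0' hΔv n hn' hT hxT h hR heq
      exact sub_eq_zero_of_eq hfix

/-- **U1.** At a prime of multiplicative reduction (any `ℓ`, also `2`), inertia moves a torsion
point of odd order prime to `ℓ` inside the identity component. -/
theorem stmtU1 : StmtU1 := by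
  intro W hΔ0 ℓ hℓ hbad hc₄ A hA σ hσ n hodd hn R hR
  by_cases hℓ2 : ℓ = 2
  · subst hℓ2
    exact s12u1_two W hΔ0 hbad hc₄ A hA hσ hodd R hR
  · exact s12u1_odd W hΔ0 hℓ hℓ2 hbad hc₄ A hA hσ hodd hn R hR

end Fermat.Agent.S12
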