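/-
Item 12 (S12 glue), piece `VELU`, analytic part 1 (helper13): the Weierstrass functions of a
lattice `L'` in terms of those of a sublattice `L` of finite index (the analytic form of Vélu's
formulas).

`S` a finite set of representatives of `L' / L`:
  `℘[L'] z = ∑_{s ∈ S} (℘[L] (z - s) - ℘[L] s)`,   `℘'[L'] z = ∑_{s ∈ S} ℘'[L] (z - s)`,
  `G_n(L') = ∑_{s ∈ S} ∑_{l ∈ L} (l + s)⁻ⁿ`  (`n ≥ 3`).
-/
import Mathlib

set_option autoImplicit false

noncomputable section

namespace Fermat.Agent.S12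

open PeriodPair

/-- `S` is a system of representatives of `L' / L` -/
structure VeluCosetReps (L L' : PeriodPair) (S : Finset ℂ) : Prop where
  le : L.lattice ≤ L'.lattice
  mem : ∀ s ∈ S, s ∈ L'.lattice
  exists_rep : ∀ l' ∈ L'.lattice, ∃ s ∈ S, l' - s ∈ L.lattice
  unique_rep : ∀ s ∈ S, ∀ s' ∈ S, s - s' ∈ L.lattice → s = s'

variable {L L' : PeriodPair} {S : Finset ℂ}

/-- the bijection `S × L ≃ L'`, `(s, l) ↦ s + l` -/
def veluCosetEquiv (h : VeluCosetReps L L' S) : S × L.lattice ≃ L'.lattice :=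
  Equiv.ofBijective (fun p => ⟨p.1.1 + p.2.1, add_mem (h.mem _ p.1.2) (h.le p.2.2)⟩) (by
    constructor
    · rintro ⟨⟨s, hs⟩, ⟨l, hl⟩⟩ ⟨⟨s', hs'⟩, ⟨l', hl'⟩⟩ heq
      have h1 : s + l = s' + l' := congrArg Subtype.val heq
      have h2 : s - s' ∈ L.lattice := by
        have : s - s' = l' - l := by linear_combination h1
        rw [this]
        exact sub_mem hl' hl
      have h3 : s = s' := h.unique_rep s hs s' hs' h2
      subst h3
      have h4 : l = l' := by linear_combination h1
      subst h4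
      rfl
    · rintro ⟨l', hl'⟩
      obtain ⟨s, hs, hsl⟩ := h.exists_rep l' hl'
      refine ⟨⟨⟨s, hs⟩, ⟨l' - s, hsl⟩⟩, ?_⟩
      apply Subtype.ext
      show s + (l' - s) = l'
      ring)

@[simp] theorem veluCosetEquiv_apply (h : VeluCosetReps L L' S) (p : S × L.lattice) :
    ((veluCosetEquiv h p : L'.lattice) : ℂ) = p.1.1 + p.2.1 := rfl

/-- **Coset splitting** of a sum over `L'`. -/
theorem velu_tsum_cosets (h : VeluCosetReps L L' S) (f : ℂ → ℂ)
    (hf : Summable fun l' : L'.lattice => f l') :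
    ∑' l' : L'.lattice, f l' = ∑ s ∈ S, ∑' l : L.lattice, f (s + l) := by
  have hf' : Summable fun p : S × L.lattice => f (p.1.1 + p.2.1) := by
    have := (veluCosetEquiv h).summable_iff.mpr hf
    exact this
  rw [← (veluCosetEquiv h).tsum_eq (fun l' : L'.lattice => f l')]
  simp only [veluCosetEquiv_apply]
  rw [hf'.tsum_prod, tsum_fintype, ← Finset.sum_coe_sort S (fun s => ∑' l : L.lattice, f (s + l))]

/-- summability on each coset -/
theorem velu_summable_coset (h : VeluCosetReps L L' S) (f : ℂ → ℂ)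
    (hf : Summable fun l' : L'.lattice => f l') {s : ℂ} (hs : s ∈ S) :
    Summable fun l : L.lattice => f (s + l) := by
  have hf' : Summable fun p : S × L.lattice => f (p.1.1 + p.2.1) :=
    (veluCosetEquiv h).summable_iff.mpr hf
  exact hf'.prod_factor ⟨s, hs⟩

end Fermat.Agent.S12
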