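/-
Item 12 (S12 glue), piece `VELU` (sub-captain helper13): interface of the Mathlib-only sub-pieces.
Design: `NOTES/S12-velu.md`.

Route: ANALYTIC Vélu.  `W` over `ℂ` is uniformised by `ℂ / L` (S15 MOD-ADD + MOD-UNIF); a finite
subgroup `K` of odd order corresponds to a lattice `L' ⊇ L`, and Vélu's formulas are the expressions
of `℘_{L'}`, `℘'_{L'}`, `g₂(L')`, `g₃(L')` through `℘_L`, `℘'_L`, `g₂(L)`, `g₃(L)`.

| piece | Prop | file | needs |
|---|---|---|---|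
| V-LATa | `StmtVeluWp` | `S12/VeluAn.lean` (helper13) | Mathlib |
| V-LATb | `StmtVeluG` | `S12/VeluG.lean` | Mathlib (+ `velu_tsum_cosets` of VeluAn) |
| V-LATc | `StmtVeluLat` | `S12/VeluLat.lean` | Mathlib |
| V-HALF | `StmtVeluHalf` | `S12/VeluHalf.lean` | Mathlib |
| V-ROOT | `StmtVeluRoot` | `S12/VeluRoot.lean` | Mathlib |
| V-NODE | `StmtVeluNode` | `S12/VeluNode.lean` | Mathlib (+ S15/NodalCount) |
-/
import Fermat.Agent.S12.VeluAn

set_option autoImplicit false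

noncomputable section

namespace Fermat.Agent.S12

open PeriodPair WeierstrassCurve

/-- **V-LATa.**  `℘` and `℘'` of a lattice through those of a sublattice of finite index. -/
def StmtVeluWp : Prop :=
  ∀ (L L' : PeriodPair) (S : Finset ℂ), VeluCosetReps L L' S → ∀ z : ℂ,
    ℘[L'] z = ∑ s ∈ S, (℘[L] (z - s) - ℘[L] s) ∧ ℘'[L'] z = ∑ s ∈ S, ℘'[L] (z - s)

/-- **V-LATb.**  `g₂` and `g₃` of a lattice through the values of `℘` of a sublattice of finite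
index at the nontrivial coset representatives:
`∑_{l ∈ L} (s + l)⁻⁴ = ℘''(s)/6 = ℘(s)² - g₂/12`,
`∑_{l ∈ L} (s + l)⁻⁶ = ℘''''(s)/120 = ℘(s)³ - (3/20) g₂ ℘(s) - g₃/10`. -/
def StmtVeluG : Prop :=
  ∀ (L L' : PeriodPair) (S : Finset ℂ), VeluCosetReps L L' S → ∀ s₀ ∈ S, s₀ ∈ L.lattice →
    L'.g₂ = L.g₂ + ∑ s ∈ S.erase s₀, (60 * ℘[L] s ^ 2 - 5 * L.g₂) ∧
    L'.g₃ = L.g₃ + ∑ s ∈ S.erase s₀, (140 * ℘[L] s ^ 3 - 21 * L.g₂ * ℘[L] s - 14 * L.g₃)

/-- **V-LATc.**  A subgroup of `ℂ` between `L` and `n⁻¹ L` is the lattice of a period pair, and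
has a finite system of representatives modulo `L`. -/
def StmtVeluLat : Prop :=
  ∀ (L : PeriodPair) (Λ' : AddSubgroup ℂ) (n : ℕ), n ≠ 0 →
    (∀ z ∈ L.lattice, z ∈ Λ') → (∀ z ∈ Λ', (n : ℂ) * z ∈ L.lattice) →
    ∃ (L' : PeriodPair) (S : Finset ℂ), (∀ z, z ∈ L'.lattice ↔ z ∈ Λ') ∧ VeluCosetReps L L' S

/-- **V-HALF.**  A finite set stable under negation without elements of order `≤ 2` is the
disjoint union of a half system and its negative. -/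
def StmtVeluHalf : Prop :=
  ∀ (G : Type) [AddCommGroup G] [DecidableEq G] (K : Finset G),
    (∀ P ∈ K, -P ∈ K) → (∀ P ∈ K, P ≠ -P) →
    ∃ R : Finset G, Disjoint R (R.image Neg.neg) ∧ K = R ∪ R.image Neg.neg

/-- **V-ROOT.**  For the `m - 1` nontrivial `m`-th roots of unity `ζ` of a field in which
`m` is invertible (every characteristic), with `X = ζ / (1 - ζ)²`:
`120 ∑ (6 X² + X) = m⁴ - 1`.
(`12 ∑ X = -(m² - 1)`, `720 ∑ X² = (m² - 1)(m² + 11)`; Newton identities for `w = 1/(1 - ζ)`,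
the roots of `wᵐ - (w - 1)ᵐ`, `X = w² - w`.) -/
def StmtVeluRoot : Prop :=
  ∀ (k : Type) [Field k] (m : ℕ) (μ : Finset k), (m : k) ≠ 0 →
    (∀ ζ, ζ ∈ μ ↔ ζ ^ m = 1 ∧ ζ ≠ 1) → μ.card + 1 = m →
    120 * ∑ ζ ∈ μ, (6 * (ζ / (1 - ζ) ^ 2) ^ 2 + ζ / (1 - ζ) ^ 2) = (m : k) ^ 4 - 1

/-- **V-NODE.**  The group of nonsingular points of a nodal Weierstrass cubic over a field `k` of
characteristic `≠ 2` in which `c₄` is a square (`β² = c₄`): an injective homomorphism `ψ` to `kˣ`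
with `(x - x₀) (1 - u)² = β u` for `u = ψ(x, y)`, where `x₀` is the `x`-coordinate of the node;
moreover `6 x² + b₂ x + b₄ = 6 (x - x₀)² + β (x - x₀)`. -/
def StmtVeluNode : Prop :=
  ∀ (k : Type) [Field k] [DecidableEq k] (W : WeierstrassCurve k), (2 : k) ≠ 0 → W.Δ = 0 →
    W.c₄ ≠ 0 → ∀ β : k, β ^ 2 = W.c₄ →
    ∃ (x₀ : k) (ψ : W.toAffine.Point →+ Additive kˣ),
      W.c₄ * x₀ = 18 * W.b₆ - W.b₂ * W.b₄ ∧ Function.Injective ψ ∧
      (∀ x : k, 6 * x ^ 2 + W.b₂ * x + W.b₄ = 6 * (x - x₀) ^ 2 + β * (x - x₀)) ∧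
      ∀ (x y : k) (h : W.toAffine.Nonsingular x y),
        (x - x₀) * (1 - ((Additive.toMul (ψ (.some x y h)) : kˣ) : k)) ^ 2 =
          β * ((Additive.toMul (ψ (.some x y h)) : kˣ) : k)

end Fermat.Agent.S12
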