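/-
Item 12 (S12 glue), piece `VELU / V-HALF` (helper60): `stmtVeluHalf : StmtVeluHalf`.

A finite set stable under negation without elements of order `≤ 2` is the disjoint union of a
half system and its negative.  Induction on the cardinality: remove a pair `{P, -P}`.
-/
import Fermat.Agent.S12.VeluPlan

set_option autoImplicit false

noncomputable section

namespace Fermat.Agent.S12

theorem vhalf_aux (G : Type) [AddCommGroup G] [DecidableEq G] :
    ∀ (n : ℕ) (K : Finset G), K.card = n →
      (∀ P ∈ K, -P ∈ K) → (∀ P ∈ K, P ≠ -P) →
      ∃ R : Finset G, Disjoint R (R.image Neg.neg) ∧ K = R ∪ R.image Neg.neg := by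
  intro n
  induction n using Nat.strong_induction_on with
  | _ n ih =>
    intro K hK hneg hne
    rcases K.eq_empty_or_nonempty with rfl | ⟨P, hP⟩
    · exact ⟨∅, by simp, by simp⟩
    · set K' : Finset G := (K.erase P).erase (-P) with hK'
      have hmem : ∀ Q, Q ∈ K' ↔ Q ∈ K ∧ Q ≠ P ∧ Q ≠ -P := by
        intro Q
        simp only [hK', Finset.mem_erase]
        tauto
      have hcard : K'.card < n := by
        rw [← hK]
        calc K'.card ≤ (K.erase P).card := Finset.card_erase_le
          _ < K.card := Finset.card_erase_lt_of_mem hP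
      have hneg' : ∀ Q ∈ K', -Q ∈ K' := by
        intro Q hQ
        rw [hmem] at hQ ⊢
        refine ⟨hneg Q hQ.1, ?_, ?_⟩
        · intro h
          exact hQ.2.2 (by rw [← h, neg_neg])
        · intro h
          exact hQ.2.1 (neg_injective h)
      have hne' : ∀ Q ∈ K', Q ≠ -Q := fun Q hQ => hne Q ((hmem Q).1 hQ).1
      obtain ⟨R', hdis, hR'⟩ := ih K'.card hcard K' rfl hneg' hne'
      have hR'sub : ∀ Q ∈ R', Q ∈ K' := by
        intro Q hQ
        rw [hR']
        exact Finset.mem_union_left _ hQ
      have hPR' : P ∉ R' := fun h => ((hmem P).1 (hR'sub P h)).2.1 rfl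
      have hnPR' : -P ∉ R' := fun h => ((hmem (-P)).1 (hR'sub (-P) h)).2.2 rfl
      refine ⟨insert P R', ?_, ?_⟩
      · rw [Finset.disjoint_left]
        intro Q hQ hQ'
        rw [Finset.mem_image] at hQ'
        obtain ⟨T, hT, rfl⟩ := hQ'
        rw [Finset.mem_insert] at hQ hT
        rcases hT with rfl | hT
        · rcases hQ with h | h
          · exact hne T hP h.symm
          · exact hnPR' h
        · rcases hQ with h | h
          · exact hnPR' (by rw [← h, neg_neg]; exact hT)
          · exact (Finset.disjoint_left.1 hdis h) (Finset.mem_image_of_mem _ hT)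
      · ext Q
        simp only [Finset.mem_union, Finset.mem_insert, Finset.mem_image, exists_eq_or_imp]
        constructor
        · intro hQ
          by_cases h1 : Q = P
          · exact Or.inl (Or.inl h1)
          by_cases h2 : Q = -P
          · exact Or.inr (Or.inl h2.symm)
          have hQ' : Q ∈ K' := (hmem Q).2 ⟨hQ, h1, h2⟩
          rw [hR', Finset.mem_union, Finset.mem_image] at hQ'
          rcases hQ' with h | h
          · exact Or.inl (Or.inr h)
          · exact Or.inr (Or.inr h)
        · rintro ((rfl | h) | (h | ⟨T, hT, rfl⟩))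
          · exact hP
          · exact ((hmem Q).1 (hR'sub Q h)).1
          · rw [← h]; exact hneg P hP
          · exact hneg T ((hmem T).1 (hR'sub T hT)).1

theorem stmtVeluHalf : StmtVeluHalf := by
  intro G _ _ K hneg hne
  exact vhalf_aux G K.card K rfl hneg hne

end Fermat.Agent.S12
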