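/-
Item 12 (S12 glue), piece `VELU` (sub-captain helper13): Vélu's formulas, definitions.
Mathlib only.

For a finite subgroup `K` of a Weierstrass curve `W` (general form), with
  `t_Q = 6 x_Q² + b₂ x_Q + b₄`,   `u_Q + x_Q t_Q = 10 x_Q³ + 2 b₂ x_Q² + 3 b₄ x_Q + b₆`,
  `2 t = ∑_{Q ∈ K ∖ 0} t_Q`,      `2 w = ∑_{Q ∈ K ∖ 0} (u_Q + x_Q t_Q)`,
the quotient `W / K` is `veluCurve W t w = (a₁, a₂, a₃, a₄ - 5 t, a₆ - b₂ t - 7 w)` and the
isogeny is `P ↦ (∑_{Q ∈ K} (x(P + Q) - x(Q)), ∑_{Q ∈ K} (y(P + Q) - y(Q)))` (with `x(0) = y(0) = 0`).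
-/
import Mathlib

set_option autoImplicit false

noncomputable section

namespace Fermat.Agent.S12

open WeierstrassCurve

section Ring

variable {R : Type*} [CommRing R]

/-- `t_Q = 6 x² + b₂ x + b₄` -/
def veluT (W : WeierstrassCurve R) (x : R) : R := 6 * x ^ 2 + W.b₂ * x + W.b₄

/-- `u_Q + x_Q t_Q = 10 x³ + 2 b₂ x² + 3 b₄ x + b₆` -/
def veluU (W : WeierstrassCurve R) (x : R) : R :=
  10 * x ^ 3 + 2 * W.b₂ * x ^ 2 + 3 * W.b₄ * x + W.b₆

/-- Vélu's curve `(a₁, a₂, a₃, a₄ - 5 t, a₆ - b₂ t - 7 w)` -/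
def veluCurve (W : WeierstrassCurve R) (t w : R) : WeierstrassCurve R :=
  ⟨W.a₁, W.a₂, W.a₃, W.a₄ - 5 * t, W.a₆ - W.b₂ * t - 7 * w⟩

@[simp] theorem veluCurve_a₁ (W : WeierstrassCurve R) (t w : R) :
    (veluCurve W t w).a₁ = W.a₁ := rfl
@[simp] theorem veluCurve_a₂ (W : WeierstrassCurve R) (t w : R) :
    (veluCurve W t w).a₂ = W.a₂ := rfl
@[simp] theorem veluCurve_a₃ (W : WeierstrassCurve R) (t w : R) :
    (veluCurve W t w).a₃ = W.a₃ := rfl
@[simp] theorem veluCurve_a₄ (W : WeierstrassCurve R) (t w : R) :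
    (veluCurve W t w).a₄ = W.a₄ - 5 * t := rfl
@[simp] theorem veluCurve_a₆ (W : WeierstrassCurve R) (t w : R) :
    (veluCurve W t w).a₆ = W.a₆ - W.b₂ * t - 7 * w := rfl

theorem veluCurve_b₂ (W : WeierstrassCurve R) (t w : R) :
    (veluCurve W t w).b₂ = W.b₂ := by
  simp only [WeierstrassCurve.b₂, veluCurve_a₁, veluCurve_a₂]

theorem veluCurve_b₄ (W : WeierstrassCurve R) (t w : R) :
    (veluCurve W t w).b₄ = W.b₄ - 10 * t := by
  simp only [WeierstrassCurve.b₄, veluCurve_a₁, veluCurve_a₃, veluCurve_a₄]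
  ring

theorem veluCurve_b₆ (W : WeierstrassCurve R) (t w : R) :
    (veluCurve W t w).b₆ = W.b₆ - 4 * W.b₂ * t - 28 * w := by
  simp only [WeierstrassCurve.b₆, WeierstrassCurve.b₂, veluCurve_a₃, veluCurve_a₆]
  ring

theorem veluCurve_c₄ (W : WeierstrassCurve R) (t w : R) :
    (veluCurve W t w).c₄ = W.c₄ + 240 * t := by
  simp only [WeierstrassCurve.c₄, veluCurve_b₂, veluCurve_b₄]
  ring

theorem veluCurve_c₆ (W : WeierstrassCurve R) (t w : R) :
    (veluCurve W t w).c₆ = W.c₆ + 504 * W.b₂ * t + 6048 * w := by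
  simp only [WeierstrassCurve.c₆, veluCurve_b₂, veluCurve_b₄, veluCurve_b₆]
  ring

theorem veluCurve_map {S : Type*} [CommRing S] (f : R →+* S) (W : WeierstrassCurve R) (t w : R) :
    (veluCurve W t w).map f = veluCurve (W.map f) (f t) (f w) := by
  ext <;>
    simp only [WeierstrassCurve.map, veluCurve, WeierstrassCurve.b₂, map_sub, map_mul, map_add,
      map_pow, map_ofNat]

theorem veluT_map {S : Type*} [CommRing S] (f : R →+* S) (W : WeierstrassCurve R) (x : R) :
    veluT (W.map f) (f x) = f (veluT W x) := by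
  simp only [veluT, WeierstrassCurve.map_b₂, WeierstrassCurve.map_b₄, map_add, map_mul, map_pow,
    map_ofNat]

theorem veluU_map {S : Type*} [CommRing S] (f : R →+* S) (W : WeierstrassCurve R) (x : R) :
    veluU (W.map f) (f x) = f (veluU W x) := by
  simp only [veluU, WeierstrassCurve.map_b₂, WeierstrassCurve.map_b₄, WeierstrassCurve.map_b₆,
    map_add, map_mul, map_pow, map_ofNat]

/-- the `x`-coordinate of a point (`0` at the origin) -/
def veluX {W : WeierstrassCurve.Affine R} : W.Point → R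
  | .zero => 0
  | .some x _ _ => x

/-- the `y`-coordinate of a point (`0` at the origin) -/
def veluY {W : WeierstrassCurve.Affine R} : W.Point → R
  | .zero => 0
  | .some _ y _ => y

/-- `t_Q` of a point (`0` at the origin) -/
def veluTpt {W : WeierstrassCurve.Affine R} : W.Point → R
  | .zero => 0
  | .some x _ _ => veluT W x

/-- `u_Q + x_Q t_Q` of a point (`0` at the origin) -/
def veluUpt {W : WeierstrassCurve.Affine R} : W.Point → R
  | .zero => 0
  | .some x _ _ => veluU W x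

@[simp] theorem veluX_zero {W : WeierstrassCurve.Affine R} : veluX (0 : W.Point) = 0 := rfl
@[simp] theorem veluY_zero {W : WeierstrassCurve.Affine R} : veluY (0 : W.Point) = 0 := rfl
@[simp] theorem veluTpt_zero {W : WeierstrassCurve.Affine R} : veluTpt (0 : W.Point) = 0 := rfl
@[simp] theorem veluUpt_zero {W : WeierstrassCurve.Affine R} : veluUpt (0 : W.Point) = 0 := rfl

@[simp] theorem veluX_some {W : WeierstrassCurve.Affine R} {x y : R} (h : W.Nonsingular x y) :
    veluX (Affine.Point.some x y h) = x := rfl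
@[simp] theorem veluY_some {W : WeierstrassCurve.Affine R} {x y : R} (h : W.Nonsingular x y) :
    veluY (Affine.Point.some x y h) = y := rfl
@[simp] theorem veluTpt_some {W : WeierstrassCurve.Affine R} {x y : R} (h : W.Nonsingular x y) :
    veluTpt (Affine.Point.some x y h) = veluT W x := rfl
@[simp] theorem veluUpt_some {W : WeierstrassCurve.Affine R} {x y : R} (h : W.Nonsingular x y) :
    veluUpt (Affine.Point.some x y h) = veluU W x := rfl

end Ring

section Field

variable {F : Type*} [Field F] {W : WeierstrassCurve.Affine F}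

theorem veluX_neg (P : W.Point) : veluX (-P) = veluX P := by
  rcases P with _ | ⟨x, y, h⟩
  · rfl
  · rfl

theorem veluTpt_neg (P : W.Point) : veluTpt (-P) = veluTpt P := by
  rcases P with _ | ⟨x, y, h⟩
  · rfl
  · rfl

theorem veluUpt_neg (P : W.Point) : veluUpt (-P) = veluUpt P := by
  rcases P with _ | ⟨x, y, h⟩
  · rfl
  · rfl

end Field

end Fermat.Agent.S12
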