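/-
Item 12 (S12 glue), piece `VELU` (sub-captain helper13): interface, second wave.
Design: `NOTES/S12-velu.md`.  Definitions: `S12/VeluDefs.lean`.

| piece | Prop | file | needs |
|---|---|---|---|
| V-DISC | `StmtVeluDisc` | `S12/VeluDisc.lean` | `S15/ModUnifLat` (`modunif_disc_ne_zero`, scaling) |
| V-MAP | `StmtVeluC` | `S12/VeluMap*.lean` (helper13) | V-LATa,b,c, V-DISC, `stmtModAdd`, MOD-UNIF |
| V-QB | `StmtVeluC → StmtVeluQb` | `S12/VeluQb.lean` | `embC`, `Point.map` |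
| V-GAL | `StmtVeluGal` | `S12/VeluGal.lean` | `galois_smul_some` (S05/Inertia) |
| V-RAT | `StmtVeluRat` | `S12/VeluRat.lean` | `modxi_mem_of_torsion`, V-HALF, Galois descent |
| V-C4 | `StmtVeluC4` | `S12/VeluC4.lean` | V-NODE, V-ROOT, `S15/ECLocRed` |
| V-ASM | `stmtVelu_of` | `S12/VeluMain.lean` | all of them, `vc_transport` (EC/VarChange) |
-/
import Fermat.Agent.S12.Plan
import Fermat.Agent.S12.VeluDefs

set_option autoImplicit false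

noncomputable section

namespace Fermat.Agent.S12

open WeierstrassCurve WeierstrassCurve.Affine

/-- **V-DISC.**  The discriminant of a lattice does not vanish. -/
def StmtVeluDisc : Prop :=
  ∀ L : PeriodPair, L.g₂ ^ 3 - 27 * L.g₃ ^ 2 ≠ 0

/-- **V-MAP.**  Vélu's isogeny over `ℂ`: for a finite subgroup `K` of `W(ℂ)`, the curve
`veluCurve W t w` is nonsingular and `P ↦ (∑_{Q ∈ K} (x(P+Q) - x(Q)), ∑_{Q ∈ K} (y(P+Q) - y(Q)))`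
is a homomorphism to it, with kernel `K`. -/
def StmtVeluC : Prop :=
  ∀ (W : WeierstrassCurve ℂ), W.Δ ≠ 0 → W.c₄ ≠ 0 → W.c₆ ≠ 0 →
    ∀ K : Finset W.toAffine.Point, 0 ∈ K → (∀ P ∈ K, ∀ Q ∈ K, P + Q ∈ K) → (∀ P ∈ K, -P ∈ K) →
      ∀ t w : ℂ, 2 * t = ∑ Q ∈ K, veluTpt Q → 2 * w = ∑ Q ∈ K, veluUpt Q →
        (veluCurve W t w).Δ ≠ 0 ∧
        ∃ φ : W.toAffine.Point →+ (veluCurve W t w).toAffine.Point,
          (∀ P, φ P = 0 ↔ P ∈ K) ∧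
          ∀ P, P ∉ K → ∃ h, φ P =
            .some (∑ Q ∈ K, (veluX (P + Q) - veluX Q)) (∑ Q ∈ K, (veluY (P + Q) - veluY Q)) h

/-- **V-QB.**  The same over `ℚ̄`, for a curve over `ℚ` and rational `t`, `w`. -/
def StmtVeluQb : Prop :=
  ∀ (W : WeierstrassCurve ℚ), W.Δ ≠ 0 → W.c₄ ≠ 0 → W.c₆ ≠ 0 →
    ∀ K : Finset (W⁄Qb).Point, 0 ∈ K → (∀ P ∈ K, ∀ Q ∈ K, P + Q ∈ K) → (∀ P ∈ K, -P ∈ K) →
      ∀ t w : ℚ, 2 * algebraMap ℚ Qb t = ∑ Q ∈ K, veluTpt Q →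
        2 * algebraMap ℚ Qb w = ∑ Q ∈ K, veluUpt Q →
        (veluCurve W t w).Δ ≠ 0 ∧
        ∃ φ : (W⁄Qb).Point →+ ((veluCurve W t w)⁄Qb).Point,
          (∀ P, φ P = 0 ↔ P ∈ K) ∧
          ∀ P, P ∉ K → ∃ h, φ P =
            .some (∑ Q ∈ K, (veluX (P + Q) - veluX Q)) (∑ Q ∈ K, (veluY (P + Q) - veluY Q)) h

/-- **V-GAL.**  A homomorphism given by Vélu's formulas for a Galois-stable `K` is
Galois-equivariant. -/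
def StmtVeluGal : Prop :=
  ∀ (W W' : WeierstrassCurve ℚ) (K : Finset (W⁄Qb).Point) (φ : (W⁄Qb).Point →+ (W'⁄Qb).Point),
    (∀ P ∈ K, ∀ Q ∈ K, P + Q ∈ K) → (∀ P ∈ K, -P ∈ K) →
    (∀ σ : GQ, ∀ P ∈ K, σ • P ∈ K) → (∀ P, φ P = 0 ↔ P ∈ K) →
    (∀ P, P ∉ K → ∃ h, φ P =
      .some (∑ Q ∈ K, (veluX (P + Q) - veluX Q)) (∑ Q ∈ K, (veluY (P + Q) - veluY Q)) h) →
    ∀ (σ : GQ) (P : (W⁄Qb).Point), φ (σ • P) = σ • φ P

/-- **V-RAT.**  For a Galois-stable subgroup `K` of odd prime power order `p ^ k` of an integral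
model, `t` and `w` are rational with denominators powers of `p`. -/
def StmtVeluRat : Prop :=
  ∀ (W : WeierstrassCurve ℤ) (p : ℕ), p.Prime → p ≠ 2 → ∀ (k : ℕ) (K : Finset (PtZ W)),
    0 ∈ K → (∀ P ∈ K, ∀ Q ∈ K, P + Q ∈ K) → (∀ P ∈ K, -P ∈ K) → K.card = p ^ k →
    (∀ σ : GQ, ∀ P ∈ K, σ • P ∈ K) →
    ∃ (N : ℕ) (t w : ℤ),
      2 * (t : Qb) = (p : Qb) ^ N * ∑ Q ∈ K, veluTpt Q ∧
      2 * (w : Qb) = (p : Qb) ^ N * ∑ Q ∈ K, veluUpt Q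

/-- **V-C4.**  At a prime `ℓ ≠ p` of multiplicative reduction, `c₄(W / K) = c₄ + 240 t` is a
unit (`≡ m⁴ c₄`, `m = #(K ∩ E⁰)`). -/
def StmtVeluC4 : Prop :=
  ∀ (W : WeierstrassCurve ℤ) (p ℓ : ℕ), p.Prime → ℓ.Prime → ℓ ≠ p → (ℓ : ℤ) ∣ W.Δ →
    ¬ (ℓ : ℤ) ∣ W.c₄ → ∀ (k : ℕ) (K : Finset (PtZ W)),
    0 ∈ K → (∀ P ∈ K, ∀ Q ∈ K, P + Q ∈ K) → (∀ P ∈ K, -P ∈ K) → K.card = p ^ k →
    ∀ A : ValuationSubring Qb, A.LiesOverPrime ℓ →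
      A.valuation (((W.c₄ : ℤ) : Qb) + 120 * ∑ Q ∈ K, veluTpt Q) = 1

end Fermat.Agent.S12
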