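/-
# S12 / VELU / V-QB (helper56)

`stmtVeluQb_of : StmtVeluC → StmtVeluQb`: descent of the Vélu isogeny from `ℂ` to `ℚ̄` along an
embedding `ι : ℚ̄ → ℂ` (`IsAlgClosed.lift`): the formulas commute with `ι`, nonsingularity descends
(`baseChange_nonsingular`), additivity by the injectivity of `Point.map ι`.
-/
import Fermat.Agent.S12.VeluPlan2

set_option autoImplicit false

noncomputable section

namespace Fermat.Agent.S12

open WeierstrassCurve WeierstrassCurve.Affine

section Generic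

variable {F K : Type} [Field F] [Field K] [DecidableEq F] [DecidableEq K] [Algebra ℚ F]
  [Algebra ℚ K] (W : WeierstrassCurve ℚ) (f : F →ₐ[ℚ] K)

omit [DecidableEq F] [DecidableEq K] in
theorem veluqb_T_map (x : F) : veluT (W⁄K) (f x) = f (veluT (W⁄F) x) := by
  have h := veluT_map (f : F →+* K) (W⁄F) x
  rw [WeierstrassCurve.map_baseChange] at h
  exact h

omit [DecidableEq F] [DecidableEq K] in
theorem veluqb_U_map (x : F) : veluU (W⁄K) (f x) = f (veluU (W⁄F) x) := by
  have h := veluU_map (f : F →+* K) (W⁄F) x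
  rw [WeierstrassCurve.map_baseChange] at h
  exact h

theorem veluqb_X_pt (P : (W⁄F).Point) : veluX (Point.map f P) = f (veluX P) := by
  rcases P with _ | ⟨x, y, h⟩
  · exact (map_zero f).symm
  · rfl

theorem veluqb_Y_pt (P : (W⁄F).Point) : veluY (Point.map f P) = f (veluY P) := by
  rcases P with _ | ⟨x, y, h⟩
  · exact (map_zero f).symm
  · rfl

theorem veluqb_T_pt (P : (W⁄F).Point) : veluTpt (Point.map f P) = f (veluTpt P) := by
  rcases P with _ | ⟨x, y, h⟩
  · exact (map_zero f).symm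
  · exact veluqb_T_map W f x

theorem veluqb_U_pt (P : (W⁄F).Point) : veluUpt (Point.map f P) = f (veluUpt P) := by
  rcases P with _ | ⟨x, y, h⟩
  · exact (map_zero f).symm
  · exact veluqb_U_map W f x

end Generic

/-- **V-QB.** -/
theorem stmtVeluQb_of (hC : StmtVeluC) : StmtVeluQb := by
  classical
  intro W hΔ hc₄ hc₆ K h0 hadd hneg t w ht hw
  have : Algebra.IsAlgebraic ℚ Qb := AlgebraicClosure.isAlgebraic ℚ
  let ι : Qb →ₐ[ℚ] ℂ := IsAlgClosed.lift
  let m : (W⁄Qb).Point →+ (W⁄ℂ).Point := Point.map ι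
  have hm : Function.Injective m := Point.map_injective ι
  let KC : Finset (W⁄ℂ).Point := K.image m
  have hmemKC : ∀ P, m P ∈ KC ↔ P ∈ K := by
    intro P
    simp only [KC, Finset.mem_image]
    constructor
    · rintro ⟨Q, hQ, hQP⟩
      rw [← hm hQP]
      exact hQ
    · intro hP
      exact ⟨P, hP, rfl⟩
  have hinj : ∀ a ∈ K, ∀ b ∈ K, m a = m b → a = b := fun a _ b _ h => hm h
  have hΔC : (W.baseChange ℂ).Δ ≠ 0 := by
    show (W.map (algebraMap ℚ ℂ)).Δ ≠ 0
    rw [WeierstrassCurve.map_Δ]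
    exact (map_ne_zero_iff _ (algebraMap ℚ ℂ).injective).2 hΔ
  have hc₄C : (W.baseChange ℂ).c₄ ≠ 0 := by
    show (W.map (algebraMap ℚ ℂ)).c₄ ≠ 0
    rw [WeierstrassCurve.map_c₄]
    exact (map_ne_zero_iff _ (algebraMap ℚ ℂ).injective).2 hc₄
  have hc₆C : (W.baseChange ℂ).c₆ ≠ 0 := by
    show (W.map (algebraMap ℚ ℂ)).c₆ ≠ 0
    rw [WeierstrassCurve.map_c₆]
    exact (map_ne_zero_iff _ (algebraMap ℚ ℂ).injective).2 hc₆
  have h0C : (0 : (W⁄ℂ).Point) ∈ KC := by
    have := (hmemKC 0).2 h0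
    rwa [map_zero] at this
  have haddC : ∀ P ∈ KC, ∀ Q ∈ KC, P + Q ∈ KC := by
    intro P hP Q hQ
    simp only [KC, Finset.mem_image] at hP hQ
    obtain ⟨P', hP', rfl⟩ := hP
    obtain ⟨Q', hQ', rfl⟩ := hQ
    rw [← map_add]
    exact (hmemKC _).2 (hadd P' hP' Q' hQ')
  have hnegC : ∀ P ∈ KC, -P ∈ KC := by
    intro P hP
    simp only [KC, Finset.mem_image] at hP
    obtain ⟨P', hP', rfl⟩ := hP
    rw [← map_neg]
    exact (hmemKC _).2 (hneg P' hP')
  have hsumT : 2 * (algebraMap ℚ ℂ t) = ∑ Q ∈ KC, veluTpt Q := by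
    rw [Finset.sum_image hinj]
    have : ∀ Q ∈ K, veluTpt (m Q) = ι (veluTpt Q) := fun Q _ => veluqb_T_pt W ι Q
    rw [Finset.sum_congr rfl this, ← map_sum, ← ht, map_mul, map_ofNat, AlgHom.commutes]
  have hsumU : 2 * (algebraMap ℚ ℂ w) = ∑ Q ∈ KC, veluUpt Q := by
    rw [Finset.sum_image hinj]
    have : ∀ Q ∈ K, veluUpt (m Q) = ι (veluUpt Q) := fun Q _ => veluqb_U_pt W ι Q
    rw [Finset.sum_congr rfl this, ← map_sum, ← hw, map_mul, map_ofNat, AlgHom.commutes]
  have e : veluCurve (W.baseChange ℂ) (algebraMap ℚ ℂ t) (algebraMap ℚ ℂ w) =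
      (veluCurve W t w).baseChange ℂ := (veluCurve_map (algebraMap ℚ ℂ) W t w).symm
  have key : ∀ V : WeierstrassCurve ℂ,
      veluCurve (W.baseChange ℂ) (algebraMap ℚ ℂ t) (algebraMap ℚ ℂ w) = V →
      V.Δ ≠ 0 ∧ ∃ φ : (W⁄ℂ).Point →+ V.toAffine.Point, (∀ P, φ P = 0 ↔ P ∈ KC) ∧
        ∀ P, P ∉ KC → ∃ h, φ P =
          .some (∑ Q ∈ KC, (veluX (P + Q) - veluX Q)) (∑ Q ∈ KC, (veluY (P + Q) - veluY Q)) h := by
    rintro V rfl
    exact hC (W.baseChange ℂ) hΔC hc₄C hc₆C KC h0C haddC hnegC _ _ hsumT hsumU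
  obtain ⟨hΔ', φC, hkerC, hformC⟩ := key _ e
  -- the coordinates
  have hXC : ∀ P : (W⁄Qb).Point, ∑ Q ∈ KC, (veluX (m P + Q) - veluX Q) =
      ι (∑ Q ∈ K, (veluX (P + Q) - veluX Q)) := by
    intro P
    rw [Finset.sum_image hinj, map_sum]
    refine Finset.sum_congr rfl fun Q _ => ?_
    rw [← map_add, map_sub]
    show veluX (Point.map ι (P + Q)) - veluX (Point.map ι Q) = _
    rw [veluqb_X_pt, veluqb_X_pt]
  have hYC : ∀ P : (W⁄Qb).Point, ∑ Q ∈ KC, (veluY (m P + Q) - veluY Q) =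
      ι (∑ Q ∈ K, (veluY (P + Q) - veluY Q)) := by
    intro P
    rw [Finset.sum_image hinj, map_sum]
    refine Finset.sum_congr rfl fun Q _ => ?_
    rw [← map_add, map_sub]
    show veluY (Point.map ι (P + Q)) - veluY (Point.map ι Q) = _
    rw [veluqb_Y_pt, veluqb_Y_pt]
  refine ⟨?_, ?_⟩
  · intro h
    apply hΔ'
    show ((veluCurve W t w).map (algebraMap ℚ ℂ)).Δ = 0
    rw [WeierstrassCurve.map_Δ, h, map_zero]
  · let m' : ((veluCurve W t w)⁄Qb).Point →+ ((veluCurve W t w)⁄ℂ).Point := Point.map ι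
    have hm' : Function.Injective m' := Point.map_injective ι
    have hns : ∀ P : (W⁄Qb).Point, P ∉ K →
        ((veluCurve W t w)⁄Qb).Nonsingular (∑ Q ∈ K, (veluX (P + Q) - veluX Q))
          (∑ Q ∈ K, (veluY (P + Q) - veluY Q)) := by
      intro P hP
      obtain ⟨h, -⟩ := hformC (m P) (fun hmem => hP ((hmemKC P).1 hmem))
      rw [hXC, hYC] at h
      exact (Affine.baseChange_nonsingular (veluCurve W t w) ι.injective _ _).1 h
    let φfun : (W⁄Qb).Point → ((veluCurve W t w)⁄Qb).Point := fun P =>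
      if hP : P ∈ K then 0 else .some _ _ (hns P hP)
    have hφin : ∀ P, P ∈ K → φfun P = 0 := fun P hP => dif_pos hP
    have hφout : ∀ P (hP : P ∉ K), φfun P = .some _ _ (hns P hP) := fun P hP => dif_neg hP
    have hcomm : ∀ P, m' (φfun P) = φC (m P) := by
      intro P
      by_cases hP : P ∈ K
      · rw [hφin P hP, map_zero, (hkerC (m P)).2 ((hmemKC P).2 hP)]
      · obtain ⟨h, hh⟩ := hformC (m P) (fun hmem => hP ((hmemKC P).1 hmem))
        rw [hφout P hP, hh]
        show Point.map ι (Point.some _ _ (hns P hP)) = _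
        rw [Point.map_some]
        congr 1
        · exact (hXC P).symm
        · exact (hYC P).symm
    refine ⟨{ toFun := φfun, map_zero' := hφin 0 h0, map_add' := ?_ }, ?_, ?_⟩
    · intro P Q
      apply hm'
      rw [map_add, hcomm, hcomm, hcomm, map_add, map_add]
    · intro P
      show φfun P = 0 ↔ P ∈ K
      constructor
      · intro h
        by_contra hP
        rw [hφout P hP] at h
        exact Point.some_ne_zero _ h
      · exact hφin P
    · intro P hP
      exact ⟨hns P hP, hφout P hP⟩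

end Fermat.Agent.S12
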