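/-
# S12 / VELU / V-RAT (helper56)

`stmtVeluRat : StmtVeluRat`: for a Galois-stable subgroup `K` of odd prime power order of an
integral model, `∑_K t_Q = 2 t / p^N` and `∑_K u_Q = 2 w / p^N` with `t, w ∈ ℤ`: half system
(V-HALF), Galois descent, integrality of torsion of order prime to `ℓ` (`modxi_mem_of_torsion`).
-/
import Fermat.Agent.S12.VeluPlan2
import Fermat.Agent.S12.VeluHalf
import Fermat.Agent.S12.VeluQb
import Fermat.Agent.S15.ModXi
import Fermat.Agent.Common.FrobProfinite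

set_option autoImplicit false

noncomputable section

namespace Fermat.Agent.S12

open WeierstrassCurve WeierstrassCurve.Affine

/-- a rational number whose denominator is prime to every prime `ℓ ≠ p` has denominator a power
of `p` -/
theorem velurat_den (p : ℕ) (r : ℚ) (h : ∀ ℓ : ℕ, ℓ.Prime → ℓ ≠ p → ¬ ℓ ∣ r.den) :
    ∃ (N : ℕ) (t : ℤ), (t : ℚ) = (p : ℚ) ^ N * r := by
  have h1 : r.den = p ^ r.den.primeFactorsList.length :=
    Nat.eq_prime_pow_of_unique_prime_dvd r.den_ne_zero (fun {d} hd hdvd => by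
      by_contra hne
      exact h d hd hne hdvd)
  refine ⟨r.den.primeFactorsList.length, r.num, ?_⟩
  have h2 : r * (r.den : ℚ) = r.num := Rat.mul_den_eq_num r
  rw [← h2, mul_comm]
  congr 1
  exact_mod_cast h1

/-- a Galois-fixed algebraic number which is integral at all places not over `p` is in
`ℤ[1/p]` -/
theorem velurat_core (p : ℕ) (x : Qb) (hfix : ∀ σ : GQ, σ x = x)
    (hint : ∀ ℓ : ℕ, ℓ.Prime → ℓ ≠ p → ∀ A : ValuationSubring Qb, A.LiesOverPrime ℓ → x ∈ A) :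
    ∃ (N : ℕ) (t : ℤ), (t : Qb) = (p : Qb) ^ N * x := by
  obtain ⟨r, hr⟩ := Fermat.Agent.Common.exists_rat_of_fixed x hfix
  have h : ∀ ℓ : ℕ, ℓ.Prime → ℓ ≠ p → ¬ ℓ ∣ r.den := by
    intro ℓ hℓ hℓp
    obtain ⟨A, hA⟩ := Fermat.Agent.Common.exists_liesOverPrime ℓ hℓ
    have : Fact ℓ.Prime := ⟨hℓ⟩
    refine (Fermat.Agent.S15.ecloc_rat_mem_iff A hA r).1 ?_
    rw [hr]
    exact hint ℓ hℓ hℓp A hA
  obtain ⟨N, t, ht⟩ := velurat_den p r h
  refine ⟨N, t, ?_⟩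
  have h2 := congrArg (algebraMap ℚ Qb) ht
  rw [map_intCast, map_mul, map_pow, map_natCast, hr] at h2
  exact h2

section Sum

variable (W : WeierstrassCurve ℤ) (p : ℕ) (k : ℕ) (K : Finset (PtZ W))

/-- Lagrange for a finite subgroup given as a `Finset` -/
theorem velurat_tors (h0 : (0 : PtZ W) ∈ K) (hadd : ∀ P ∈ K, ∀ Q ∈ K, P + Q ∈ K)
    (hneg : ∀ P ∈ K, -P ∈ K) (hcard : K.card = p ^ k) : ∀ Q ∈ K, p ^ k • Q = 0 := by
  intro Q hQ
  let H : AddSubgroup (PtZ W) :=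
    { carrier := (K : Set (PtZ W))
      add_mem' := fun {a b} ha hb => hadd a ha b hb
      zero_mem' := h0
      neg_mem' := fun {a} ha => hneg a ha }
  have hH : Nat.card H = p ^ k := by
    rw [← hcard, ← Set.ncard_coe_finset K, ← Nat.card_coe_set_eq]
    rfl
  have h1 : Nat.card H • (⟨Q, hQ⟩ : H) = 0 := card_nsmul_eq_zero'
  rw [hH] at h1
  have h2 := congrArg (Subtype.val : H → PtZ W) h1
  simpa using h2

/-- no `2`-torsion in a subgroup of odd prime power order -/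
theorem velurat_ne_neg (hp : p.Prime) (hp2 : p ≠ 2) (htors : ∀ Q ∈ K, p ^ k • Q = 0) :
    ∀ P ∈ K, P ≠ 0 → P ≠ -P := by
  intro P hP hP0 hPP
  apply hP0
  have h2 : 2 • P = 0 := by
    rw [two_nsmul]
    nth_rewrite 2 [hPP]
    exact add_neg_cancel P
  have h3 : addOrderOf P ∣ 2 := addOrderOf_dvd_of_nsmul_eq_zero h2
  have h4 : addOrderOf P ∣ p ^ k := addOrderOf_dvd_of_nsmul_eq_zero (htors P hP)
  have hcop : Nat.Coprime 2 (p ^ k) :=
    Nat.Coprime.pow_right k ((Nat.coprime_primes Nat.prime_two hp).2 (Ne.symm hp2))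
  have h5 : addOrderOf P = 1 := Nat.eq_one_of_dvd_coprimes hcop h3 h4
  exact AddMonoid.addOrderOf_eq_one_iff.mp h5

/-- the sums of Vélu's formulas are in `ℤ[1/p]`, and even -/
theorem velurat_sum (hp : p.Prime) (hp2 : p ≠ 2)
    (h0 : (0 : PtZ W) ∈ K) (hadd : ∀ P ∈ K, ∀ Q ∈ K, P + Q ∈ K)
    (hneg : ∀ P ∈ K, -P ∈ K) (hcard : K.card = p ^ k) (hK : ∀ σ : GQ, ∀ P ∈ K, σ • P ∈ K)
    (c : PtZ W → Qb) (hc0 : c 0 = 0) (hcneg : ∀ Q, c (-Q) = c Q)
    (hcσ : ∀ (σ : GQ) (Q : PtZ W), c (σ • Q) = σ (c Q))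
    (hcint : ∀ ℓ : ℕ, ℓ.Prime → ℓ ≠ p → ∀ A : ValuationSubring Qb, A.LiesOverPrime ℓ →
      ∀ Q : PtZ W, p ^ k • Q = 0 → c Q ∈ A) :
    ∃ (N : ℕ) (t : ℤ), 2 * (t : Qb) = (p : Qb) ^ N * ∑ Q ∈ K, c Q := by
  classical
  have htors := velurat_tors W p k K h0 hadd hneg hcard
  have hnn := velurat_ne_neg W p k K hp hp2 htors
  obtain ⟨R, hdisj, hunion⟩ := stmtVeluHalf (PtZ W) (K.erase 0)
    (fun P hP => by
      rw [Finset.mem_erase] at hP ⊢
      exact ⟨neg_ne_zero.mpr hP.1, hneg P hP.2⟩)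
    (fun P hP => by
      rw [Finset.mem_erase] at hP
      exact hnn P hP.2 hP.1)
  have hRK : ∀ Q ∈ R, Q ∈ K := by
    intro Q hQ
    have : Q ∈ K.erase 0 := by
      rw [hunion]
      exact Finset.mem_union_left _ hQ
    exact Finset.mem_of_mem_erase this
  have hsum : ∑ Q ∈ K, c Q = 2 * ∑ Q ∈ R, c Q := by
    rw [← Finset.add_sum_erase K c h0, hc0, zero_add, hunion, Finset.sum_union hdisj,
      Finset.sum_image (fun a _ b _ h => neg_injective h)]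
    simp only [hcneg]
    ring
  have hfixT : ∀ σ : GQ, σ (∑ Q ∈ K, c Q) = ∑ Q ∈ K, c Q := by
    intro σ
    rw [map_sum]
    refine Finset.sum_nbij' (fun Q => σ • Q) (fun Q => σ⁻¹ • Q) (fun Q hQ => hK σ Q hQ)
      (fun Q hQ => hK σ⁻¹ Q hQ) (fun Q _ => inv_smul_smul σ Q) (fun Q _ => smul_inv_smul σ Q) ?_
    intro Q _
    exact (hcσ σ Q).symm
  have hfix : ∀ σ : GQ, σ (∑ Q ∈ R, c Q) = ∑ Q ∈ R, c Q := by
    intro σ
    have h1 := hfixT σ
    rw [hsum, map_mul, map_ofNat] at h1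
    exact mul_left_cancel₀ two_ne_zero h1
  have hint : ∀ ℓ : ℕ, ℓ.Prime → ℓ ≠ p → ∀ A : ValuationSubring Qb, A.LiesOverPrime ℓ →
      ∑ Q ∈ R, c Q ∈ A := by
    intro ℓ hℓ hℓp A hA
    exact sum_mem fun Q hQ => hcint ℓ hℓ hℓp A hA Q (htors Q (hRK Q hQ))
  obtain ⟨N, t, ht⟩ := velurat_core p _ hfix hint
  refine ⟨N, t, ?_⟩
  rw [ht, hsum]
  ring

end Sum

section Int

variable (W : WeierstrassCurve ℤ)

theorem velurat_b₂ : (((W.map (Int.castRingHom ℚ)))⁄Qb).b₂ = ((W.b₂ : ℤ) : Qb) := by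
  simp only [WeierstrassCurve.baseChange, WeierstrassCurve.map_b₂, eq_intCast, map_intCast]

theorem velurat_b₄ : (((W.map (Int.castRingHom ℚ)))⁄Qb).b₄ = ((W.b₄ : ℤ) : Qb) := by
  simp only [WeierstrassCurve.baseChange, WeierstrassCurve.map_b₄, eq_intCast, map_intCast]

theorem velurat_b₆ : (((W.map (Int.castRingHom ℚ)))⁄Qb).b₆ = ((W.b₆ : ℤ) : Qb) := by
  simp only [WeierstrassCurve.baseChange, WeierstrassCurve.map_b₆, eq_intCast, map_intCast]

theorem velurat_T_mem (A : ValuationSubring Qb) {x : Qb} (hx : x ∈ A) :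
    veluT (((W.map (Int.castRingHom ℚ)))⁄Qb) x ∈ A := by
  unfold veluT
  rw [velurat_b₂, velurat_b₄]
  have h6 : (6 : Qb) ∈ A := by exact_mod_cast natCast_mem A 6
  exact add_mem (add_mem (mul_mem h6 (pow_mem hx 2)) (mul_mem (intCast_mem A _) hx))
    (intCast_mem A _)

theorem velurat_U_mem (A : ValuationSubring Qb) {x : Qb} (hx : x ∈ A) :
    veluU (((W.map (Int.castRingHom ℚ)))⁄Qb) x ∈ A := by
  unfold veluU
  rw [velurat_b₂, velurat_b₄, velurat_b₆]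
  have h10 : (10 : Qb) ∈ A := by exact_mod_cast natCast_mem A 10
  have h2 : (2 : Qb) ∈ A := by exact_mod_cast natCast_mem A 2
  have h3 : (3 : Qb) ∈ A := by exact_mod_cast natCast_mem A 3
  exact add_mem (add_mem (add_mem (mul_mem h10 (pow_mem hx 3))
    (mul_mem (mul_mem h2 (intCast_mem A _)) (pow_mem hx 2)))
    (mul_mem (mul_mem h3 (intCast_mem A _)) hx)) (intCast_mem A _)

end Int

/-- **V-RAT.** -/
theorem stmtVeluRat : StmtVeluRat := by
  intro W p hp hp2 k K h0 hadd hneg hcard hK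
  have hndvd : ∀ ℓ : ℕ, ℓ.Prime → ℓ ≠ p → ¬ ℓ ∣ p ^ k := by
    intro ℓ hℓ hℓp hdvd
    exact hℓp ((Nat.prime_dvd_prime_iff_eq hℓ hp).1 (hℓ.dvd_of_dvd_pow hdvd))
  obtain ⟨N₁, t₁, h₁⟩ := velurat_sum W p k K hp hp2 h0 hadd hneg hcard hK veluTpt veluTpt_zero
    veluTpt_neg (fun σ Q => veluqb_T_pt (W.map (Int.castRingHom ℚ)) σ.toAlgHom Q)
    (fun ℓ hℓ hℓp A hA Q hQ => by
      rcases Q with _ | ⟨x, y, h⟩
      · exact zero_mem A
      · exact velurat_T_mem W A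
          (Fermat.Agent.S15.modxi_mem_of_torsion hℓ hA (hndvd ℓ hℓ hℓp) h hQ))
  obtain ⟨N₂, t₂, h₂⟩ := velurat_sum W p k K hp hp2 h0 hadd hneg hcard hK veluUpt veluUpt_zero
    veluUpt_neg (fun σ Q => veluqb_U_pt (W.map (Int.castRingHom ℚ)) σ.toAlgHom Q)
    (fun ℓ hℓ hℓp A hA Q hQ => by
      rcases Q with _ | ⟨x, y, h⟩
      · exact zero_mem A
      · exact velurat_U_mem W A
          (Fermat.Agent.S15.modxi_mem_of_torsion hℓ hA (hndvd ℓ hℓ hℓp) h hQ))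
  refine ⟨N₁ + N₂, (p : ℤ) ^ N₂ * t₁, (p : ℤ) ^ N₁ * t₂, ?_, ?_⟩
  · push_cast
    rw [pow_add]
    linear_combination (p : Qb) ^ N₂ * h₁
  · push_cast
    rw [pow_add]
    linear_combination (p : Qb) ^ N₁ * h₂

end Fermat.Agent.S12
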