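/-
Item 12 (S12 glue), piece `VELU` (sub-captain helper13): **VELU is proved.**

`stmtVelu : StmtVelu` — the quotient of an integral model by a finite Galois-stable subgroup of
odd prime power order, with `ℓ ∤ c₄` at the primes `ℓ ≠ p` of multiplicative reduction.

Pieces: V-LATa (helper13), V-LATb, V-LATc, V-DISC, V-QB, V-GAL, V-RAT (helper56), V-HALF, V-ROOT,
V-NODE, V-C4 (helper60), V-VC (helper52), V-SHORT, V-MAP (helper13), V-ASM (helper47);
S15 MOD-ADD (helper51), MOD-UNIF (helper13), EC/VarChange (helper6).
-/
import Fermat.Agent.S12.VeluFinal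
import Fermat.Agent.S12.VeluRat

set_option autoImplicit false

namespace Fermat.Agent.S12

/-- **VELU.** -/
theorem stmtVelu : StmtVelu := stmtVelu_of_rat stmtVeluRat

end Fermat.Agent.S12
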