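import Fermat.Agent.S12.Core
import Fermat.Agent.S12.GWrap
import Fermat.Agent.S12.GFrob
import Fermat.Agent.S12.L1
import Fermat.Agent.S12.HS15Frey
import Fermat.Agent.S12.VeluDone
import Fermat.Agent.S12.LocP
import Fermat.Agent.S12.Cyc
import Fermat.Agent.S12.RamP
import Fermat.Agent.S12.U1
import Fermat.Agent.S13.MinkowskiStmt
import Fermat.Agent.S14

/-!
# S12: final assembly (helper47)

`s12_of_s15 : StmtS15 → StmtS12`: `S12` from the frozen statement of `S15` — unconditional.
Pieces: the abstract core (`stmtCore`: CORE-BASE, STEP-TORIC helper24; STEP-COFIXED helper60;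
STEP-SPLIT helper47), `S14`, Minkowski (`S13`), `G-WRAP`, `G-FROB` (helper24), `G-L1`, `G-U1`
(helper49), `G-HS15` (helper47), `VELU` (helper13, helper56, helper60, helper52, helper47),
`G-LOCP` (helper8), `G-CYC` (helper34), `G-RAMP` (helper1).
-/

set_option autoImplicit false

namespace Fermat.Agent.S12

/-- `G-HS15`, unconditional. -/
theorem stmtHS15 : StmtHS15 :=
  stmtHS15_of stmtVelu stmtU1 stmtE0Add stmtL1Two stmtL1Three stmtGoodTors stmtGoodLine
    stmtGoodUnr stmtCard

/-- **S12 from S15.** -/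
theorem s12_of_s15 (h15 : StmtS15) : StmtS12 :=
  s12_of stmtCore (fun _ _ h3 => Fermat.Agent.S14.result h3) Fermat.Agent.S13.stmtMinkowski
    hPlaces stmtLine stmtCard stmtOpen stmtUnip stmtLocP stmtCyc (stmtRamP_of stmtCyc) stmtFin
    stmtHS15 h15

end Fermat.Agent.S12
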