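import Fermat.Agent.S12.StepSplitAct

/-!
# S12 / G-HS15: the consequence `HS15` of the frozen `S15` (helper47)

`s12h_hs15`: for an integral semistable model `W` with `c₄ c₆ Δ ≠ 0`, `2 ∣ Δ`, and `p ≥ 17`:
`HS15 (PtZ W) p`, from `S15` applied to the quotient curves of `StmtVelu`.
-/

set_option autoImplicit false
set_option linter.style.haveILetI false
set_option linter.unusedSectionVars false
set_option linter.unusedVariables false

noncomputable section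

namespace Fermat.Agent.S12

open WeierstrassCurve WeierstrassCurve.Affine

section HS15

variable {p : ℕ} [Fact p.Prime]

theorem s12h_not_dvd_pow {ℓ : ℕ} (hℓ : ℓ.Prime) (hℓp : ℓ ≠ p) (m : ℕ) : ¬ ℓ ∣ p ^ m := by
  have hp : p.Prime := Fact.out
  intro h
  exact hℓp ((Nat.prime_dvd_prime_iff_eq hℓ hp).1 (hℓ.dvd_of_dvd_pow h))

theorem s12h_odd_pow (hp2 : p ≠ 2) (m : ℕ) : Odd (p ^ m) :=
  ((Fact.out : p.Prime).odd_of_ne_two hp2).pow

/-- the identity component is closed under the group operations -/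
theorem s12h_inZero_zero (W : WeierstrassCurve ℤ) (A : ValuationSubring Qb) :
    W.InZeroComponentAt A (0 : PtZ W) := Or.inl rfl

theorem s12h_inZero_neg (hE0 : StmtE0Add) (W : WeierstrassCurve ℤ) (A : ValuationSubring Qb)
    {x : PtZ W} (hx : W.InZeroComponentAt A x) : W.InZeroComponentAt A (-x) := by
  have := hE0 W A 0 x (s12h_inZero_zero W A) hx
  rwa [zero_sub] at this

theorem s12h_inZero_add (hE0 : StmtE0Add) (W : WeierstrassCurve ℤ) (A : ValuationSubring Qb)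
    {x y : PtZ W} (hx : W.InZeroComponentAt A x) (hy : W.InZeroComponentAt A y) :
    W.InZeroComponentAt A (x + y) := by
  have := hE0 W A x (-y) hx (s12h_inZero_neg hE0 W A hy)
  rwa [sub_neg_eq_add] at this

/-- at a good prime, `monod A = ⊥` -/
theorem s12h_monod_bot_of_good (hGU : StmtGoodUnr) (W : WeierstrassCurve ℤ) {ℓ : ℕ}
    (hℓ : ℓ.Prime) (hℓp : ℓ ≠ p) (hgood : ¬ (ℓ : ℤ) ∣ W.Δ) (A : ValuationSubring Qb)
    (hA : A.LiesOverPrime ℓ) : monod (PtZ W) p A = ⊥ := by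
  rw [monod, AddSubgroup.closure_eq_bot_iff]
  rintro x ⟨σ, hσ, m, R, hR, rfl⟩
  rw [Set.mem_singleton_iff,
    hGU W ℓ hℓ hgood A hA σ hσ (p ^ m) (s12h_not_dvd_pow hℓ hℓp m) R hR, sub_self]

/-- a `p`-divisible subgroup of a finite `p`-group is trivial -/
theorem s12h_monod_bot_of_le {W : WeierstrassCurve ℤ} (hcard : HCard (PtZ W) p)
    (A : ValuationSubring Qb) {K : AddSubgroup (PtZ W)} {n : ℕ} (hK : Nat.card K = p ^ n)
    (hle : monod (PtZ W) p A ≤ K) : monod (PtZ W) p A = ⊥ := by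
  have hdiv : ∀ (j : ℕ) (x : PtZ W), x ∈ monod (PtZ W) p A →
      ∃ y ∈ monod (PtZ W) p A, p ^ j • y = x := by
    intro j
    induction j with
    | zero => intro x hx; exact ⟨x, hx, by rw [pow_zero, one_smul]⟩
    | succ j ih =>
      intro x hx
      obtain ⟨y, hy, rfl⟩ := ih x hx
      obtain ⟨z, hz, rfl⟩ := s12s_monod_div hcard A hy
      exact ⟨z, hz, by rw [pow_succ, mul_smul]⟩
  rw [eq_bot_iff]
  intro x hx
  obtain ⟨y, hy, rfl⟩ := hdiv n x hx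
  rw [AddSubgroup.mem_bot]
  exact s12s_pow_smul_of_mem hK (hle hy)

/-- `M[p]` is spanned by the `p`-torsion of a cyclic `K` and a point outside -/
theorem s12h_span {M : Type} [AddCommGroup M] [DistribMulAction GQ M] (hcard : HCard M p) {L₁ : AddSubgroup M}
    (hL₁ : Nat.card L₁ = p) {P₀ : M} (hP₀ : p • P₀ = 0) (hP₀L : P₀ ∉ L₁) {x : M}
    (hx : p • x = 0) : ∃ (a : ℤ) (l : M), l ∈ L₁ ∧ x = a • P₀ + l := by
  have hp : p.Prime := Fact.out
  haveI := s12s_finite_tors hcard 1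
  set H : AddSubgroup M := AddSubgroup.zmultiples P₀ ⊔ L₁ with hH
  have hL₁t : L₁ ≤ s12sTors p 1 := fun y hy => s12s_mem_tors_one.2 (s12s_line_nsmul hL₁ hy)
  have hPt : AddSubgroup.zmultiples P₀ ≤ s12sTors p 1 :=
    AddSubgroup.zmultiples_le_of_mem (s12s_mem_tors_one.2 hP₀)
  have hHt : H ≤ s12sTors p 1 := sup_le hPt hL₁t
  haveI : Finite H := Finite.of_injective (AddSubgroup.inclusion hHt)
    (AddSubgroup.inclusion_injective hHt)
  have h1 : Nat.card H ∣ p ^ 2 := by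
    have := AddSubgroup.card_dvd_of_le hHt
    rwa [s12s_card_tors hcard 1, mul_one] at this
  have hLH : L₁ ≤ H := le_sup_right
  have h2 : p ∣ Nat.card H := by
    have := AddSubgroup.card_dvd_of_le hLH
    rwa [hL₁] at this
  obtain ⟨j, hj, hLj⟩ := (Nat.dvd_prime_pow hp).1 h1
  have hj2 : j = 2 := by
    have hj0 : j ≠ 0 := by
      rintro rfl
      rw [hLj, pow_zero] at h2
      exact hp.one_lt.ne' (Nat.dvd_one.1 h2)
    have hj1 : j ≠ 1 := by
      rintro rfl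
      have : L₁ = H := by
        apply AddSubgroup.eq_of_le_of_card_ge hLH
        rw [hLj, pow_one, hL₁]
      apply hP₀L
      rw [this]
      exact (le_sup_left : AddSubgroup.zmultiples P₀ ≤ H) (AddSubgroup.mem_zmultiples P₀)
    omega
  have hHe : H = s12sTors p 1 := by
    apply AddSubgroup.eq_of_le_of_card_ge hHt
    rw [hLj, hj2, s12s_card_tors hcard 1, mul_one]
  have hxH : x ∈ H := by rw [hHe]; exact s12s_mem_tors_one.2 hx
  obtain ⟨y, hy, l, hl, rfl⟩ := AddSubgroup.mem_sup.1 hxH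
  obtain ⟨a, rfl⟩ := AddSubgroup.mem_zmultiples_iff.1 hy
  exact ⟨a, l, hl, rfl⟩

/-- the `p`-torsion line of `K` is cofixed when `P₀` is fixed modulo `K` -/
theorem s12h_cof {M : Type} [AddCommGroup M] [DistribMulAction GQ M] (hcard : HCard M p)
    {K L₁ : AddSubgroup M} (hL₁card : Nat.card L₁ = p) (hL₁K : L₁ ≤ K)
    (hKL₁ : ∀ x ∈ K, p • x = 0 → x ∈ L₁) (hKst : ∀ σ : GQ, ∀ x ∈ K, σ • x ∈ K)
    {P₀ : M} (hP₀ : p • P₀ = 0) (hP₀K : P₀ ∉ K) (hP₀fix : ∀ σ : GQ, σ • P₀ - P₀ ∈ K)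
    (σ : GQ) (x : M) (hx : p • x = 0) : σ • x - x ∈ L₁ := by
  have hP₀L : P₀ ∉ L₁ := fun h => hP₀K (hL₁K h)
  obtain ⟨a, l, hl, rfl⟩ := s12h_span hcard hL₁card hP₀ hP₀L hx
  have h1 : σ • (a • P₀ + l) - (a • P₀ + l) = a • (σ • P₀ - P₀) + (σ • l - l) := by
    rw [smul_add, s12s_smul_zsmul, smul_sub]
    abel
  rw [h1]
  have h2 : σ • P₀ - P₀ ∈ L₁ := by
    apply hKL₁ _ (hP₀fix σ)
    rw [smul_sub, smul_comm, hP₀, smul_zero, sub_zero]
  have h3 : σ • l - l ∈ L₁ := by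
    have hpl := s12s_line_nsmul hL₁card hl
    apply hKL₁ _ (sub_mem (hKst σ l (hL₁K hl)) (hL₁K hl))
    rw [smul_sub, smul_comm, hpl, smul_zero, sub_self]
  exact add_mem (L₁.zsmul_mem h2 a) h3

/-- **G-HS15**, general integral model. -/
theorem s12h_hs15 (hvelu : StmtVelu) (hU1 : StmtU1) (hE0 : StmtE0Add) (hL2 : StmtL1Two)
    (hL3 : StmtL1Three) (hGT : StmtGoodTors) (hGL : StmtGoodLine) (hGU : StmtGoodUnr)
    (h15 : StmtS15)
    (W : WeierstrassCurve ℤ) (hΔ : W.Δ ≠ 0) (hc₄ : W.c₄ ≠ 0) (hc₆ : W.c₆ ≠ 0)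
    (hss : W.IsSemistableModel) (h2Δ : (2 : ℤ) ∣ W.Δ)
    (hp17 : 17 ≤ p) (hcard : HCard (PtZ W) p) : HS15 (PtZ W) p := by
  have hp : p.Prime := Fact.out
  have hp2 : p ≠ 2 := by omega
  intro k K hKcard hKcyc hKst P₀ hP₀ hP₀K hP₀fix ℓ hℓ hℓp A hA hne t ht κ hκ heq
  obtain ⟨W', φ, hΔ', hφeq, hφker, hc₄'⟩ :=
    hvelu W hΔ hc₄ hc₆ p hp hp2 (k + 1) K hKcard hKst
  -- the rational point
  have hQfix : ∀ σ : GQ, σ • φ P₀ = φ P₀ := by
    intro σ
    rw [← hφeq]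
    have h1 : σ • P₀ = P₀ + (σ • P₀ - P₀) := by abel
    rw [h1, map_add, (hφker _).2 (hP₀fix σ), add_zero]
  have hQord : addOrderOf (φ P₀) = p := by
    apply addOrderOf_eq_prime
    · rw [← map_nsmul, hP₀, map_zero]
    · intro h
      exact hP₀K ((hφker _).1 h)
  -- the cofixed line `L₁ = K[p]`
  obtain ⟨g, hg⟩ := hKcyc
  have hk1 : 1 ≤ k + 1 := Nat.le_add_left 1 k
  have hgord := s12s_order_gen hg hKcard
  have hgK : g ∈ K := by rw [hg]; exact AddSubgroup.mem_zmultiples g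
  set L₁ : AddSubgroup (PtZ W) := AddSubgroup.zmultiples (p ^ (k + 1 - 1) • g) with hL₁
  have hL₁card : Nat.card L₁ = p := by
    rw [hL₁, Nat.card_zmultiples, s12s_order_top hk1 hgord]
  have hL₁K : L₁ ≤ K := by
    rw [hL₁]
    exact AddSubgroup.zmultiples_le_of_mem (K.nsmul_mem hgK _)
  have hKL₁ : ∀ x ∈ K, p • x = 0 → x ∈ L₁ := fun x hx hpx =>
    s12s_cyc_ptors hk1 hgord (hg ▸ hx) hpx
  have hP₀L : P₀ ∉ L₁ := fun h => hP₀K (hL₁K h)
  have hcof : ∀ σ : GQ, ∀ x : PtZ W, p ^ 1 • x = 0 → σ • x - x ∈ L₁ := by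
    intro σ x hx
    rw [pow_one] at hx
    exact s12h_cof hcard hL₁card hL₁K hKL₁ hKst hP₀ hP₀K hP₀fix σ x hx
  -- `3 ∣ Δ(W)`
  have h3Δ : (3 : ℤ) ∣ W.Δ := by
    by_contra h
    have h3p : p ≠ 3 := by omega
    have := hGL W hΔ 3 Nat.prime_three (by exact_mod_cast h) p hp h3p 1 L₁
      (by rw [hL₁card, pow_one]) ⟨_, hL₁⟩ hcof
    rw [pow_one] at this
    omega
  -- `2, 3 ∣ Δ(W')`
  have h2Δ' : (2 : ℤ) ∣ W'.Δ := by
    by_contra h
    have := hGT W' hΔ' 2 Nat.prime_two (by exact_mod_cast h) p hp hp2 (φ P₀) hQfix hQord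
    omega
  have h3Δ' : (3 : ℤ) ∣ W'.Δ := by
    by_contra h
    have := hGT W' hΔ' 3 Nat.prime_three (by exact_mod_cast h) p hp (by omega) (φ P₀) hQfix
      hQord
    omega
  have h2c₄' : ¬ (2 : ℤ) ∣ W'.c₄ := by
    have := hc₄' 2 Nat.prime_two (fun h => hp2 h.symm) (by exact_mod_cast h2Δ)
      (hss 2 Nat.prime_two (by exact_mod_cast h2Δ))
    exact_mod_cast this
  have h3c₄' : ¬ (3 : ℤ) ∣ W'.c₄ := by
    have := hc₄' 3 Nat.prime_three (by omega) (by exact_mod_cast h3Δ)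
      (hss 3 Nat.prime_three (by exact_mod_cast h3Δ))
    exact_mod_cast this
  have h2 := hL2 W' hΔ' h2Δ' h2c₄' p hp (by omega) (φ P₀) hQfix hQord
  have h3 := hL3 W' hΔ' h3Δ' h3c₄' p hp (by omega) (φ P₀) hQfix hQord
  -- the place `A`
  have hℓΔ : (ℓ : ℤ) ∣ W.Δ := by
    by_contra h
    exact hne (s12h_monod_bot_of_good hGU W hℓ hℓp h A hA)
  have hℓΔ' : (ℓ : ℤ) ∣ W'.Δ := by
    by_contra h
    apply hne
    apply s12h_monod_bot_of_le hcard A hKcard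
    rw [monod, AddSubgroup.closure_le]
    rintro x ⟨σ, hσ, m, R, hR, rfl⟩
    apply (hφker _).1
    rw [map_sub, hφeq,
      hGU W' ℓ hℓ h A hA σ hσ (p ^ m) (s12h_not_dvd_pow hℓ hℓp m) (φ R)
        (by rw [← map_nsmul, hR, map_zero]), sub_self]
  have hℓc₄' : ¬ (ℓ : ℤ) ∣ W'.c₄ := hc₄' ℓ hℓ hℓp hℓΔ (hss ℓ hℓ hℓΔ)
  have hpS : p ∉ ({2, 3, 5, 7, 13} : Finset ℕ) := by
    simp only [Finset.mem_insert, Finset.mem_singleton]
    omega
  have hnot := h15 hp hpS W' hΔ' (φ P₀) hQfix hQord h2Δ' h2c₄' h2 h3Δ' h3c₄' h3 hℓ hℓp hℓΔ'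
    hℓc₄' A hA
  -- `φ (monod A) ⊆ W'⁰`
  have hin : ∀ x ∈ monod (PtZ W) p A, W'.InZeroComponentAt A (φ x) := by
    intro x hx
    induction hx using AddSubgroup.closure_induction with
    | mem x hx =>
      obtain ⟨σ, hσ, m, R, hR, rfl⟩ := hx
      rw [map_sub, hφeq]
      exact hU1 W' hΔ' ℓ hℓ hℓΔ' hℓc₄' A hA σ hσ (p ^ m) (s12h_odd_pow hp2 m)
        (s12h_not_dvd_pow hℓ hℓp m) (φ R) (by rw [← map_nsmul, hR, map_zero])
    | zero => rw [map_zero]; exact s12h_inZero_zero W' A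
    | add x y _ _ hx hy => rw [map_add]; exact s12h_inZero_add hE0 W' A hx hy
    | neg x _ hx => rw [map_neg]; exact s12h_inZero_neg hE0 W' A hx
  apply hnot
  rw [heq, map_add, (hφker _).2 hκ, add_zero]
  exact hin t ht

end HS15

end Fermat.Agent.S12
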