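import Fermat.Agent.S12.Plan

/-!
# S12-GLUE: shared algebra for the chain (helper24)

`M` an abelian group with an action of `G_ℚ`, `p` a prime.
* `s12mT M p m`            : `M[p^m]` as a subgroup;
* `s12m_surj`              : (a) `[p] : M[p^{m+1}] → M[p^m]` is surjective (from `HCard`);
* `s12m_torsion_of_mem`    : the elements of `monod A` are `p`-power torsion;
* `s12m_pdiv`              : (b) `monod A` is `p`-divisible;
* `s12m_exists_order_p`    : `monod A ≠ ⊥` contains an element of order `p`;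
* `s12m_cyc_mem`, `s12m_cyc_eq` : subgroups of a cyclic group;
* `s12m_prime_gen`         : a group of prime order is generated by each nonzero element.
-/

set_option autoImplicit false

namespace Fermat.Agent.S12

section General

variable {M : Type} [AddCommGroup M]

/-- `M[n]` -/
def s12mT (M : Type) [AddCommGroup M] (p m : ℕ) : AddSubgroup M where
  carrier := {x | p ^ m • x = 0}
  zero_mem' := smul_zero _
  add_mem' := by
    intro a b ha hb
    show p ^ m • (a + b) = 0
    rw [smul_add, ha, hb, add_zero]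
  neg_mem' := by
    intro a ha
    show p ^ m • (-a) = 0
    rw [smul_neg, ha, neg_zero]

theorem s12m_mem_T {p m : ℕ} {x : M} : x ∈ s12mT M p m ↔ p ^ m • x = 0 := Iff.rfl

/-- elements of a cyclic group killed by `b`, when the generator has order `a * b` -/
theorem s12m_cyc_mem {g x : M} {a b : ℕ} (hb : b ≠ 0) (hord : addOrderOf g = a * b)
    (hx : x ∈ AddSubgroup.zmultiples g) (hbx : b • x = 0) :
    x ∈ AddSubgroup.zmultiples (a • g) := by
  obtain ⟨n, rfl⟩ := AddSubgroup.mem_zmultiples_iff.mp hx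
  have h1 : ((b : ℤ) * n) • g = 0 := by
    rw [mul_smul, natCast_zsmul]
    exact hbx
  have h2 : ((a * b : ℕ) : ℤ) ∣ (b : ℤ) * n := by
    rw [← hord]
    exact addOrderOf_dvd_iff_zsmul_eq_zero.mpr h1
  have h3 : (a : ℤ) ∣ n := by
    rw [Nat.cast_mul, mul_comm (a : ℤ) (b : ℤ)] at h2
    exact (mul_dvd_mul_iff_left (Int.natCast_ne_zero.mpr hb)).mp h2
  obtain ⟨c, rfl⟩ := h3
  refine AddSubgroup.mem_zmultiples_iff.mpr ⟨c, ?_⟩
  rw [mul_comm, mul_smul, natCast_zsmul]

/-- the subgroup of order `b` of a cyclic group of order `a * b` -/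
theorem s12m_cyc_eq {g : M} {a b : ℕ} (hb : b ≠ 0) (hord : addOrderOf g = a * b)
    (K : AddSubgroup M) (hK : K ≤ AddSubgroup.zmultiples g) (hcard : Nat.card K = b) :
    K = AddSubgroup.zmultiples (a • g) := by
  have hle : K ≤ AddSubgroup.zmultiples (a • g) := by
    intro x hx
    refine s12m_cyc_mem hb hord (hK hx) ?_
    have h := card_nsmul_eq_zero' (G := K) (x := ⟨x, hx⟩)
    rw [hcard] at h
    exact congrArg Subtype.val h
  have hfin : Finite (AddSubgroup.zmultiples (a • g)) := by
    apply Nat.finite_of_card_ne_zero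
    rw [Nat.card_zmultiples]
    intro h0
    have h1 : b • (a • g) = 0 := by
      rw [← mul_smul, mul_comm, ← hord]
      exact addOrderOf_nsmul_eq_zero g
    have := addOrderOf_le_of_nsmul_eq_zero (Nat.pos_of_ne_zero hb) h1
    have hpos : 0 < addOrderOf (a • g) := by
      rw [addOrderOf_pos_iff]
      exact isOfFinAddOrder_iff_nsmul_eq_zero.mpr ⟨b, Nat.pos_of_ne_zero hb, h1⟩
    omega
  refine AddSubgroup.eq_of_le_of_card_ge hle ?_
  rw [hcard, Nat.card_zmultiples]
  refine addOrderOf_le_of_nsmul_eq_zero (Nat.pos_of_ne_zero hb) ?_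
  rw [← mul_smul, mul_comm, ← hord]
  exact addOrderOf_nsmul_eq_zero g

/-- a group of prime order is generated by each of its nonzero elements -/
theorem s12m_prime_gen {p : ℕ} (hp : p.Prime) (K : AddSubgroup M) (hcard : Nat.card K = p)
    {e : M} (he : e ∈ K) (he0 : e ≠ 0) : K = AddSubgroup.zmultiples e := by
  have hfin : Finite K := Nat.finite_of_card_ne_zero (by rw [hcard]; exact hp.ne_zero)
  have hle : AddSubgroup.zmultiples e ≤ K := (AddSubgroup.zmultiples_le_of_mem he)
  symm
  refine AddSubgroup.eq_of_le_of_card_ge hle ?_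
  rw [hcard, Nat.card_zmultiples]
  have hpe : p • e = 0 := by
    have h := card_nsmul_eq_zero' (G := K) (x := ⟨e, he⟩)
    rw [hcard] at h
    exact congrArg Subtype.val h
  have hdvd : addOrderOf e ∣ p := addOrderOf_dvd_iff_nsmul_eq_zero.mpr hpe
  rcases (Nat.dvd_prime hp).mp hdvd with h1 | h1
  · exact absurd (AddMonoid.addOrderOf_eq_one_iff.mp h1) he0
  · exact h1.ge

end General

section Surj

variable {M : Type} [AddCommGroup M] [DistribMulAction GQ M] {p : ℕ}

omit [DistribMulAction GQ M] in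
/-- (a) `[p] : M[p^{m+1}] → M[p^m]` is surjective -/
theorem s12m_surj (hp : p.Prime) (hcard : HCard M p) (m : ℕ) (R : M) (hR : p ^ m • R = 0) :
    ∃ R' : M, p • R' = R ∧ p ^ (m + 1) • R' = 0 := by
  have hc : ∀ n, Nat.card (s12mT M p n) = p ^ (2 * n) := fun n => hcard n
  have hfin : ∀ n, Finite (s12mT M p n) := fun n =>
    Nat.finite_of_card_ne_zero (by rw [hc]; exact pow_ne_zero _ hp.ne_zero)
  let f : s12mT M p (m + 1) →+ s12mT M p m :=
    AddMonoidHom.mk' (fun x => ⟨p • x.1, by
      show p ^ m • (p • x.1) = 0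
      rw [← mul_smul, ← pow_succ]
      exact x.2⟩) (fun a b => by
        apply Subtype.ext
        show p • ((a : M) + (b : M)) = p • (a : M) + p • (b : M)
        rw [smul_add])
  have hker : Nat.card f.ker = p ^ 2 := by
    rw [← mul_one 2, ← hc 1]
    refine Nat.card_congr
      { toFun := fun x => ⟨x.1.1, by
          have h := x.2
          rw [AddMonoidHom.mem_ker] at h
          have h' : p • (x.1.1 : M) = 0 := congrArg Subtype.val h
          show p ^ 1 • (x.1.1 : M) = 0
          rw [pow_one]; exact h'⟩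
        invFun := fun y => ⟨⟨y.1, by
          show p ^ (m + 1) • (y.1 : M) = 0
          have h : p ^ 1 • (y.1 : M) = 0 := y.2
          rw [pow_one] at h
          rw [pow_succ, mul_smul, h, smul_zero]⟩, by
          rw [AddMonoidHom.mem_ker]
          apply Subtype.ext
          show p • (y.1 : M) = 0
          have h : p ^ 1 • (y.1 : M) = 0 := y.2
          rw [pow_one] at h
          exact h⟩
        left_inv := fun x => rfl
        right_inv := fun y => rfl }
  have hrange : Nat.card f.range = p ^ (2 * m) := by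
    have h1 := AddSubgroup.card_mul_index f.ker
    rw [AddSubgroup.index_ker, hker, hc (m + 1)] at h1
    have h2 : p ^ (2 * (m + 1)) = p ^ 2 * p ^ (2 * m) := by
      rw [← pow_add]; congr 1; ring
    rw [h2] at h1
    exact Nat.eq_of_mul_eq_mul_left (pow_pos hp.pos 2) h1
  have htop : f.range = ⊤ := by
    have : Finite f.range := inferInstance
    exact AddSubgroup.eq_top_of_card_eq _ (by rw [hrange, hc m])
  have hmem : (⟨R, hR⟩ : s12mT M p m) ∈ f.range := by rw [htop]; trivial
  obtain ⟨R', hR'⟩ := hmem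
  exact ⟨R'.1, congrArg Subtype.val hR', R'.2⟩

end Surj

section Monod

variable {M : Type} [AddCommGroup M] [DistribMulAction GQ M] {p : ℕ}

/-- the elements of `monod A` are `p`-power torsion -/
theorem s12m_torsion_of_mem (A : ValuationSubring Qb) {x : M} (hx : x ∈ monod M p A) :
    ∃ m : ℕ, p ^ m • x = 0 := by
  induction hx using AddSubgroup.closure_induction with
  | mem x hx =>
    obtain ⟨σ, -, m, R, hR, rfl⟩ := hx
    refine ⟨m, ?_⟩
    rw [smul_sub, smul_comm, hR, smul_zero, sub_zero]
  | zero => exact ⟨0, smul_zero _⟩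
  | add x y _ _ hx hy =>
    obtain ⟨m, hm⟩ := hx
    obtain ⟨n, hn⟩ := hy
    refine ⟨m + n, ?_⟩
    have h1 : p ^ (m + n) • x = 0 := by rw [pow_add, mul_comm, mul_smul, hm, smul_zero]
    have h2 : p ^ (m + n) • y = 0 := by rw [pow_add, mul_smul, hn, smul_zero]
    rw [smul_add, h1, h2, add_zero]
  | neg x _ hx =>
    obtain ⟨m, hm⟩ := hx
    exact ⟨m, by rw [smul_neg, hm, neg_zero]⟩

/-- (b) `monod A` is `p`-divisible -/
theorem s12m_pdiv (hp : p.Prime) (hcard : HCard M p) (A : ValuationSubring Qb) {x : M}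
    (hx : x ∈ monod M p A) : ∃ t ∈ monod M p A, p • t = x := by
  induction hx using AddSubgroup.closure_induction with
  | mem x hx =>
    obtain ⟨σ, hσ, m, R, hR, rfl⟩ := hx
    obtain ⟨R', hR', hR'm⟩ := s12m_surj hp hcard m R hR
    refine ⟨σ • R' - R', AddSubgroup.subset_closure ⟨σ, hσ, m + 1, R', hR'm, rfl⟩, ?_⟩
    rw [smul_sub, smul_comm, hR']
  | zero => exact ⟨0, AddSubgroup.zero_mem _, smul_zero _⟩
  | add x y _ _ hx hy =>
    obtain ⟨t, ht, rfl⟩ := hx
    obtain ⟨s, hs, rfl⟩ := hy
    exact ⟨t + s, AddSubgroup.add_mem _ ht hs, smul_add _ _ _⟩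
  | neg x _ hx =>
    obtain ⟨t, ht, rfl⟩ := hx
    exact ⟨-t, AddSubgroup.neg_mem _ ht, smul_neg _ _⟩

/-- a nontrivial `monod A` contains an element of order `p` -/
theorem s12m_exists_order_p (A : ValuationSubring Qb) (hne : monod M p A ≠ ⊥) :
    ∃ e ∈ monod M p A, e ≠ 0 ∧ p • e = 0 := by
  classical
  obtain ⟨x, hx, hx0⟩ : ∃ x ∈ monod M p A, x ≠ 0 := by
    by_contra h
    simp only [not_exists, not_and, not_not] at h
    exact hne ((AddSubgroup.eq_bot_iff_forall _).mpr h)
  have hex := s12m_torsion_of_mem A hx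
  have hmin : ∀ k, k < Nat.find hex → ¬ p ^ k • x = 0 := fun k hk => Nat.find_min hex hk
  have hspec := Nat.find_spec hex
  set m := Nat.find hex with hm
  have hm0 : m ≠ 0 := by
    intro h0
    rw [h0, pow_zero, one_smul] at hspec
    exact hx0 hspec
  obtain ⟨n, hn⟩ := Nat.exists_eq_succ_of_ne_zero hm0
  refine ⟨p ^ n • x, AddSubgroup.nsmul_mem _ hx _, ?_, ?_⟩
  · exact hmin n (by omega)
  · rw [← mul_smul, ← pow_succ', ← Nat.succ_eq_add_one, ← hn]
    exact hspec

end Monod

end Fermat.Agent.S12
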