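import Fermat.Agent.S12.StepSplitCard

/-!
# S12 / STEP-SPLIT, part 4: scalars, Lagrange in a group of order `p²` (helper47)
-/

set_option autoImplicit false
set_option linter.style.haveILetI false
set_option linter.unusedSectionVars false

noncomputable section

namespace Fermat.Agent.S12

section Lagrange

variable {p : ℕ} [Fact p.Prime]

/-- subgroups of a group of order `p²` -/
theorem s12s_card_sq_cases {G : Type*} [AddGroup G] (hG : Nat.card G = p ^ 2)
    (H : AddSubgroup G) : Nat.card H = 1 ∨ Nat.card H = p ∨ Nat.card H = p ^ 2 := by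
  have hp : p.Prime := Fact.out
  have h1 : Nat.card H ∣ p ^ 2 := hG ▸ AddSubgroup.card_addSubgroup_dvd_card H
  obtain ⟨j, hj, hLj⟩ := (Nat.dvd_prime_pow hp).1 h1
  interval_cases j
  · left; simpa using hLj
  · right; left; simpa using hLj
  · right; right; exact hLj

theorem s12s_finite_of_card {G : Type*} {n : ℕ} (hG : Nat.card G = p ^ n) : Finite G := by
  apply Nat.finite_of_card_ne_zero
  rw [hG]
  exact pow_ne_zero _ (Fact.out : p.Prime).ne_zero

theorem s12s_eq_bot_of_card {G : Type*} [AddGroup G] (H : AddSubgroup G) (h : Nat.card H = 1) :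
    H = ⊥ := AddSubgroup.card_eq_one.1 h

theorem s12s_eq_top_of_card {G : Type*} [AddGroup G] {n : ℕ} (hG : Nat.card G = p ^ n)
    (H : AddSubgroup G) (h : Nat.card H = p ^ n) : H = ⊤ := by
  haveI := s12s_finite_of_card hG
  exact AddSubgroup.eq_top_of_card_eq H (by rw [h, hG])

end Lagrange

section Scalar

variable {M : Type} [AddCommGroup M] [DistribMulAction GQ M] {p : ℕ} [Fact p.Prime]

theorem s12s_smul_zsmul (σ : GQ) (n : ℤ) (x : M) : σ • (n • x) = n • (σ • x) :=
  map_zsmul (DistribSMul.toAddMonoidHom M σ) n x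

/-- `σ` acts on a stable cyclic group by an integer. -/
theorem s12s_scalar {K : AddSubgroup M} (hcyc : ∃ g : M, K = AddSubgroup.zmultiples g)
    (hst : ∀ σ : GQ, ∀ x ∈ K, σ • x ∈ K) (σ : GQ) : ∃ a : ℤ, ∀ x ∈ K, σ • x = a • x := by
  obtain ⟨g, hg⟩ := hcyc
  have hgK : g ∈ K := by rw [hg]; exact AddSubgroup.mem_zmultiples g
  have h1 := hst σ g hgK
  rw [hg] at h1
  obtain ⟨a, ha⟩ := AddSubgroup.mem_zmultiples_iff.1 h1
  refine ⟨a, fun x hx => ?_⟩
  rw [hg] at hx
  obtain ⟨n, rfl⟩ := AddSubgroup.mem_zmultiples_iff.1 hx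
  rw [s12s_smul_zsmul, ← ha, smul_comm]

/-- a nonzero element of the line -/
theorem s12s_exists_line_ne {K₁ : AddSubgroup M} (hK₁ : Nat.card K₁ = p) :
    ∃ x ∈ K₁, x ≠ 0 := by
  have hp : p.Prime := Fact.out
  by_contra hcon
  push Not at hcon
  have : K₁ = ⊥ := by
    rw [eq_bot_iff]
    intro x hx
    exact (AddSubgroup.mem_bot).2 (hcon x hx)
  rw [this, AddSubgroup.card_bot] at hK₁
  exact hp.one_lt.ne hK₁

theorem s12s_line_nsmul {K₁ : AddSubgroup M} (hK₁ : Nat.card K₁ = p) {x : M} (hx : x ∈ K₁) :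
    p • x = 0 := by
  have := s12s_pow_smul_of_mem (k := 1) (by rw [hK₁, pow_one]) hx
  rwa [pow_one] at this

/-- an integer that kills a nonzero element of order `p` is divisible by `p` -/
theorem s12s_dvd_of_zsmul {x : M} (hx : x ≠ 0) (hpx : p • x = 0) {n : ℤ} (hn : n • x = 0) :
    (p : ℤ) ∣ n := by
  have hp : p.Prime := Fact.out
  have h1 : addOrderOf x ∣ p := addOrderOf_dvd_iff_nsmul_eq_zero.2 hpx
  have h2 : addOrderOf x = p := by
    rcases (Nat.dvd_prime hp).1 h1 with h | h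
    · exact absurd (AddMonoid.addOrderOf_eq_one_iff.1 h) hx
    · exact h
  rw [← h2]
  exact addOrderOf_dvd_iff_zsmul_eq_zero.2 hn

/-- if `a` is a unit mod `p` and `a • x` lies in a subgroup, `x` of `p`-power order, then `x` does -/
theorem s12s_mem_of_unit_smul {Z : AddSubgroup M} {a : ℤ} (ha : ¬ (p : ℤ) ∣ a) {x : M} {k : ℕ}
    (hx : p ^ k • x = 0) (h : a • x ∈ Z) : x ∈ Z := by
  have hp : p.Prime := Fact.out
  have hcop : IsCoprime a ((p : ℤ) ^ k) := by
    apply IsCoprime.pow_right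
    rw [isCoprime_comm]
    exact (Int.isCoprime_iff_gcd_eq_one).2
      ((Nat.Prime.coprime_iff_not_dvd hp).2 (by
        intro h'
        exact ha (Int.natCast_dvd.2 h')) |> fun h' => by simpa [Int.gcd] using h')
  obtain ⟨u, v, huv⟩ := hcop
  have h1 : x = u • (a • x) + v • ((p : ℤ) ^ k • x) := by
    rw [← mul_smul, ← mul_smul, ← add_smul, huv, one_smul]
  have h2 : ((p : ℤ) ^ k) • x = 0 := by
    have : ((p : ℤ) ^ k) = ((p ^ k : ℕ) : ℤ) := by push_cast; rfl
    rw [this, natCast_zsmul]; exact hx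
  rw [h1, h2, smul_zero, add_zero]
  exact Z.zsmul_mem h u

/-- a subgroup containing the line but not all of `M[p]` meets `M[p]` in the line. -/
theorem s12s_ptors_of_not_all (hcard : HCard M p) {Z K₁ : AddSubgroup M}
    (hK₁ : Nat.card K₁ = p) (hle : K₁ ≤ Z) (hne : ∃ e : M, p • e = 0 ∧ e ∉ Z)
    {x : M} (hx : x ∈ Z) (hpx : p • x = 0) : x ∈ K₁ := by
  have hp : p.Prime := Fact.out
  haveI := s12s_finite_tors hcard 1
  set L : AddSubgroup M := Z ⊓ s12sTors p 1 with hL
  have hLt : L ≤ s12sTors p 1 := inf_le_right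
  haveI : Finite L := Finite.of_injective (AddSubgroup.inclusion hLt)
    (AddSubgroup.inclusion_injective hLt)
  have hK₁t : K₁ ≤ s12sTors p 1 := fun y hy => s12s_mem_tors_one.2 (s12s_line_nsmul hK₁ hy)
  have hK₁L : K₁ ≤ L := le_inf hle hK₁t
  have h1 : Nat.card L ∣ p ^ 2 := by
    have := AddSubgroup.card_dvd_of_le hLt
    rwa [s12s_card_tors hcard 1, mul_one] at this
  have h2 : p ∣ Nat.card L := by
    have := AddSubgroup.card_dvd_of_le hK₁L
    rwa [hK₁] at this
  have h3 : Nat.card L ≠ p ^ 2 := by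
    intro h
    obtain ⟨e, he, hne'⟩ := hne
    have hLe : L = s12sTors p 1 := by
      apply AddSubgroup.eq_of_le_of_card_ge hLt
      rw [h, s12s_card_tors hcard 1, mul_one]
    have : e ∈ L := by rw [hLe]; exact s12s_mem_tors_one.2 he
    exact hne' this.1
  obtain ⟨j, hj, hLj⟩ := (Nat.dvd_prime_pow hp).1 h1
  have hj1 : j = 1 := by
    have hj0 : j ≠ 0 := by
      rintro rfl
      rw [hLj, pow_zero] at h2
      exact hp.one_lt.ne' (Nat.dvd_one.1 h2)
    have hj2 : j ≠ 2 := by
      rintro rfl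
      exact h3 hLj
    omega
  have hLK : K₁ = L := by
    apply AddSubgroup.eq_of_le_of_card_ge hK₁L
    rw [hLj, hj1, pow_one, hK₁]
  rw [hLK]
  exact ⟨hx, s12s_mem_tors_one.2 hpx⟩

end Scalar

end Fermat.Agent.S12
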