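import Fermat.Agent.S12.StepSplitAct

/-!
# S12 / STEP-SPLIT, part 5: `V ⊃ C` is an admissible extension (helper47)
-/

set_option autoImplicit false
set_option linter.style.haveILetI false
set_option linter.unusedSectionVars false

noncomputable section

namespace Fermat.Agent.S12

section Adm

variable {M : Type} [AddCommGroup M] [DistribMulAction GQ M] {p : ℕ} [Fact p.Prime]

/-- the stable subgroup of a level -/
def lvlStab {K₁ K : AddSubgroup M} {k : ℕ} (hK : IsLevel M p K₁ k K) : StabSub M :=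
  ⟨K, hK.stable⟩

@[simp] theorem lvlStab_K {K₁ K : AddSubgroup M} {k : ℕ} (hK : IsLevel M p K₁ k K) :
    (lvlStab hK).K = K := rfl

theorem s12s_pow_of_one {k : ℕ} (hk : 1 ≤ k) {e : M} (he : p • e = 0) : p ^ k • e = 0 := by
  obtain ⟨d, rfl⟩ := Nat.exists_eq_add_of_le hk
  rw [pow_add, pow_one, mul_comm, mul_smul, he, smul_zero]

theorem s12s_Y_tors {K₁ K : AddSubgroup M} {k : ℕ} (hK : IsLevel M p K₁ k K) {y : M}
    (hy : p • y ∈ K) : p ^ (k + 1) • y = 0 := by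
  rw [pow_succ, mul_smul]
  exact s12s_pow_smul_of_mem hK.card hy

/-- `fixed_sub` -/
theorem s12s_fixed_sub {K₁ K : AddSubgroup M} {k : ℕ} (hk : 1 ≤ k) (hK : IsLevel M p K₁ k K)
    (σ : GQ) (x : SV p (lvlStab hK)) (hx : x ∈ svC p (lvlStab hK)) : σ • x = x := by
  obtain ⟨e, he, rfl⟩ := (mem_svC _ _).1 hx
  rw [sv_smul_mk, svMk_eq_iff]
  exact hK.cofixed σ e (s12s_pow_of_one hk he)

/-- `cyclo_quot` -/
theorem s12s_cyclo_quot {K₁ K : AddSubgroup M} {k : ℕ} (hk : 1 ≤ k) (hK : IsLevel M p K₁ k K)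
    (hK₁ : IsCofixedLine M p K₁) (hcyc : HCyc M p K₁)
    (σ : GQ) (x : SV p (lvlStab hK)) :
    σ • x - (ExtCitation.cycloExp p σ : ZMod p) • x ∈ svC p (lvlStab hK) := by
  have hp : p.Prime := Fact.out
  obtain ⟨y, hy, rfl⟩ := sv_exists_rep _ x
  have hyK : p • y ∈ K := hy
  set c : ℕ := ExtCitation.cycloExp p σ with hc
  obtain ⟨a, ha⟩ := s12s_scalar hK.cyc hK.stable σ
  -- `p ∣ a - c`
  obtain ⟨x₁, hx₁, hx₁0⟩ := s12s_exists_line_ne hK₁.card
  have hpx₁ := s12s_line_nsmul hK₁.card hx₁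
  have h1 : (a - (c : ℤ)) • x₁ = 0 := by
    rw [sub_smul, ← ha x₁ (hK.line hx₁), hcyc σ x₁ hx₁, natCast_zsmul, sub_self]
  obtain ⟨b, hb⟩ := s12s_dvd_of_zsmul hx₁0 hpx₁ h1
  -- the correction
  set κ : M := b • (p • y) with hκ
  have hκK : κ ∈ K := K.zsmul_mem hyK b
  have hpe : p • (σ • y - c • y - κ) = 0 := by
    have e1 : p • (σ • y) = a • (p • y) := by
      rw [← ha _ hyK, smul_comm]
    have e2 : p • κ = (a - (c : ℤ)) • (p • y) := by
      rw [hκ, hb, mul_smul, natCast_zsmul]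
    rw [smul_sub, smul_sub, e1, e2, sub_smul, natCast_zsmul, smul_comm p c y]
    abel
  rw [sv_natCast_smul, sv_smul_mk, sv_nsmul_mk, sv_sub_mk]
  refine (mem_svC _ _).2 ⟨σ • y - c • y - κ, hpe, ?_⟩
  rw [svMk_eq_iff]
  show σ • y - c • y - (σ • y - c • y - κ) ∈ K
  rw [sub_sub_cancel]
  exact hκK

/-- `unramified_outside` -/
theorem s12s_unram {K₁ K : AddSubgroup M} {k : ℕ} (hk : 1 ≤ k) (hK : IsLevel M p K₁ k K)
    (hK₁ : IsCofixedLine M p K₁) (hcard : HCard M p) (hunip : HUnip M p)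
    {ℓ : ℕ} (hℓ : ℓ.Prime) (hℓp : ℓ ≠ p) (A : ValuationSubring Qb) (hA : A.LiesOverPrime ℓ)
    {σ : GQ} (hσ : σ ∈ A.inertiaSubgroupIn ℚ) (x : SV p (lvlStab hK)) : σ • x = x := by
  obtain ⟨y, hy, rfl⟩ := sv_exists_rep _ x
  have hyK : p • y ∈ K := hy
  rw [sv_smul_mk, svMk_eq_iff]
  show σ • y - y ∈ K
  have hr : σ • y - y ∈ monod M p A := s12s_gen_mem A hσ (s12s_Y_tors hK hyK)
  by_cases hne : monod M p A = ⊥
  · rw [hne, AddSubgroup.mem_bot] at hr
    rw [hr]; exact zero_mem _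
  · have htor := hK.toric ℓ hℓ hℓp A hA hne
    have hpr : p • (σ • y - y) = 0 := by
      rw [smul_sub, smul_comm, s12s_monod_fixed hunip hℓ hℓp A hA hσ (htor hyK), sub_self]
    exact hK.line (s12s_monod_ptors hcard hunip hℓ hℓp A hA hne hK₁.card
      (hK.line.trans htor) hr hpr)

end Adm

end Fermat.Agent.S12
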