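import Fermat.Agent.S12.Plan

/-!
# S12 / STEP-SPLIT, part 1: algebra of the `p`-power torsion (helper47)

`M` an abelian group with `#M[p^m] = p^{2m}` (`HCard`).
-/

set_option autoImplicit false
set_option linter.style.haveILetI false
set_option linter.unusedSectionVars false

namespace Fermat.Agent.S12

section Tors

variable {M : Type} [AddCommGroup M] (p : ℕ)

/-- `M[p^m]` -/
def s12sTors (m : ℕ) : AddSubgroup M := (nsmulAddMonoidHom (p ^ m) : M →+ M).ker

variable {p}

theorem s12s_mem_tors {m : ℕ} {x : M} : x ∈ s12sTors (M := M) p m ↔ p ^ m • x = 0 := by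
  simp [s12sTors, AddMonoidHom.mem_ker]

theorem s12s_mem_tors_one {x : M} : x ∈ s12sTors (M := M) p 1 ↔ p • x = 0 := by
  rw [s12s_mem_tors, pow_one]

theorem s12s_tors_mono {m n : ℕ} (h : m ≤ n) : s12sTors (M := M) p m ≤ s12sTors p n := by
  intro x hx
  rw [s12s_mem_tors] at hx ⊢
  obtain ⟨d, rfl⟩ := Nat.exists_eq_add_of_le h
  rw [pow_add, mul_comm, mul_smul, hx, smul_zero]

variable [Fact p.Prime]

theorem s12s_card_tors (hcard : HCard M p) (m : ℕ) :
    Nat.card (s12sTors (M := M) p m) = p ^ (2 * m) := by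
  rw [← hcard m]
  exact Nat.card_congr (Equiv.subtypeEquivRight fun x => s12s_mem_tors)

theorem s12s_finite_tors (hcard : HCard M p) (m : ℕ) : Finite (s12sTors (M := M) p m) := by
  apply Nat.finite_of_card_ne_zero
  rw [s12s_card_tors hcard]
  exact pow_ne_zero _ (Fact.out : p.Prime).ne_zero

/-- (a) `[p] : M[p^{m+1}] → M[p^m]` is surjective. -/
theorem s12s_div (hcard : HCard M p) (m : ℕ) (x : M) (hx : p ^ m • x = 0) :
    ∃ y : M, p ^ (m + 1) • y = 0 ∧ p • y = x := by
  have hp : p.Prime := Fact.out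
  haveI := s12s_finite_tors hcard (m + 1)
  haveI := s12s_finite_tors hcard m
  haveI := s12s_finite_tors hcard 1
  -- the map `[p] : M[p^{m+1}] → M[p^m]`
  let f : s12sTors (M := M) p (m + 1) →+ s12sTors (M := M) p m :=
    { toFun := fun y => ⟨p • (y : M), by
        rw [s12s_mem_tors, ← mul_smul, ← pow_succ]
        exact s12s_mem_tors.1 y.2⟩
      map_zero' := by ext; simp
      map_add' := fun a b => by ext; simp [smul_add] }
  have hker : Nat.card f.ker = p ^ 2 := by
    have h2 : p ^ 2 = Nat.card (s12sTors (M := M) p 1) := by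
      rw [s12s_card_tors hcard 1, mul_one]
    rw [h2]
    refine Nat.card_congr ⟨fun y => ⟨(y : s12sTors (M := M) p (m + 1)), ?_⟩,
      fun e => ⟨⟨(e : M), s12s_tors_mono (Nat.le_add_left 1 m) e.2⟩, ?_⟩, ?_, ?_⟩
    · have := y.2
      rw [AddMonoidHom.mem_ker] at this
      rw [s12s_mem_tors_one]
      exact congrArg Subtype.val this
    · rw [AddMonoidHom.mem_ker]
      ext
      exact s12s_mem_tors_one.1 e.2
    · intro y; rfl
    · intro e; rfl
  have h1 := AddSubgroup.card_mul_index f.ker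
  rw [AddSubgroup.index_ker, hker, s12s_card_tors hcard] at h1
  have hrange : Nat.card f.range = p ^ (2 * m) := by
    have h2 : p ^ 2 * Nat.card f.range = p ^ 2 * p ^ (2 * m) := by
      rw [h1, ← pow_add]; congr 1; ring
    exact Nat.eq_of_mul_eq_mul_left (pow_pos hp.pos 2) h2
  have htop : f.range = ⊤ := by
    apply AddSubgroup.eq_top_of_card_eq
    rw [hrange, s12s_card_tors hcard]
  have hmem : (⟨x, s12s_mem_tors.2 hx⟩ : s12sTors (M := M) p m) ∈ f.range := by
    rw [htop]; exact AddSubgroup.mem_top _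
  obtain ⟨y, hy⟩ := hmem
  exact ⟨(y : M), s12s_mem_tors.1 y.2, congrArg Subtype.val hy⟩

end Tors

section Cyclic

variable {M : Type} [AddCommGroup M] {p : ℕ} [Fact p.Prime]

/-- the order of a generator -/
theorem s12s_order_gen {k : ℕ} {K : AddSubgroup M} {g : M} (hg : K = AddSubgroup.zmultiples g)
    (hK : Nat.card K = p ^ k) : addOrderOf g = p ^ k := by
  rw [← hK, hg, Nat.card_zmultiples]

/-- elements of a group of order `p^k` are killed by `p^k` -/
theorem s12s_pow_smul_of_mem {k : ℕ} {K : AddSubgroup M} (hK : Nat.card K = p ^ k) {x : M}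
    (hx : x ∈ K) : p ^ k • x = 0 := by
  have hp : p.Prime := Fact.out
  have h := card_nsmul_eq_zero' (G := K) (x := ⟨x, hx⟩)
  rw [hK] at h
  exact congrArg Subtype.val h

/-- the `p`-torsion of a cyclic group of order `p^k`, `k ≥ 1` -/
theorem s12s_cyc_ptors {k : ℕ} (hk : 1 ≤ k) {g : M} (hg : addOrderOf g = p ^ k) {x : M}
    (hx : x ∈ AddSubgroup.zmultiples g) (hpx : p • x = 0) :
    x ∈ AddSubgroup.zmultiples (p ^ (k - 1) • g) := by
  have hp : p.Prime := Fact.out
  obtain ⟨n, rfl⟩ := AddSubgroup.mem_zmultiples_iff.1 hx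
  have h1 : ((p : ℤ) * n) • g = 0 := by
    rw [mul_smul, natCast_zsmul]; exact hpx
  have h2 : ((p ^ k : ℕ) : ℤ) ∣ (p : ℤ) * n := by
    rw [← hg]; exact addOrderOf_dvd_iff_zsmul_eq_zero.2 h1
  obtain ⟨d, hd⟩ := Nat.exists_eq_add_of_le hk
  have hk1 : k - 1 = d := by omega
  have hk2 : k = d + 1 := by omega
  rw [hk1]
  rw [hk2] at h2
  have h3 : ((p : ℤ) ^ d) ∣ n := by
    have h4 : (p : ℤ) * (p : ℤ) ^ d ∣ (p : ℤ) * n := by
      have : ((p ^ (d + 1) : ℕ) : ℤ) = (p : ℤ) * (p : ℤ) ^ d := by push_cast; ring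
      rwa [this] at h2
    exact (mul_dvd_mul_iff_left (by exact_mod_cast hp.ne_zero)).1 h4
  obtain ⟨n', rfl⟩ := h3
  refine AddSubgroup.mem_zmultiples_iff.2 ⟨n', ?_⟩
  rw [mul_comm, mul_smul]
  congr 1
  rw [← natCast_zsmul]
  push_cast
  rfl

/-- the order of `p^{k-1} g` -/
theorem s12s_order_top {k : ℕ} (hk : 1 ≤ k) {g : M} (hg : addOrderOf g = p ^ k) :
    addOrderOf (p ^ (k - 1) • g) = p := by
  have hp : p.Prime := Fact.out
  obtain ⟨d, hd⟩ := Nat.exists_eq_add_of_le hk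
  have hk1 : k - 1 = d := by omega
  have hk2 : k = d + 1 := by omega
  rw [hk1]
  have h0 : addOrderOf g ≠ 0 := by rw [hg]; exact pow_ne_zero _ hp.ne_zero
  have h1 : p ^ d ∣ addOrderOf g := by rw [hg, hk2]; exact pow_dvd_pow p (Nat.le_succ d)
  rw [addOrderOf_nsmul_of_dvd (pow_ne_zero _ hp.ne_zero) h1, hg, hk2, pow_succ]
  exact Nat.mul_div_cancel_left p (pow_pos hp.pos d)

/-- (f) a subgroup of order `p` of a cyclic group of order `p^k` is its `p`-torsion. -/
theorem s12s_line_eq {k : ℕ} (hk : 1 ≤ k) {K K₁ : AddSubgroup M} {g : M}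
    (hg : K = AddSubgroup.zmultiples g) (hK : Nat.card K = p ^ k) (hK₁ : Nat.card K₁ = p)
    (hle : K₁ ≤ K) : K₁ = AddSubgroup.zmultiples (p ^ (k - 1) • g) := by
  have hp : p.Prime := Fact.out
  have hord := s12s_order_gen hg hK
  have hcardL : Nat.card (AddSubgroup.zmultiples (p ^ (k - 1) • g)) = p := by
    rw [Nat.card_zmultiples, s12s_order_top hk hord]
  haveI : Finite (AddSubgroup.zmultiples (p ^ (k - 1) • g)) := by
    apply Nat.finite_of_card_ne_zero
    rw [hcardL]; exact hp.ne_zero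
  apply AddSubgroup.eq_of_le_of_card_ge
  · intro x hx
    have hx1 : p • x = 0 := by
      have := s12s_pow_smul_of_mem (k := 1) (by rw [hK₁, pow_one]) hx
      rwa [pow_one] at this
    exact s12s_cyc_ptors hk hord (hg ▸ hle hx) hx1
  · rw [hcardL, hK₁]

/-- the `p`-torsion of `K` is the line -/
theorem s12s_mem_line {k : ℕ} (hk : 1 ≤ k) {K K₁ : AddSubgroup M}
    (hcyc : ∃ g : M, K = AddSubgroup.zmultiples g) (hK : Nat.card K = p ^ k)
    (hK₁ : Nat.card K₁ = p) (hle : K₁ ≤ K) {x : M} (hx : x ∈ K) (hpx : p • x = 0) : x ∈ K₁ := by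
  obtain ⟨g, hg⟩ := hcyc
  rw [s12s_line_eq hk hg hK hK₁ hle]
  exact s12s_cyc_ptors hk (s12s_order_gen hg hK) (hg ▸ hx) hpx

end Cyclic

section Monod

variable {M : Type} [AddCommGroup M] [DistribMulAction GQ M] {p : ℕ} [Fact p.Prime]

/-- generators of `monod A` -/
theorem s12s_gen_mem (A : ValuationSubring Qb) {σ : GQ} (hσ : σ ∈ A.inertiaSubgroupIn ℚ) {m : ℕ}
    {R : M} (hR : p ^ m • R = 0) : σ • R - R ∈ monod M p A :=
  AddSubgroup.subset_closure ⟨σ, hσ, m, R, hR, rfl⟩

/-- (c) inertia fixes `monod A` pointwise. -/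
theorem s12s_monod_fixed (hunip : HUnip M p) {ℓ : ℕ} (hℓ : ℓ.Prime) (hℓp : ℓ ≠ p)
    (A : ValuationSubring Qb) (hA : A.LiesOverPrime ℓ) {τ : GQ}
    (hτ : τ ∈ A.inertiaSubgroupIn ℚ) {x : M} (hx : x ∈ monod M p A) : τ • x = x := by
  induction hx using AddSubgroup.closure_induction with
  | mem x hx =>
    obtain ⟨σ, hσ, m, R, hR, rfl⟩ := hx
    exact hunip ℓ hℓ hℓp A hA σ hσ τ hτ m R hR
  | zero => exact smul_zero τ
  | add x y _ _ hx hy => rw [smul_add, hx, hy]
  | neg x _ hx => rw [smul_neg, hx]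

/-- (b) `monod A` is `p`-divisible. -/
theorem s12s_monod_div (hcard : HCard M p) (A : ValuationSubring Qb) {x : M}
    (hx : x ∈ monod M p A) : ∃ y ∈ monod M p A, p • y = x := by
  induction hx using AddSubgroup.closure_induction with
  | mem x hx =>
    obtain ⟨σ, hσ, m, R, hR, rfl⟩ := hx
    obtain ⟨R', hR', hpR'⟩ := s12s_div hcard m R hR
    refine ⟨σ • R' - R', s12s_gen_mem A hσ hR', ?_⟩
    rw [smul_sub, ← hpR']
    congr 1
    exact (smul_comm σ p R').symm
  | zero => exact ⟨0, zero_mem _, smul_zero _⟩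
  | add x y _ _ hx hy =>
    obtain ⟨x', hx', rfl⟩ := hx
    obtain ⟨y', hy', rfl⟩ := hy
    exact ⟨x' + y', add_mem hx' hy', smul_add _ _ _⟩
  | neg x _ hx =>
    obtain ⟨x', hx', rfl⟩ := hx
    exact ⟨-x', neg_mem hx', smul_neg _ _⟩

/-- elements of `monod A` have `p`-power order -/
theorem s12s_monod_tors (A : ValuationSubring Qb) {x : M} (hx : x ∈ monod M p A) :
    ∃ m : ℕ, p ^ m • x = 0 := by
  induction hx using AddSubgroup.closure_induction with
  | mem x hx =>
    obtain ⟨σ, hσ, m, R, hR, rfl⟩ := hx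
    refine ⟨m, ?_⟩
    rw [smul_sub, hR, smul_comm, hR, smul_zero, sub_zero]
  | zero => exact ⟨0, smul_zero _⟩
  | add x y _ _ hx hy =>
    obtain ⟨m, hm⟩ := hx
    obtain ⟨n, hn⟩ := hy
    refine ⟨m + n, ?_⟩
    have h1 : p ^ (m + n) • x = 0 := by rw [pow_add, mul_comm, mul_smul, hm, smul_zero]
    have h2 : p ^ (m + n) • y = 0 := by rw [pow_add, mul_smul, hn, smul_zero]
    rw [smul_add, h1, h2, add_zero]
  | neg x _ hx =>
    obtain ⟨m, hm⟩ := hx
    exact ⟨m, by rw [smul_neg, hm, neg_zero]⟩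

/-- (d) a nonzero `monod A` does not contain `M[p]`. -/
theorem s12s_monod_not_all (hcard : HCard M p) (hunip : HUnip M p) {ℓ : ℕ} (hℓ : ℓ.Prime)
    (hℓp : ℓ ≠ p) (A : ValuationSubring Qb) (hA : A.LiesOverPrime ℓ)
    (hne : monod M p A ≠ ⊥) : ∃ e : M, p • e = 0 ∧ e ∉ monod M p A := by
  by_contra hcon
  push Not at hcon
  have hall : ∀ (m : ℕ) (x : M), p ^ m • x = 0 → x ∈ monod M p A := by
    intro m
    induction m with
    | zero =>
      intro x hx
      rw [pow_zero, one_smul] at hx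
      rw [hx]; exact zero_mem _
    | succ m ih =>
      intro x hx
      have h1 : p ^ m • (p • x) = 0 := by rw [← mul_smul, ← pow_succ]; exact hx
      obtain ⟨y, hy, hpy⟩ := s12s_monod_div hcard A (ih _ h1)
      have h2 : p • (x - y) = 0 := by rw [smul_sub, hpy, sub_self]
      have h3 := add_mem (hcon _ h2) hy
      rwa [sub_add_cancel] at h3
  apply hne
  rw [monod, AddSubgroup.closure_eq_bot_iff]
  rintro x ⟨σ, hσ, m, R, hR, rfl⟩
  rw [Set.mem_singleton_iff, s12s_monod_fixed hunip hℓ hℓp A hA hσ (hall m R hR), sub_self]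

/-- (d') the `p`-torsion of a ramified `monod A` containing the line is the line. -/
theorem s12s_monod_ptors (hcard : HCard M p) (hunip : HUnip M p) {ℓ : ℕ} (hℓ : ℓ.Prime)
    (hℓp : ℓ ≠ p) (A : ValuationSubring Qb) (hA : A.LiesOverPrime ℓ)
    (hne : monod M p A ≠ ⊥) {K₁ : AddSubgroup M} (hK₁ : Nat.card K₁ = p)
    (hle : K₁ ≤ monod M p A) {x : M} (hx : x ∈ monod M p A) (hpx : p • x = 0) : x ∈ K₁ := by
  have hp : p.Prime := Fact.out
  haveI := s12s_finite_tors hcard 1
  set L : AddSubgroup M := monod M p A ⊓ s12sTors p 1 with hL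
  have hLt : L ≤ s12sTors p 1 := inf_le_right
  haveI : Finite L := Finite.of_injective (AddSubgroup.inclusion hLt)
    (AddSubgroup.inclusion_injective hLt)
  have hK₁t : K₁ ≤ s12sTors p 1 := by
    intro y hy
    rw [s12s_mem_tors_one]
    have := s12s_pow_smul_of_mem (k := 1) (by rw [hK₁, pow_one]) hy
    rwa [pow_one] at this
  have hK₁L : K₁ ≤ L := le_inf hle hK₁t
  have h1 : Nat.card L ∣ p ^ 2 := by
    have := AddSubgroup.card_dvd_of_le hLt
    rwa [s12s_card_tors hcard 1, mul_one] at this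
  have h2 : p ∣ Nat.card L := by
    have := AddSubgroup.card_dvd_of_le hK₁L
    rwa [hK₁] at this
  have h3 : Nat.card L ≠ p ^ 2 := by
    intro h
    obtain ⟨e, he, hne'⟩ := s12s_monod_not_all hcard hunip hℓ hℓp A hA hne
    have hLe : L = s12sTors p 1 := by
      apply AddSubgroup.eq_of_le_of_card_ge hLt
      rw [h, s12s_card_tors hcard 1, mul_one]
    have : e ∈ L := by rw [hLe]; exact s12s_mem_tors_one.2 he
    exact hne' this.1
  obtain ⟨j, hj, hLj⟩ := (Nat.dvd_prime_pow hp).1 h1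
  have hj1 : j = 1 := by
    have hj0 : j ≠ 0 := by
      rintro rfl
      rw [hLj, pow_zero] at h2
      exact hp.one_lt.ne' (Nat.dvd_one.1 h2)
    have hj2 : j ≠ 2 := by
      rintro rfl
      exact h3 hLj
    omega
  have hLK : K₁ = L := by
    apply AddSubgroup.eq_of_le_of_card_ge hK₁L
    rw [hLj, hj1, pow_one, hK₁]
  rw [hLK]
  exact ⟨hx, s12s_mem_tors_one.2 hpx⟩

end Monod

end Fermat.Agent.S12
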