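import Fermat.Agent.S12.StepSplitQuot

/-!
# S12 / STEP-SPLIT, part 3: `#V = p²`, `#C = p` (helper47)
-/

set_option autoImplicit false
set_option linter.style.haveILetI false
set_option linter.unusedSectionVars false

noncomputable section

namespace Fermat.Agent.S12

theorem s12s_card_ker_range {G H : Type*} [AddGroup G] [AddGroup H] (f : G →+ H) :
    Nat.card f.ker * Nat.card f.range = Nat.card G := by
  rw [← AddSubgroup.index_ker]
  exact AddSubgroup.card_mul_index f.ker

section Card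

variable {M : Type} [AddCommGroup M] [DistribMulAction GQ M] {p : ℕ} [Fact p.Prime]

/-- `Y = [p]⁻¹ K` -/
def svY (p : ℕ) (S : StabSub M) : AddSubgroup M := S.K.comap (nsmulAddMonoidHom p : M →+ M)

theorem mem_svY (S : StabSub M) (y : M) : y ∈ svY p S ↔ p • y ∈ S.K := Iff.rfl

/-- the projection `Y → V` -/
def svOfY (p : ℕ) (S : StabSub M) : svY p S →+ SV p S where
  toFun y := svMk S y.1 y.2
  map_zero' := by
    apply Subtype.ext
    show sqMk S 0 = 0
    exact map_zero _
  map_add' a b := by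
    apply Subtype.ext
    show sqMk S (a.1 + b.1) = sqMk S a.1 + sqMk S b.1
    exact map_add _ _ _

theorem svOfY_eq_zero_iff (S : StabSub M) (y : svY p S) : svOfY p S y = 0 ↔ y.1 ∈ S.K :=
  svMk_eq_zero_iff S y.2

theorem svOfY_surjective (S : StabSub M) : Function.Surjective (svOfY p S) := by
  intro v
  obtain ⟨y, hy, rfl⟩ := sv_exists_rep S v
  exact ⟨⟨y, hy⟩, rfl⟩

/-- multiplication by `p`, `Y → K` -/
def svYK (p : ℕ) (S : StabSub M) : svY p S →+ S.K where
  toFun y := ⟨p • y.1, y.2⟩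
  map_zero' := by ext; simp
  map_add' a b := by ext; simp [smul_add]

theorem s12s_card_Y (hcard : HCard M p) (S : StabSub M) {k : ℕ} (hK : Nat.card S.K = p ^ k) :
    Nat.card (svY p S) = p ^ (k + 2) := by
  have hp : p.Prime := Fact.out
  have h1 := s12s_card_ker_range (svYK p S)
  have hker : Nat.card (svYK p S).ker = p ^ 2 := by
    have h2 : p ^ 2 = Nat.card (s12sTors (M := M) p 1) := by
      rw [s12s_card_tors hcard 1, mul_one]
    rw [h2]
    refine Nat.card_congr ⟨fun y => ⟨(y : svY p S).1, ?_⟩,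
      fun e => ⟨⟨(e : M), ?_⟩, ?_⟩, ?_, ?_⟩
    · have := y.2
      rw [AddMonoidHom.mem_ker] at this
      rw [s12s_mem_tors_one]
      exact congrArg Subtype.val this
    · rw [mem_svY, s12s_mem_tors_one.1 e.2]
      exact zero_mem _
    · rw [AddMonoidHom.mem_ker]
      ext
      exact s12s_mem_tors_one.1 e.2
    · intro y; rfl
    · intro e; rfl
  have hrange : (svYK p S).range = ⊤ := by
    rw [AddMonoidHom.range_eq_top]
    intro x
    obtain ⟨y, -, hy⟩ := s12s_div hcard k x.1 (s12s_pow_smul_of_mem hK x.2)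
    exact ⟨⟨y, by rw [mem_svY, hy]; exact x.2⟩, Subtype.ext hy⟩
  rw [hker, hrange, AddSubgroup.card_top, hK] at h1
  rw [← h1, pow_add, mul_comm]

theorem s12s_card_V (hcard : HCard M p) (S : StabSub M) {k : ℕ} (hK : Nat.card S.K = p ^ k) :
    Nat.card (SV p S) = p ^ 2 := by
  have hp : p.Prime := Fact.out
  have h1 := s12s_card_ker_range (svOfY p S)
  have hker : Nat.card (svOfY p S).ker = p ^ k := by
    refine Eq.trans ?_ hK
    refine Nat.card_congr ⟨fun y => ⟨(y : svY p S).1, ?_⟩,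
      fun e => ⟨⟨(e : M), ?_⟩, ?_⟩, ?_, ?_⟩
    · have := y.2
      rw [AddMonoidHom.mem_ker] at this
      exact (svOfY_eq_zero_iff S _).1 this
    · rw [mem_svY]
      exact S.K.nsmul_mem e.2 p
    · rw [AddMonoidHom.mem_ker]
      exact (svOfY_eq_zero_iff S _).2 e.2
    · intro y; rfl
    · intro e; rfl
  have hrange : (svOfY p S).range = ⊤ := AddMonoidHom.range_eq_top.2 (svOfY_surjective S)
  rw [hker, hrange, AddSubgroup.card_top, s12s_card_Y hcard S hK] at h1
  have h2 : p ^ k * Nat.card (SV p S) = p ^ k * p ^ 2 := by rw [h1, pow_add]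
  exact Nat.eq_of_mul_eq_mul_left (pow_pos hp.pos k) h2

/-- the map `M[p] → V` -/
def svOfTors (p : ℕ) (S : StabSub M) : s12sTors (M := M) p 1 →+ SV p S where
  toFun e := svMk S e.1 (by rw [s12s_mem_tors_one.1 e.2]; exact zero_mem _)
  map_zero' := by
    apply Subtype.ext
    show sqMk S 0 = 0
    exact map_zero _
  map_add' a b := by
    apply Subtype.ext
    show sqMk S (a.1 + b.1) = sqMk S a.1 + sqMk S b.1
    exact map_add _ _ _

theorem svOfTors_eq_zero_iff (S : StabSub M) (e : s12sTors (M := M) p 1) :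
    svOfTors p S e = 0 ↔ e.1 ∈ S.K :=
  svMk_eq_zero_iff S (by rw [s12s_mem_tors_one.1 e.2]; exact zero_mem _)

/-- `C`, the image of `M[p]` in `V` -/
def svC (p : ℕ) (S : StabSub M) : Submodule (ZMod p) (SV p S) :=
  AddSubgroup.toZModSubmodule p (svOfTors p S).range

theorem mem_svC (S : StabSub M) (v : SV p S) :
    v ∈ svC p S ↔ ∃ (e : M) (he : p • e = 0),
      v = svMk S e (by rw [he]; exact zero_mem _) := by
  show v ∈ (svOfTors p S).range ↔ _
  constructor
  · rintro ⟨e, rfl⟩
    exact ⟨e.1, s12s_mem_tors_one.1 e.2, rfl⟩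
  · rintro ⟨e, he, rfl⟩
    exact ⟨⟨e, s12s_mem_tors_one.2 he⟩, rfl⟩

theorem s12s_card_C (hcard : HCard M p) (S : StabSub M) {k : ℕ} (hk : 1 ≤ k)
    (hK : Nat.card S.K = p ^ k) (hcyc : ∃ g : M, S.K = AddSubgroup.zmultiples g)
    {K₁ : AddSubgroup M} (hK₁ : Nat.card K₁ = p) (hle : K₁ ≤ S.K) :
    Nat.card (svC p S) = p := by
  have hp : p.Prime := Fact.out
  have h1 := s12s_card_ker_range (svOfTors p S)
  have hK₁t : ∀ x ∈ K₁, p • x = 0 := by
    intro y hy
    have := s12s_pow_smul_of_mem (k := 1) (by rw [hK₁, pow_one]) hy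
    rwa [pow_one] at this
  have hker : Nat.card (svOfTors p S).ker = p := by
    refine Eq.trans ?_ hK₁
    refine Nat.card_congr ⟨fun y => ⟨(y : s12sTors (M := M) p 1).1, ?_⟩,
      fun e => ⟨⟨(e : M), ?_⟩, ?_⟩, ?_, ?_⟩
    · have := y.2
      rw [AddMonoidHom.mem_ker] at this
      have hyK : (y : s12sTors (M := M) p 1).1 ∈ S.K := (svOfTors_eq_zero_iff S _).1 this
      exact s12s_mem_line hk hcyc hK hK₁ hle hyK (s12s_mem_tors_one.1 y.1.2)
    · exact s12s_mem_tors_one.2 (hK₁t _ e.2)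
    · rw [AddMonoidHom.mem_ker]
      exact (svOfTors_eq_zero_iff S _).2 (hle e.2)
    · intro y; rfl
    · intro e; rfl
  rw [hker, s12s_card_tors hcard 1, mul_one] at h1
  have h2 : p * Nat.card (svOfTors p S).range = p * p := by rw [h1, sq]
  exact Nat.eq_of_mul_eq_mul_left hp.pos h2

end Card

end Fermat.Agent.S12
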