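import Fermat.Agent.S12.StepSplitAdm

/-!
# S12 / STEP-SPLIT, part 6: `locally_split` (helper47)
-/

set_option autoImplicit false
set_option linter.style.haveILetI false
set_option linter.unusedSectionVars false
set_option linter.unusedVariables false

noncomputable section

namespace Fermat.Agent.S12

section Compl

variable {p : ℕ} [Fact p.Prime]

/-- in a group of order `p²`: a subgroup of order `p` and a nonzero subgroup meeting it trivially
are complementary -/
theorem s12s_isCompl_of_card {G : Type*} [AddCommGroup G] (hG : Nat.card G = p ^ 2)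
    (C C' : AddSubgroup G) (hC : Nat.card C = p) (hdisj : ∀ x, x ∈ C → x ∈ C' → x = 0)
    (hne : ∃ x ∈ C', x ≠ 0) : IsCompl C C' := by
  have hp : p.Prime := Fact.out
  haveI : Finite G := s12s_finite_of_card hG
  have hinf : C ⊓ C' = ⊥ := by
    rw [eq_bot_iff]
    intro x hx
    exact AddSubgroup.mem_bot.2 (hdisj x hx.1 hx.2)
  refine ⟨disjoint_iff.2 hinf, codisjoint_iff.2 ?_⟩
  rcases s12s_card_sq_cases hG (C ⊔ C') with h | h | h
  · exfalso
    have h1 : C ⊔ C' = ⊥ := s12s_eq_bot_of_card _ h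
    have h2 : C = ⊥ := by
      rw [eq_bot_iff, ← h1]; exact le_sup_left
    rw [h2, AddSubgroup.card_bot] at hC
    exact hp.one_lt.ne hC
  · exfalso
    have h1 : C = C ⊔ C' := by
      apply AddSubgroup.eq_of_le_of_card_ge le_sup_left
      rw [h, hC]
    have h2 : C' ≤ C := by
      rw [h1]; exact le_sup_right
    obtain ⟨x, hx, hx0⟩ := hne
    exact hx0 (hdisj x (h2 hx) hx)
  · exact s12s_eq_top_of_card hG _ h

end Compl

section Loc

variable {M : Type} [AddCommGroup M] [DistribMulAction GQ M] {p : ℕ} [Fact p.Prime]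

/-- the image in `V` of a subgroup `Z` of `M` -/
def svImg (p : ℕ) (S : StabSub M) (Z : AddSubgroup M) : AddSubgroup (SV p S) :=
  (Z.addSubgroupOf (svY p S)).map (svOfY p S)

theorem mem_svImg (S : StabSub M) (Z : AddSubgroup M) (v : SV p S) :
    v ∈ svImg p S Z ↔ ∃ (z : M) (hz : p • z ∈ S.K), z ∈ Z ∧ v = svMk S z hz := by
  constructor
  · rintro ⟨y, hy, rfl⟩
    exact ⟨y.1, y.2, hy, rfl⟩
  · rintro ⟨z, hz, hzZ, rfl⟩
    exact ⟨⟨z, hz⟩, hzZ, rfl⟩

theorem svC_eq (S : StabSub M) :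
    svC p S = AddSubgroup.toZModSubmodule p (svOfTors p S).range := rfl

/-- `locally_split` -/
theorem s12s_locally_split {K₁ K : AddSubgroup M} {k : ℕ} (hk : 1 ≤ k)
    (hK : IsLevel M p K₁ k K) (hK₁ : IsCofixedLine M p K₁) (hcard : HCard M p)
    (hlocp : HLocP M p) (hramp : HRamP M p K₁)
    (A : ValuationSubring Qb) (hA : A.LiesOverPrime p) :
    ∃ C' : Submodule (ZMod p) (SV p (lvlStab hK)),
      (∀ σ ∈ A.decompositionSubgroup ℚ, ∀ x ∈ C', σ • x ∈ C') ∧
        IsCompl (svC p (lvlStab hK)) C' := by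
  have hp : p.Prime := Fact.out
  obtain ⟨Z, hZst, hZin, e₀, he₀, he₀Z⟩ := hlocp A hA
  obtain ⟨σ₀, hσ₀, x₁, hx₁, hx₁ne⟩ := hramp A hA
  obtain ⟨a₀, ha₀⟩ := s12s_scalar hK.cyc hK.stable σ₀
  have hunit : ¬ (p : ℤ) ∣ a₀ - 1 := by
    rintro ⟨b, hb⟩
    apply hx₁ne
    have h1 : a₀ = 1 + (p : ℤ) * b := by linarith
    rw [ha₀ x₁ (hK.line hx₁), h1, add_smul, one_smul, mul_comm, mul_smul, natCast_zsmul,
      s12s_line_nsmul hK₁.card hx₁, smul_zero, add_zero]
  have hsub : ∀ x ∈ K, (a₀ - 1) • x = σ₀ • x - x := by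
    intro x hx
    rw [sub_smul, one_smul, ha₀ x hx]
  have hKZ : K ≤ Z := by
    intro x hx
    have hxk := s12s_pow_smul_of_mem hK.card hx
    apply s12s_mem_of_unit_smul hunit hxk
    rw [hsub x hx]
    exact hZin σ₀ hσ₀ k x hxk
  have hZp : ∀ x ∈ Z, p • x = 0 → x ∈ K₁ := fun x hx hpx =>
    s12s_ptors_of_not_all hcard hK₁.card (hK.line.trans hKZ) ⟨e₀, he₀, he₀Z⟩ hx hpx
  refine ⟨AddSubgroup.toZModSubmodule p (svImg p (lvlStab hK) Z), ?_, ?_⟩
  · intro σ hσ x hx
    obtain ⟨z, hz, hzZ, rfl⟩ := (mem_svImg _ _ _).1 hx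
    rw [sv_smul_mk]
    exact (mem_svImg _ _ _).2 ⟨σ • z, _, hZst σ hσ z hzZ, rfl⟩
  · rw [svC_eq]
    refine (OrderIso.isCompl_iff (AddSubgroup.toZModSubmodule p)).1 ?_
    apply s12s_isCompl_of_card (s12s_card_V hcard (lvlStab hK) hK.card)
    · exact s12s_card_C hcard (lvlStab hK) hk hK.card hK.cyc hK₁.card hK.line
    · -- disjoint
      rintro v ⟨e, rfl⟩ hv
      obtain ⟨z, hz, hzZ, hvz⟩ := (mem_svImg _ _ _).1 hv
      have h1 : (e : M) - z ∈ K :=
        (svMk_eq_iff (lvlStab hK)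
          (by rw [s12s_mem_tors_one.1 e.2]; exact zero_mem _) hz).1 hvz
      have heZ : (e : M) ∈ Z := by
        have := add_mem (hKZ h1) hzZ
        rwa [sub_add_cancel] at this
      have heK : (e : M) ∈ K := hK.line (hZp _ heZ (s12s_mem_tors_one.1 e.2))
      exact (svOfTors_eq_zero_iff _ e).2 heK
    · -- a nonzero element
      obtain ⟨g, hg⟩ := hK.cyc
      have hgK : g ∈ K := by rw [hg]; exact AddSubgroup.mem_zmultiples g
      have hgk := s12s_pow_smul_of_mem hK.card hgK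
      obtain ⟨y, hy, hpy⟩ := s12s_div hcard k g hgk
      have hzZ : σ₀ • y - y ∈ Z := hZin σ₀ hσ₀ (k + 1) y hy
      have hpz : p • (σ₀ • y - y) = (a₀ - 1) • g := by
        rw [smul_sub, smul_comm, hpy, hsub g hgK]
      have hzY : p • (σ₀ • y - y) ∈ (lvlStab hK).K := by
        rw [hpz]; exact K.zsmul_mem hgK _
      refine ⟨svMk _ _ hzY, (mem_svImg _ _ _).2 ⟨_, hzY, hzZ, rfl⟩, ?_⟩
      intro h0
      have hzK : σ₀ • y - y ∈ K := (svMk_eq_zero_iff _ hzY).1 h0
      have h2 := s12s_pow_smul_of_mem hK.card hzK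
      obtain ⟨d, hd⟩ := Nat.exists_eq_add_of_le hk
      have hk1 : k - 1 = d := by omega
      have hk2 : k = d + 1 := by omega
      have h3 : (a₀ - 1) • (p ^ (k - 1) • g) = 0 := by
        rw [smul_comm, ← hpz, ← mul_smul, ← pow_succ, hk1, ← hk2]
        exact h2
      have hord := s12s_order_top hk (s12s_order_gen hg hK.card)
      have hne0 : p ^ (k - 1) • g ≠ 0 := by
        intro h
        rw [h, addOrderOf_zero] at hord
        exact hp.one_lt.ne hord
      have hp0 : p • (p ^ (k - 1) • g) = 0 := by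
        have := addOrderOf_nsmul_eq_zero (p ^ (k - 1) • g)
        rwa [hord] at this
      exact hunit (s12s_dvd_of_zsmul hne0 hp0 h3)

end Loc

end Fermat.Agent.S12
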