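import Fermat.Agent.S12.StepSplitAlg

/-!
# S12 / STEP-SPLIT, part 2: the `G`-module `V = [p]⁻¹K / K` (helper47)

`S : StabSub M` a `G`-stable subgroup `K`; `SQ S = M ⧸ K` with its `G`-action;
`SV S p = (M ⧸ K)[p]`, a `ZMod p`-module with a commuting `G`-action.
-/

set_option autoImplicit false
set_option linter.style.haveILetI false
set_option linter.unusedSectionVars false

noncomputable section

namespace Fermat.Agent.S12

/-- a `G`-stable subgroup -/
structure StabSub (M : Type) [AddCommGroup M] [DistribMulAction GQ M] where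
  /-- the subgroup -/
  K : AddSubgroup M
  /-- it is stable -/
  stable : ∀ σ : GQ, ∀ x ∈ K, σ • x ∈ K

section Quot

variable {M : Type} [AddCommGroup M] [DistribMulAction GQ M]

/-- `M ⧸ K` -/
def SQ (S : StabSub M) : Type := M ⧸ S.K

instance (S : StabSub M) : AddCommGroup (SQ S) :=
  inferInstanceAs (AddCommGroup (M ⧸ S.K))

/-- the projection -/
def sqMk (S : StabSub M) : M →+ SQ S := QuotientAddGroup.mk' S.K

theorem sqMk_surjective (S : StabSub M) : Function.Surjective (sqMk S) :=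
  QuotientAddGroup.mk'_surjective S.K

theorem sqMk_eq_zero_iff (S : StabSub M) (x : M) : sqMk S x = 0 ↔ x ∈ S.K :=
  QuotientAddGroup.eq_zero_iff x

theorem sqMk_eq_iff (S : StabSub M) (x y : M) : sqMk S x = sqMk S y ↔ x - y ∈ S.K := by
  rw [← sub_eq_zero, ← map_sub, sqMk_eq_zero_iff]

/-- the action of `σ` on the quotient -/
def sqAct (S : StabSub M) (σ : GQ) : SQ S →+ SQ S :=
  QuotientAddGroup.map S.K S.K (DistribSMul.toAddMonoidHom M σ)
    (fun x hx => S.stable σ x hx)

theorem sqAct_mk (S : StabSub M) (σ : GQ) (x : M) : sqAct S σ (sqMk S x) = sqMk S (σ • x) :=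
  rfl

instance (S : StabSub M) : DistribMulAction GQ (SQ S) where
  smul σ v := sqAct S σ v
  one_smul v := by
    obtain ⟨x, rfl⟩ := sqMk_surjective S v
    show sqAct S 1 (sqMk S x) = sqMk S x
    rw [sqAct_mk, one_smul]
  mul_smul σ τ v := by
    obtain ⟨x, rfl⟩ := sqMk_surjective S v
    show sqAct S (σ * τ) (sqMk S x) = sqAct S σ (sqAct S τ (sqMk S x))
    rw [sqAct_mk, sqAct_mk, sqAct_mk, mul_smul]
  smul_zero σ := map_zero (sqAct S σ)
  smul_add σ v w := map_add (sqAct S σ) v w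

theorem sq_smul_mk (S : StabSub M) (σ : GQ) (x : M) : σ • sqMk S x = sqMk S (σ • x) := rfl

variable (p : ℕ)

/-- `(M ⧸ K)[p]` as a subgroup -/
def svSub (S : StabSub M) : AddSubgroup (SQ S) := (nsmulAddMonoidHom p : SQ S →+ SQ S).ker

/-- `V = (M ⧸ K)[p]` -/
abbrev SV (S : StabSub M) : Type := ↥(svSub p S)

variable {p}

theorem mem_svSub (S : StabSub M) (v : SQ S) : v ∈ svSub p S ↔ p • v = 0 := by
  simp [svSub, AddMonoidHom.mem_ker]

theorem sv_nsmul (S : StabSub M) (v : SV p S) : p • v = 0 :=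
  Subtype.ext ((mem_svSub S v.1).1 v.2)

instance (S : StabSub M) : Module (ZMod p) (SV p S) :=
  AddCommGroup.zmodModule (sv_nsmul S)

theorem sv_smul_def [NeZero p] (S : StabSub M) (c : ZMod p) (v : SV p S) : c • v = c.val • v := by
  conv_lhs => rw [← ZMod.natCast_zmod_val c]
  exact Nat.cast_smul_eq_nsmul (ZMod p) c.val v

theorem sv_natCast_smul (S : StabSub M) (n : ℕ) (v : SV p S) : (n : ZMod p) • v = n • v :=
  Nat.cast_smul_eq_nsmul (ZMod p) n v

instance (S : StabSub M) : DistribMulAction GQ (SV p S) where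
  smul σ v := ⟨σ • v.1, by
    rw [mem_svSub, ← smul_comm σ p v.1, (mem_svSub S v.1).1 v.2, smul_zero]⟩
  one_smul v := Subtype.ext (one_smul GQ v.1)
  mul_smul σ τ v := Subtype.ext (mul_smul σ τ v.1)
  smul_zero σ := Subtype.ext (smul_zero σ)
  smul_add σ v w := Subtype.ext (smul_add σ v.1 w.1)

theorem sv_smul_coe (S : StabSub M) (σ : GQ) (v : SV p S) : ((σ • v : SV p S) : SQ S) = σ • v.1 :=
  rfl

instance [NeZero p] (S : StabSub M) : SMulCommClass GQ (ZMod p) (SV p S) where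
  smul_comm σ c v := by
    rw [sv_smul_def, sv_smul_def]
    exact smul_comm σ c.val v

/-- the class of `y` with `p y ∈ K` -/
def svMk (S : StabSub M) (y : M) (hy : p • y ∈ S.K) : SV p S :=
  ⟨sqMk S y, by rw [mem_svSub, ← map_nsmul, sqMk_eq_zero_iff]; exact hy⟩

theorem svMk_coe (S : StabSub M) (y : M) (hy : p • y ∈ S.K) : (svMk S y hy : SQ S) = sqMk S y :=
  rfl

theorem sv_exists_rep (S : StabSub M) (v : SV p S) :
    ∃ (y : M) (hy : p • y ∈ S.K), v = svMk S y hy := by
  obtain ⟨y, hy⟩ := sqMk_surjective S v.1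
  have h : p • y ∈ S.K := by
    rw [← sqMk_eq_zero_iff, map_nsmul, hy]
    exact (mem_svSub S v.1).1 v.2
  exact ⟨y, h, Subtype.ext hy.symm⟩

theorem svMk_eq_iff (S : StabSub M) {y y' : M} (hy : p • y ∈ S.K) (hy' : p • y' ∈ S.K) :
    svMk S y hy = svMk S y' hy' ↔ y - y' ∈ S.K := by
  rw [← sqMk_eq_iff]
  exact ⟨fun h => congrArg Subtype.val h, fun h => Subtype.ext h⟩

theorem svMk_eq_zero_iff (S : StabSub M) {y : M} (hy : p • y ∈ S.K) :
    svMk S y hy = 0 ↔ y ∈ S.K := by
  rw [← sqMk_eq_zero_iff]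
  exact ⟨fun h => congrArg Subtype.val h, fun h => Subtype.ext h⟩

theorem sv_smul_mk (S : StabSub M) (σ : GQ) {y : M} (hy : p • y ∈ S.K) :
    σ • svMk S y hy = svMk S (σ • y) (by rw [← smul_comm σ p y]; exact S.stable σ _ hy) :=
  rfl

theorem sv_nsmul_mk (S : StabSub M) (n : ℕ) {y : M} (hy : p • y ∈ S.K) :
    n • svMk S y hy = svMk S (n • y) (by rw [smul_comm]; exact S.K.nsmul_mem hy n) := by
  apply Subtype.ext
  show n • sqMk S y = sqMk S (n • y)
  rw [map_nsmul]

theorem sv_sub_mk (S : StabSub M) {y y' : M} (hy : p • y ∈ S.K) (hy' : p • y' ∈ S.K) :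
    svMk S y hy - svMk S y' hy' = svMk S (y - y') (by rw [smul_sub]; exact sub_mem hy hy') := by
  apply Subtype.ext
  show sqMk S y - sqMk S y' = sqMk S (y - y')
  rw [map_sub]

end Quot

end Fermat.Agent.S12
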