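/-
Item 12 (S12 glue), piece `VELU / V-NODE` (helper60).

The group of nonsingular points of a SPLIT nodal Weierstrass cubic over a field `k` of
characteristic `≠ 2`: an injective homomorphism `ψ : W_ns(k) → kˣ` with
`(x - x₀) (1 - u)² = β u` for `u = ψ(x, y)`, where `x₀` is the `x`-coordinate of the node and
`β = b₂ + 12 x₀` (`β² = c₄`, `β³ = -c₆`); the node is split iff `β = γ²` is a square.

`StmtVeluNode` of `VeluPlan.lean` is false as stated (sign of `β`, and the nonsplit case);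
this file proves the corrected `StmtVeluNodeFix`.

With `η = 2y + a₁x + a₃`, `X = x - x₀`, the curve is `η² = X² (4X + β)`, and
`ψ(x, y) = (η - γ X) / (η + γ X)`.  Additivity: on a line `η = L X + c` the three intersection
points satisfy `∏ (η_i - γ X_i) = c³ = ∏ (η_i + γ X_i)`.
-/
import Fermat.Agent.S15.NodalCount

set_option autoImplicit false

noncomputable section

namespace Fermat.Agent.S12

open WeierstrassCurve Fermat.Agent.S15.ECL

variable {k : Type*} [Field k]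

/-! ### The algebraic core -/

theorem velunode_core {L c γ β X₁ X₂ X₃ : k} (h4 : (4 : k) ≠ 0) (hγ : γ ^ 2 = β)
    (h1 : 4 * (X₁ + X₂ + X₃) = L ^ 2 - β)
    (h2 : 4 * (X₁ * X₂ + X₁ * X₃ + X₂ * X₃) = -2 * L * c)
    (h3 : 4 * (X₁ * X₂ * X₃) = c ^ 2) :
    ((L - γ) * X₁ + c) * ((L - γ) * X₂ + c) * ((L - γ) * X₃ + c) = c ^ 3 := by
  apply mul_left_cancel₀ h4
  linear_combination (L - γ) ^ 3 * h3 + (L - γ) ^ 2 * c * h2 + (L - γ) * c ^ 2 * h1
    + c ^ 2 * (L - γ) * hγ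

theorem velunode_vieta {L c β X₁ X₂ X₃ : k}
    (hf₁ : (L * X₁ + c) ^ 2 = X₁ ^ 2 * (4 * X₁ + β))
    (hf₂ : (L * X₂ + c) ^ 2 = X₂ ^ 2 * (4 * X₂ + β))
    (h1 : 4 * (X₁ + X₂ + X₃) = L ^ 2 - β)
    (hcase : X₁ ≠ X₂ ∨ (X₁ = X₂ ∧ L * (L * X₁ + c) = 6 * X₁ ^ 2 + β * X₁)) :
    4 * (X₁ * X₂ + X₁ * X₃ + X₂ * X₃) = -2 * L * c ∧ 4 * (X₁ * X₂ * X₃) = c ^ 2 := by
  have h2 : 4 * (X₁ * X₂ + X₁ * X₃ + X₂ * X₃) = -2 * L * c := by
    rcases hcase with hne | ⟨rfl, ht⟩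
    · have h0 : (X₁ - X₂) * (4 * (X₁ * X₂ + X₁ * X₃ + X₂ * X₃) + 2 * L * c) = 0 := by
        linear_combination hf₁ - hf₂ + (X₁ - X₂) * (X₁ + X₂) * h1
      rcases mul_eq_zero.1 h0 with h | h
      · exact absurd (sub_eq_zero.1 h) hne
      · linear_combination h
    · linear_combination 2 * X₁ * h1 + 2 * ht
  refine ⟨h2, ?_⟩
  linear_combination -hf₁ - X₁ ^ 2 * h1 + X₁ * h2

/-- Three collinear points. -/
theorem velunode_line {L γ β X₁ X₂ X₃ η₁ η₂ η₃ : k} (h4 : (4 : k) ≠ 0) (hγ : γ ^ 2 = β)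
    (hf₁ : η₁ ^ 2 = X₁ ^ 2 * (4 * X₁ + β)) (hf₂ : η₂ ^ 2 = X₂ ^ 2 * (4 * X₂ + β))
    (hL : η₁ - η₂ = L * (X₁ - X₂))
    (hcase : X₁ ≠ X₂ ∨ (X₁ = X₂ ∧ L * η₁ = 6 * X₁ ^ 2 + β * X₁))
    (h1 : 4 * (X₁ + X₂ + X₃) = L ^ 2 - β)
    (h3 : η₃ = -(L * (X₃ - X₁) + η₁)) :
    (η₁ - γ * X₁) * (η₂ - γ * X₂) * (η₃ + γ * X₃) =
      (η₁ + γ * X₁) * (η₂ + γ * X₂) * (η₃ - γ * X₃) := by
  obtain ⟨c, hc⟩ : ∃ c, c = η₁ - L * X₁ := ⟨_, rfl⟩
  have e₁ : η₁ = L * X₁ + c := by rw [hc]; ring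
  have e₂ : η₂ = L * X₂ + c := by rw [hc]; linear_combination -hL
  have e₃ : η₃ = -(L * X₃ + c) := by rw [h3, hc]; ring
  rw [e₁] at hf₁ hcase
  rw [e₂] at hf₂
  obtain ⟨h2, h3'⟩ := velunode_vieta hf₁ hf₂ h1 hcase
  have k1 := velunode_core h4 hγ h1 h2 h3'
  have hγ' : (-γ) ^ 2 = β := by rw [← hγ]; ring
  have k2 := velunode_core h4 hγ' h1 h2 h3'
  rw [e₁, e₂, e₃]
  linear_combination -k1 + k2

/-! ### The map -/

/-- `η - γ X` -/
def velunodeN (W : WeierstrassCurve k) (γ x y : k) : k :=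
  (2 * y + W.a₁ * x + W.a₃) - γ * (x - nodeX W)

/-- `η + γ X` -/
def velunodeD (W : WeierstrassCurve k) (γ x y : k) : k :=
  (2 * y + W.a₁ * x + W.a₃) + γ * (x - nodeX W)

variable {W : WeierstrassCurve k}

theorem velunode_eta_sq (h2 : (2 : k) ≠ 0) (hΔ : W.Δ = 0) (hc : W.c₄ ≠ 0) {x y : k}
    (h : W.toAffine.Equation x y) :
    (2 * y + W.a₁ * x + W.a₃) ^ 2 = (x - nodeX W) ^ 2 * (4 * (x - nodeX W) + nodeG W) := by
  rw [(node_equation_iff h2 hΔ hc x y).1 h]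
  unfold nodeG
  ring

theorem velunode_ND (h2 : (2 : k) ≠ 0) (hΔ : W.Δ = 0) (hc : W.c₄ ≠ 0) {γ : k}
    (hγ : γ ^ 2 = nodeG W) {x y : k} (h : W.toAffine.Equation x y) :
    velunodeN W γ x y * velunodeD W γ x y = 4 * (x - nodeX W) ^ 3 := by
  have he := velunode_eta_sq h2 hΔ hc h
  unfold velunodeN velunodeD
  linear_combination he - (x - nodeX W) ^ 2 * hγ

theorem velunode_N_ne (h2 : (2 : k) ≠ 0) (hΔ : W.Δ = 0) (hc : W.c₄ ≠ 0) {γ : k}
    (hγ : γ ^ 2 = nodeG W) {x y : k} (h : W.toAffine.Nonsingular x y) :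
    velunodeN W γ x y ≠ 0 := by
  obtain ⟨heq, hx⟩ := (node_nonsingular_iff h2 hΔ hc x y).1 h
  intro h0
  have := velunode_ND h2 hΔ hc hγ heq
  rw [h0, zero_mul] at this
  exact mul_ne_zero (node_four_ne_zero h2) (pow_ne_zero 3 (sub_ne_zero.2 hx)) this.symm

theorem velunode_D_ne (h2 : (2 : k) ≠ 0) (hΔ : W.Δ = 0) (hc : W.c₄ ≠ 0) {γ : k}
    (hγ : γ ^ 2 = nodeG W) {x y : k} (h : W.toAffine.Nonsingular x y) :
    velunodeD W γ x y ≠ 0 := by
  obtain ⟨heq, hx⟩ := (node_nonsingular_iff h2 hΔ hc x y).1 h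
  intro h0
  have := velunode_ND h2 hΔ hc hγ heq
  rw [h0, mul_zero] at this
  exact mul_ne_zero (node_four_ne_zero h2) (pow_ne_zero 3 (sub_ne_zero.2 hx)) this.symm

/-- the value `u = (η - γ X) / (η + γ X)` of `ψ` -/
def velunodeU (W : WeierstrassCurve k) (γ : k) : W.toAffine.Point → k
  | .zero => 1
  | .some x y _ => velunodeN W γ x y / velunodeD W γ x y

theorem velunodeU_zero (γ : k) : velunodeU W γ 0 = 1 := rfl

theorem velunodeU_some (γ : k) {x y : k} (h : W.toAffine.Nonsingular x y) :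
    velunodeU W γ (.some x y h) = velunodeN W γ x y / velunodeD W γ x y := rfl

theorem velunodeU_ne_zero (h2 : (2 : k) ≠ 0) (hΔ : W.Δ = 0) (hc : W.c₄ ≠ 0) {γ : k}
    (hγ : γ ^ 2 = nodeG W) (P : W.toAffine.Point) : velunodeU W γ P ≠ 0 := by
  rcases P with _ | ⟨x, y, h⟩
  · exact one_ne_zero
  · exact div_ne_zero (velunode_N_ne h2 hΔ hc hγ h) (velunode_D_ne h2 hΔ hc hγ h)

theorem velunode_six (h2 : (2 : k) ≠ 0) (hΔ : W.Δ = 0) (hc : W.c₄ ≠ 0) (x : k) :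
    6 * x ^ 2 + W.b₂ * x + W.b₄ = 6 * (x - nodeX W) ^ 2 + nodeG W * (x - nodeX W) := by
  have h1 := node_rel1 hΔ hc
  apply mul_left_cancel₀ h2
  unfold nodeG
  linear_combination h1

theorem velunodeU_add [DecidableEq k] (h2 : (2 : k) ≠ 0) (hΔ : W.Δ = 0) (hc : W.c₄ ≠ 0) {γ : k}
    (hγ : γ ^ 2 = nodeG W) (P Q : W.toAffine.Point) :
    velunodeU W γ (P + Q) = velunodeU W γ P * velunodeU W γ Q := by
  have h4 := node_four_ne_zero h2
  rcases P with _ | ⟨x₁, y₁, h₁⟩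
  · change velunodeU W γ (0 + Q) = velunodeU W γ 0 * _
    rw [zero_add, velunodeU_zero, one_mul]
  rcases Q with _ | ⟨x₂, y₂, h₂⟩
  · change velunodeU W γ (_ + 0) = _ * velunodeU W γ 0
    rw [add_zero, velunodeU_zero, mul_one]
  have hN₁ := velunode_N_ne h2 hΔ hc hγ h₁
  have hD₁ := velunode_D_ne h2 hΔ hc hγ h₁
  have hN₂ := velunode_N_ne h2 hΔ hc hγ h₂
  have hD₂ := velunode_D_ne h2 hΔ hc hγ h₂
  by_cases hxy : x₁ = x₂ ∧ y₁ = W.toAffine.negY x₂ y₂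
  · rw [Affine.Point.add_of_Y_eq hxy.1 hxy.2, velunodeU_zero, velunodeU_some, velunodeU_some]
    obtain ⟨rfl, hy⟩ := hxy
    have e1 : velunodeN W γ x₁ y₁ = -velunodeD W γ x₁ y₂ := by
      unfold velunodeN velunodeD
      rw [hy, Affine.negY]; ring
    have e2 : velunodeD W γ x₁ y₁ = -velunodeN W γ x₁ y₂ := by
      unfold velunodeN velunodeD
      rw [hy, Affine.negY]; ring
    rw [e1, e2]
    field_simp
  · rw [Affine.Point.add_some hxy, velunodeU_some, velunodeU_some, velunodeU_some]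
    have h₃ := Affine.nonsingular_add h₁ h₂ hxy
    have hN₃ := velunode_N_ne h2 hΔ hc hγ h₃
    have hD₃ := velunode_D_ne h2 hΔ hc hγ h₃
    obtain ⟨ℓ, hℓ⟩ : ∃ ℓ, ℓ = W.toAffine.slope x₁ x₂ y₁ y₂ := ⟨_, rfl⟩
    rw [← hℓ] at h₃ hN₃ hD₃ ⊢
    have hf₁ := velunode_eta_sq h2 hΔ hc h₁.1
    have hf₂ := velunode_eta_sq h2 hΔ hc h₂.1
    -- the line
    have hL : (2 * y₁ + W.a₁ * x₁ + W.a₃) - (2 * y₂ + W.a₁ * x₂ + W.a₃)
        = (2 * ℓ + W.a₁) * ((x₁ - nodeX W) - (x₂ - nodeX W)) ∧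
        ((x₁ - nodeX W) ≠ (x₂ - nodeX W) ∨ ((x₁ - nodeX W) = (x₂ - nodeX W) ∧
          (2 * ℓ + W.a₁) * (2 * y₁ + W.a₁ * x₁ + W.a₃)
            = 6 * (x₁ - nodeX W) ^ 2 + nodeG W * (x₁ - nodeX W))) := by
      by_cases hx : x₁ = x₂
      · have hy : y₁ ≠ W.toAffine.negY x₂ y₂ := fun h => hxy ⟨hx, h⟩
        have hyy : y₁ = y₂ := (Affine.Y_eq_of_X_eq h₁.1 h₂.1 hx).resolve_right hy
        subst hx hyy
        refine ⟨by ring, Or.inr ⟨rfl, ?_⟩⟩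
        rw [Affine.slope_of_Y_ne rfl hy] at hℓ
        have hη : y₁ - W.toAffine.negY x₁ y₁ ≠ 0 := sub_ne_zero.2 hy
        have hℓ' : ℓ * (y₁ - W.toAffine.negY x₁ y₁)
            = 3 * x₁ ^ 2 + 2 * W.a₂ * x₁ + W.a₄ - W.a₁ * y₁ := by
          rw [hℓ]; exact div_mul_cancel₀ _ hη
        rw [Affine.negY] at hℓ'
        rw [← velunode_six h2 hΔ hc]
        simp only [WeierstrassCurve.b₂, WeierstrassCurve.b₄]
        linear_combination 2 * hℓ'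
      · refine ⟨?_, Or.inl fun h => hx (by linear_combination h)⟩
        rw [Affine.slope_of_X_ne hx] at hℓ
        have hℓ' : ℓ * (x₁ - x₂) = y₁ - y₂ := by
          rw [hℓ]; exact div_mul_cancel₀ _ (sub_ne_zero.2 hx)
        linear_combination -2 * hℓ'
    have h1 : 4 * ((x₁ - nodeX W) + (x₂ - nodeX W) + (W.toAffine.addX x₁ x₂ ℓ - nodeX W))
        = (2 * ℓ + W.a₁) ^ 2 - nodeG W := by
      simp only [Affine.addX, nodeG, WeierstrassCurve.b₂]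
      ring
    have h3 : 2 * W.toAffine.addY x₁ x₂ y₁ ℓ + W.a₁ * W.toAffine.addX x₁ x₂ ℓ + W.a₃
        = -((2 * ℓ + W.a₁) * ((W.toAffine.addX x₁ x₂ ℓ - nodeX W) - (x₁ - nodeX W))
          + (2 * y₁ + W.a₁ * x₁ + W.a₃)) := by
      simp only [Affine.addY, Affine.negAddY, Affine.negY]
      ring
    have key := velunode_line h4 hγ hf₁ hf₂ hL.1 hL.2 h1 h3
    rw [div_mul_div_comm, div_eq_div_iff hD₃ (mul_ne_zero hD₁ hD₂)]
    unfold velunodeN velunodeD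
    linear_combination -key

/-- The homomorphism `ψ`. -/
def velunodePsi [DecidableEq k] (h2 : (2 : k) ≠ 0) (hΔ : W.Δ = 0) (hc : W.c₄ ≠ 0) {γ : k}
    (hγ : γ ^ 2 = nodeG W) : W.toAffine.Point →+ Additive kˣ :=
  AddMonoidHom.mk' (fun P => Additive.ofMul (Units.mk0 (velunodeU W γ P)
    (velunodeU_ne_zero h2 hΔ hc hγ P))) (by
    intro P Q
    apply Additive.toMul.injective
    apply Units.ext
    simp only [toMul_add, toMul_ofMul, Units.val_mul, Units.val_mk0]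
    exact velunodeU_add h2 hΔ hc hγ P Q)

theorem velunodePsi_val [DecidableEq k] (h2 : (2 : k) ≠ 0) (hΔ : W.Δ = 0) (hc : W.c₄ ≠ 0) {γ : k}
    (hγ : γ ^ 2 = nodeG W) (P : W.toAffine.Point) :
    ((Additive.toMul (velunodePsi h2 hΔ hc hγ P) : kˣ) : k) = velunodeU W γ P := rfl

theorem velunode_gamma_ne (hΔ : W.Δ = 0) (hc : W.c₄ ≠ 0) {γ : k} (hγ : γ ^ 2 = nodeG W) :
    γ ≠ 0 := by
  rintro rfl
  exact nodeG_ne_zero hΔ hc (by rw [← hγ]; ring)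

theorem velunodePsi_injective [DecidableEq k] (h2 : (2 : k) ≠ 0) (hΔ : W.Δ = 0) (hc : W.c₄ ≠ 0)
    {γ : k} (hγ : γ ^ 2 = nodeG W) : Function.Injective (velunodePsi h2 hΔ hc hγ) := by
  rw [injective_iff_map_eq_zero]
  intro P hP
  rcases P with _ | ⟨x, y, h⟩
  · rfl
  · exfalso
    have hv := velunodePsi_val h2 hΔ hc hγ (.some x y h)
    rw [hP] at hv
    simp only [toMul_zero, Units.val_one] at hv
    rw [velunodeU_some] at hv
    have hD := velunode_D_ne h2 hΔ hc hγ h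
    have hND : velunodeN W γ x y = velunodeD W γ x y := by
      rw [eq_comm, div_eq_one_iff_eq hD] at hv
      exact hv
    obtain ⟨-, hx⟩ := (node_nonsingular_iff h2 hΔ hc x y).1 h
    have : 2 * (γ * (x - nodeX W)) = 0 := by
      unfold velunodeN velunodeD at hND
      linear_combination -hND
    rcases mul_eq_zero.1 this with h' | h'
    · exact h2 h'
    · rcases mul_eq_zero.1 h' with h'' | h''
      · exact velunode_gamma_ne hΔ hc hγ h''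
      · exact hx (sub_eq_zero.1 h'')

theorem velunodeU_rel (h2 : (2 : k) ≠ 0) (hΔ : W.Δ = 0) (hc : W.c₄ ≠ 0) {γ : k}
    (hγ : γ ^ 2 = nodeG W) {x y : k} (h : W.toAffine.Nonsingular x y) :
    (x - nodeX W) * (1 - velunodeU W γ (.some x y h)) ^ 2
      = nodeG W * velunodeU W γ (.some x y h) := by
  have hD := velunode_D_ne h2 hΔ hc hγ h
  have hND := velunode_ND h2 hΔ hc hγ h.1
  rw [velunodeU_some]
  have e : 1 - velunodeN W γ x y / velunodeD W γ x y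
      = 2 * γ * (x - nodeX W) / velunodeD W γ x y := by
    field_simp
    unfold velunodeN velunodeD
    ring
  rw [e, div_pow, ← hγ]
  field_simp
  linear_combination (-γ ^ 2) * hND

/-- `c₆ = -β³`. -/
theorem velunode_c₆ (hΔ : W.Δ = 0) (hc : W.c₄ ≠ 0) : W.c₆ = -nodeG W ^ 3 := by
  have h1 := node_rel1 hΔ hc
  have h3 := node_rel2 hΔ hc
  unfold nodeG
  simp only [WeierstrassCurve.c₆]
  linear_combination 18 * W.b₂ * h1 + 216 * h3

/-- The main theorem, split node given by a square root `γ` of `β = nodeG W`. -/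
theorem velunode_main [DecidableEq k] (h2 : (2 : k) ≠ 0) (hΔ : W.Δ = 0) (hc : W.c₄ ≠ 0)
    {γ : k} (hγ : γ ^ 2 = nodeG W) :
    ∃ ψ : W.toAffine.Point →+ Additive kˣ, Function.Injective ψ ∧
      (∀ P, ((Additive.toMul (ψ P) : kˣ) : k) = velunodeU W γ P) ∧
      ∀ (x y : k) (h : W.toAffine.Nonsingular x y),
        (x - nodeX W) * (1 - ((Additive.toMul (ψ (.some x y h)) : kˣ) : k)) ^ 2 =
          nodeG W * ((Additive.toMul (ψ (.some x y h)) : kˣ) : k) :=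
  ⟨velunodePsi h2 hΔ hc hγ, velunodePsi_injective h2 hΔ hc hγ,
    velunodePsi_val h2 hΔ hc hγ, fun x y h => by
      rw [velunodePsi_val]; exact velunodeU_rel h2 hΔ hc hγ h⟩

/-- **V-NODE, corrected.**  (`β` is an output, and the node has to be split:
`-c₆ / c₄ = b₂ + 12 x₀` is a square.) -/
def StmtVeluNodeFix : Prop :=
  ∀ (k : Type) [Field k] [DecidableEq k] (W : WeierstrassCurve k), (2 : k) ≠ 0 → W.Δ = 0 →
    W.c₄ ≠ 0 → (∃ γ : k, γ ^ 2 * W.c₄ = -W.c₆) →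
    ∃ (β x₀ : k) (ψ : W.toAffine.Point →+ Additive kˣ), β ^ 2 = W.c₄ ∧
      W.c₄ * x₀ = 18 * W.b₆ - W.b₂ * W.b₄ ∧ Function.Injective ψ ∧
      (∀ x : k, 6 * x ^ 2 + W.b₂ * x + W.b₄ = 6 * (x - x₀) ^ 2 + β * (x - x₀)) ∧
      ∀ (x y : k) (h : W.toAffine.Nonsingular x y),
        (x - x₀) * (1 - ((Additive.toMul (ψ (.some x y h)) : kˣ) : k)) ^ 2 =
          β * ((Additive.toMul (ψ (.some x y h)) : kˣ) : k)

theorem stmtVeluNodeFix : StmtVeluNodeFix := by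
  intro k _ _ W h2 hΔ hc ⟨γ, hγ⟩
  have hG := nodeG_sq hΔ hc
  have hG0 := nodeG_ne_zero hΔ hc
  have hγ' : γ ^ 2 = nodeG W := by
    rw [velunode_c₆ hΔ hc, ← hG] at hγ
    have : nodeG W ^ 2 * (γ ^ 2 - nodeG W) = 0 := by linear_combination hγ
    rcases mul_eq_zero.1 this with h | h
    · exact absurd ((pow_eq_zero_iff two_ne_zero).1 h) hG0
    · exact sub_eq_zero.1 h
  obtain ⟨ψ, hinj, -, hrel⟩ := velunode_main h2 hΔ hc hγ'
  refine ⟨nodeG W, nodeX W, ψ, hG, ?_, hinj, velunode_six h2 hΔ hc, hrel⟩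
  unfold nodeX
  field_simp

/-- Over a field in which every element is a square (e.g. an algebraically closed field). -/
theorem velunode_of_all_sq (k : Type) [Field k] [DecidableEq k] (W : WeierstrassCurve k)
    (h2 : (2 : k) ≠ 0) (hΔ : W.Δ = 0) (hc : W.c₄ ≠ 0) (hsq : ∀ a : k, ∃ b : k, b ^ 2 = a) :
    ∃ (β x₀ : k) (ψ : W.toAffine.Point →+ Additive kˣ), β ^ 2 = W.c₄ ∧
      W.c₄ * x₀ = 18 * W.b₆ - W.b₂ * W.b₄ ∧ Function.Injective ψ ∧
      (∀ x : k, 6 * x ^ 2 + W.b₂ * x + W.b₄ = 6 * (x - x₀) ^ 2 + β * (x - x₀)) ∧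
      ∀ (x y : k) (h : W.toAffine.Nonsingular x y),
        (x - x₀) * (1 - ((Additive.toMul (ψ (.some x y h)) : kˣ) : k)) ^ 2 =
          β * ((Additive.toMul (ψ (.some x y h)) : kˣ) : k) := by
  obtain ⟨γ, hγ⟩ := hsq (nodeG W)
  refine stmtVeluNodeFix k W h2 hΔ hc ⟨γ, ?_⟩
  rw [velunode_c₆ hΔ hc, ← nodeG_sq hΔ hc, hγ]
  ring

end Fermat.Agent.S12
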