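/-
Item 12 (S12 glue), piece `VELU / V-ROOT` (helper60): `stmtVeluRoot : StmtVeluRoot`.

For the `m - 1` nontrivial `m`-th roots of unity `ζ` of a field in which `m` is invertible, with
`X = ζ / (1 - ζ)²`: `120 ∑ (6 X² + X) = m⁴ - 1`.

Route: `w = 1 / (1 - ζ)` runs through the roots of `P = Tᵐ - (T - 1)ᵐ` (degree `m - 1`, leading
coefficient `m`), so `m · e_j(w) = C(m, j + 1)` (Vieta); Newton's identities give the power sums
`p₁ … p₄`, and `X = w² - w`.  The final identity is an identity of integers (so that it holds in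
every characteristic).
-/
import Fermat.Agent.S12.VeluPlan

set_option autoImplicit false

noncomputable section

namespace Fermat.Agent.S12

open Polynomial

/-! ### Elementary symmetric functions and power sums of a multiset -/

theorem vroot_esymm_cons {R : Type*} [CommSemiring R] (a : R) (s : Multiset R) (n : ℕ) :
    (a ::ₘ s).esymm (n + 1) = s.esymm (n + 1) + a * s.esymm n := by
  simp only [Multiset.esymm, Multiset.powersetCard_cons, Multiset.map_add, Multiset.sum_add,
    Multiset.map_map, Function.comp_def, Multiset.prod_cons]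
  rw [Multiset.sum_map_mul_left]

theorem vroot_esymm_zero {R : Type*} [CommSemiring R] (s : Multiset R) : s.esymm 0 = 1 := by
  simp [Multiset.esymm]

/-- Newton's identities for `p₁, …, p₄`. -/
theorem vroot_newton {R : Type*} [CommRing R] (s : Multiset R) :
    (s.map (· ^ 1)).sum = s.esymm 1 ∧
    (s.map (· ^ 2)).sum = s.esymm 1 ^ 2 - 2 * s.esymm 2 ∧
    (s.map (· ^ 3)).sum = s.esymm 1 ^ 3 - 3 * s.esymm 1 * s.esymm 2 + 3 * s.esymm 3 ∧
    (s.map (· ^ 4)).sum = s.esymm 1 ^ 4 - 4 * s.esymm 1 ^ 2 * s.esymm 2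
      + 4 * s.esymm 1 * s.esymm 3 + 2 * s.esymm 2 ^ 2 - 4 * s.esymm 4 := by
  induction s using Multiset.induction with
  | empty => simp [Multiset.esymm]
  | cons a s ih =>
    obtain ⟨h1, h2, h3, h4⟩ := ih
    simp only [Multiset.map_cons, Multiset.sum_cons, vroot_esymm_cons, vroot_esymm_zero]
    refine ⟨?_, ?_, ?_, ?_⟩
    · linear_combination h1
    · linear_combination h2
    · linear_combination h3
    · linear_combination h4

/-! ### Binomial coefficients -/

theorem vroot_choose (m : ℕ) :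
    2 * (m.choose 2 : ℚ) = m * (m - 1) ∧
    6 * (m.choose 3 : ℚ) = m * (m - 1) * (m - 2) ∧
    24 * (m.choose 4 : ℚ) = m * (m - 1) * (m - 2) * (m - 3) ∧
    120 * (m.choose 5 : ℚ) = m * (m - 1) * (m - 2) * (m - 3) * (m - 4) := by
  have h1 : ∀ m : ℕ, (m.choose 1 : ℚ) = m := fun m => by simp
  have h2 : ∀ m : ℕ, 2 * (m.choose 2 : ℚ) = m * (m - 1) := by
    intro m
    induction m with
    | zero => simp
    | succ n ih =>
      rw [Nat.choose_succ_succ' n 1]; push_cast; rw [h1]; linear_combination ih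
  have h3 : ∀ m : ℕ, 6 * (m.choose 3 : ℚ) = m * (m - 1) * (m - 2) := by
    intro m
    induction m with
    | zero => simp
    | succ n ih =>
      rw [Nat.choose_succ_succ' n 2]; push_cast; linear_combination ih + 3 * h2 n
  have h4 : ∀ m : ℕ, 24 * (m.choose 4 : ℚ) = m * (m - 1) * (m - 2) * (m - 3) := by
    intro m
    induction m with
    | zero => simp
    | succ n ih =>
      rw [Nat.choose_succ_succ' n 3]; push_cast; linear_combination ih + 4 * h3 n
  have h5 : ∀ m : ℕ, 120 * (m.choose 5 : ℚ) = m * (m - 1) * (m - 2) * (m - 3) * (m - 4) := by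
    intro m
    induction m with
    | zero => simp
    | succ n ih =>
      rw [Nat.choose_succ_succ' n 4]; push_cast; linear_combination ih + 5 * h4 n
  exact ⟨h2 m, h3 m, h4 m, h5 m⟩

/-- The final identity, over `ℤ`. -/
theorem vroot_int_identity (m : ℕ) :
    120 * (6 * ((((m.choose 2 : ℤ)) ^ 4 - 4 * m * (m.choose 2 : ℤ) ^ 2 * (m.choose 3 : ℤ)
        + 4 * (m : ℤ) ^ 2 * (m.choose 2 : ℤ) * (m.choose 4 : ℤ)
        + 2 * (m : ℤ) ^ 2 * (m.choose 3 : ℤ) ^ 2 - 4 * (m : ℤ) ^ 3 * (m.choose 5 : ℤ))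
        - 2 * m * ((m.choose 2 : ℤ) ^ 3 - 3 * m * (m.choose 2 : ℤ) * (m.choose 3 : ℤ)
          + 3 * (m : ℤ) ^ 2 * (m.choose 4 : ℤ))
        + (m : ℤ) ^ 2 * ((m.choose 2 : ℤ) ^ 2 - 2 * m * (m.choose 3 : ℤ)))
      + (m : ℤ) ^ 2 * ((m.choose 2 : ℤ) ^ 2 - 2 * m * (m.choose 3 : ℤ))
      - (m : ℤ) ^ 3 * (m.choose 2 : ℤ)) = (m : ℤ) ^ 4 * ((m : ℤ) ^ 4 - 1) := by
  obtain ⟨h1, h2, h3, h4⟩ := vroot_choose m
  have key : ∀ (M a1 a2 a3 a4 : ℚ), 2 * a1 = M * (M - 1) → 6 * a2 = M * (M - 1) * (M - 2) →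
      24 * a3 = M * (M - 1) * (M - 2) * (M - 3) →
      120 * a4 = M * (M - 1) * (M - 2) * (M - 3) * (M - 4) →
      120 * (6 * ((a1 ^ 4 - 4 * M * a1 ^ 2 * a2 + 4 * M ^ 2 * a1 * a3 + 2 * M ^ 2 * a2 ^ 2
          - 4 * M ^ 3 * a4) - 2 * M * (a1 ^ 3 - 3 * M * a1 * a2 + 3 * M ^ 2 * a3)
          + M ^ 2 * (a1 ^ 2 - 2 * M * a2))
        + M ^ 2 * (a1 ^ 2 - 2 * M * a2) - M ^ 3 * a1) = M ^ 4 * (M ^ 4 - 1) := by
    intro M a1 a2 a3 a4 h1 h2 h3 h4
    have e1 : a1 = M * (M - 1) / 2 := by linarith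
    have e2 : a2 = M * (M - 1) * (M - 2) / 6 := by linarith
    have e3 : a3 = M * (M - 1) * (M - 2) * (M - 3) / 24 := by linarith
    have e4 : a4 = M * (M - 1) * (M - 2) * (M - 3) * (M - 4) / 120 := by linarith
    subst e1 e2 e3 e4
    ring
  have := key m (m.choose 2) (m.choose 3) (m.choose 4) (m.choose 5) h1 h2 h3 h4
  exact_mod_cast this

/-! ### The polynomial `Tᵐ - (T - 1)ᵐ` -/

/-- `P = Tᵐ - (T - 1)ᵐ`. -/
def vrootPoly (k : Type) [Field k] (m : ℕ) : k[X] := X ^ m - (X + C (-1)) ^ m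

theorem vroot_coeff (k : Type) [Field k] (m j : ℕ) (hj : j < m) :
    (vrootPoly k m).coeff j = -((-1) ^ (m - j) * (m.choose j : k)) := by
  rw [vrootPoly, coeff_sub, coeff_X_add_C_pow, coeff_X_pow, if_neg hj.ne, zero_sub]

theorem vroot_coeff_ge (k : Type) [Field k] (m j : ℕ) (hj : m ≤ j) :
    (vrootPoly k m).coeff j = 0 := by
  rw [vrootPoly, coeff_sub, coeff_X_add_C_pow, coeff_X_pow]
  rcases hj.eq_or_lt with rfl | hlt
  · simp
  · simp [hlt.ne', Nat.choose_eq_zero_of_lt hlt]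

theorem vroot_natDegree (k : Type) [Field k] (m : ℕ) (hm : (m : k) ≠ 0) :
    (vrootPoly k m).natDegree = m - 1 ∧ (vrootPoly k m).leadingCoeff = m := by
  have hm0 : m ≠ 0 := by rintro rfl; simp at hm
  have hc : (vrootPoly k m).coeff (m - 1) = m := by
    rw [vroot_coeff k m (m - 1) (by omega)]
    have : m - (m - 1) = 1 := by omega
    rw [this]
    have h2 : m.choose (m - 1) = m := by
      rw [show m.choose (m - 1) = m.choose (m - (m - 1)) from
        (Nat.choose_symm (by omega : m - 1 ≤ m)).symm, this, Nat.choose_one_right]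
    rw [h2]; ring
  have hd : (vrootPoly k m).natDegree = m - 1 := by
    apply le_antisymm
    · rw [natDegree_le_iff_coeff_eq_zero]
      intro N hN
      exact vroot_coeff_ge k m N (by omega)
    · apply le_natDegree_of_ne_zero
      rw [hc]; exact hm
  refine ⟨hd, ?_⟩
  rw [leadingCoeff, hd, hc]

/-- Vieta for `P`: `m · e_j(roots) = C(m, j + 1)`. -/
theorem vroot_vieta (k : Type) [Field k] (m : ℕ) (hm : (m : k) ≠ 0) (s : Multiset k)
    (hs : s = (vrootPoly k m).roots) (hcard : Multiset.card s + 1 = m) (j : ℕ) :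
    (m : k) * s.esymm j = (m.choose (j + 1) : k) := by
  obtain ⟨hd, hl⟩ := vroot_natDegree k m hm
  by_cases hj : j ≤ m - 1
  · have hroots : Multiset.card (vrootPoly k m).roots = (vrootPoly k m).natDegree := by
      rw [← hs, hd]; omega
    have hv := Polynomial.coeff_eq_esymm_roots_of_card hroots (k := m - 1 - j)
      (by rw [hd]; omega)
    rw [hd, hl, ← hs, vroot_coeff k m _ (by omega)] at hv
    have e1 : m - 1 - (m - 1 - j) = j := by omega
    have e2 : m - (m - 1 - j) = j + 1 := by omega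
    have e3 : m.choose (m - 1 - j) = m.choose (j + 1) := by
      rw [← Nat.choose_symm (by omega : m - 1 - j ≤ m), e2]
    rw [e1, e2, e3] at hv
    rw [pow_succ] at hv
    rcases neg_one_pow_eq_or k j with h | h
    · rw [h] at hv; linear_combination -hv
    · rw [h] at hv; linear_combination hv
  · have h1 : s.esymm j = 0 := by
      rw [Multiset.esymm, Multiset.powersetCard_eq_empty _ (by omega)]
      simp
    have h2 : m.choose (j + 1) = 0 := Nat.choose_eq_zero_of_lt (by omega)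
    rw [h1, h2]; simp

/-! ### The statement -/

theorem stmtVeluRoot : StmtVeluRoot := by
  intro k _ m μ hm hμ hcard
  classical
  have hm0 : m ≠ 0 := by rintro rfl; simp at hm
  -- the roots `w = 1 / (1 - ζ)`
  set w : k → k := fun ζ => (1 - ζ)⁻¹ with hw
  have hne : ∀ ζ ∈ μ, (1 : k) - ζ ≠ 0 := by
    intro ζ hζ h
    exact ((hμ ζ).1 hζ).2 (sub_eq_zero.1 h).symm
  set s : Multiset k := μ.val.map w with hsdef
  have hinj : Set.InjOn w (μ : Set k) := by
    intro a _ b _ hab
    have : (1 : k) - a = 1 - b := inv_injective hab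
    linear_combination -this
  have hnodup : s.Nodup := by
    rw [hsdef]
    exact Multiset.Nodup.map_on (fun a ha b hb hab => hinj (by simpa using ha) (by simpa using hb) hab)
      μ.nodup
  obtain ⟨hd, hl⟩ := vroot_natDegree k m hm
  have hP0 : vrootPoly k m ≠ 0 := by
    intro h
    rw [h] at hl
    simp at hl
    exact hm hl.symm
  have hsub : s ≤ (vrootPoly k m).roots := by
    rw [Multiset.le_iff_subset hnodup]
    intro x hx
    rw [hsdef, Multiset.mem_map] at hx
    obtain ⟨ζ, hζ, rfl⟩ := hx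
    have hζ' : ζ ∈ μ := hζ
    rw [mem_roots hP0]
    have h1 := hne ζ hζ'
    have hz := ((hμ ζ).1 hζ').1
    have hw1 : w ζ - 1 = ζ * w ζ := by
      simp only [hw]; field_simp; ring
    simp only [IsRoot, vrootPoly, eval_sub, eval_add, eval_pow, eval_X, eval_C]
    rw [← sub_eq_add_neg, hw1, mul_pow, hz, one_mul, sub_self]
  have hscard : Multiset.card s + 1 = m := by
    rw [hsdef, Multiset.card_map]; exact hcard
  have hseq : s = (vrootPoly k m).roots := by
    apply Multiset.eq_of_le_of_card_le hsub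
    calc Multiset.card (vrootPoly k m).roots ≤ (vrootPoly k m).natDegree := card_roots' _
      _ = m - 1 := hd
      _ = Multiset.card s := by omega
  -- Vieta
  have hv1 := vroot_vieta k m hm s hseq hscard 1
  have hv2 := vroot_vieta k m hm s hseq hscard 2
  have hv3 := vroot_vieta k m hm s hseq hscard 3
  have hv4 := vroot_vieta k m hm s hseq hscard 4
  -- Newton
  obtain ⟨hn1, hn2, hn3, hn4⟩ := vroot_newton s
  -- power sums as sums over `μ`
  have hp : ∀ j : ℕ, (s.map (· ^ j)).sum = ∑ ζ ∈ μ, w ζ ^ j := by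
    intro j
    rw [hsdef, Multiset.map_map]; rfl
  rw [hp] at hn1 hn2 hn3 hn4
  -- the summand
  have hX : ∀ ζ ∈ μ, 6 * (ζ / (1 - ζ) ^ 2) ^ 2 + ζ / (1 - ζ) ^ 2
      = 6 * (w ζ ^ 4 - 2 * w ζ ^ 3 + w ζ ^ 2) + (w ζ ^ 2 - w ζ ^ 1) := by
    intro ζ hζ
    have h1 := hne ζ hζ
    simp only [hw]; field_simp; ring
  rw [Finset.sum_congr rfl hX]
  simp only [Finset.sum_add_distrib, Finset.sum_sub_distrib, ← Finset.mul_sum]
  rw [hn1, hn2, hn3, hn4]
  -- the integer identity
  have hI := congrArg (Int.cast : ℤ → k) (vroot_int_identity m)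
  push_cast at hI
  have hm4 : (m : k) ^ 4 ≠ 0 := pow_ne_zero _ hm
  apply mul_left_cancel₀ hm4
  rw [← hI]
  rw [← hv1, ← hv2, ← hv3, ← hv4]
  ring

end Fermat.Agent.S12
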