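/-
Item 12 (S12 glue), piece `VELU / V-C4`, part 1 (helper60): the sum of `t_Q` over a finite
subgroup of a split nodal cubic.

`k` a field of characteristic `≠ 2`, `W` nodal (`Δ = 0`, `c₄ ≠ 0`) with split node
(`γ² = nodeG W`), `H` a finite subgroup of `W_ns(k)` of order `m` invertible in `k`:

  `120 ∑_{Q ∈ H} t_Q = c₄ (m⁴ - 1)`,   `t_Q = 6 x² + b₂ x + b₄`.

(`ψ : W_ns(k) ↪ kˣ` of V-NODE maps `H` onto `μ_m`; `t_Q = c₄ (6 X² + X)`, `X = ζ/(1-ζ)²`; V-ROOT.)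
-/
import Fermat.Agent.S12.VeluNode
import Fermat.Agent.S12.VeluRoot
import Fermat.Agent.S12.VeluDefs

set_option autoImplicit false

noncomputable section

namespace Fermat.Agent.S12

open WeierstrassCurve Fermat.Agent.S15.ECL

/-! ### Finsets closed under the group operations -/

/-- the subgroup with a given finite carrier -/
def veluc4Sub {G : Type*} [AddCommGroup G] (H : Finset G) (h0 : 0 ∈ H)
    (hadd : ∀ P ∈ H, ∀ Q ∈ H, P + Q ∈ H) (hneg : ∀ P ∈ H, -P ∈ H) : AddSubgroup G where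
  carrier := ↑H
  zero_mem' := h0
  add_mem' := fun {P Q} hP hQ => hadd P hP Q hQ
  neg_mem' := fun {P} hP => hneg P hP

theorem veluc4_mem_sub {G : Type*} [AddCommGroup G] (H : Finset G) (h0 : 0 ∈ H)
    (hadd : ∀ P ∈ H, ∀ Q ∈ H, P + Q ∈ H) (hneg : ∀ P ∈ H, -P ∈ H) (Q : G) :
    Q ∈ veluc4Sub H h0 hadd hneg ↔ Q ∈ H := Iff.rfl

theorem veluc4_card_sub {G : Type*} [AddCommGroup G] (H : Finset G) (h0 : 0 ∈ H)
    (hadd : ∀ P ∈ H, ∀ Q ∈ H, P + Q ∈ H) (hneg : ∀ P ∈ H, -P ∈ H) :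
    Nat.card (veluc4Sub H h0 hadd hneg) = H.card := by
  have : Nat.card (veluc4Sub H h0 hadd hneg) = Nat.card (↑H : Set G) := rfl
  rw [this, Nat.card_coe_set_eq, Set.ncard_coe_finset]

theorem veluc4_finite_sub {G : Type*} [AddCommGroup G] (H : Finset G) (h0 : 0 ∈ H)
    (hadd : ∀ P ∈ H, ∀ Q ∈ H, P + Q ∈ H) (hneg : ∀ P ∈ H, -P ∈ H) :
    Finite (veluc4Sub H h0 hadd hneg) :=
  (Finset.finite_toSet H).to_subtype

/-- Lagrange for a finset closed under the group operations. -/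
theorem veluc4_lagrange {G : Type*} [AddCommGroup G] (H : Finset G) (h0 : 0 ∈ H)
    (hadd : ∀ P ∈ H, ∀ Q ∈ H, P + Q ∈ H) (hneg : ∀ P ∈ H, -P ∈ H) :
    ∀ Q ∈ H, H.card • Q = 0 := by
  intro Q hQ
  have hfin := veluc4_finite_sub H h0 hadd hneg
  have h1 : Nat.card (veluc4Sub H h0 hadd hneg) •
      (⟨Q, hQ⟩ : veluc4Sub H h0 hadd hneg) = 0 := card_nsmul_eq_zero'
  rw [veluc4_card_sub] at h1
  have h2 := congrArg Subtype.val h1
  simpa using h2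

theorem veluc4_card_dvd {G : Type*} [AddCommGroup G] (H₁ H₂ : Finset G) (h0 : 0 ∈ H₁)
    (hadd : ∀ P ∈ H₁, ∀ Q ∈ H₁, P + Q ∈ H₁) (hneg : ∀ P ∈ H₁, -P ∈ H₁) (h0' : 0 ∈ H₂)
    (hadd' : ∀ P ∈ H₂, ∀ Q ∈ H₂, P + Q ∈ H₂) (hneg' : ∀ P ∈ H₂, -P ∈ H₂) (hsub : H₁ ⊆ H₂) :
    H₁.card ∣ H₂.card := by
  have hle : veluc4Sub H₁ h0 hadd hneg ≤ veluc4Sub H₂ h0' hadd' hneg' := fun Q hQ => hsub hQ
  have := AddSubgroup.card_dvd_of_le hle
  rwa [veluc4_card_sub, veluc4_card_sub] at this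

/-! ### The nodal sum -/

variable {k : Type} [Field k] [DecidableEq k] {W : WeierstrassCurve k}

theorem veluc4_U_nsmul (h2 : (2 : k) ≠ 0) (hΔ : W.Δ = 0) (hc : W.c₄ ≠ 0) {γ : k}
    (hγ : γ ^ 2 = nodeG W) (n : ℕ) (Q : W.toAffine.Point) :
    velunodeU W γ (n • Q) = velunodeU W γ Q ^ n := by
  have h := map_nsmul (velunodePsi h2 hΔ hc hγ) n Q
  have h' := congrArg (fun a => ((Additive.toMul a : kˣ) : k)) h
  simp only [toMul_nsmul, Units.val_pow_eq_pow_val, velunodePsi_val] at h'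
  exact h'

theorem veluc4_U_injective (h2 : (2 : k) ≠ 0) (hΔ : W.Δ = 0) (hc : W.c₄ ≠ 0) {γ : k}
    (hγ : γ ^ 2 = nodeG W) : Function.Injective (velunodeU W γ) := by
  intro P Q h
  apply velunodePsi_injective h2 hΔ hc hγ
  apply Additive.toMul.injective
  apply Units.ext
  rw [velunodePsi_val, velunodePsi_val]
  exact h

/-- `t_Q = c₄ (6 X² + X)` with `X = u / (1 - u)²`, `u = ψ(Q) ≠ 1`. -/
theorem veluc4_T_eq (h2 : (2 : k) ≠ 0) (hΔ : W.Δ = 0) (hc : W.c₄ ≠ 0) {γ : k}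
    (hγ : γ ^ 2 = nodeG W) (Q : W.toAffine.Point) (hQ : Q ≠ 0) :
    veluTpt Q = W.c₄ * (6 * (velunodeU W γ Q / (1 - velunodeU W γ Q) ^ 2) ^ 2
      + velunodeU W γ Q / (1 - velunodeU W γ Q) ^ 2) := by
  rcases Q with _ | ⟨x, y, h⟩
  · exact absurd rfl hQ
  have hu1 : velunodeU W γ (.some x y h) ≠ 1 := by
    intro h1
    apply hQ
    apply veluc4_U_injective h2 hΔ hc hγ
    rw [h1]; rfl
  have hrel := velunodeU_rel h2 hΔ hc hγ h
  have h1u : (1 - velunodeU W γ (.some x y h)) ≠ 0 := sub_ne_zero.2 (Ne.symm hu1)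
  obtain ⟨u, hu⟩ : ∃ u, u = velunodeU W γ (.some x y h) := ⟨_, rfl⟩
  rw [← hu] at hrel h1u ⊢
  have hX : x - nodeX W = nodeG W * (u / (1 - u) ^ 2) := by
    field_simp
    linear_combination hrel
  rw [veluTpt_some, veluT, velunode_six h2 hΔ hc, hX, ← nodeG_sq hΔ hc]
  ring

theorem veluc4_nodal_sum (h2 : (2 : k) ≠ 0) (hΔ : W.Δ = 0) (hc : W.c₄ ≠ 0) {γ : k}
    (hγ : γ ^ 2 = nodeG W) (H : Finset W.toAffine.Point) (h0 : 0 ∈ H)
    (hm : (H.card : k) ≠ 0) (htors : ∀ Q ∈ H, H.card • Q = 0) :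
    120 * ∑ Q ∈ H, veluTpt Q = W.c₄ * ((H.card : k) ^ 4 - 1) := by
  obtain ⟨m, hmdef⟩ : ∃ m, m = H.card := ⟨_, rfl⟩
  rw [← hmdef] at hm htors ⊢
  have hmpos : 0 < m := by rw [hmdef]; exact Finset.card_pos.2 ⟨0, h0⟩
  have hinj := veluc4_U_injective h2 hΔ hc hγ
  set μ : Finset k := (H.erase 0).image (velunodeU W γ) with hμdef
  have hμcard : μ.card + 1 = m := by
    rw [hμdef, Finset.card_image_of_injective _ hinj, Finset.card_erase_of_mem h0, hmdef]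
    have := Finset.card_pos.2 ⟨0, h0⟩
    omega
  have hμ1 : ∀ ζ ∈ μ, ζ ^ m = 1 ∧ ζ ≠ 1 := by
    intro ζ hζ
    rw [hμdef, Finset.mem_image] at hζ
    obtain ⟨Q, hQ, rfl⟩ := hζ
    rw [Finset.mem_erase] at hQ
    refine ⟨?_, ?_⟩
    · rw [← veluc4_U_nsmul h2 hΔ hc hγ, htors Q hQ.2]; rfl
    · intro h1
      apply hQ.1
      apply hinj
      rw [h1]; rfl
  have hsub : insert 1 μ ⊆ Polynomial.nthRootsFinset m (1 : k) := by
    intro ζ hζ
    rw [Polynomial.mem_nthRootsFinset hmpos]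
    rcases Finset.mem_insert.1 hζ with rfl | hζ
    · exact one_pow m
    · exact (hμ1 ζ hζ).1
  have h1μ : (1 : k) ∉ μ := fun h => (hμ1 1 h).2 rfl
  have hcard2 : (Polynomial.nthRootsFinset m (1 : k)).card ≤ (insert 1 μ).card := by
    rw [Finset.card_insert_of_notMem h1μ, hμcard]
    calc (Polynomial.nthRootsFinset m (1 : k)).card
        ≤ Multiset.card (Polynomial.nthRoots m (1 : k)) := by
          rw [Polynomial.nthRootsFinset_def]
          exact Multiset.toFinset_card_le _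
      _ ≤ m := Polynomial.card_nthRoots m 1
  have heq := Finset.eq_of_subset_of_card_le hsub hcard2
  have hμ : ∀ ζ, ζ ∈ μ ↔ ζ ^ m = 1 ∧ ζ ≠ 1 := by
    intro ζ
    refine ⟨hμ1 ζ, fun ⟨h1, h2'⟩ => ?_⟩
    have : ζ ∈ insert 1 μ := by
      rw [heq, Polynomial.mem_nthRootsFinset hmpos]
      exact h1
    rcases Finset.mem_insert.1 this with h | h
    · exact absurd h h2'
    · exact h
  have hroot := stmtVeluRoot k m μ hm hμ hμcard
  have hsum : ∑ Q ∈ H, veluTpt Q = W.c₄ * ∑ ζ ∈ μ, (6 * (ζ / (1 - ζ) ^ 2) ^ 2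
      + ζ / (1 - ζ) ^ 2) := by
    rw [← Finset.add_sum_erase H _ h0, veluTpt_zero, zero_add, hμdef,
      Finset.sum_image (fun a _ b _ hab => hinj hab), Finset.mul_sum]
    apply Finset.sum_congr rfl
    intro Q hQ
    exact veluc4_T_eq h2 hΔ hc hγ Q (Finset.mem_erase.1 hQ).1
  rw [hsum]
  linear_combination W.c₄ * hroot

end Fermat.Agent.S12
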