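/-
Item 12 (S12 glue), piece `VELU / V-C4`, part 2 (helper60): reduction at a place of
multiplicative reduction.

`A` a valuation subring of a field `K`, `W₀` a Weierstrass curve over `A` whose reduction is
nodal (`Δ̄ = 0`, `c̄₄ ≠ 0`), residue field with square roots; `𝒦` a finite subgroup of `W₀(K)` of
order a unit of `A`.  Then `c₄ + 120 ∑_{Q ∈ 𝒦} t_Q` is a unit of `A`
(`≡ m⁴ c₄`, `m = #(𝒦 ∩ E⁰)`).
-/
import Fermat.Agent.S12.VeluC4Nodal
import Fermat.Agent.S15.ECLocRed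

set_option autoImplicit false
set_option linter.unusedSectionVars false

noncomputable section

namespace Fermat.Agent.S12

open WeierstrassCurve Fermat.Agent.RED Fermat.Agent.S05 Fermat.Agent.S15.ECL

variable {K : Type} [Field K] [DecidableEq K] {A : ValuationSubring K}
  [DecidableEq (IsLocalRing.ResidueField A)] {W₀ : WeierstrassCurve A}

/-- torsion points of order a unit of `A` are integral -/
theorem veluc4_int {n : ℕ} (hn : (n : K) ∉ A.nonunits) {x y : K}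
    (h : (curveK A W₀).toAffine.Nonsingular x y)
    (htors : n • (Affine.Point.some x y h : (curveK A W₀).toAffine.Point) = 0) :
    x ∈ A ∧ y ∈ A := by
  have hx : x ∈ A := no_torsion_of_not_mem A (curveK A W₀) (curveK_a₁_mem A W₀)
    (curveK_a₂_mem A W₀) (curveK_a₃_mem A W₀) (curveK_a₄_mem A W₀) (curveK_a₆_mem A W₀) n hn h htors
  exact ⟨hx, y_mem_of_x_mem A W₀ h.1 hx⟩

open Classical in
/-- `t_Q` as an element of `A` (junk value `0` if `t_Q ∉ A`) -/
def veluc4TA (Q : (curveK A W₀).toAffine.Point) : A :=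
  if h : veluTpt Q ∈ A then ⟨veluTpt Q, h⟩ else 0

theorem veluc4_T_mem {n : ℕ} (hn : (n : K) ∉ A.nonunits)
    {Q : (curveK A W₀).toAffine.Point} (htors : n • Q = 0) : veluTpt Q ∈ A := by
  rcases Q with _ | ⟨x, y, h⟩
  · exact A.zero_mem
  · obtain ⟨hx, -⟩ := veluc4_int hn h htors
    rw [veluTpt_some]
    have := veluT_map A.subtype W₀ ⟨x, hx⟩
    have e : veluT (curveK A W₀) x = ((veluT W₀ ⟨x, hx⟩ : A) : K) := this
    rw [e]
    exact (veluT W₀ ⟨x, hx⟩).2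

theorem veluc4TA_coe {n : ℕ} (hn : (n : K) ∉ A.nonunits)
    {Q : (curveK A W₀).toAffine.Point} (htors : n • Q = 0) :
    ((veluc4TA Q : A) : K) = veluTpt Q := by
  unfold veluc4TA
  rw [dif_pos (veluc4_T_mem hn htors)]

open Classical in
/-- the residue of `t_Q`: `t` of the reduction on `E⁰`, and `0` at the node -/
theorem veluc4TA_res (h2 : (2 : IsLocalRing.ResidueField A) ≠ 0)
    (hΔ : (curveRes A W₀).Δ = 0) (hc : (curveRes A W₀).c₄ ≠ 0)
    {n : ℕ} (hn : (n : K) ∉ A.nonunits)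
    {Q : (curveK A W₀).toAffine.Point} (htors : n • Q = 0) :
    IsLocalRing.residue A (veluc4TA Q) = if InE0 Q then veluTpt (redPt0 Q) else 0 := by
  have hmem := veluc4_T_mem hn htors
  rcases Q with _ | ⟨x, y, h⟩
  · have h0 : veluc4TA (Affine.Point.zero : (curveK A W₀).toAffine.Point) = 0 := by
      apply Subtype.ext
      rw [veluc4TA_coe hn htors]
      rfl
    rw [h0, map_zero, if_pos (show InE0 (Affine.Point.zero : (curveK A W₀).toAffine.Point)
      from trivial)]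
    rfl
  · obtain ⟨hx, hy⟩ := veluc4_int hn h htors
    have e1 : veluc4TA (Affine.Point.some x y h : (curveK A W₀).toAffine.Point)
        = veluT W₀ ⟨x, hx⟩ := by
      apply Subtype.ext
      rw [veluc4TA_coe hn htors, veluTpt_some]
      exact veluT_map A.subtype W₀ ⟨x, hx⟩
    have e2 : IsLocalRing.residue A (veluT W₀ ⟨x, hx⟩)
        = veluT (curveRes A W₀) (IsLocalRing.residue A ⟨x, hx⟩) :=
      (veluT_map (IsLocalRing.residue A) W₀ ⟨x, hx⟩).symm
    rw [e1, e2]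
    by_cases hE : InE0 (Affine.Point.some x y h : (curveK A W₀).toAffine.Point)
    · rw [if_pos hE]
      have hns : NsRes W₀ ⟨x, hx⟩ ⟨y, hy⟩ :=
        (inE0_coe_iff (a := ⟨x, hx⟩) (b := ⟨y, hy⟩) h).1 hE
      rw [redPt0_coe (a := ⟨x, hx⟩) (b := ⟨y, hy⟩) h hns, veluTpt_some]
    · rw [if_neg hE]
      have hns : ¬ NsRes W₀ ⟨x, hx⟩ ⟨y, hy⟩ := fun hns =>
        hE ((inE0_coe_iff (a := ⟨x, hx⟩) (b := ⟨y, hy⟩) h).2 hns)
      have heq : (curveRes A W₀).toAffine.Equation (IsLocalRing.residue A ⟨x, hx⟩)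
          (IsLocalRing.residue A ⟨y, hy⟩) :=
        Affine.Equation.map (IsLocalRing.residue A)
          (equation_of_coe A W₀ (a := ⟨x, hx⟩) (b := ⟨y, hy⟩) h.1)
      have hx0 : IsLocalRing.residue A ⟨x, hx⟩ = nodeX (curveRes A W₀) := by
        by_contra hne
        exact hns ((node_nonsingular_iff h2 hΔ hc _ _).2 ⟨heq, hne⟩)
      rw [veluT, velunode_six h2 hΔ hc, hx0]
      ring

/-- **V-C4, generic form.** -/
theorem veluc4_generic (hΔ : (curveRes A W₀).Δ = 0) (hc : (curveRes A W₀).c₄ ≠ 0)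
    (hsq : ∀ a : IsLocalRing.ResidueField A, ∃ b : IsLocalRing.ResidueField A, b ^ 2 = a)
    (𝒦 : Finset (curveK A W₀).toAffine.Point) (h0 : 0 ∈ 𝒦)
    (hadd : ∀ P ∈ 𝒦, ∀ Q ∈ 𝒦, P + Q ∈ 𝒦) (hneg : ∀ P ∈ 𝒦, -P ∈ 𝒦)
    (hn : (𝒦.card : K) ∉ A.nonunits) :
    A.valuation (((W₀.c₄ : A) : K) + 120 * ∑ Q ∈ 𝒦, veluTpt Q) = 1 := by
  classical
  have htors := veluc4_lagrange 𝒦 h0 hadd hneg
  -- the sum as an element of `A`
  have hT : ((∑ Q ∈ 𝒦, veluc4TA Q : A) : K) = ∑ Q ∈ 𝒦, veluTpt Q := by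
    rw [← A.subtype_apply, map_sum]
    apply Finset.sum_congr rfl
    intro Q hQ
    exact veluc4TA_coe hn (htors Q hQ)
  have hcoe : ((W₀.c₄ : A) : K) + 120 * ∑ Q ∈ 𝒦, veluTpt Q
      = ((W₀.c₄ + 120 * ∑ Q ∈ 𝒦, veluc4TA Q : A) : K) := by
    rw [← hT]
    push_cast
    rfl
  rw [hcoe, ← residue_ne_zero_iff_val_eq_one, map_add, map_mul, map_ofNat]
  have hc4 : IsLocalRing.residue A W₀.c₄ = (curveRes A W₀).c₄ :=
    (WeierstrassCurve.map_c₄ W₀ (IsLocalRing.residue A)).symm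
  rw [hc4]
  by_cases h120 : (120 : IsLocalRing.ResidueField A) = 0
  · rw [h120, zero_mul, add_zero]
    exact hc
  have h2 : (2 : IsLocalRing.ResidueField A) ≠ 0 := by
    intro h
    apply h120
    have : (120 : IsLocalRing.ResidueField A) = 2 * 60 := by norm_num
    rw [this, h, zero_mul]
  obtain ⟨γ, hγ⟩ := hsq (nodeG (curveRes A W₀))
  -- the residue of the sum
  set K0 : Finset (curveK A W₀).toAffine.Point := 𝒦.filter (fun Q => InE0 Q) with hK0
  have hK0mem : ∀ Q, Q ∈ K0 ↔ Q ∈ 𝒦 ∧ InE0 Q := fun Q => by rw [hK0, Finset.mem_filter]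
  have hK0zero : (0 : (curveK A W₀).toAffine.Point) ∈ K0 := (hK0mem 0).2 ⟨h0, inE0_zero⟩
  have hK0add : ∀ P ∈ K0, ∀ Q ∈ K0, P + Q ∈ K0 := by
    intro P hP Q hQ
    rw [hK0mem] at hP hQ ⊢
    exact ⟨hadd P hP.1 Q hQ.1, (inE0_add_and hP.2 hQ.2).1⟩
  have hK0neg : ∀ P ∈ K0, -P ∈ K0 := by
    intro P hP
    rw [hK0mem] at hP ⊢
    exact ⟨hneg P hP.1, inE0_neg hP.2⟩
  have hinj : Set.InjOn (redPt0 (A := A) (W₀ := W₀)) (K0 : Set (curveK A W₀).toAffine.Point) := by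
    intro P hP Q hQ hPQ
    have hP' := (hK0mem P).1 hP
    have hQ' := (hK0mem Q).1 hQ
    have hD : P + -Q ∈ K0 := hK0add P hP (-Q) (hK0neg Q hQ)
    have hD' := (hK0mem _).1 hD
    have hred : redPt0 (P + -Q) = 0 := by
      rw [(inE0_add_and hP'.2 (inE0_neg hQ'.2)).2, redPt0_neg hQ'.2, hPQ, add_neg_cancel]
    have hz : (⟨P + -Q, hD'.2⟩ : E0 A W₀) = 0 :=
      eq_zero_of_red0_eq_zero_of_nsmul (P := ⟨P + -Q, hD'.2⟩) hn
        (Subtype.ext (htors _ hD'.1)) hred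
    have hz' : P + -Q = 0 := congrArg Subtype.val hz
    rw [← sub_eq_add_neg, sub_eq_zero] at hz'
    exact hz'
  set H : Finset (curveRes A W₀).toAffine.Point := K0.image redPt0 with hH
  have hHcard : H.card = K0.card := Finset.card_image_of_injOn hinj
  have hH0 : (0 : (curveRes A W₀).toAffine.Point) ∈ H := by
    rw [hH, Finset.mem_image]
    exact ⟨0, hK0zero, redPt0_zero⟩
  have hHadd : ∀ P ∈ H, ∀ Q ∈ H, P + Q ∈ H := by
    intro P hP Q hQ
    rw [hH, Finset.mem_image] at hP hQ ⊢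
    obtain ⟨P', hP', rfl⟩ := hP
    obtain ⟨Q', hQ', rfl⟩ := hQ
    exact ⟨P' + Q', hK0add P' hP' Q' hQ',
      (inE0_add_and ((hK0mem P').1 hP').2 ((hK0mem Q').1 hQ').2).2⟩
  have hHneg : ∀ P ∈ H, -P ∈ H := by
    intro P hP
    rw [hH, Finset.mem_image] at hP ⊢
    obtain ⟨P', hP', rfl⟩ := hP
    exact ⟨-P', hK0neg P' hP', redPt0_neg ((hK0mem P').1 hP').2⟩
  have hHtors := veluc4_lagrange H hH0 hHadd hHneg
  have hdvd : H.card ∣ 𝒦.card := by
    rw [hHcard]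
    exact veluc4_card_dvd K0 𝒦 hK0zero hK0add hK0neg h0 hadd hneg (Finset.filter_subset _ _)
  have hnk : ((𝒦.card : ℕ) : IsLocalRing.ResidueField A) ≠ 0 := by
    have h1 : ((𝒦.card : ℕ) : IsLocalRing.ResidueField A)
        = IsLocalRing.residue A ((𝒦.card : ℕ) : A) := by rw [map_natCast]
    rw [h1, residue_ne_zero_iff_val_eq_one]
    have h3 : A.valuation ((((𝒦.card : ℕ) : A)) : K) ≤ 1 :=
      (A.valuation_le_one_iff _).2 (SetLike.coe_mem _)
    have h4 : ((((𝒦.card : ℕ) : A)) : K) = ((𝒦.card : ℕ) : K) := by push_cast; rfl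
    rw [h4] at h3 ⊢
    rw [ValuationSubring.mem_nonunits_iff, not_lt] at hn
    exact le_antisymm h3 hn
  have hmk : ((H.card : ℕ) : IsLocalRing.ResidueField A) ≠ 0 := by
    intro h
    obtain ⟨c, hc'⟩ := hdvd
    apply hnk
    rw [hc', Nat.cast_mul, h, zero_mul]
  have hsumres : IsLocalRing.residue A (∑ Q ∈ 𝒦, veluc4TA Q) = ∑ R ∈ H, veluTpt R := by
    rw [map_sum, hH, Finset.sum_image hinj, hK0, Finset.sum_filter]
    apply Finset.sum_congr rfl
    intro Q hQ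
    exact veluc4TA_res h2 hΔ hc hn (htors Q hQ)
  rw [hsumres, veluc4_nodal_sum h2 hΔ hc hγ H hH0 hmk hHtors]
  have : (curveRes A W₀).c₄ + (curveRes A W₀).c₄ *
      (((H.card : ℕ) : IsLocalRing.ResidueField A) ^ 4 - 1)
      = (curveRes A W₀).c₄ * ((H.card : ℕ) : IsLocalRing.ResidueField A) ^ 4 := by ring
  rw [this]
  exact mul_ne_zero hc (pow_ne_zero 4 hmk)

end Fermat.Agent.S12
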