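/-
Item 12 (S12 glue), piece `VELU / V-C4` (helper60): `stmtVeluC4 : StmtVeluC4`.

At a prime `ℓ ≠ p` of multiplicative reduction, `c₄ + 120 ∑_{Q ∈ K} t_Q` (`= c₄(W / K)`) is a unit
at every place `A ∣ ℓ` of `ℚ̄` (`≡ m⁴ c₄`, `m = #(K ∩ E⁰)`).  Specialisation of
`veluc4_generic` (`S12/VeluC4Red.lean`).
-/
import Fermat.Agent.S12.VeluPlan2
import Fermat.Agent.S12.VeluC4Red
import Fermat.Agent.S15.ModXi

set_option autoImplicit false

noncomputable section

namespace Fermat.Agent.S12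

open WeierstrassCurve WeierstrassCurve.Affine Fermat.Agent.RED Fermat.Agent.S05
  Fermat.Agent.S15 Fermat.Agent.S15.ECL

theorem veluc4_Tpt_congr {F : Type*} [Field F] [DecidableEq F] {E₁ E₂ : WeierstrassCurve F}
    (h : E₁ = E₂) (Q : E₁.toAffine.Point) : veluTpt (pointCongr h Q) = veluTpt Q := by
  subst h
  rfl

theorem stmtVeluC4 : StmtVeluC4 := by
  intro W p ℓ hp hℓ hℓp hℓΔ hℓc₄ k K h0 hadd hneg hcard A hA
  let _ : DecidableEq (IsLocalRing.ResidueField A) := Classical.decEq _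
  obtain ⟨e, he⟩ : ∃ e : PtZ W ≃+ (curveK A (modelA W A)).toAffine.Point,
      e = pointCongr (baseChange_eq_curveK W A) := ⟨_, rfl⟩
  have hΔ : (curveRes A (modelA W A)).Δ = 0 := by
    rw [ecloc_curveRes_eq]
    exact modxi_res_Δ hℓ hA hℓΔ
  have hc : (curveRes A (modelA W A)).c₄ ≠ 0 := by
    rw [ecloc_curveRes_eq]
    exact modxi_res_c₄ hℓ hA hℓc₄
  have hsq : ∀ a : IsLocalRing.ResidueField A, ∃ b : IsLocalRing.ResidueField A, b ^ 2 = a := by
    intro a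
    have := isAlgClosed_residueField A
    exact IsAlgClosed.exists_pow_nat_eq a zero_lt_two
  have h0' : (0 : (curveK A (modelA W A)).toAffine.Point) ∈ K.map e.toEquiv.toEmbedding := by
    rw [Finset.mem_map]
    exact ⟨0, h0, map_zero e⟩
  have hadd' : ∀ P ∈ K.map e.toEquiv.toEmbedding, ∀ Q ∈ K.map e.toEquiv.toEmbedding,
      P + Q ∈ K.map e.toEquiv.toEmbedding := by
    intro P hP Q hQ
    rw [Finset.mem_map] at hP hQ ⊢
    obtain ⟨P', hP', rfl⟩ := hP
    obtain ⟨Q', hQ', rfl⟩ := hQ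
    exact ⟨P' + Q', hadd P' hP' Q' hQ', map_add e P' Q'⟩
  have hneg' : ∀ P ∈ K.map e.toEquiv.toEmbedding, -P ∈ K.map e.toEquiv.toEmbedding := by
    intro P hP
    rw [Finset.mem_map] at hP ⊢
    obtain ⟨P', hP', rfl⟩ := hP
    exact ⟨-P', hneg P' hP', map_neg e P'⟩
  have hn : (((K.map e.toEquiv.toEmbedding).card : ℕ) : Qb) ∉ A.nonunits := by
    rw [Finset.card_map, hcard]
    intro h
    have h1 := (natCast_mem_nonunits_iff A hℓ hA (p ^ k)).1 h
    exact hℓp ((Nat.prime_dvd_prime_iff_eq hℓ hp).1 (hℓ.dvd_of_dvd_pow h1))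
  have key := veluc4_generic hΔ hc hsq (K.map e.toEquiv.toEmbedding) h0' hadd' hneg' hn
  have hsum : ∑ Q ∈ K.map e.toEquiv.toEmbedding, veluTpt Q = ∑ Q ∈ K, veluTpt Q := by
    rw [Finset.sum_map]
    apply Finset.sum_congr rfl
    intro Q _
    show veluTpt (e Q) = veluTpt Q
    rw [he]
    exact veluc4_Tpt_congr _ Q
  have hc4 : (((modelA W A).c₄ : A) : Qb) = ((W.c₄ : ℤ) : Qb) := by
    rw [WeierstrassCurve.map_c₄]
    simp
  rw [hsum, hc4] at key
  exact key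

end Fermat.Agent.S12
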