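/-
# S12 / VELU / V-DISC (helper56)

`stmtVeluDisc : StmtVeluDisc`: `g₂(L)³ - 27 g₃(L)² ≠ 0` for every period pair `L`, by the homothety
`L = ω₂ (ℤ τ + ℤ)`, `τ = ± ω₁ / ω₂`, and `modunif_disc_ne_zero` (`= (2π)¹² Δ(τ) ≠ 0`).
-/
import Fermat.Agent.S12.VeluPlan2
import Fermat.Agent.S15.ModUnifLat

set_option autoImplicit false

noncomputable section

namespace Fermat.Agent.S12

open PeriodPair UpperHalfPlane Fermat.Agent.S15

/-- the second period does not vanish -/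
theorem veludisc_ω₂_ne_zero (L : PeriodPair) : L.ω₂ ≠ 0 := by
  intro h
  have := LinearIndependent.pair_iff.mp L.indep 0 1 (by simp [h])
  exact one_ne_zero this.2

/-- the ratio of the periods is not real -/
theorem veludisc_im_ne_zero (L : PeriodPair) : (L.ω₁ / L.ω₂).im ≠ 0 := by
  intro h
  have h2 : L.ω₂ ≠ 0 := veludisc_ω₂_ne_zero L
  have h3 : L.ω₁ / L.ω₂ = ((L.ω₁ / L.ω₂).re : ℂ) := by
    apply Complex.ext
    · simp
    · simp [h]
  have h4 : L.ω₁ = ((L.ω₁ / L.ω₂).re : ℂ) * L.ω₂ := by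
    rw [← h3]
    field_simp
  have := LinearIndependent.pair_iff.mp L.indep 1 (-(L.ω₁ / L.ω₂).re) (by
    simp only [one_smul, Complex.real_smul]
    push_cast
    linear_combination h4)
  exact one_ne_zero this.1

/-- a lattice is homothetic to `ℤ τ + ℤ` -/
theorem veludisc_exists_tau (L : PeriodPair) :
    ∃ τ : ℍ, ∀ z, z ∈ (modLat τ).lattice ↔ L.ω₂ * z ∈ L.lattice := by
  have h2 : L.ω₂ ≠ 0 := veludisc_ω₂_ne_zero L
  rcases lt_or_gt_of_ne (veludisc_im_ne_zero L) with hlt | hgt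
  · refine ⟨⟨-(L.ω₁ / L.ω₂), by simpa using hlt⟩, fun z => ?_⟩
    rw [mem_lattice, mem_lattice]
    simp only [modLat_ω₁, modLat_ω₂, mul_one]
    constructor
    · rintro ⟨m, n, rfl⟩
      refine ⟨-m, n, ?_⟩
      show ((-m : ℤ) : ℂ) * L.ω₁ + n * L.ω₂ = L.ω₂ * (m * (-(L.ω₁ / L.ω₂)) + n)
      push_cast
      field_simp
    · rintro ⟨m, n, h⟩
      refine ⟨-m, n, ?_⟩
      show ((-m : ℤ) : ℂ) * (-(L.ω₁ / L.ω₂)) + n = z
      have : z = (m * L.ω₁ + n * L.ω₂) / L.ω₂ := by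
        rw [h]
        field_simp
      rw [this]
      push_cast
      field_simp
  · refine ⟨⟨L.ω₁ / L.ω₂, hgt⟩, fun z => ?_⟩
    rw [mem_lattice, mem_lattice]
    simp only [modLat_ω₁, modLat_ω₂, mul_one]
    constructor
    · rintro ⟨m, n, rfl⟩
      refine ⟨m, n, ?_⟩
      show (m : ℂ) * L.ω₁ + n * L.ω₂ = L.ω₂ * (m * (L.ω₁ / L.ω₂) + n)
      field_simp
    · rintro ⟨m, n, h⟩
      refine ⟨m, n, ?_⟩
      show (m : ℂ) * (L.ω₁ / L.ω₂) + n = z
      have : z = (m * L.ω₁ + n * L.ω₂) / L.ω₂ := by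
        rw [h]
        field_simp
      rw [this]
      field_simp

/-- **V-DISC.** -/
theorem stmtVeluDisc : StmtVeluDisc := by
  intro L
  obtain ⟨τ, hτ⟩ := veludisc_exists_tau L
  have h2 : L.ω₂ ≠ 0 := veludisc_ω₂_ne_zero L
  have hg₂ : (modLat τ).g₂ = L.ω₂ ^ 4 * L.g₂ := modunif_g₂_scale h2 hτ
  have hg₃ : (modLat τ).g₃ = L.ω₂ ^ 6 * L.g₃ := modunif_g₃_scale h2 hτ
  have h := modunif_disc_ne_zero τ
  rw [hg₂, hg₃] at h
  intro h0
  apply h
  linear_combination L.ω₂ ^ 12 * h0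

end Fermat.Agent.S12
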