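/-
# S12 / VELU / V-GAL (helper56)

`stmtVeluGal : StmtVeluGal`: a homomorphism given by Vélu formulas for a Galois-stable `K` is
Galois-equivariant (the Galois action is coordinatewise; reindex the sums by `Q ↦ σ • Q`).
-/
import Fermat.Agent.S12.VeluQb
import Fermat.Agent.S05.Inertia

set_option autoImplicit false

noncomputable section

namespace Fermat.Agent.S12

open WeierstrassCurve WeierstrassCurve.Affine

theorem velugal_X (W : WeierstrassCurve ℚ) (σ : GQ) (P : (W⁄Qb).Point) :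
    veluX (σ • P) = σ (veluX P) :=
  veluqb_X_pt W σ.toAlgHom P

theorem velugal_Y (W : WeierstrassCurve ℚ) (σ : GQ) (P : (W⁄Qb).Point) :
    veluY (σ • P) = σ (veluY P) :=
  veluqb_Y_pt W σ.toAlgHom P

/-- reindexing a sum over a Galois-stable set -/
theorem velugal_sum (W : WeierstrassCurve ℚ) (K : Finset (W⁄Qb).Point)
    (hK : ∀ σ : GQ, ∀ P ∈ K, σ • P ∈ K) (σ : GQ) (P : (W⁄Qb).Point)
    (c : (W⁄Qb).Point → Qb) (hc : ∀ Q, c (σ • Q) = σ (c Q)) :
    ∑ Q ∈ K, (c (σ • P + Q) - c Q) = σ (∑ Q ∈ K, (c (P + Q) - c Q)) := by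
  rw [map_sum]
  symm
  refine Finset.sum_nbij' (fun Q => σ • Q) (fun Q => σ⁻¹ • Q) (fun Q hQ => hK σ Q hQ)
    (fun Q hQ => hK σ⁻¹ Q hQ) (fun Q _ => inv_smul_smul σ Q) (fun Q _ => smul_inv_smul σ Q) ?_
  intro Q _
  have h1 : σ • (P + Q) = σ • P + σ • Q := (Point.map σ.toAlgHom).map_add P Q
  rw [map_sub, ← hc, ← hc, h1]

/-- **V-GAL.** -/
theorem stmtVeluGal : StmtVeluGal := by
  intro W W' K φ _ _ hK hker hform σ P
  by_cases hP : P ∈ K
  · rw [(hker P).2 hP, (hker _).2 (hK σ P hP)]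
    rfl
  · have hσP : σ • P ∉ K := by
      intro h
      apply hP
      have := hK σ⁻¹ _ h
      rwa [inv_smul_smul] at this
    obtain ⟨h, hh⟩ := hform P hP
    obtain ⟨h', hh'⟩ := hform (σ • P) hσP
    rw [hh, hh', Fermat.Agent.S05.galois_smul_some]
    congr 1
    · exact velugal_sum W K hK σ P veluX (velugal_X W σ)
    · exact velugal_sum W K hK σ P veluY (velugal_Y W σ)

end Fermat.Agent.S12
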