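import Fermat.Agent.S12.VeluPlan2
import Fermat.Agent.EC.VarChange
import Fermat.Agent.S05.FreyArith
import Fermat.Agent.Common.FrobProfinite

/-!
# S12 / VELU, piece V-ASM (helper47)

`stmtVelu_of : StmtVeluQb → StmtVeluGal → StmtVeluRat → StmtVeluC4 → StmtVelu`.

`(N, t, w)` from V-RAT, `t_ℚ = t / p^N`, `w_ℚ = w / p^N`; the integral model
`veluIntCurve W p N t w = (p^N a₁, p^{2N} a₂, p^{3N} a₃, p^{4N} a₄ - 5 p^{3N} t,
p^{6N} a₆ - p^{5N} (b₂ t + 7 w))` is `C • veluCurve W_ℚ t_ℚ w_ℚ` for `C = ⟨(p^N)⁻¹, 0, 0, 0⟩`.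
-/

set_option autoImplicit false
set_option linter.style.haveILetI false
set_option linter.unusedSectionVars false
set_option linter.unusedVariables false

noncomputable section

namespace Fermat.Agent.S12

open WeierstrassCurve WeierstrassCurve.Affine

/-- the rescaled integral Vélu curve -/
def veluIntCurve (W : WeierstrassCurve ℤ) (p N : ℕ) (t w : ℤ) : WeierstrassCurve ℤ :=
  ⟨(p : ℤ) ^ N * W.a₁, ((p : ℤ) ^ N) ^ 2 * W.a₂, ((p : ℤ) ^ N) ^ 3 * W.a₃,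
    ((p : ℤ) ^ N) ^ 4 * W.a₄ - 5 * ((p : ℤ) ^ N) ^ 3 * t,
    ((p : ℤ) ^ N) ^ 6 * W.a₆ - ((p : ℤ) ^ N) ^ 5 * (W.b₂ * t + 7 * w)⟩

/-- the change of variables `u = (p^N)⁻¹` -/
def veluVC (p N : ℕ) (hp : p ≠ 0) : VariableChange ℚ :=
  ⟨(Units.mk0 ((p : ℚ) ^ N) (pow_ne_zero _ (Nat.cast_ne_zero.2 hp)))⁻¹, 0, 0, 0⟩

theorem veluVC_u_inv (p N : ℕ) (hp : p ≠ 0) :
    (((veluVC p N hp).u⁻¹ : ℚˣ) : ℚ) = (p : ℚ) ^ N := by
  simp [veluVC]

theorem veluIntCurve_map (W : WeierstrassCurve ℤ) (p N : ℕ) (hp : p ≠ 0) (t w : ℤ) :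
    veluVC p N hp • veluCurve (W.map (Int.castRingHom ℚ)) ((t : ℚ) / (p : ℚ) ^ N)
        ((w : ℚ) / (p : ℚ) ^ N) =
      (veluIntCurve W p N t w).map (Int.castRingHom ℚ) := by
  have hpN : ((p : ℚ) ^ N) ≠ 0 := pow_ne_zero _ (Nat.cast_ne_zero.2 hp)
  have hu := veluVC_u_inv p N hp
  ext
  · rw [variableChange_a₁, hu]
    simp [veluVC, veluIntCurve]
  · rw [variableChange_a₂, hu]
    simp [veluVC, veluIntCurve]
  · rw [variableChange_a₃, hu]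
    simp [veluVC, veluIntCurve]
  · rw [variableChange_a₄, hu]
    simp only [veluVC, veluIntCurve, veluCurve_a₁, veluCurve_a₂, veluCurve_a₃, veluCurve_a₄,
      WeierstrassCurve.map_a₁, WeierstrassCurve.map_a₂, WeierstrassCurve.map_a₃,
      WeierstrassCurve.map_a₄, eq_intCast]
    push_cast
    field_simp
    ring
  · rw [variableChange_a₆, hu]
    simp only [veluVC, veluIntCurve, veluCurve_a₁, veluCurve_a₂, veluCurve_a₃, veluCurve_a₄,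
      veluCurve_a₆, WeierstrassCurve.map_a₁, WeierstrassCurve.map_a₂, WeierstrassCurve.map_a₃,
      WeierstrassCurve.map_a₄, WeierstrassCurve.map_a₆, WeierstrassCurve.map_b₂, eq_intCast]
    push_cast
    field_simp
    ring

theorem veluIntCurve_c₄ (W : WeierstrassCurve ℤ) (p N : ℕ) (t w : ℤ) :
    (veluIntCurve W p N t w).c₄ = ((p : ℤ) ^ N) ^ 3 * ((p : ℤ) ^ N * W.c₄ + 240 * t) := by
  simp only [veluIntCurve, WeierstrassCurve.c₄, WeierstrassCurve.b₂, WeierstrassCurve.b₄]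
  ring

theorem velu_map_Δ_ne {W : WeierstrassCurve ℤ} (h : W.Δ ≠ 0) :
    (W.map (Int.castRingHom ℚ)).Δ ≠ 0 := by
  rw [WeierstrassCurve.map_Δ]
  simpa using h

theorem velu_map_c₄_ne {W : WeierstrassCurve ℤ} (h : W.c₄ ≠ 0) :
    (W.map (Int.castRingHom ℚ)).c₄ ≠ 0 := by
  rw [WeierstrassCurve.map_c₄]
  simpa using h

theorem velu_map_c₆_ne {W : WeierstrassCurve ℤ} (h : W.c₆ ≠ 0) :
    (W.map (Int.castRingHom ℚ)).c₆ ≠ 0 := by
  rw [WeierstrassCurve.map_c₆]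
  simpa using h

/-- **V-ASM.** -/
theorem stmtVelu_of (hQb : StmtVeluQb) (hGal : StmtVeluGal) (hRat : StmtVeluRat)
    (hC4 : StmtVeluC4) : StmtVelu := by
  intro W hΔ hc₄ hc₆ p hp hp2 k K hKcard hKst
  have hp0 : p ≠ 0 := hp.ne_zero
  have hpQ : ((p : ℚ) ^ 0) ≠ 0 := by simp
  -- the finset
  haveI : Finite K := Nat.finite_of_card_ne_zero (by rw [hKcard]; exact pow_ne_zero _ hp0)
  have hfin : (K : Set (PtZ W)).Finite := Set.toFinite _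
  set Kf : Finset (PtZ W) := hfin.toFinset with hKf
  have hmem : ∀ x, x ∈ Kf ↔ x ∈ K := fun x => by rw [hKf, Set.Finite.mem_toFinset]; rfl
  have h0 : (0 : PtZ W) ∈ Kf := (hmem 0).2 K.zero_mem
  have hadd : ∀ P ∈ Kf, ∀ Q ∈ Kf, P + Q ∈ Kf := fun P hP Q hQ =>
    (hmem _).2 (K.add_mem ((hmem P).1 hP) ((hmem Q).1 hQ))
  have hneg : ∀ P ∈ Kf, -P ∈ Kf := fun P hP => (hmem _).2 (K.neg_mem ((hmem P).1 hP))
  have hcardf : Kf.card = p ^ k := by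
    rw [← hKcard, hKf, ← Set.ncard_eq_toFinset_card _ hfin]
    exact (_root_.Nat.card_coe_set_eq _).symm
  have hstf : ∀ σ : GQ, ∀ P ∈ Kf, σ • P ∈ Kf := fun σ P hP =>
    (hmem _).2 (hKst σ P ((hmem P).1 hP))
  obtain ⟨N, t, w, ht, hw⟩ := hRat W p hp hp2 k Kf h0 hadd hneg hcardf hstf
  have hpN : ((p : ℚ) ^ N) ≠ 0 := pow_ne_zero _ (Nat.cast_ne_zero.2 hp0)
  have hpNb : ((p : Qb) ^ N) ≠ 0 := pow_ne_zero _ (Nat.cast_ne_zero.2 hp0)
  have htQ : 2 * algebraMap ℚ Qb ((t : ℚ) / (p : ℚ) ^ N) = ∑ Q ∈ Kf, veluTpt Q := by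
    rw [map_div₀, map_pow, map_natCast, map_intCast, mul_div_assoc', ht,
      mul_div_cancel_left₀ _ hpNb]
  have hwQ : 2 * algebraMap ℚ Qb ((w : ℚ) / (p : ℚ) ^ N) = ∑ Q ∈ Kf, veluUpt Q := by
    rw [map_div₀, map_pow, map_natCast, map_intCast, mul_div_assoc', hw,
      mul_div_cancel_left₀ _ hpNb]
  obtain ⟨hΔ'', φ₀, hker₀, hform₀⟩ := hQb (W.map (Int.castRingHom ℚ)) (velu_map_Δ_ne hΔ)
    (velu_map_c₄_ne hc₄) (velu_map_c₆_ne hc₆) Kf h0 hadd hneg _ _ htQ hwQ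
  have hgal := hGal _ _ Kf φ₀ hadd hneg hstf hker₀ hform₀
  obtain ⟨e, he⟩ := Fermat.Agent.EC.vc_transport (K := Qb) _ _ (veluVC p N hp0)
    (veluIntCurve_map W p N hp0 t w)
  have hesymm : ∀ (σ : GQ) y, e.symm (σ • y) = σ • e.symm y := by
    intro σ y
    apply e.injective
    rw [he, AddEquiv.apply_symm_apply, AddEquiv.apply_symm_apply]
  refine ⟨veluIntCurve W p N t w, e.symm.toAddMonoidHom.comp φ₀, ?_, ?_, ?_, ?_⟩
  · -- Δ ≠ 0
    intro h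
    have h1 : ((veluIntCurve W p N t w).map (Int.castRingHom ℚ)).Δ = 0 := by
      rw [WeierstrassCurve.map_Δ, h, map_zero]
    rw [← veluIntCurve_map W p N hp0 t w, variableChange_Δ, veluVC_u_inv] at h1
    rcases mul_eq_zero.1 h1 with h2 | h2
    · exact pow_ne_zero _ hpN h2
    · exact hΔ'' h2
  · intro σ x
    change e.symm (φ₀ (σ • x)) = σ • e.symm (φ₀ x)
    rw [hgal, hesymm]
  · intro x
    change e.symm (φ₀ x) = 0 ↔ x ∈ K
    rw [AddEquiv.map_eq_zero_iff, hker₀, hmem]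
  · intro ℓ hℓ hℓp hℓΔ hℓc₄
    obtain ⟨A, hA⟩ := Fermat.Agent.Common.exists_liesOverPrime ℓ hℓ
    have hv := hC4 W p ℓ hp hℓ hℓp hℓΔ hℓc₄ k Kf h0 hadd hneg hcardf A hA
    rw [← Fermat.Agent.S05.valuation_intCast_eq_one_iff A hℓ hA, veluIntCurve_c₄]
    have hvp : A.valuation ((p : Qb)) = 1 := by
      rw [Fermat.Agent.S05.valuation_natCast_eq_one_iff A hℓ hA]
      intro h
      exact hℓp ((Nat.prime_dvd_prime_iff_eq hℓ hp).1 h)
    have hcast : (((((p : ℤ) ^ N) ^ 3 * ((p : ℤ) ^ N * W.c₄ + 240 * t) : ℤ)) : Qb) =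
        ((p : Qb) ^ N) ^ 4 * (((W.c₄ : ℤ) : Qb) + 120 * ∑ Q ∈ Kf, veluTpt Q) := by
      push_cast
      have : (240 : Qb) * (t : Qb) = 120 * ((p : Qb) ^ N * ∑ Q ∈ Kf, veluTpt Q) := by
        rw [← ht]; ring
      rw [this]
      ring
    rw [hcast, map_mul, hv, mul_one, map_pow, map_pow, hvp, one_pow, one_pow]

end Fermat.Agent.S12
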