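import Fermat.Agent.S12.VeluPlan

/-!
# S12 glue, piece VELU / **V-LATb** (helper56): `stmtVeluG : StmtVeluG`

`g₂`, `g₃` of a lattice `L'` through the values of `℘_L` at the nontrivial coset representatives
of `L' / L`.  Mathlib only (+ `velu_tsum_cosets`).

* `velug_P2`, `velug_P3`, `velug_P4` : `℘'' = 6℘² - g₂/2`, `℘''' = 12 ℘ ℘'`,
  `℘'''' = 120 ℘³ - 18 g₂ ℘ - 12 g₃` off the lattice (from Mathlib's `derivWeierstrassP_sq`;
  the factor `℘'` is removed by the identity theorem on the connected set `ℂ ∖ L`,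
  `℘' ≢ 0` because `℘` has a pole of order `2`);
* `velug_sum4`, `velug_sum6` : `∑_l (l - x)⁻⁴ = ℘(x)² - g₂/12`,
  `∑_l (l - x)⁻⁶ = ℘(x)³ - (3/20) g₂ ℘(x) - g₃/10` for `x ∉ L`
  (Mathlib's `iteratedDeriv_weierstrassPExcept_self`);
* `velug_G` : `G_n(L') = G_n(L) + ∑_{s ≠ s₀} ∑_l (l + s)⁻ⁿ`.
-/

set_option autoImplicit false

noncomputable section

namespace Fermat.Agent.S12

open PeriodPair Filter Topology

variable (L : PeriodPair)

/-! ## the differential equations of `℘` -/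

theorem velug_isOpen : IsOpen ((L.lattice : Set ℂ)ᶜ) := L.isClosed_lattice.isOpen_compl

theorem velug_isPreconnected : IsPreconnected ((L.lattice : Set ℂ)ᶜ) :=
  (Set.Countable.isConnected_compl_of_one_lt_rank (by simp)
    (countable_of_Lindelof_of_discrete (X := L.lattice))).2

theorem velug_mem_nhds {x : ℂ} (hx : x ∉ L.lattice) : ((L.lattice : Set ℂ)ᶜ) ∈ 𝓝 x :=
  (velug_isOpen L).mem_nhds hx

theorem velug_hasDerivAt_P {x : ℂ} (hx : x ∉ L.lattice) : HasDerivAt ℘[L] (℘'[L] x) x := by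
  have h := (L.differentiableOn_weierstrassP.differentiableAt (velug_mem_nhds L hx)).hasDerivAt
  rwa [L.deriv_weierstrassP] at h

theorem velug_hasDerivAt_P1 {x : ℂ} (hx : x ∉ L.lattice) :
    HasDerivAt ℘'[L] (deriv ℘'[L] x) x :=
  (L.differentiableOn_derivWeierstrassP.differentiableAt (velug_mem_nhds L hx)).hasDerivAt

/-- `℘'` does not vanish identically off the lattice -/
theorem velug_P1_not_zero : ¬ ∀ z ∈ ((L.lattice : Set ℂ)ᶜ), ℘'[L] z = 0 := by
  intro h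
  obtain ⟨a, ha⟩ := (velug_isOpen L).exists_is_const_of_deriv_eq_zero (velug_isPreconnected L)
    L.differentiableOn_weierstrassP (fun z hz => by
      rw [L.deriv_weierstrassP]
      exact h z hz)
  have hord := L.order_weierstrassP 0 (zero_mem _)
  have hcongr : ℘[L] =ᶠ[𝓝[≠] (0 : ℂ)] fun _ => a := by
    have h1 : ((L.lattice : Set ℂ) \ {0})ᶜ ∈ 𝓝 (0 : ℂ) :=
      L.compl_lattice_sdiff_singleton_mem_nhds 0
    have h2 : ((L.lattice : Set ℂ) \ {0})ᶜ ∩ {0}ᶜ ∈ 𝓝[≠] (0 : ℂ) :=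
      inter_mem (mem_nhdsWithin_of_mem_nhds h1) self_mem_nhdsWithin
    filter_upwards [h2] with z hz
    apply ha
    intro hzL
    exact hz.1 ⟨hzL, hz.2⟩
  rw [meromorphicOrderAt_congr hcongr] at hord
  classical
  rw [meromorphicOrderAt_const] at hord
  split_ifs at hord
  · exact absurd hord (WithTop.top_ne_coe (a := (-2 : ℤ)))
  · have h3 : (0 : WithTop ℤ) ≠ ((-2 : ℤ) : WithTop ℤ) := by
      intro h4
      have := WithTop.coe_injective (a₁ := (0 : ℤ)) (a₂ := (-2 : ℤ)) h4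
      omega
    exact h3 hord

/-- `℘'' = 6 ℘² - g₂/2` off the lattice -/
theorem velug_P2 {x : ℂ} (hx : x ∉ L.lattice) :
    deriv ℘'[L] x = 6 * ℘[L] x ^ 2 - L.g₂ / 2 := by
  have hmul : ∀ z ∈ ((L.lattice : Set ℂ)ᶜ),
      ℘'[L] z * (2 * deriv ℘'[L] z - 12 * ℘[L] z ^ 2 + L.g₂) = 0 := by
    intro z hz
    have hP := velug_hasDerivAt_P L hz
    have hP1 := velug_hasDerivAt_P1 L hz
    have h1 : HasDerivAt (fun w => ℘'[L] w ^ 2) (2 * ℘'[L] z * deriv ℘'[L] z) z := by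
      have := hP1.fun_pow 2
      simpa using this
    have h2 : HasDerivAt (fun w => 4 * ℘[L] w ^ 3 - L.g₂ * ℘[L] w - L.g₃)
        (4 * (3 * ℘[L] z ^ 2 * ℘'[L] z) - L.g₂ * ℘'[L] z) z := by
      have h3 := ((hP.fun_pow 3).const_mul 4).sub (hP.const_mul L.g₂)
      have h4 := h3.sub_const L.g₃
      simpa using h4
    have heq : (fun w => ℘'[L] w ^ 2) =ᶠ[𝓝 z] fun w => 4 * ℘[L] w ^ 3 - L.g₂ * ℘[L] w - L.g₃ := by
      filter_upwards [velug_mem_nhds L hz] with w hw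
      exact L.derivWeierstrassP_sq w hw
    have h5 := (h1.congr_of_eventuallyEq heq.symm).unique h2
    linear_combination h5
  have han1 : AnalyticOnNhd ℂ ℘'[L] ((L.lattice : Set ℂ)ᶜ) := L.analyticOnNhd_derivWeierstrassP
  have han0 : AnalyticOnNhd ℂ ℘[L] ((L.lattice : Set ℂ)ᶜ) := L.analyticOnNhd_weierstrassP
  have han2 : AnalyticOnNhd ℂ (deriv ℘'[L]) ((L.lattice : Set ℂ)ᶜ) := han1.deriv
  have hang : AnalyticOnNhd ℂ (fun z => 2 * deriv ℘'[L] z - 12 * ℘[L] z ^ 2 + L.g₂)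
      ((L.lattice : Set ℂ)ᶜ) := by
    intro z hz
    have a0 := han0 z hz
    have a2 := han2 z hz
    fun_prop
  rcases AnalyticOnNhd.eq_zero_or_eq_zero_of_mul_eq_zero han1 hang hmul
    (velug_isPreconnected L) with h | h
  · exact absurd h (velug_P1_not_zero L)
  · have := h x hx
    linear_combination this / 2


/-- the third derivative: `12 ℘ ℘'` off the lattice -/
theorem velug_P3 {x : ℂ} (hx : x ∉ L.lattice) :
    deriv (deriv ℘'[L]) x = 12 * ℘[L] x * ℘'[L] x := by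
  have heq : deriv ℘'[L] =ᶠ[𝓝 x] fun z => 6 * ℘[L] z ^ 2 - L.g₂ / 2 := by
    filter_upwards [velug_mem_nhds L hx] with z hz
    exact velug_P2 L hz
  rw [heq.deriv_eq]
  have hP := velug_hasDerivAt_P L hx
  have h1 : HasDerivAt (fun z => 6 * ℘[L] z ^ 2 - L.g₂ / 2) (6 * (2 * ℘[L] x * ℘'[L] x)) x := by
    have h2 := ((hP.fun_pow 2).const_mul 6).sub_const (L.g₂ / 2)
    simpa using h2
  rw [h1.deriv]
  ring

/-- the fourth derivative: `120 ℘³ - 18 g₂ ℘ - 12 g₃` off the lattice -/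
theorem velug_P4 {x : ℂ} (hx : x ∉ L.lattice) :
    deriv (deriv (deriv ℘'[L])) x = 120 * ℘[L] x ^ 3 - 18 * L.g₂ * ℘[L] x - 12 * L.g₃ := by
  have heq : deriv (deriv ℘'[L]) =ᶠ[𝓝 x] fun z => 12 * ℘[L] z * ℘'[L] z := by
    filter_upwards [velug_mem_nhds L hx] with z hz
    exact velug_P3 L hz
  rw [heq.deriv_eq]
  have hP := velug_hasDerivAt_P L hx
  have hP1 := velug_hasDerivAt_P1 L hx
  have h1 : HasDerivAt (fun z => 12 * ℘[L] z * ℘'[L] z)
      (12 * ℘'[L] x * ℘'[L] x + 12 * ℘[L] x * deriv ℘'[L] x) x :=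
    (hP.const_mul 12).mul hP1
  rw [h1.deriv, velug_P2 L hx]
  have hode := L.derivWeierstrassP_sq x hx
  linear_combination 12 * hode

/-- the iterated derivatives of `℘` off the lattice as lattice sums -/
theorem velug_iteratedDeriv {x : ℂ} (hx : x ∉ L.lattice) (n : ℕ) (hn : n ≠ 0) :
    iteratedDeriv n ℘[L] x = (n + 1).factorial * L.sumInvPow x (n + 2) := by
  have h := L.iteratedDeriv_weierstrassPExcept_self x (n := n)
  rw [L.weierstrassPExcept_of_notMem x hx, if_neg hn] at h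
  exact h

/-- `∑ (l - x)⁻⁴ = ℘(x)² - g₂/12` -/
theorem velug_sum4 {x : ℂ} (hx : x ∉ L.lattice) :
    L.sumInvPow x 4 = ℘[L] x ^ 2 - L.g₂ / 12 := by
  have h1 := velug_iteratedDeriv L hx 2 (by norm_num)
  have h2 : iteratedDeriv 2 ℘[L] x = deriv ℘'[L] x := by
    rw [iteratedDeriv_succ, iteratedDeriv_one, L.deriv_weierstrassP]
  rw [h2, velug_P2 L hx] at h1
  have h3 : ((2 + 1).factorial : ℂ) = 6 := by norm_num [Nat.factorial]
  rw [h3] at h1
  linear_combination -h1 / 6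

/-- `∑ (l - x)⁻⁶ = ℘(x)³ - (3/20) g₂ ℘(x) - g₃/10` -/
theorem velug_sum6 {x : ℂ} (hx : x ∉ L.lattice) :
    L.sumInvPow x 6 = ℘[L] x ^ 3 - 3 / 20 * L.g₂ * ℘[L] x - L.g₃ / 10 := by
  have h1 := velug_iteratedDeriv L hx 4 (by norm_num)
  have h2 : iteratedDeriv 4 ℘[L] x = deriv (deriv (deriv ℘'[L])) x := by
    rw [iteratedDeriv_succ, iteratedDeriv_succ, iteratedDeriv_succ, iteratedDeriv_one,
      L.deriv_weierstrassP]
  rw [h2, velug_P4 L hx] at h1
  have h3 : ((4 + 1).factorial : ℂ) = 120 := by norm_num [Nat.factorial]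
  rw [h3] at h1
  linear_combination -h1 / 120

/-! ## the coset sums -/

variable {L}
variable {L' : PeriodPair} {S : Finset ℂ}

theorem velug_summable (n : ℕ) (hn : 2 < n) :
    Summable fun l' : L'.lattice => (fun z : ℂ => (z ^ n)⁻¹) l' := by
  have h := (L'.hasSum_sumInvPow 0 hn).summable
  simpa using h

/-- the sum over the trivial coset -/
theorem velug_coset_mem (n : ℕ) {s : ℂ} (hs : s ∈ L.lattice) :
    ∑' l : L.lattice, (((s + (l : ℂ)) ^ n)⁻¹) = L.G n := by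
  unfold PeriodPair.G
  have h := (Equiv.addLeft (⟨s, hs⟩ : L.lattice)).tsum_eq (fun l : L.lattice => (((l : ℂ)) ^ n)⁻¹)
  rw [← h]
  rfl

/-- the sum over a nontrivial coset -/
theorem velug_coset_notMem (n : ℕ) (s : ℂ) :
    ∑' l : L.lattice, (((s + (l : ℂ)) ^ n)⁻¹) = L.sumInvPow (-s) n := by
  unfold PeriodPair.sumInvPow
  refine tsum_congr fun l => ?_
  rw [sub_neg_eq_add, add_comm]

theorem velug_G (h : VeluCosetReps L L' S) {s₀ : ℂ} (hs₀ : s₀ ∈ S) (hs₀L : s₀ ∈ L.lattice)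
    (n : ℕ) (hn : 2 < n) :
    L'.G n = L.G n + ∑ s ∈ S.erase s₀, L.sumInvPow (-s) n := by
  have h1 : L'.G n = ∑ s ∈ S, ∑' l : L.lattice, (((s + (l : ℂ)) ^ n)⁻¹) := by
    unfold PeriodPair.G
    exact velu_tsum_cosets h (fun z : ℂ => (z ^ n)⁻¹) (velug_summable n hn)
  rw [h1, ← Finset.add_sum_erase S _ hs₀, velug_coset_mem n hs₀L]
  congr 1
  exact Finset.sum_congr rfl fun s _ => velug_coset_notMem n s

theorem velug_notMem (h : VeluCosetReps L L' S) {s₀ : ℂ} (hs₀ : s₀ ∈ S) (hs₀L : s₀ ∈ L.lattice)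
    {s : ℂ} (hs : s ∈ S.erase s₀) : -s ∉ L.lattice := by
  intro hmem
  have hsL : s ∈ L.lattice := by
    have := neg_mem hmem
    simpa using this
  have h1 : s = s₀ := h.unique_rep s (Finset.mem_of_mem_erase hs) s₀ hs₀ (sub_mem hsL hs₀L)
  exact (Finset.ne_of_mem_erase hs) h1

/-- **V-LATb.** -/
theorem stmtVeluG : StmtVeluG := by
  intro L L' S h s₀ hs₀ hs₀L
  constructor
  · unfold PeriodPair.g₂
    rw [velug_G h hs₀ hs₀L 4 (by norm_num), mul_add, Finset.mul_sum]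
    congr 1
    refine Finset.sum_congr rfl fun s hs => ?_
    rw [velug_sum4 L (velug_notMem h hs₀ hs₀L hs), L.weierstrassP_neg]
    unfold PeriodPair.g₂
    ring
  · unfold PeriodPair.g₃
    rw [velug_G h hs₀ hs₀L 6 (by norm_num), mul_add, Finset.mul_sum]
    congr 1
    refine Finset.sum_congr rfl fun s hs => ?_
    rw [velug_sum6 L (velug_notMem h hs₀ hs₀L hs), L.weierstrassP_neg]
    unfold PeriodPair.g₂ PeriodPair.g₃
    ring

end Fermat.Agent.S12
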