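/-
# S12 / VELU / V-LATc (helper56)

`stmtVeluLat : StmtVeluLat`: a subgroup of `ℂ` between `L` and `n⁻¹ L` is the lattice of a period
pair (ZLattice API: discrete + spanning gives a ℤ-basis of two ℝ-independent vectors), with the
finite system of representatives `(a ω₁ + b ω₂) / n`, `0 ≤ a, b < n`, that lie in it.
-/
import Fermat.Agent.S12.VeluPlan

set_option autoImplicit false

noncomputable section

namespace Fermat.Agent.S12

open PeriodPair Module

/-- the submodule of a subgroup between `L` and `n⁻¹ L` is discrete -/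
theorem velulat_discrete (L : PeriodPair) (M : Submodule ℤ ℂ) (n : ℕ) (hn : n ≠ 0)
    (h2 : ∀ z ∈ M, (n : ℂ) * z ∈ L.lattice) : DiscreteTopology M := by
  have hinj : Function.Injective (fun z : ℂ => (n : ℂ) * z) := by
    intro x y hxy
    exact mul_left_cancel₀ (Nat.cast_ne_zero.mpr hn) hxy
  have hcont : Continuous (fun z : ℂ => (n : ℂ) * z) := by fun_prop
  have h0 : DiscreteTopology ((L.lattice : Set ℂ)) := inferInstanceAs (DiscreteTopology L.lattice)
  have h3 : DiscreteTopology ((fun z : ℂ => (n : ℂ) * z) ⁻¹' (L.lattice : Set ℂ)) :=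
    DiscreteTopology.preimage_of_continuous_injective (L.lattice : Set ℂ) hcont hinj
  exact DiscreteTopology.of_subset h3 (fun z hz => h2 z hz)

/-- a lattice containing `L.lattice`, contained in `n⁻¹ L.lattice`, is the lattice of a period
pair -/
theorem velulat_pair (L : PeriodPair) (M : Submodule ℤ ℂ) (n : ℕ) (hn : n ≠ 0)
    (h1 : L.lattice ≤ M) (h2 : ∀ z ∈ M, (n : ℂ) * z ∈ L.lattice) :
    ∃ L' : PeriodPair, L'.lattice = M := by
  have : DiscreteTopology M := velulat_discrete L M n hn h2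
  have : IsZLattice ℝ M := ⟨by
    rw [eq_top_iff, ← (inferInstance : IsZLattice ℝ L.lattice).span_top]
    exact Submodule.span_mono h1⟩
  have : Module.Finite ℤ M := ZLattice.module_finite ℝ M
  have : Module.Free ℤ M := ZLattice.module_free ℝ M
  have hrank : finrank ℤ M = 2 := by
    rw [ZLattice.rank ℝ M, Complex.finrank_real_complex]
  let b : Basis (Fin 2) ℤ M := Module.finBasisOfFinrankEq ℤ M hrank
  let b' : Basis (Fin 2) ℝ ℂ := b.ofZLatticeBasis ℝ M
  have hb' : (⇑b' : Fin 2 → ℂ) = ![(b 0 : ℂ), (b 1 : ℂ)] := by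
    funext i
    fin_cases i
    · simp [b']
    · simp [b']
  have hind : LinearIndependent ℝ ![(b 0 : ℂ), (b 1 : ℂ)] := by
    rw [← hb']
    exact b'.linearIndependent
  refine ⟨⟨b 0, b 1, hind⟩, ?_⟩
  have hspan : Submodule.span ℤ (Set.range b') = M := b.ofZLatticeBasis_span ℝ
  refine Eq.trans ?_ hspan
  rw [hb']
  show Submodule.span ℤ {(b 0 : ℂ), (b 1 : ℂ)} = _
  congr 1
  ext z
  simp only [Set.mem_insert_iff, Set.mem_singleton_iff, Set.mem_range]
  constructor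
  · rintro (rfl | rfl)
    · exact ⟨0, rfl⟩
    · exact ⟨1, rfl⟩
  · rintro ⟨i, rfl⟩
    fin_cases i
    · left; rfl
    · right; rfl


/-- the candidate representatives `(a ω₁ + b ω₂) / n`, `0 ≤ a, b < n` -/
def velulatPt (L : PeriodPair) (n : ℕ) (p : ℕ × ℕ) : ℂ :=
  ((p.1 : ℂ) * L.ω₁ + (p.2 : ℂ) * L.ω₂) / n

/-- two candidates congruent modulo `L` are equal -/
theorem velulat_unique (L : PeriodPair) (n : ℕ) (hn : n ≠ 0) (p q : ℕ × ℕ)
    (hp1 : p.1 < n) (hp2 : p.2 < n) (hq1 : q.1 < n) (hq2 : q.2 < n)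
    (h : velulatPt L n p - velulatPt L n q ∈ L.lattice) : p = q := by
  have hn' : (n : ℂ) ≠ 0 := Nat.cast_ne_zero.mpr hn
  have hnQ : (n : ℚ) ≠ 0 := Nat.cast_ne_zero.mpr hn
  have key : velulatPt L n p - velulatPt L n q =
      (((((p.1 : ℤ) - q.1 : ℤ) : ℚ) / n : ℚ) : ℂ) * L.ω₁ +
        (((((p.2 : ℤ) - q.2 : ℤ) : ℚ) / n : ℚ) : ℂ) * L.ω₂ := by
    unfold velulatPt
    push_cast
    field_simp
    ring
  rw [key, mul_ω₁_add_mul_ω₂_mem_lattice] at h
  have aux : ∀ a b : ℕ, a < n → b < n → ((((a : ℤ) - b : ℤ) : ℚ) / n : ℚ).den = 1 → a = b := by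
    intro a b ha hb hden
    obtain ⟨c, hc⟩ : ∃ c : ℤ, ((((a : ℤ) - b : ℤ) : ℚ) / n : ℚ) = c :=
      ⟨_, ((Rat.den_eq_one_iff _).mp hden).symm⟩
    have h1 : (((a : ℤ) - b : ℤ) : ℚ) = ((c * n : ℤ) : ℚ) := by
      push_cast
      field_simp at hc
      push_cast at hc
      linarith
    have h2 : (a : ℤ) - b = c * n := by exact_mod_cast h1
    have h3 : c = 0 := by
      have hn0 : (0 : ℤ) < n := by exact_mod_cast Nat.pos_of_ne_zero hn
      have ha' : (a : ℤ) < n := by exact_mod_cast ha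
      have hb' : (b : ℤ) < n := by exact_mod_cast hb
      have ha0 : (0 : ℤ) ≤ a := Int.natCast_nonneg a
      have hb0 : (0 : ℤ) ≤ b := Int.natCast_nonneg b
      by_contra hc0
      rcases lt_or_gt_of_ne hc0 with hlt | hgt
      · have : c ≤ -1 := by omega
        nlinarith
      · have : 1 ≤ c := by omega
        nlinarith
    rw [h3, zero_mul] at h2
    omega
  exact Prod.ext (aux _ _ hp1 hq1 h.1) (aux _ _ hp2 hq2 h.2)

/-- every element of `n⁻¹ L` is congruent modulo `L` to a candidate -/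
theorem velulat_exists (L : PeriodPair) (n : ℕ) (hn : n ≠ 0) (z : ℂ)
    (hz : (n : ℂ) * z ∈ L.lattice) :
    ∃ p : ℕ × ℕ, p.1 < n ∧ p.2 < n ∧ z - velulatPt L n p ∈ L.lattice := by
  have hn' : (n : ℂ) ≠ 0 := Nat.cast_ne_zero.mpr hn
  have hn0 : (0 : ℤ) < n := by exact_mod_cast Nat.pos_of_ne_zero hn
  have hnz : (n : ℤ) ≠ 0 := hn0.ne'
  obtain ⟨a, b, hab⟩ := mem_lattice.mp hz
  have ha0 : 0 ≤ a % n := Int.emod_nonneg a hnz
  have hb0 : 0 ≤ b % n := Int.emod_nonneg b hnz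
  have ha1 : a % n < n := Int.emod_lt_of_pos a hn0
  have hb1 : b % n < n := Int.emod_lt_of_pos b hn0
  refine ⟨((a % n).toNat, (b % n).toNat), by simp only; omega, by simp only; omega, ?_⟩
  have hda : (a : ℂ) = (n : ℂ) * ((a / n : ℤ) : ℂ) + (((a % n).toNat : ℕ) : ℂ) := by
    have h1 : ((((a % n).toNat : ℕ) : ℤ)) = a % n := Int.toNat_of_nonneg ha0
    have h2 : a = n * (a / n) + a % n := (Int.mul_ediv_add_emod a n).symm
    have h3 : (((a % n).toNat : ℕ) : ℂ) = ((a % n : ℤ) : ℂ) := by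
      rw [← h1]; push_cast; rfl
    rw [h3]
    exact_mod_cast congrArg (fun t : ℤ => (t : ℂ)) h2
  have hdb : (b : ℂ) = (n : ℂ) * ((b / n : ℤ) : ℂ) + (((b % n).toNat : ℕ) : ℂ) := by
    have h1 : ((((b % n).toNat : ℕ) : ℤ)) = b % n := Int.toNat_of_nonneg hb0
    have h2 : b = n * (b / n) + b % n := (Int.mul_ediv_add_emod b n).symm
    have h3 : (((b % n).toNat : ℕ) : ℂ) = ((b % n : ℤ) : ℂ) := by
      rw [← h1]; push_cast; rfl
    rw [h3]
    exact_mod_cast congrArg (fun t : ℤ => (t : ℂ)) h2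
  have key : z - velulatPt L n ((a % n).toNat, (b % n).toNat) =
      ((a / n : ℤ) : ℂ) * L.ω₁ + ((b / n : ℤ) : ℂ) * L.ω₂ := by
    unfold velulatPt
    simp only
    field_simp
    linear_combination (-1 : ℂ) * hab + L.ω₁ * hda + L.ω₂ * hdb
  rw [key]
  exact mem_lattice.mpr ⟨_, _, rfl⟩

/-- **V-LATc.** -/
theorem stmtVeluLat : StmtVeluLat := by
  classical
  intro L Λ' n hn h1 h2
  obtain ⟨L', hL'⟩ := velulat_pair L (AddSubgroup.toIntSubmodule Λ') n hn
    (fun z hz => h1 z hz) (fun z hz => h2 z hz)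
  have hmem : ∀ z, z ∈ L'.lattice ↔ z ∈ Λ' := by
    intro z
    rw [hL']
    exact Iff.rfl
  refine ⟨L', ((Finset.range n ×ˢ Finset.range n).image (velulatPt L n)).filter (· ∈ Λ'),
    hmem, ?_⟩
  refine ⟨fun z hz => (hmem z).2 (h1 z hz), ?_, ?_, ?_⟩
  · intro s hs
    rw [Finset.mem_filter] at hs
    exact (hmem s).2 hs.2
  · intro l' hl'
    have hl'' : l' ∈ Λ' := (hmem l').1 hl'
    obtain ⟨p, hp1, hp2, hp⟩ := velulat_exists L n hn l' (h2 l' hl'')
    refine ⟨velulatPt L n p, ?_, hp⟩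
    rw [Finset.mem_filter, Finset.mem_image]
    refine ⟨⟨p, ?_, rfl⟩, ?_⟩
    · rw [Finset.mem_product, Finset.mem_range, Finset.mem_range]
      exact ⟨hp1, hp2⟩
    · have : velulatPt L n p = l' - (l' - velulatPt L n p) := by ring
      rw [this]
      exact Λ'.sub_mem hl'' (h1 _ hp)
  · intro s hs s' hs' hss'
    rw [Finset.mem_filter, Finset.mem_image] at hs hs'
    obtain ⟨⟨p, hp, rfl⟩, -⟩ := hs
    obtain ⟨⟨q, hq, rfl⟩, -⟩ := hs'
    rw [Finset.mem_product, Finset.mem_range, Finset.mem_range] at hp hq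
    rw [velulat_unique L n hn p q hp.1 hp.2 hq.1 hq.2 hss']

end Fermat.Agent.S12
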