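/-
Item 12 (S12 glue), piece `VELU` / V-LATa (helper13): the Weierstrass functions of a lattice `L'`
through those of a sublattice `L` of finite index.  Mathlib only.
-/
import Fermat.Agent.S12.VeluPlan

set_option autoImplicit false

noncomputable section

namespace Fermat.Agent.S12

open PeriodPair

/-- **V-LATa.** -/
theorem stmtVeluWp : StmtVeluWp := by
  intro L L' S h z
  constructor
  · have hsum : Summable fun l' : L'.lattice =>
        (fun w : ℂ => 1 / (z - w) ^ 2 - 1 / w ^ 2) (l' : ℂ) :=
      (L'.hasSum_weierstrassP z).summable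
    have h1 : ℘[L'] z =
        ∑' l' : L'.lattice, (fun w : ℂ => 1 / (z - w) ^ 2 - 1 / w ^ 2) (l' : ℂ) :=
      (L'.hasSum_weierstrassP z).tsum_eq.symm
    have h2 := velu_tsum_cosets h (fun w : ℂ => 1 / (z - w) ^ 2 - 1 / w ^ 2) hsum
    rw [h1, h2]
    refine Finset.sum_congr rfl fun s _ => ?_
    have hA := L.hasSum_weierstrassP (z - s)
    have hB := L.hasSum_weierstrassP (-s)
    have hC := hA.sub hB
    rw [weierstrassP_neg] at hC
    rw [← hC.tsum_eq]
    refine tsum_congr fun l => ?_
    have e1 : z - (s + (l : ℂ)) = z - s - l := by ring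
    have e2 : (-s - (l : ℂ)) ^ 2 = (s + l) ^ 2 := by ring
    simp only [e1, e2]
    ring
  · have hsum : Summable fun l' : L'.lattice => (fun w : ℂ => - 2 / (z - w) ^ 3) (l' : ℂ) :=
      (L'.hasSum_derivWeierstrassP z).summable
    have h1 : ℘'[L'] z = ∑' l' : L'.lattice, (fun w : ℂ => - 2 / (z - w) ^ 3) (l' : ℂ) :=
      (L'.hasSum_derivWeierstrassP z).tsum_eq.symm
    have h2 := velu_tsum_cosets h (fun w : ℂ => - 2 / (z - w) ^ 3) hsum
    rw [h1, h2]
    refine Finset.sum_congr rfl fun s _ => ?_
    rw [← (L.hasSum_derivWeierstrassP (z - s)).tsum_eq]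
    refine tsum_congr fun l => ?_
    have e1 : z - (s + (l : ℂ)) = z - s - l := by ring
    simp only [e1]

end Fermat.Agent.S12
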