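/-
Item 12 (S12 glue), piece `VELU` / V-SHORT (helper13): Vélu's theorem for the curve
`modCurve L : y² = x³ - (g₂/4) x - g₃/4` of a lattice, by uniformisation.

`θ_L : ℂ / L ≅ E_L(ℂ)` (S15 MOD-ADD); a finite subgroup `K` is `θ_L (L' / L)` for a lattice
`L' ⊇ L` (V-LATc); `veluCurve (modCurve L) t w = modCurve L'` (V-LATb); the isogeny is
`θ_{L'} ∘ θ_L⁻¹`, and Vélu's formulas are the expressions of `℘_{L'}`, `℘'_{L'}` through `℘_L`,
`℘'_L` (V-LATa).
-/
import Fermat.Agent.S12.VeluPlan3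
import Fermat.Agent.S12.VeluWp
import Fermat.Agent.S12.VeluG
import Fermat.Agent.S12.VeluLat
import Fermat.Agent.S12.VeluDisc
import Fermat.Agent.S15.ModAdd

set_option autoImplicit false

noncomputable section

namespace Fermat.Agent.S12

open PeriodPair WeierstrassCurve WeierstrassCurve.Affine Fermat.Agent.S15

/-- in a finite subgroup, the order kills every element -/
theorem velushort_card_nsmul {G : Type*} [AddGroup G] (K : Finset G) (h0 : 0 ∈ K)
    (hadd : ∀ P ∈ K, ∀ Q ∈ K, P + Q ∈ K) (hneg : ∀ P ∈ K, -P ∈ K) (P : G) (hP : P ∈ K) :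
    K.card • P = 0 := by
  let H : AddSubgroup G :=
    { carrier := (K : Set G)
      zero_mem' := h0
      add_mem' := fun {a b} ha hb => hadd a ha b hb
      neg_mem' := fun {a} ha => hneg a ha }
  have hcard : Nat.card H = K.card := by
    have h1 : Nat.card H = ((K : Set G)).ncard := Nat.card_coe_set_eq (K : Set G)
    rw [h1, Set.ncard_coe_finset]
  have hfin : Finite H := K.finite_toSet.to_subtype
  have h2 : Nat.card H • (⟨P, hP⟩ : H) = 0 := card_nsmul_eq_zero'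
  have h3 := congrArg (Subtype.val : H → G) h2
  rw [hcard] at h3
  simpa using h3

section Core

variable {L L' : PeriodPair} {S : Finset ℂ}
  {θ : ℂ →+ (modCurve L).toAffine.Point} {K : Finset (modCurve L).toAffine.Point}

theorem velushort_X (hker : ∀ z, θ z = 0 ↔ z ∈ L.lattice)
    (hval : ∀ z, z ∉ L.lattice →
      ∃ h : (modCurve L).toAffine.Nonsingular (℘[L] z) (℘'[L] z / 2),
        θ z = .some (℘[L] z) (℘'[L] z / 2) h) (z : ℂ) :
    veluX (θ z) = ℘[L] z := by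
  by_cases hz : z ∈ L.lattice
  · rw [(hker z).2 hz, veluX_zero]
    exact (L.weierstrassP_coe ⟨z, hz⟩).symm
  · obtain ⟨h, hθ⟩ := hval z hz
    rw [hθ, veluX_some]

theorem velushort_Y (hker : ∀ z, θ z = 0 ↔ z ∈ L.lattice)
    (hval : ∀ z, z ∉ L.lattice →
      ∃ h : (modCurve L).toAffine.Nonsingular (℘[L] z) (℘'[L] z / 2),
        θ z = .some (℘[L] z) (℘'[L] z / 2) h) (z : ℂ) :
    veluY (θ z) = ℘'[L] z / 2 := by
  by_cases hz : z ∈ L.lattice
  · rw [(hker z).2 hz, veluY_zero]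
    have := L.derivWeierstrassP_coe ⟨z, hz⟩
    simp only at this
    rw [this, zero_div]
  · obtain ⟨h, hθ⟩ := hval z hz
    rw [hθ, veluY_some]

theorem velushort_T
    (hval : ∀ z, z ∉ L.lattice →
      ∃ h : (modCurve L).toAffine.Nonsingular (℘[L] z) (℘'[L] z / 2),
        θ z = .some (℘[L] z) (℘'[L] z / 2) h) {z : ℂ} (hz : z ∉ L.lattice) :
    veluTpt (θ z) = 6 * ℘[L] z ^ 2 - L.g₂ / 2 := by
  obtain ⟨h, hθ⟩ := hval z hz
  rw [hθ, veluTpt_some]
  simp only [veluT, modCurve, WeierstrassCurve.b₂, WeierstrassCurve.b₄]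
  ring

theorem velushort_U
    (hval : ∀ z, z ∉ L.lattice →
      ∃ h : (modCurve L).toAffine.Nonsingular (℘[L] z) (℘'[L] z / 2),
        θ z = .some (℘[L] z) (℘'[L] z / 2) h) {z : ℂ} (hz : z ∉ L.lattice) :
    veluUpt (θ z) = 10 * ℘[L] z ^ 3 - 3 / 2 * L.g₂ * ℘[L] z - L.g₃ := by
  obtain ⟨h, hθ⟩ := hval z hz
  rw [hθ, veluUpt_some]
  simp only [veluU, modCurve, WeierstrassCurve.b₂, WeierstrassCurve.b₄, WeierstrassCurve.b₆]
  ring

/-- sums over `K` are sums over the representatives -/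
theorem velushort_sum (hS : VeluCosetReps L L' S) (hker : ∀ z, θ z = 0 ↔ z ∈ L.lattice)
    (hsurj : Function.Surjective θ) (hK : ∀ z, θ z ∈ K ↔ z ∈ L'.lattice)
    (f : (modCurve L).toAffine.Point → ℂ) :
    ∑ Q ∈ K, f Q = ∑ s ∈ S, f (θ s) := by
  symm
  refine Finset.sum_bij (fun s _ => θ s) ?_ ?_ ?_ ?_
  · intro s hs
    exact (hK s).2 (hS.mem s hs)
  · intro s hs s' hs' h
    apply hS.unique_rep s hs s' hs'
    rw [← hker, map_sub, h, sub_self]
  · intro Q hQ
    obtain ⟨z, rfl⟩ := hsurj Q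
    obtain ⟨s, hs, hsl⟩ := hS.exists_rep z ((hK z).1 hQ)
    refine ⟨s, hs, ?_⟩
    have h1 : θ (z - s) = 0 := (hker _).2 hsl
    rw [map_sub, sub_eq_zero] at h1
    exact h1.symm
  · intro s hs
    rfl

/-- sums over `K` are sums over the negatives of the representatives -/
theorem velushort_sum_neg (hS : VeluCosetReps L L' S) (hker : ∀ z, θ z = 0 ↔ z ∈ L.lattice)
    (hsurj : Function.Surjective θ) (hK : ∀ z, θ z ∈ K ↔ z ∈ L'.lattice)
    (hneg : ∀ P ∈ K, -P ∈ K) (f : (modCurve L).toAffine.Point → ℂ) :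
    ∑ Q ∈ K, f Q = ∑ s ∈ S, f (θ (-s)) := by
  have h1 : ∑ Q ∈ K, f Q = ∑ Q ∈ K, f (-Q) :=
    Finset.sum_nbij' (fun Q => -Q) (fun Q => -Q) hneg hneg (fun a _ => neg_neg a)
      (fun a _ => neg_neg a) (fun a _ => by rw [neg_neg])
  rw [h1, velushort_sum hS hker hsurj hK (fun Q => f (-Q))]
  refine Finset.sum_congr rfl fun s _ => ?_
  rw [map_neg]

end Core

/-- **V-SHORT.** -/
theorem stmtVeluShort : StmtVeluShort := by
  intro L K h0 hadd hneg t w ht hw
  obtain ⟨θ, hker, hsurj, hval⟩ := stmtModAdd L (stmtVeluDisc L)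
  -- the lattice of `K`
  let Λ' : AddSubgroup ℂ :=
    { carrier := {z | θ z ∈ K}
      zero_mem' := by
        show θ 0 ∈ K
        rw [map_zero]
        exact h0
      add_mem' := fun {a b} ha hb => by
        show θ (a + b) ∈ K
        rw [map_add]
        exact hadd _ ha _ hb
      neg_mem' := fun {a} ha => by
        show θ (-a) ∈ K
        rw [map_neg]
        exact hneg _ ha }
  have hΛ' : ∀ z, z ∈ Λ' ↔ θ z ∈ K := fun z => Iff.rfl
  have hcard : K.card ≠ 0 := Finset.card_ne_zero.2 ⟨0, h0⟩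
  have h1 : ∀ z ∈ L.lattice, z ∈ Λ' := by
    intro z hz
    rw [hΛ', (hker z).2 hz]
    exact h0
  have h2 : ∀ z ∈ Λ', (K.card : ℂ) * z ∈ L.lattice := by
    intro z hz
    rw [← hker, ← nsmul_eq_mul, map_nsmul]
    exact velushort_card_nsmul K h0 hadd hneg (θ z) hz
  obtain ⟨L', S, hL', hS⟩ := stmtVeluLat L Λ' K.card hcard h1 h2
  have hK : ∀ z, θ z ∈ K ↔ z ∈ L'.lattice := fun z => by rw [hL', hΛ']
  -- the trivial representative
  obtain ⟨s₀, hs₀, hs₀L⟩ : ∃ s₀ ∈ S, s₀ ∈ L.lattice := by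
    obtain ⟨s, hs, hsl⟩ := hS.exists_rep 0 (zero_mem _)
    refine ⟨s, hs, ?_⟩
    have h3 := neg_mem hsl
    simpa using h3
  obtain ⟨hg₂, hg₃⟩ := stmtVeluG L L' S hS s₀ hs₀ hs₀L
  have hnot : ∀ s ∈ S.erase s₀, s ∉ L.lattice := by
    intro s hs hsL
    exact (Finset.ne_of_mem_erase hs)
      (hS.unique_rep s (Finset.mem_of_mem_erase hs) s₀ hs₀ (sub_mem hsL hs₀L))
  -- `t` and `w` analytically
  have ht' : 2 * t = ∑ s ∈ S.erase s₀, (6 * ℘[L] s ^ 2 - L.g₂ / 2) := by
    rw [ht, velushort_sum hS hker hsurj hK, ← Finset.add_sum_erase S _ hs₀, (hker s₀).2 hs₀L,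
      veluTpt_zero, zero_add]
    exact Finset.sum_congr rfl fun s hs => velushort_T hval (hnot s hs)
  have hw' : 2 * w = ∑ s ∈ S.erase s₀, (10 * ℘[L] s ^ 3 - 3 / 2 * L.g₂ * ℘[L] s - L.g₃) := by
    rw [hw, velushort_sum hS hker hsurj hK, ← Finset.add_sum_erase S _ hs₀, (hker s₀).2 hs₀L,
      veluUpt_zero, zero_add]
    exact Finset.sum_congr rfl fun s hs => velushort_U hval (hnot s hs)
  have hg₂' : L'.g₂ = L.g₂ + 20 * t := by
    have h3 : ∑ s ∈ S.erase s₀, (60 * ℘[L] s ^ 2 - 5 * L.g₂) =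
        10 * ∑ s ∈ S.erase s₀, (6 * ℘[L] s ^ 2 - L.g₂ / 2) := by
      rw [Finset.mul_sum]
      exact Finset.sum_congr rfl fun s _ => by ring
    rw [hg₂, h3, ← ht']
    ring
  have hg₃' : L'.g₃ = L.g₃ + 28 * w := by
    have h3 : ∑ s ∈ S.erase s₀, (140 * ℘[L] s ^ 3 - 21 * L.g₂ * ℘[L] s - 14 * L.g₃) =
        14 * ∑ s ∈ S.erase s₀, (10 * ℘[L] s ^ 3 - 3 / 2 * L.g₂ * ℘[L] s - L.g₃) := by
      rw [Finset.mul_sum]
      exact Finset.sum_congr rfl fun s _ => by ring
    rw [hg₃, h3, ← hw']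
    ring
  have hcurve : veluCurve (modCurve L) t w = modCurve L' := by
    ext
    · rfl
    · rfl
    · rfl
    · show -L.g₂ / 4 - 5 * t = -L'.g₂ / 4
      rw [hg₂']
      ring
    · show -L.g₃ / 4 - (modCurve L).b₂ * t - 7 * w = -L'.g₃ / 4
      rw [hg₃']
      simp only [modCurve, WeierstrassCurve.b₂]
      ring
  rw [hcurve]
  obtain ⟨θ', hker', hsurj', hval'⟩ := stmtModAdd L' (stmtVeluDisc L')
  refine ⟨?_, ?_⟩
  · have hΔ : (modCurve L').Δ = L'.g₂ ^ 3 - 27 * L'.g₃ ^ 2 := by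
      simp only [modCurve, WeierstrassCurve.Δ, WeierstrassCurve.b₂, WeierstrassCurve.b₄,
        WeierstrassCurve.b₆, WeierstrassCurve.b₈]
      ring
    rw [hΔ]
    exact stmtVeluDisc L'
  · have hle : θ.ker ≤ θ'.ker := by
      intro z hz
      rw [AddMonoidHom.mem_ker] at hz ⊢
      rw [hker']
      exact hS.le ((hker z).1 hz)
    let φ : (modCurve L).toAffine.Point →+ (modCurve L').toAffine.Point :=
      AddMonoidHom.liftOfRightInverse θ (Function.surjInv hsurj)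
        (Function.rightInverse_surjInv hsurj) ⟨θ', hle⟩
    have hφ : ∀ z, φ (θ z) = θ' z := fun z =>
      AddMonoidHom.liftOfRightInverse_comp_apply θ (Function.surjInv hsurj)
        (Function.rightInverse_surjInv hsurj) ⟨θ', hle⟩ z
    refine ⟨φ, ?_, ?_⟩
    · intro P
      obtain ⟨z, rfl⟩ := hsurj P
      rw [hφ, hker', hK]
    · intro P hP
      obtain ⟨z, rfl⟩ := hsurj P
      have hz' : z ∉ L'.lattice := fun h => hP ((hK z).2 h)
      obtain ⟨h', hθ'⟩ := hval' z hz'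
      obtain ⟨hWp, hWp'⟩ := stmtVeluWp L L' S hS z
      obtain ⟨-, hWp0⟩ := stmtVeluWp L L' S hS 0
      have hX : ∑ Q ∈ K, (veluX (θ z + Q) - veluX Q) = ℘[L'] z := by
        rw [velushort_sum_neg hS hker hsurj hK hneg, hWp]
        refine Finset.sum_congr rfl fun s _ => ?_
        rw [← map_add, velushort_X hker hval, velushort_X hker hval, L.weierstrassP_neg,
          ← sub_eq_add_neg]
      have hY : ∑ Q ∈ K, (veluY (θ z + Q) - veluY Q) = ℘'[L'] z / 2 := by
        rw [velushort_sum_neg hS hker hsurj hK hneg]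
        have h3 : ∀ s ∈ S, veluY (θ z + θ (-s)) - veluY (θ (-s)) =
            ℘'[L] (z - s) / 2 - ℘'[L] (0 - s) / 2 := by
          intro s _
          rw [← map_add, velushort_Y hker hval, velushort_Y hker hval, zero_sub,
            ← sub_eq_add_neg]
        rw [Finset.sum_congr rfl h3, Finset.sum_sub_distrib, ← Finset.sum_div, ← Finset.sum_div,
          ← hWp', ← hWp0, L'.derivWeierstrassP_zero]
        ring
      have key : ∀ X Y : ℂ, X = ℘[L'] z → Y = ℘'[L'] z / 2 →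
          ∃ h, (Point.some (℘[L'] z) (℘'[L'] z / 2) h' : (modCurve L').toAffine.Point) =
            .some X Y h := by
        intro X Y hX hY
        subst hX
        subst hY
        exact ⟨h', rfl⟩
      rw [hφ, hθ']
      exact key _ _ hX hY

end Fermat.Agent.S12
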