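/-
Item 12 (S12 glue), piece `VELU` / V-MAP (helper13): Vélu's theorem over `ℂ`, from V-SHORT
(`stmtVeluShort`), V-VC (`StmtVeluVC`) and the uniformisation of S15 MOD-UNIF.
-/
import Fermat.Agent.S12.VeluShort
import Fermat.Agent.S15.ModUnif

set_option autoImplicit false

noncomputable section

namespace Fermat.Agent.S12

open PeriodPair WeierstrassCurve WeierstrassCurve.Affine Fermat.Agent.S15 Fermat.Agent.S24

/-- every complex Weierstrass curve with `c₄ c₆ Δ ≠ 0` is, after a change of variables, the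
curve of a lattice -/
theorem velumap_exists_lattice (W : WeierstrassCurve ℂ) (hΔ : W.Δ ≠ 0) (hc₄ : W.c₄ ≠ 0)
    (hc₆ : W.c₆ ≠ 0) :
    ∃ (L : PeriodPair) (C : VariableChange ℂ), C • W = modCurve L := by
  obtain ⟨τ₁, hτ₁⟩ := Jfun_surjective (W.c₄ ^ 3 / W.Δ)
  have hJW : Jfun τ₁ * W.Δ = W.c₄ ^ 3 := by rw [hτ₁, div_mul_cancel₀ _ hΔ]
  have hD := modunif_disc_ne_zero τ₁
  have hJ := modunif_Jfun_tau τ₁
  obtain ⟨-, -, v, hv, h4, h6⟩ :=
    modunif_exists_scale W hc₄ hc₆ (modLat τ₁).g₂ (modLat τ₁).g₃ (Jfun τ₁) hD hJ hJW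
  obtain ⟨C, hC, -⟩ := modunif_vc_short W two_ne_zero three_ne_zero v hv
    (modLat τ₁).g₂ (modLat τ₁).g₃ h4 h6
  exact ⟨modLat τ₁, C, hC⟩

/-- **V-MAP.** -/
theorem stmtVeluC_of (hVC : StmtVeluVC) : StmtVeluC := by
  rw [stmtVeluC_iff]
  intro W hΔ hc₄ hc₆
  obtain ⟨L, C, hC⟩ := velumap_exists_lattice W hΔ hc₄ hc₆
  apply hVC ℂ W C
  rw [hC]
  exact stmtVeluShort L

end Fermat.Agent.S12
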