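/-
Item 12 (S12 glue), piece `VELU` (sub-captain helper13): interface of V-MAP (Vélu over `ℂ`).

`StmtVeluC` is split into
* V-SHORT `StmtVeluShort` : Vélu for the curves `modCurve L` (analytic; helper13),
* V-VC `StmtVeluVC` : Vélu's construction commutes with changes of variables (algebraic, any field),
* MOD-UNIF : every `W / ℂ` with `c₄ c₆ Δ ≠ 0` is `C • W = modCurve (modLat τ)`.

Identities behind V-VC (`u = C.u`, `r = C.r`, `E = C • W`, `x_W = u² x_E + r`,
`y_W = u³ y_E + u² s x_E + t`):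
  `veluT W (u² x + r) = u⁴ veluT E x`,
  `veluU W (u² x + r) = u⁶ veluU E x + r u⁴ veluT E x`,
  `C • veluCurve W (u⁴ t) (u⁶ w + r u⁴ t) = veluCurve E t w`.
-/
import Fermat.Agent.S12.VeluPlan2
import Fermat.Agent.S15.ModDefs

set_option autoImplicit false

noncomputable section

namespace Fermat.Agent.S12

open WeierstrassCurve WeierstrassCurve.Affine Fermat.Agent.S15

/-- Vélu's theorem for the curve `W`: for every finite subgroup `K`, `veluCurve W t w` is
nonsingular and Vélu's formulas define a homomorphism to it with kernel `K`. -/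
def VeluFor {F : Type} [Field F] [DecidableEq F] (W : WeierstrassCurve F) : Prop :=
  ∀ K : Finset W.toAffine.Point, 0 ∈ K → (∀ P ∈ K, ∀ Q ∈ K, P + Q ∈ K) → (∀ P ∈ K, -P ∈ K) →
    ∀ t w : F, 2 * t = ∑ Q ∈ K, veluTpt Q → 2 * w = ∑ Q ∈ K, veluUpt Q →
      (veluCurve W t w).Δ ≠ 0 ∧
      ∃ φ : W.toAffine.Point →+ (veluCurve W t w).toAffine.Point,
        (∀ P, φ P = 0 ↔ P ∈ K) ∧
        ∀ P, P ∉ K → ∃ h, φ P =
          .some (∑ Q ∈ K, (veluX (P + Q) - veluX Q)) (∑ Q ∈ K, (veluY (P + Q) - veluY Q)) h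

/-- **V-VC.**  Vélu's theorem is invariant under changes of variables. -/
def StmtVeluVC : Prop :=
  ∀ (F : Type) [Field F] [DecidableEq F] (W : WeierstrassCurve F) (C : VariableChange F),
    VeluFor (C • W) → VeluFor W

/-- **V-SHORT.**  Vélu's theorem for the curve of a lattice. -/
def StmtVeluShort : Prop :=
  ∀ L : PeriodPair, VeluFor (modCurve L)

theorem stmtVeluC_iff : StmtVeluC ↔
    ∀ (W : WeierstrassCurve ℂ), W.Δ ≠ 0 → W.c₄ ≠ 0 → W.c₆ ≠ 0 → VeluFor W := Iff.rfl

end Fermat.Agent.S12
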