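/-
Item 12 (S12 glue), piece `VELU` / V-VC (helper52): Vélu's construction commutes with changes of
variables.  Pure algebra over any field.

`E = C • W`, `u = C.u`, `r = C.r`, `e = vcEquiv W C : E(F) ≃+ W(F)`,
`x_W = u² x_E + r`, `y_W = u³ y_E + u² s x_E + t`:

* `vvc_veluT`, `vvc_veluU` : `veluT W (u² x + r) = u⁴ veluT E x`,
  `veluU W (u² x + r) = u⁶ veluU E x + r u⁴ veluT E x`;
* `vvc_veluCurve` : `C • veluCurve W (u⁴ t) (u⁶ w + r u⁴ t) = veluCurve E t w`;
* `vvc_sumX`, `vvc_sumY` : Vélu's sums for `e P`, `e K` are `vcX`, `vcY` of those for `P`, `K`;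
* `stmtVeluVC : StmtVeluVC`.
-/
import Fermat.Agent.S12.VeluPlan3
import Fermat.Agent.EC.VarChange

set_option autoImplicit false
set_option linter.unusedSectionVars false

noncomputable section

namespace Fermat.Agent.S12

open WeierstrassCurve WeierstrassCurve.Affine Fermat.Agent.EC

section Identities

variable {F : Type*} [Field F] (W : WeierstrassCurve F) (C : VariableChange F)

theorem vvc_veluT (x : F) :
    veluT W (vcX C x) = (C.u : F) ^ 4 * veluT (C • W) x := by
  have hu := vc_u_ne_zero C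
  simp only [veluT, variableChange_b₂, variableChange_b₄, vc_inv_u, vcX]
  field_simp
  ring

theorem vvc_veluU (x : F) :
    veluU W (vcX C x) =
      (C.u : F) ^ 6 * veluU (C • W) x + C.r * ((C.u : F) ^ 4 * veluT (C • W) x) := by
  have hu := vc_u_ne_zero C
  simp only [veluU, veluT, variableChange_b₂, variableChange_b₄, variableChange_b₆, vc_inv_u, vcX]
  field_simp
  ring

theorem vvc_veluCurve (t w : F) :
    C • veluCurve W ((C.u : F) ^ 4 * t) ((C.u : F) ^ 6 * w + C.r * ((C.u : F) ^ 4 * t)) =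
      veluCurve (C • W) t w := by
  have hu := vc_u_ne_zero C
  ext
  · simp only [variableChange_a₁, veluCurve_a₁]
  · simp only [variableChange_a₂, veluCurve_a₂, veluCurve_a₁]
  · simp only [variableChange_a₃, veluCurve_a₃, veluCurve_a₁]
  · simp only [variableChange_a₄, veluCurve_a₄, veluCurve_a₃, veluCurve_a₂, veluCurve_a₁, vc_inv_u]
    field_simp
    ring
  · simp only [variableChange_a₆, veluCurve_a₆, veluCurve_a₄, veluCurve_a₃, veluCurve_a₂,
      veluCurve_a₁, vc_inv_u, WeierstrassCurve.b₂, variableChange_a₁, variableChange_a₂]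
    field_simp
    ring

end Identities

section Points

variable {F : Type} [Field F] [DecidableEq F] (W : WeierstrassCurve F) (C : VariableChange F)

theorem vvc_veluTpt (Q : (C • W).toAffine.Point) :
    veluTpt (vcEquiv W C Q) = (C.u : F) ^ 4 * veluTpt Q := by
  rcases Q with _ | ⟨x, y, h⟩
  · show veluTpt (0 : W.toAffine.Point) = (C.u : F) ^ 4 * veluTpt (0 : (C • W).toAffine.Point)
    rw [veluTpt_zero, veluTpt_zero, mul_zero]
  · rw [vcEquiv_apply, vcFun_some, veluTpt_some, veluTpt_some]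
    exact vvc_veluT W C x

theorem vvc_veluUpt (Q : (C • W).toAffine.Point) :
    veluUpt (vcEquiv W C Q) =
      (C.u : F) ^ 6 * veluUpt Q + C.r * ((C.u : F) ^ 4 * veluTpt Q) := by
  rcases Q with _ | ⟨x, y, h⟩
  · show veluUpt (0 : W.toAffine.Point) = (C.u : F) ^ 6 * veluUpt (0 : (C • W).toAffine.Point) +
      C.r * ((C.u : F) ^ 4 * veluTpt (0 : (C • W).toAffine.Point))
    rw [veluUpt_zero, veluUpt_zero, veluTpt_zero]
    ring
  · rw [vcEquiv_apply, vcFun_some, veluUpt_some, veluUpt_some, veluTpt_some]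
    exact vvc_veluU W C x

/-- the `x`-coordinate of `e R` -/
theorem vvc_veluX (R : (C • W).toAffine.Point) :
    veluX (vcEquiv W C R) = if R = 0 then 0 else vcX C (veluX R) := by
  rcases R with _ | ⟨x, y, h⟩
  · show veluX (0 : W.toAffine.Point) = if (0 : (C • W).toAffine.Point) = 0 then 0 else _
    rw [if_pos rfl, veluX_zero]
  · rw [if_neg (Point.some_ne_zero _), vcEquiv_apply, vcFun_some, veluX_some, veluX_some]

/-- the `y`-coordinate of `e R` -/
theorem vvc_veluY (R : (C • W).toAffine.Point) :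
    veluY (vcEquiv W C R) = if R = 0 then 0 else vcY C (veluX R) (veluY R) := by
  rcases R with _ | ⟨x, y, h⟩
  · show veluY (0 : W.toAffine.Point) = if (0 : (C • W).toAffine.Point) = 0 then 0 else _
    rw [if_pos rfl, veluY_zero]
  · rw [if_neg (Point.some_ne_zero _), vcEquiv_apply, vcFun_some, veluY_some, veluY_some,
      veluX_some]

variable (K : Finset (C • W).toAffine.Point)

/-- the subgroup `e K` of `W` -/
def vvcK : Finset W.toAffine.Point := K.map (vcEquiv W C).toEquiv.toEmbedding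

theorem vvc_mem (P : (C • W).toAffine.Point) : vcEquiv W C P ∈ vvcK W C K ↔ P ∈ K := by
  rw [vvcK, Finset.mem_map]
  constructor
  · rintro ⟨Q, hQ, hQP⟩
    have : Q = P := (vcEquiv W C).injective hQP
    exact this ▸ hQ
  · intro h
    exact ⟨P, h, rfl⟩

theorem vvc_sum (f : W.toAffine.Point → F) :
    ∑ Q ∈ vvcK W C K, f Q = ∑ Q ∈ K, f (vcEquiv W C Q) := by
  rw [vvcK, Finset.sum_map]
  rfl

theorem vvc_sum_ite (h0 : (0 : (C • W).toAffine.Point) ∈ K) (c : F) :
    ∑ Q ∈ K, (if Q = 0 then c else 0) = c := by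
  rw [Finset.sum_ite_eq' K 0 (fun _ => c), if_pos h0]

theorem vvc_sumX (h0 : (0 : (C • W).toAffine.Point) ∈ K) (hneg : ∀ P ∈ K, -P ∈ K)
    (P : (C • W).toAffine.Point) (hP : P ∉ K) :
    ∑ Q ∈ vvcK W C K, (veluX (vcEquiv W C P + Q) - veluX Q) =
      vcX C (∑ Q ∈ K, (veluX (P + Q) - veluX Q)) := by
  rw [vvc_sum]
  have hterm : ∀ Q ∈ K, veluX (vcEquiv W C P + vcEquiv W C Q) - veluX (vcEquiv W C Q) =
      (C.u : F) ^ 2 * (veluX (P + Q) - veluX Q) + (if Q = 0 then C.r else 0) := by
    intro Q hQ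
    have hPQ : P + Q ≠ 0 := by
      intro h
      apply hP
      have : P = -Q := eq_neg_of_add_eq_zero_left h
      rw [this]
      exact hneg Q hQ
    rw [← map_add, vvc_veluX, vvc_veluX, if_neg hPQ]
    by_cases hQ0 : Q = 0
    · rw [if_pos hQ0, if_pos hQ0, hQ0, veluX_zero]
      simp only [vcX]
      ring
    · rw [if_neg hQ0, if_neg hQ0]
      simp only [vcX]
      ring
  rw [Finset.sum_congr rfl hterm, Finset.sum_add_distrib, ← Finset.mul_sum, vvc_sum_ite W C K h0]
  rfl

theorem vvc_sumY (h0 : (0 : (C • W).toAffine.Point) ∈ K) (hneg : ∀ P ∈ K, -P ∈ K)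
    (P : (C • W).toAffine.Point) (hP : P ∉ K) :
    ∑ Q ∈ vvcK W C K, (veluY (vcEquiv W C P + Q) - veluY Q) =
      vcY C (∑ Q ∈ K, (veluX (P + Q) - veluX Q)) (∑ Q ∈ K, (veluY (P + Q) - veluY Q)) := by
  rw [vvc_sum]
  have hterm : ∀ Q ∈ K, veluY (vcEquiv W C P + vcEquiv W C Q) - veluY (vcEquiv W C Q) =
      (C.u : F) ^ 3 * (veluY (P + Q) - veluY Q) +
        (C.u : F) ^ 2 * C.s * (veluX (P + Q) - veluX Q) + (if Q = 0 then C.t else 0) := by
    intro Q hQ
    have hPQ : P + Q ≠ 0 := by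
      intro h
      apply hP
      have : P = -Q := eq_neg_of_add_eq_zero_left h
      rw [this]
      exact hneg Q hQ
    rw [← map_add, vvc_veluY, vvc_veluY, if_neg hPQ]
    by_cases hQ0 : Q = 0
    · rw [if_pos hQ0, if_pos hQ0, hQ0, veluX_zero, veluY_zero]
      simp only [vcY]
      ring
    · rw [if_neg hQ0, if_neg hQ0]
      simp only [vcY]
      ring
  rw [Finset.sum_congr rfl hterm, Finset.sum_add_distrib, Finset.sum_add_distrib,
    ← Finset.mul_sum, ← Finset.mul_sum, vvc_sum_ite W C K h0]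
  rfl

end Points

section Main

variable {F : Type} [Field F] [DecidableEq F]

theorem vvc_exists_some {W : WeierstrassCurve F} {x y x' y' : F}
    (h : W.toAffine.Nonsingular x y) (hx : x = x') (hy : y = y') :
    ∃ h', (Point.some x y h : W.toAffine.Point) = .some x' y' h' := by
  subst hx
  subst hy
  exact ⟨h, rfl⟩

/-- **V-VC.**  Vélu's theorem is invariant under changes of variables. -/
theorem stmtVeluVC : StmtVeluVC := by
  intro F _ _ W C hE K h0 hadd hneg t w ht hw
  have hu : (C.u : F) ≠ 0 := vc_u_ne_zero C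
  -- the subgroup of `E = C • W`
  set e := vcEquiv W C with he
  set K' : Finset (C • W).toAffine.Point := K.map e.symm.toEquiv.toEmbedding with hK'
  have hmemK' : ∀ Q, Q ∈ K' ↔ e Q ∈ K := by
    intro Q
    rw [hK', Finset.mem_map]
    constructor
    · rintro ⟨R, hR, hRQ⟩
      have : e Q = R := by
        rw [← hRQ]
        exact e.apply_symm_apply R
      rw [this]
      exact hR
    · intro h
      exact ⟨e Q, h, e.symm_apply_apply Q⟩
  have hKK' : vvcK W C K' = K := by
    ext Q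
    rw [← e.apply_symm_apply Q, vvc_mem, hmemK']
  have h0' : (0 : (C • W).toAffine.Point) ∈ K' := by
    rw [hmemK', map_zero]
    exact h0
  have hadd' : ∀ P ∈ K', ∀ Q ∈ K', P + Q ∈ K' := by
    intro P hP Q hQ
    rw [hmemK'] at hP hQ ⊢
    rw [map_add]
    exact hadd _ hP _ hQ
  have hneg' : ∀ P ∈ K', -P ∈ K' := by
    intro P hP
    rw [hmemK'] at hP ⊢
    rw [map_neg]
    exact hneg _ hP
  -- the parameters
  set t' : F := t / (C.u : F) ^ 4 with ht'
  set w' : F := (w - C.r * t) / (C.u : F) ^ 6 with hw'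
  have htt : (C.u : F) ^ 4 * t' = t := by
    rw [ht']
    field_simp
  have hww : (C.u : F) ^ 6 * w' + C.r * ((C.u : F) ^ 4 * t') = w := by
    rw [htt, hw']
    field_simp
    ring
  have hsT : ∑ Q ∈ K, veluTpt Q = (C.u : F) ^ 4 * ∑ Q ∈ K', veluTpt Q := by
    rw [← hKK', vvc_sum, Finset.mul_sum]
    exact Finset.sum_congr rfl fun Q _ => vvc_veluTpt W C Q
  have hsU : ∑ Q ∈ K, veluUpt Q =
      (C.u : F) ^ 6 * ∑ Q ∈ K', veluUpt Q + C.r * ((C.u : F) ^ 4 * ∑ Q ∈ K', veluTpt Q) := by
    rw [← hKK', vvc_sum, Finset.mul_sum, Finset.mul_sum, Finset.mul_sum, ← Finset.sum_add_distrib]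
    refine Finset.sum_congr rfl fun Q _ => ?_
    rw [vvc_veluUpt]
  have ht2 : 2 * t' = ∑ Q ∈ K', veluTpt Q := by
    have h1 : (C.u : F) ^ 4 * (2 * t') = (C.u : F) ^ 4 * ∑ Q ∈ K', veluTpt Q := by
      rw [← hsT, ← ht, ← htt]
      ring
    exact mul_left_cancel₀ (pow_ne_zero 4 hu) h1
  have hw2 : 2 * w' = ∑ Q ∈ K', veluUpt Q := by
    have h1 : (C.u : F) ^ 6 * (2 * w') = (C.u : F) ^ 6 * ∑ Q ∈ K', veluUpt Q := by
      have h2 : 2 * w = (C.u : F) ^ 6 * ∑ Q ∈ K', veluUpt Q +
          C.r * ((C.u : F) ^ 4 * ∑ Q ∈ K', veluTpt Q) := by rw [hw, hsU]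
      rw [← ht2, ← hww] at h2
      linear_combination h2
    exact mul_left_cancel₀ (pow_ne_zero 6 hu) h1
  obtain ⟨hΔ', φ', hker', hform'⟩ := hE K' h0' hadd' hneg' t' w' ht2 hw2
  -- the curves
  have hcurve : C • veluCurve W t w = veluCurve (C • W) t' w' := by
    have h := vvc_veluCurve W C t' w'
    rw [hww, htt] at h
    exact h
  refine ⟨?_, ?_⟩
  · intro hΔ
    apply hΔ'
    rw [← hcurve, variableChange_Δ, hΔ, mul_zero]
  · set V := veluCurve W t w with hV
    let φ : W.toAffine.Point →+ V.toAffine.Point :=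
      (vcEquiv V C).toAddMonoidHom.comp
        ((vcCast hcurve.symm).toAddMonoidHom.comp (φ'.comp e.symm.toAddMonoidHom))
    have hφ : ∀ P, φ P = vcEquiv V C (vcCast hcurve.symm (φ' (e.symm P))) := fun _ => rfl
    refine ⟨φ, ?_, ?_⟩
    · intro P
      rw [hφ, map_eq_zero_iff _ (vcEquiv V C).injective,
        map_eq_zero_iff _ (vcCast hcurve.symm).injective, hker', hmemK', e.apply_symm_apply]
    · intro P hP
      have hP' : e.symm P ∉ K' := by
        rw [hmemK', e.apply_symm_apply]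
        exact hP
      obtain ⟨h', hφ'⟩ := hform' (e.symm P) hP'
      rw [hφ, hφ', vcCast_some, vcEquiv_apply, vcFun_some]
      refine vvc_exists_some _ ?_ ?_
      · have h1 := vvc_sumX W C K' h0' hneg' (e.symm P) hP'
        rw [hKK', ← he, e.apply_symm_apply] at h1
        exact h1.symm
      · have h1 := vvc_sumY W C K' h0' hneg' (e.symm P) hP'
        rw [hKK', ← he, e.apply_symm_apply] at h1
        exact h1.symm

end Main

end Fermat.Agent.S12
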