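/-
Item 12 (S12 glue), piece `VELU` (helper13): the wiring.
`stmtVelu_of_rat : StmtVeluRat → StmtVelu`; all the other pieces are proved:
V-LATa/b/c, V-DISC, V-SHORT, V-VC, V-MAP, V-QB, V-GAL, V-C4, V-ASM.
-/
import Fermat.Agent.S12.VeluMain
import Fermat.Agent.S12.VeluQb
import Fermat.Agent.S12.VeluGal
import Fermat.Agent.S12.VeluVC
import Fermat.Agent.S12.VeluMap
import Fermat.Agent.S12.VeluC4

set_option autoImplicit false

namespace Fermat.Agent.S12

/-- **V-MAP**, unconditional. -/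
theorem stmtVeluC : StmtVeluC := stmtVeluC_of stmtVeluVC

/-- **V-QB**, unconditional. -/
theorem stmtVeluQb : StmtVeluQb := stmtVeluQb_of stmtVeluC

/-- **VELU** from V-RAT and V-C4. -/
theorem stmtVelu_of_rat_c4 (hRat : StmtVeluRat) (hC4 : StmtVeluC4) : StmtVelu :=
  stmtVelu_of stmtVeluQb stmtVeluGal hRat hC4

/-- **VELU** from V-RAT. -/
theorem stmtVelu_of_rat (hRat : StmtVeluRat) : StmtVelu :=
  stmtVelu_of_rat_c4 hRat stmtVeluC4

end Fermat.Agent.S12
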