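/-
Item 12 (S12 glue), piece `VELU / V-NODE` (helper60): `StmtVeluNode` of `VeluPlan.lean` is FALSE
as stated (kernel-checked).  Counterexample: `k = ℚ`, `W : y² = x³ + x²`, `β = -4`
(`β² = 16 = c₄`, but the clause `6x² + b₂x + b₄ = 6(x - x₀)² + β(x - x₀)` forces `β = b₂ + 12x₀ = 4`).
Use `StmtVeluNodeFix` / `stmtVeluNodeFix` of `S12/VeluNode.lean` instead.
-/
import Fermat.Agent.S12.VeluPlan

set_option autoImplicit false

namespace Fermat.Agent.S12

theorem not_stmtVeluNode : ¬ StmtVeluNode := by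
  intro H
  classical
  obtain ⟨x₀, ψ, h0, -, h3, -⟩ := H ℚ (⟨0, 1, 0, 0, 0⟩ : WeierstrassCurve ℚ) two_ne_zero
    (by simp [WeierstrassCurve.Δ, WeierstrassCurve.b₂, WeierstrassCurve.b₄, WeierstrassCurve.b₆,
      WeierstrassCurve.b₈])
    (by simp [WeierstrassCurve.c₄, WeierstrassCurve.b₂, WeierstrassCurve.b₄])
    (-4)
    (by simp [WeierstrassCurve.c₄, WeierstrassCurve.b₂, WeierstrassCurve.b₄])
  have e1 := h3 1
  simp only [WeierstrassCurve.c₄, WeierstrassCurve.b₂, WeierstrassCurve.b₄,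
    WeierstrassCurve.b₆] at h0 e1
  norm_num at h0 e1
  -- h0 : x₀ = 0 ; e1 : 10 = 6 (1 - x₀)² - 4 (1 - x₀)
  rw [h0] at e1
  norm_num at e1
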